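/-
Row 38, block D (INT), seat ETA-GC (helper72): the abstract COORDINATE theorem.
Blueprint: NOTES/blueprint-row38.md, par. 1; helper62's note (ETA) "GC".

Abstract over a nodal seed `N` with the `u`-datum `AnnulusData N u ϖ` (K-p).  Assume
`v(ϖ) = v(p0) ^ e`, `∑_i ε_i = e · #nodes` (`ε_i = ord_{s₁ i} red₁ u`), and let `z ∈ O₁` have no
pole of type N, `red₁ z` with a SIMPLE zero at every node, `z / p0 ∈ O₂` (`CoordData`).  Then

* `CoordData.eps_eq`      : `ε_i = e` for every node `i`;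
* `CoordData.red₂_ne`     : `z / p0` is a unit of `O₂`;
* `CoordData.ord_z_N`     : `z` has no zero of type N;
* `CoordData.val_value`   : for `P` of type N, `c = z(P)`: `v(p0) < v(c) < 1`;
* `CoordData.ord_sub_le_one`, `CoordData.inj` : `z - c` has exactly one zero of type N at each
  node, and it is simple; in particular `z` is injective on the places of type N of one node;
* `CoordData.ord_sub_value` : for `P`, `Q` of type N with the same node:
  `ord_Q (z - z(P)) = if Q = P then 1 else 0`;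
* `coordEta`, `CoordData.ord_coordEta`, `CoordData.smul_coordEta` : **(ETA)**
  `η_i = ∏_{P at node i} (z - z(P)) ^ D(P)` has the divisor `D` at the places of type N with
  node `i`, and is fixed by every inertial `t` with `t • z = z`, `t • D = D`.

Only the node condition (`node`, `node_loc`), EVAL and the (twisted) global COUNT are used.
-/
import Mathlib
import Fermat.Agent.Lib.BadRed.PeuD.NodeLoc
import Fermat.Agent.E.Desc.Kp.Ann

set_option autoImplicit false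
set_option linter.unusedSectionVars false
set_option linter.unusedVariables false

noncomputable section

open AlgebraicCurve Fermat.Agent.RR Fermat.Agent.Deuring Fermat.Agent.BadRed Fermat.Agent.EKp
  Fermat.Agent.FF

namespace Fermat.Agent.PeuD

variable {K F k Fk₁ Fk₂ : Type*} [Field K] [Field F] [Algebra K F]
  [Field k] [Field Fk₁] [Algebra k Fk₁] [Field Fk₂] [Algebra k Fk₂] {ι : Type*} [Fintype ι]

/-! ### the twisted global count -/

/-- division by a nonzero constant does not change the orders. -/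
theorem ord_div_const (P : Place K F) (f : F) {c : K} (hc : c ≠ 0) :
    P.ord (f / algebraMap K F c) = P.ord f := by
  rcases eq_or_ne f 0 with rfl | hf
  · rw [zero_div]
  have hca : algebraMap K F c ≠ 0 := (map_ne_zero (algebraMap K F)).mpr hc
  rw [div_eq_mul_inv, P.ord_mul hf (inv_ne_zero hca), P.ord_inv,
    Fermat.Agent.S24Res.ord_algebraMap, neg_zero, add_zero]

/-- division by a nonzero constant does not change the divisor. -/
theorem divOf_div_const (h : IsRRField K F) (f : F) {c : K} (hc : c ≠ 0) :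
    divOf h (f / algebraMap K F c) = divOf h f := by
  ext P
  rw [divOf_apply, divOf_apply, ord_div_const P f hc]

/-- **COUNT (global, twisted)**: `η / c₁` a unit of `O₁`, `η / c₂` a unit of `O₂`. -/
theorem count_twisted (N : NodalSetup K F k Fk₁ Fk₂ ι) {η : F} {c₁ c₂ : K}
    (hc₁ : c₁ ≠ 0) (hc₂ : c₂ ≠ 0)
    (h₁ : N.S₁.red (η / algebraMap K F c₁) ≠ 0) (h₂ : N.S₂.red (η / algebraMap K F c₂) ≠ 0) :
    Finsupp.mapDomain N.r (divOf N.S₁.hF η) none =
      ∑ i, ((N.s₁ i).ord (N.S₁.red (η / algebraMap K F c₁)) +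
        (N.s₂ i).ord (N.S₂.red (η / algebraMap K F c₂))) := by
  have hdeg := Gluing.degree_eq_redDiv N (divOf N.S₁.hF η)
  rw [degree_divOf] at hdeg
  have e1 := degree_eq_neg_sum_nodes N.S₁.hFk N.s₁ N.s₁_inj
    (Gluing.redDiv₁ N (divOf N.S₁.hF η)) (N.S₁.red (η / algebraMap K F c₁))
    (fun i => Gluing.redDiv₁_node N _ i)
    (fun Q hQ => by
      rw [Gluing.redDiv₁_apply, ← divOf_div_const N.S₁.hF η hc₁]
      exact N.push₁ _ (N.S₁.mem_of_red_ne_zero h₁) (N.S₁.inv_mem_of_red_ne_zero h₁)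
        (N.S₁.ne_zero_of_red_ne_zero h₁) Q hQ)
  have e2 := degree_eq_neg_sum_nodes N.S₂.hFk N.s₂ N.s₂_inj
    (Gluing.redDiv₂ N (divOf N.S₁.hF η)) (N.S₂.red (η / algebraMap K F c₂))
    (fun i => Gluing.redDiv₂_node N _ i)
    (fun Q hQ => by
      rw [Gluing.redDiv₂_apply, ← divOf_div_const N.S₁.hF η hc₂]
      exact N.push₂ _ (N.S₂.mem_of_red_ne_zero h₂) (N.S₂.inv_mem_of_red_ne_zero h₂)
        (N.S₂.ne_zero_of_red_ne_zero h₂) Q hQ)
  rw [e1, e2] at hdeg
  rw [Finset.sum_add_distrib]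
  linarith

/-! ### generalities on the valuation of the constants -/

section Val

variable (A : ValuationSubring K)

theorem cd_val_pow_inj {x y : K} {e : ℕ} (he : 0 < e)
    (h : A.valuation x ^ e = A.valuation y ^ e) : A.valuation x = A.valuation y := by
  rcases lt_trichotomy (A.valuation x) (A.valuation y) with h1 | h1 | h1
  · exact absurd h (ne_of_lt (pow_lt_pow_left₀ h1 zero_le he.ne'))
  · exact h1
  · exact absurd h.symm (ne_of_lt (pow_lt_pow_left₀ h1 zero_le he.ne'))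

theorem cd_val_lt_of_pow_lt {x y : K} {e : ℕ} (h : A.valuation x ^ e < A.valuation y ^ e) :
    A.valuation x < A.valuation y := by
  by_contra hcon
  rw [not_lt] at hcon
  exact absurd h (not_lt.mpr (pow_le_pow_left₀ zero_le hcon e))

/-- a unit of `A` has the valuation `1`. -/
theorem cd_val_eq_one {c : K} (hc : c ∈ A) (hc' : c⁻¹ ∈ A) (hc0 : c ≠ 0) :
    A.valuation c = 1 := by
  have h1 : A.valuation c ≤ 1 := (A.valuation_le_one_iff c).mpr hc
  have h2 : A.valuation c⁻¹ ≤ 1 := (A.valuation_le_one_iff c⁻¹).mpr hc'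
  rw [map_inv₀] at h2
  have h3 : A.valuation c ≠ 0 := (Valuation.ne_zero_iff _).mpr hc0
  exact le_antisymm h1 ((inv_le_one₀ (zero_lt_iff.mpr h3)).mp h2)

end Val

/-! ### the data -/

/-- **the data of a coordinate**: `v(ϖ) = v(p0) ^ e`, `∑ ε_i = e · #nodes`, `z ∈ O₁` without
pole of type N, `red₁ z` has a simple zero at every node, `z / p0 ∈ O₂`. -/
structure CoordData (N : NodalSeed K F k Fk₁ Fk₂ ι) (u : F) (ϖ p0 : K) (e : ℕ) (z : F) :
    Prop where
  ann : AnnulusData N u ϖ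
  e_pos : 0 < e
  val_varpi : N.S₁.A.valuation ϖ = N.S₁.A.valuation p0 ^ e
  sum_eps : ∑ i, (N.s₁ i).ord (N.S₁.red u) = (e : ℤ) * Fintype.card ι
  z_mem₁ : z ∈ N.S₁.Ov
  z_mem₂ : z / algebraMap K F p0 ∈ N.S₂.Ov
  z_pole : ∀ P, N.rmap P = none → 0 ≤ P.ord z
  z_node : ∀ i, (N.s₁ i).ord (N.S₁.red z) = 1

namespace CoordData

variable {N : NodalSeed K F k Fk₁ Fk₂ ι} {u : F} {ϖ p0 : K} {e : ℕ} {z : F}

theorem p0_ne (h : CoordData N u ϖ p0 e z) : p0 ≠ 0 := by
  rintro rfl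
  have h1 := h.val_varpi
  rw [map_zero, zero_pow h.e_pos.ne'] at h1
  exact h.ann.varpi_ne ((Valuation.zero_iff _).mp h1)

theorem p0_mem (h : CoordData N u ϖ p0 e z) : p0 ∈ N.S₁.A := by
  rw [← N.S₁.A.valuation_le_one_iff]
  by_contra hcon
  rw [not_le] at hcon
  have h1 : (1 : _) < N.S₁.A.valuation p0 ^ e := one_lt_pow₀ hcon h.e_pos.ne'
  rw [← h.val_varpi] at h1
  exact absurd ((N.S₁.A.valuation_le_one_iff ϖ).mpr h.ann.varpi_mem) (not_le.mpr h1)

theorem u_ne (h : CoordData N u ϖ p0 e z) : u ≠ 0 :=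
  N.S₁.ne_zero_of_red_ne_zero h.ann.red₁_ne

variable [Nonempty ι]

theorem red₁_ne (h : CoordData N u ϖ p0 e z) : N.S₁.red z ≠ 0 := by
  obtain ⟨i⟩ := ‹Nonempty ι›
  intro h0
  have h1 := h.z_node i
  rw [h0, Place.ord_zero] at h1
  exact zero_ne_one h1

theorem z_ne (h : CoordData N u ϖ p0 e z) : z ≠ 0 :=
  N.S₁.ne_zero_of_red_ne_zero h.red₁_ne

/-- the constant `p0 ^ e / ϖ` is a unit of `A`. -/
theorem unit_mem (h : CoordData N u ϖ p0 e z) :
    p0 ^ e * ϖ⁻¹ ∈ N.S₁.A ∧ (p0 ^ e * ϖ⁻¹)⁻¹ ∈ N.S₁.A := by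
  have hϖ : N.S₁.A.valuation ϖ ≠ 0 := (Valuation.ne_zero_iff _).mpr h.ann.varpi_ne
  constructor
  · rw [← N.S₁.A.valuation_le_one_iff, map_mul, map_pow, map_inv₀, ← h.val_varpi,
      mul_inv_cancel₀ hϖ]
  · rw [← N.S₁.A.valuation_le_one_iff, map_inv₀, map_mul, map_pow, map_inv₀, ← h.val_varpi,
      mul_inv_cancel₀ hϖ, inv_one]

/-! ### the yardstick `H = z ^ e / u` -/

theorem H_mem₁ (h : CoordData N u ϖ p0 e z) : z ^ e * u⁻¹ ∈ N.S₁.Ov :=
  mul_mem (pow_mem h.z_mem₁ e) (N.S₁.inv_mem_of_red_ne_zero h.ann.red₁_ne)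

theorem H_eq (h : CoordData N u ϖ p0 e z) :
    z ^ e * u⁻¹ = (z / algebraMap K F p0) ^ e * algebraMap K F (p0 ^ e * ϖ⁻¹) *
      (algebraMap K F ϖ / u) := by
  have h1 : algebraMap K F p0 ≠ 0 := (map_ne_zero (algebraMap K F)).mpr h.p0_ne
  have h2 : algebraMap K F ϖ ≠ 0 := (map_ne_zero (algebraMap K F)).mpr h.ann.varpi_ne
  have h3 := h.u_ne
  rw [map_mul, map_pow, map_inv₀, div_pow]
  field_simp

theorem H_mem₂ (h : CoordData N u ϖ p0 e z) : z ^ e * u⁻¹ ∈ N.S₂.Ov := by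
  rw [h.H_eq]
  exact mul_mem (mul_mem (pow_mem h.z_mem₂ e)
    (N.S₂.algebraMap_mem (N.toNodalCore.mem_A₂ h.unit_mem.1)))
    (N.S₂.mem_of_red_ne_zero h.ann.red₂_ne)

theorem H_ord (h : CoordData N u ϖ p0 e z) {P : Place K F} (hP : N.rmap P = none) :
    P.ord (z ^ e * u⁻¹) = e * P.ord z := by
  rw [P.ord_mul (pow_ne_zero e h.z_ne) (inv_ne_zero h.u_ne), Gluing.ord_pow_nat, P.ord_inv,
    h.ann.ord_N P hP, neg_zero, add_zero]

theorem H_pole (h : CoordData N u ϖ p0 e z) :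
    ∀ P, N.rmap P = none → 0 ≤ P.ord (z ^ e * u⁻¹) := by
  intro P hP
  rw [h.H_ord hP]
  exact mul_nonneg (Int.natCast_nonneg e) (h.z_pole P hP)

theorem H_red₁ (h : CoordData N u ϖ p0 e z) :
    N.S₁.red (z ^ e * u⁻¹) = N.S₁.red z ^ e * (N.S₁.red u)⁻¹ := by
  rw [N.S₁.red_mul (pow_mem h.z_mem₁ e) (N.S₁.inv_mem_of_red_ne_zero h.ann.red₁_ne),
    N.S₁.red_pow h.z_mem₁,
    N.S₁.red_inv (N.S₁.mem_of_red_ne_zero h.ann.red₁_ne)
      (N.S₁.inv_mem_of_red_ne_zero h.ann.red₁_ne) h.u_ne]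

theorem H_red₁_ne (h : CoordData N u ϖ p0 e z) : N.S₁.red (z ^ e * u⁻¹) ≠ 0 := by
  rw [h.H_red₁]
  exact mul_ne_zero (pow_ne_zero e h.red₁_ne) (inv_ne_zero h.ann.red₁_ne)

theorem H_ord₁ (h : CoordData N u ϖ p0 e z) (i : ι) :
    (N.s₁ i).ord (N.S₁.red (z ^ e * u⁻¹)) = e - (N.s₁ i).ord (N.S₁.red u) := by
  rw [h.H_red₁, (N.s₁ i).ord_mul (pow_ne_zero e h.red₁_ne) (inv_ne_zero h.ann.red₁_ne),
    Gluing.ord_pow_nat, h.z_node i, (N.s₁ i).ord_inv]
  ring

variable [Infinite k]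

/-- `ε_i ≤ e` (the node condition for the yardstick). -/
theorem eps_le (h : CoordData N u ϖ p0 e z) (i : ι) :
    (N.s₁ i).ord (N.S₁.red u) ≤ e := by
  have h1 := (N.nodalSetup.node _ h.H_mem₁ h.H_mem₂ h.H_pole i).1
  have h2 : 0 ≤ (N.s₁ i).ord (N.S₁.red (z ^ e * u⁻¹)) := h1
  rw [h.H_ord₁ i] at h2
  omega

/-- **(1)** `ε_i = e` for every node. -/
theorem eps_eq (h : CoordData N u ϖ p0 e z) (i : ι) :
    (N.s₁ i).ord (N.S₁.red u) = e := by
  classical
  have hsum : ∑ j, ((e : ℤ) - (N.s₁ j).ord (N.S₁.red u)) = 0 := by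
    rw [Finset.sum_sub_distrib, h.sum_eps, Finset.sum_const, Finset.card_univ, nsmul_eq_mul]
    ring
  have h0 := (Finset.sum_eq_zero_iff_of_nonneg
    (fun j _ => sub_nonneg.mpr (h.eps_le j))).mp hsum i (Finset.mem_univ i)
  omega

theorem H_ord₁_eq (h : CoordData N u ϖ p0 e z) (i : ι) :
    (N.s₁ i).ord (N.S₁.red (z ^ e * u⁻¹)) = 0 := by
  rw [h.H_ord₁ i, h.eps_eq i, sub_self]

/-- the yardstick takes a nonzero value at every node. -/
theorem H_node (h : CoordData N u ϖ p0 e z) (i : ι) :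
    ∃ d : k, d ≠ 0 ∧ NodeValAt N i (z ^ e * u⁻¹) d := by
  obtain ⟨-, -, d, hd₁, hd₂⟩ := N.nodalSetup.node _ h.H_mem₁ h.H_mem₂ h.H_pole i
  have hd : NodeValAt N i (z ^ e * u⁻¹) d := ⟨hd₁, hd₂⟩
  refine ⟨d, ?_, hd⟩
  rintro rfl
  rcases (valAt_zero_right_iff _ _).mp hd.1 with h0 | h0
  · exact h.H_red₁_ne h0
  · rw [h.H_ord₁_eq i] at h0
    exact lt_irrefl _ h0

theorem H_red₂_ne (h : CoordData N u ϖ p0 e z) : N.S₂.red (z ^ e * u⁻¹) ≠ 0 := by
  obtain ⟨i⟩ := ‹Nonempty ι›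
  obtain ⟨d, hd0, hd⟩ := h.H_node i
  exact ev_ne_zero_of_valAt hd.2 hd0

/-- **(1)** `z / p0` is a unit of `O₂`. -/
theorem red₂_ne (h : CoordData N u ϖ p0 e z) : N.S₂.red (z / algebraMap K F p0) ≠ 0 := by
  intro h0
  apply h.H_red₂_ne
  rw [h.H_eq, N.S₂.red_mul (mul_mem (pow_mem h.z_mem₂ e)
    (N.S₂.algebraMap_mem (N.toNodalCore.mem_A₂ h.unit_mem.1)))
    (N.S₂.mem_of_red_ne_zero h.ann.red₂_ne),
    N.S₂.red_mul (pow_mem h.z_mem₂ e) (N.S₂.algebraMap_mem (N.toNodalCore.mem_A₂ h.unit_mem.1)),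
    N.S₂.red_pow h.z_mem₂, h0, zero_pow h.e_pos.ne', zero_mul, zero_mul]

/-- **(1)** `z` has no zero of type N. -/
theorem ord_z_N (h : CoordData N u ϖ p0 e z) {P : Place K F} (hP : N.rmap P = none) :
    P.ord z = 0 := by
  by_contra hne
  have hpos : 0 < P.ord z := lt_of_le_of_ne (h.z_pole P hP) (Ne.symm hne)
  obtain ⟨i, hi⟩ := exists_isNodeOf hP
  have hH : 0 < P.ord (z ^ e * u⁻¹) := by
    rw [h.H_ord hP]
    exact mul_pos (by exact_mod_cast h.e_pos) hpos
  have hv : ValAt P (z ^ e * u⁻¹) 0 := (valAt_zero_right_iff _ _).mpr (Or.inr hH)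
  obtain ⟨h0A, hval⟩ := eval h.H_mem₁ h.H_mem₂ h.H_pole hi hv
  have h0 : N.S₁.res ⟨0, h0A⟩ = 0 := map_zero N.S₁.res
  rw [h0] at hval
  obtain ⟨d, hd0, hd⟩ := h.H_node i
  exact hd0 (hd.unique hval)

/-! ### the values of the coordinate at the places of type N -/

/-- the value of `z` at a place of type N is not `0`. -/
theorem value_ne_zero (h : CoordData N u ϖ p0 e z) {P : Place K F} (hP : N.rmap P = none)
    {c : K} (hc : ValAt P z c) : c ≠ 0 := by
  rintro rfl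
  rcases (valAt_zero_right_iff _ _).mp hc with h0 | h0
  · exact h.z_ne h0
  · rw [h.ord_z_N hP] at h0
    exact lt_irrefl _ h0

/-- **(2)** `v(z(P)) ^ e = v(u(P))`, hence `v(p0) < v(z(P)) < 1`. -/
theorem val_value (h : CoordData N u ϖ p0 e z) {P : Place K F} (hP : N.rmap P = none)
    {c : K} (hc : ValAt P z c) :
    N.S₁.A.valuation p0 < N.S₁.A.valuation c ∧ N.S₁.A.valuation c < 1 := by
  obtain ⟨i, hi⟩ := exists_isNodeOf hP
  obtain ⟨cu, hcu, hcu0, hcuA, hcuinv, hdA, hdinv⟩ := eval_u_exists (N := N) h.ann.varpi_mem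
    h.ann.red₁_ne (by rw [an_smul_inv]; exact h.ann.red₂_ne) h.ann.ord_N h.ann.node₁
    (fun i => by rw [an_smul_inv]; exact h.ann.node₂ i) P hP
  have hc0 := h.value_ne_zero hP hc
  have hv : ValAt P (z ^ e * u⁻¹) (c ^ e * cu⁻¹) :=
    Gluing.valAt_mul (Gluing.valAt_pow hc e) (ev_valAt_inv hcu hcu0)
  obtain ⟨hwA, hval⟩ := eval h.H_mem₁ h.H_mem₂ h.H_pole hi hv
  obtain ⟨d, hd0, hd⟩ := h.H_node i
  have hres : N.S₁.res ⟨c ^ e * cu⁻¹, hwA⟩ = d := hval.unique hd
  have hw0 : c ^ e * cu⁻¹ ≠ 0 := mul_ne_zero (pow_ne_zero e hc0) (inv_ne_zero hcu0)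
  have hwinv : (c ^ e * cu⁻¹)⁻¹ ∈ N.S₁.A := by
    by_contra hn
    exact hd0 (hres ▸ an_res_eq_zero N.S₁ hwA (Or.inr hn))
  have hone := cd_val_eq_one N.S₁.A hwA hwinv hw0
  have hvcu0 : N.S₁.A.valuation cu ≠ 0 := (Valuation.ne_zero_iff _).mpr hcu0
  have hpow : N.S₁.A.valuation c ^ e = N.S₁.A.valuation cu := by
    rw [map_mul, map_pow, map_inv₀] at hone
    exact (mul_inv_eq_one₀ hvcu0).mp hone
  have hcu1 : N.S₁.A.valuation cu < 1 := (an_val_lt_one_iff N.S₁.A hcu0).mpr ⟨hcuA, hcuinv⟩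
  have hcu2 : N.S₁.A.valuation ϖ < N.S₁.A.valuation cu := by
    have h1 : N.S₁.A.valuation (ϖ / cu) < 1 :=
      (an_val_lt_one_iff N.S₁.A (div_ne_zero h.ann.varpi_ne hcu0)).mpr ⟨hdA, hdinv⟩
    rw [map_div₀] at h1
    exact (div_lt_one₀ (zero_lt_iff.mpr hvcu0)).mp h1
  constructor
  · apply cd_val_lt_of_pow_lt (e := e)
    rw [← h.val_varpi, hpow]
    exact hcu2
  · by_contra hcon
    rw [not_lt] at hcon
    have h1 : 1 ≤ N.S₁.A.valuation c ^ e := one_le_pow₀ hcon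
    rw [hpow] at h1
    exact absurd hcu1 (not_lt.mpr h1)

theorem value_mem (h : CoordData N u ϖ p0 e z) {P : Place K F} (hP : N.rmap P = none)
    {c : K} (hc : ValAt P z c) : c ∈ N.S₁.A ∧ c⁻¹ ∉ N.S₁.A :=
  (an_val_lt_one_iff N.S₁.A (h.value_ne_zero hP hc)).mp (h.val_value hP hc).2

theorem value_res (h : CoordData N u ϖ p0 e z) {P : Place K F} (hP : N.rmap P = none)
    {c : K} (hc : ValAt P z c) : N.S₁.res ⟨c, (h.value_mem hP hc).1⟩ = 0 :=
  an_res_eq_zero N.S₁ _ (Or.inr (h.value_mem hP hc).2)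

theorem quot_mem (h : CoordData N u ϖ p0 e z) {P : Place K F} (hP : N.rmap P = none)
    {c : K} (hc : ValAt P z c) : p0 / c ∈ N.S₁.A ∧ (p0 / c)⁻¹ ∉ N.S₁.A := by
  have hc0 := h.value_ne_zero hP hc
  have hvc0 : N.S₁.A.valuation c ≠ 0 := (Valuation.ne_zero_iff _).mpr hc0
  apply (an_val_lt_one_iff N.S₁.A (div_ne_zero h.p0_ne hc0)).mp
  rw [map_div₀]
  exact (div_lt_one₀ (zero_lt_iff.mpr hvc0)).mpr (h.val_value hP hc).1

/-! ### the function `z - c` -/

theorem sub_mem₁ (h : CoordData N u ϖ p0 e z) {P : Place K F} (hP : N.rmap P = none)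
    {c : K} (hc : ValAt P z c) : z - algebraMap K F c ∈ N.S₁.Ov :=
  sub_mem h.z_mem₁ (N.S₁.algebraMap_mem (h.value_mem hP hc).1)

theorem sub_red₁ (h : CoordData N u ϖ p0 e z) {P : Place K F} (hP : N.rmap P = none)
    {c : K} (hc : ValAt P z c) : N.S₁.red (z - algebraMap K F c) = N.S₁.red z := by
  rw [N.S₁.red_sub h.z_mem₁ (N.S₁.algebraMap_mem (h.value_mem hP hc).1),
    N.S₁.red_algebraMap (h.value_mem hP hc).1, h.value_res hP hc, map_zero, sub_zero]

theorem sub_ne (h : CoordData N u ϖ p0 e z) {P : Place K F} (hP : N.rmap P = none)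
    {c : K} (hc : ValAt P z c) : z - algebraMap K F c ≠ 0 := by
  apply N.S₁.ne_zero_of_red_ne_zero
  rw [h.sub_red₁ hP hc]
  exact h.red₁_ne

/-- `z / c ∈ O₂` reduces to `0`. -/
theorem div_value_mem₂ (h : CoordData N u ϖ p0 e z) {P : Place K F} (hP : N.rmap P = none)
    {c : K} (hc : ValAt P z c) :
    z / algebraMap K F c ∈ N.S₂.Ov ∧ N.S₂.red (z / algebraMap K F c) = 0 := by
  have hc0 := h.value_ne_zero hP hc
  have hq := h.quot_mem hP hc
  have hq₂ : p0 / c ∈ N.S₂.A := N.toNodalCore.mem_A₂ hq.1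
  have hca : algebraMap K F c ≠ 0 := (map_ne_zero (algebraMap K F)).mpr hc0
  have hpa : algebraMap K F p0 ≠ 0 := (map_ne_zero (algebraMap K F)).mpr h.p0_ne
  have e1 : z / algebraMap K F c = (z / algebraMap K F p0) * algebraMap K F (p0 / c) := by
    rw [map_div₀]
    field_simp
  have hres : N.S₂.res ⟨p0 / c, hq₂⟩ = 0 := by
    rw [← N.res_eq (p0 / c) hq.1 hq₂]
    exact an_res_eq_zero N.S₁ _ (Or.inr hq.2)
  refine ⟨e1 ▸ mul_mem h.z_mem₂ (N.S₂.algebraMap_mem hq₂), ?_⟩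
  rw [e1, N.S₂.red_mul h.z_mem₂ (N.S₂.algebraMap_mem hq₂), N.S₂.red_algebraMap hq₂, hres,
    map_zero, mul_zero]

/-- **(2)** `red₂ ((z - c) / (-c)) = 1`. -/
theorem sub_red₂ (h : CoordData N u ϖ p0 e z) {P : Place K F} (hP : N.rmap P = none)
    {c : K} (hc : ValAt P z c) :
    N.S₂.red ((z - algebraMap K F c) / algebraMap K F (-c)) = 1 := by
  have hc0 := h.value_ne_zero hP hc
  have hca : algebraMap K F c ≠ 0 := (map_ne_zero (algebraMap K F)).mpr hc0
  obtain ⟨hm, hr⟩ := h.div_value_mem₂ hP hc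
  have e1 : (z - algebraMap K F c) / algebraMap K F (-c) = 1 - z / algebraMap K F c := by
    rw [map_neg]
    field_simp
    ring
  rw [e1, N.S₂.red_sub (one_mem _) hm, N.S₂.red_one, hr, sub_zero]

theorem sub_pole (h : CoordData N u ϖ p0 e z) {c : K} (Q : Place K F)
    (hQ : N.rmap Q = none) : 0 ≤ Q.ord (z - algebraMap K F c) := by
  have hz := h.z_pole Q hQ
  have hmem : z - algebraMap K F c ∈ Q.toValuationSubring :=
    sub_mem (mem_of_ord_nonneg' Q hz) (Q.algebraMap_mem' c)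
  exact (Fermat.Agent.S24Res.mem_iff_ord_nonneg Q).mp hmem

/-- the constant `ϖ / (-c) ^ e` lies in the maximal ideal of `A`. -/
theorem w_mem (h : CoordData N u ϖ p0 e z) {P : Place K F} (hP : N.rmap P = none)
    {c : K} (hc : ValAt P z c) :
    ϖ / (-c) ^ e ∈ N.S₁.A ∧ (ϖ / (-c) ^ e)⁻¹ ∉ N.S₁.A := by
  have hc0 := h.value_ne_zero hP hc
  have hnc0 : (-c) ^ e ≠ 0 := pow_ne_zero e (neg_ne_zero.mpr hc0)
  have hv0 : N.S₁.A.valuation ((-c) ^ e) ≠ 0 := (Valuation.ne_zero_iff _).mpr hnc0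
  apply (an_val_lt_one_iff N.S₁.A (div_ne_zero h.ann.varpi_ne hnc0)).mp
  rw [map_div₀]
  apply (div_lt_one₀ (zero_lt_iff.mpr hv0)).mpr
  rw [map_pow, Valuation.map_neg, h.val_varpi]
  exact pow_lt_pow_left₀ (h.val_value hP hc).1 zero_le h.e_pos.ne'

/-- **(2)** `z - c` has a zero of type N at EVERY node. -/
theorem exists_zero (h : CoordData N u ϖ p0 e z) {P : Place K F} (hP : N.rmap P = none)
    {c : K} (hc : ValAt P z c) (j : ι) :
    ∃ Q : Place K F, IsNodeOf N Q j ∧ 0 < Q.ord (z - algebraMap K F c) := by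
  by_contra hcon
  push Not at hcon
  set f : F := z - algebraMap K F c with hf
  have hc0 := h.value_ne_zero hP hc
  have hf0 : f ≠ 0 := h.sub_ne hP hc
  have hfr₁ : N.S₁.red f = N.S₁.red z := h.sub_red₁ hP hc
  have hfr₁ne : N.S₁.red f ≠ 0 := hfr₁ ▸ h.red₁_ne
  have hfO₁ : f ∈ N.S₁.Ov := h.sub_mem₁ hP hc
  have hfinv₁ : f⁻¹ ∈ N.S₁.Ov := N.S₁.inv_mem_of_red_ne_zero hfr₁ne
  have hordj : ∀ Q, IsNodeOf N Q j → Q.ord f = 0 := by
    intro Q hQ
    have h1 : Q.ord f ≤ 0 := hcon Q hQ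
    have h2 : 0 ≤ Q.ord f := h.sub_pole (c := c) Q hQ.1
    omega
  -- the function `G = u / f ^ e`
  have hu₁ : u ∈ N.S₁.Ov := N.S₁.mem_of_red_ne_zero h.ann.red₁_ne
  have hG₁ : u * (f ^ e)⁻¹ ∈ N.S₁.Ov := by
    rw [← inv_pow]
    exact mul_mem hu₁ (pow_mem hfinv₁ e)
  have hGr₁ : N.S₁.red (u * (f ^ e)⁻¹) = N.S₁.red u * (N.S₁.red z ^ e)⁻¹ := by
    rw [← inv_pow, N.S₁.red_mul hu₁ (pow_mem hfinv₁ e), N.S₁.red_pow hfinv₁,
      N.S₁.red_inv hfO₁ hfinv₁ hf0, hfr₁, inv_pow]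
  have hGr₁ne : N.S₁.red (u * (f ^ e)⁻¹) ≠ 0 := by
    rw [hGr₁]
    exact mul_ne_zero h.ann.red₁_ne (inv_ne_zero (pow_ne_zero e h.red₁_ne))
  have hGord : (N.s₁ j).ord (N.S₁.red (u * (f ^ e)⁻¹)) = 0 := by
    rw [hGr₁, (N.s₁ j).ord_mul h.ann.red₁_ne (inv_ne_zero (pow_ne_zero e h.red₁_ne)),
      (N.s₁ j).ord_inv, Gluing.ord_pow_nat, h.z_node j, h.eps_eq j]
    ring
  -- second valuation
  have hw := h.w_mem hP hc
  have hw₂ : ϖ / (-c) ^ e ∈ N.S₂.A := N.toNodalCore.mem_A₂ hw.1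
  have hwres : N.S₂.res ⟨ϖ / (-c) ^ e, hw₂⟩ = 0 := by
    rw [← N.res_eq _ hw.1 hw₂]
    exact an_res_eq_zero N.S₁ _ (Or.inr hw.2)
  have hf₂ : N.S₂.red (f / algebraMap K F (-c)) ≠ 0 := by
    rw [hf, h.sub_red₂ hP hc]
    exact one_ne_zero
  have hf₂inv : (f / algebraMap K F (-c))⁻¹ ∈ N.S₂.Ov := N.S₂.inv_mem_of_red_ne_zero hf₂
  have ht₂inv : (algebraMap K F ϖ / u)⁻¹ ∈ N.S₂.Ov :=
    N.S₂.inv_mem_of_red_ne_zero h.ann.red₂_ne
  have hnca : algebraMap K F (-c) ≠ 0 :=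
    (map_ne_zero (algebraMap K F)).mpr (neg_ne_zero.mpr hc0)
  have hϖa : algebraMap K F ϖ ≠ 0 := (map_ne_zero (algebraMap K F)).mpr h.ann.varpi_ne
  have hGeq : u * (f ^ e)⁻¹ = (algebraMap K F ϖ / u)⁻¹ *
      (algebraMap K F (ϖ / (-c) ^ e) * ((f / algebraMap K F (-c))⁻¹) ^ e) := by
    have hu0 := h.u_ne
    rw [map_div₀, map_pow, inv_pow, div_pow]
    field_simp
  have hmem₂ : algebraMap K F (ϖ / (-c) ^ e) * ((f / algebraMap K F (-c))⁻¹) ^ e ∈ N.S₂.Ov :=
    mul_mem (N.S₂.algebraMap_mem hw₂) (pow_mem hf₂inv e)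
  have hG₂ : u * (f ^ e)⁻¹ ∈ N.S₂.Ov := by
    rw [hGeq]
    exact mul_mem ht₂inv hmem₂
  have hGr₂ : N.S₂.red (u * (f ^ e)⁻¹) = 0 := by
    rw [hGeq, N.S₂.red_mul ht₂inv hmem₂,
      N.S₂.red_mul (N.S₂.algebraMap_mem hw₂) (pow_mem hf₂inv e), N.S₂.red_algebraMap hw₂, hwres,
      map_zero, zero_mul, mul_zero]
  -- no pole at the node `j`
  have hpole : NoPoleAtNode N j (u * (f ^ e)⁻¹) := by
    intro Q hQ
    rw [Q.ord_mul h.u_ne (inv_ne_zero (pow_ne_zero e hf0)), Q.ord_inv, Gluing.ord_pow_nat,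
      hordj Q hQ, h.ann.ord_N Q hQ.1]
    simp
  obtain ⟨-, -, d, hd₁, hd₂⟩ := node_loc hG₁ hG₂ hpole
  rw [hGr₂] at hd₂
  have hd0 : d = 0 := hd₂.unique (valAt_zero _)
  rw [hd0] at hd₁
  rcases (valAt_zero_right_iff _ _).mp hd₁ with h0 | h0
  · exact hGr₁ne h0
  · rw [hGord] at h0
    exact lt_irrefl _ h0

/-- **COUNT** for `z - c`: the number of its zeros of type N is the number of the nodes. -/
theorem count_sub (h : CoordData N u ϖ p0 e z) {P : Place K F} (hP : N.rmap P = none)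
    {c : K} (hc : ValAt P z c) :
    Finsupp.mapDomain N.rmap (divOf N.S₁.hF (z - algebraMap K F c)) none =
      (Fintype.card ι : ℤ) := by
  have hc0 := h.value_ne_zero hP hc
  have e1 : (z - algebraMap K F c) / algebraMap K F (1 : K) = z - algebraMap K F c := by
    rw [map_one, div_one]
  have h₁ : N.S₁.red ((z - algebraMap K F c) / algebraMap K F (1 : K)) ≠ 0 := by
    rw [e1, h.sub_red₁ hP hc]
    exact h.red₁_ne
  have h₂ : N.S₂.red ((z - algebraMap K F c) / algebraMap K F (-c)) ≠ 0 := by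
    rw [h.sub_red₂ hP hc]
    exact one_ne_zero
  have hcount := count_twisted N.nodalSetup one_ne_zero (neg_ne_zero.mpr hc0) h₁ h₂
  have hcount' : Finsupp.mapDomain N.rmap (divOf N.S₁.hF (z - algebraMap K F c)) none =
      ∑ i, ((N.s₁ i).ord (N.S₁.red ((z - algebraMap K F c) / algebraMap K F (1 : K))) +
        (N.s₂ i).ord (N.S₂.red ((z - algebraMap K F c) / algebraMap K F (-c)))) := hcount
  rw [hcount']
  have hterm : ∀ i, (N.s₁ i).ord (N.S₁.red ((z - algebraMap K F c) / algebraMap K F (1 : K))) +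
      (N.s₂ i).ord (N.S₂.red ((z - algebraMap K F c) / algebraMap K F (-c))) = 1 := by
    intro i
    have h1 : (N.s₂ i).ord (1 : Fk₂) = 0 := by
      have := Fermat.Agent.S24Res.ord_algebraMap (N.s₂ i) (1 : k)
      rwa [map_one] at this
    rw [e1, h.sub_red₁ hP hc, h.z_node i, h.sub_red₂ hP hc, h1, add_zero]
  rw [Finset.sum_congr rfl fun i _ => hterm i, Finset.sum_const, Finset.card_univ]
  simp

/-- **(2)** the zeros of type N of `z - c` are simple, and there is exactly one at each node. -/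
theorem zeros_sub (h : CoordData N u ϖ p0 e z) {P : Place K F} (hP : N.rmap P = none)
    {c : K} (hc : ValAt P z c) :
    (∀ Q : Place K F, N.rmap Q = none → Q.ord (z - algebraMap K F c) ≤ 1) ∧
      ∀ (i : ι) (Q Q' : Place K F), IsNodeOf N Q i → IsNodeOf N Q' i →
        0 < Q.ord (z - algebraMap K F c) → 0 < Q'.ord (z - algebraMap K F c) → Q = Q' := by
  classical
  set f : F := z - algebraMap K F c with hf
  set T : Finset (Place K F) :=
    (divOf N.S₁.hF f).support.filter (fun Q => N.rmap Q = none) with hT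
  have hmemT : ∀ Q, Q ∈ T ↔ Q.ord f ≠ 0 ∧ N.rmap Q = none := by
    intro Q
    rw [hT, Finset.mem_filter, Finsupp.mem_support_iff, divOf_apply]
  have hsum : ∑ Q ∈ T, Q.ord f = (Fintype.card ι : ℤ) := by
    have h1 := h.count_sub hP hc
    rw [mapDomain_none_eq_sum] at h1
    rw [← h1]
    refine Finset.sum_congr rfl fun Q _ => ?_
    rw [divOf_apply]
  have hge : ∀ Q ∈ T, 1 ≤ Q.ord f := by
    intro Q hQ
    obtain ⟨h1, h2⟩ := (hmemT Q).mp hQ
    have h3 : 0 ≤ Q.ord f := h.sub_pole (c := c) Q h2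
    omega
  choose g hg using fun j => h.exists_zero hP hc j
  have hginj : Function.Injective g := by
    intro j j' hjj
    have h1 := (hg j).1
    have h2 := (hg j').1
    rw [← hjj] at h2
    exact h1.unique h2
  have hgT : ∀ j, g j ∈ T := fun j => (hmemT _).mpr ⟨(hg j).2.ne', (hg j).1.1⟩
  have himg : Finset.univ.image g ⊆ T := by
    intro Q hQ
    obtain ⟨j, -, rfl⟩ := Finset.mem_image.mp hQ
    exact hgT j
  have hcard : (Finset.univ.image g).card = Fintype.card ι := by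
    rw [Finset.card_image_of_injective _ hginj, Finset.card_univ]
  have hsum2 : ∑ Q ∈ T, (Q.ord f - 1) = (Fintype.card ι : ℤ) - T.card := by
    rw [Finset.sum_sub_distrib, hsum, Finset.sum_const, nsmul_eq_mul, mul_one]
  have hnn : 0 ≤ ∑ Q ∈ T, (Q.ord f - 1) :=
    Finset.sum_nonneg fun Q hQ => sub_nonneg.mpr (hge Q hQ)
  have hle : T.card ≤ (Finset.univ.image g).card := by
    rw [hcard]
    have : (T.card : ℤ) ≤ Fintype.card ι := by linarith
    exact_mod_cast this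
  have hTeq : Finset.univ.image g = T := Finset.eq_of_subset_of_card_le himg hle
  have hzero : ∑ Q ∈ T, (Q.ord f - 1) = 0 := by
    rw [hsum2, ← hTeq, hcard, sub_self]
  have hone : ∀ Q ∈ T, Q.ord f = 1 := by
    intro Q hQ
    have := (Finset.sum_eq_zero_iff_of_nonneg
      (fun Q hQ => sub_nonneg.mpr (hge Q hQ))).mp hzero Q hQ
    omega
  refine ⟨fun Q hQ => ?_, fun i Q Q' hQ hQ' hpos hpos' => ?_⟩
  · by_cases h0 : Q.ord f = 0
    · rw [h0]; exact zero_le_one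
    · exact (hone Q ((hmemT Q).mpr ⟨h0, hQ⟩)).le
  · have hQT : Q ∈ Finset.univ.image g := hTeq ▸ (hmemT Q).mpr ⟨hpos.ne', hQ.1⟩
    have hQ'T : Q' ∈ Finset.univ.image g := hTeq ▸ (hmemT Q').mpr ⟨hpos'.ne', hQ'.1⟩
    obtain ⟨j, -, hj⟩ := Finset.mem_image.mp hQT
    obtain ⟨j', -, hj'⟩ := Finset.mem_image.mp hQ'T
    have e1 : j = i := (hj ▸ (hg j).1 : IsNodeOf N Q j).unique hQ
    have e2 : j' = i := (hj' ▸ (hg j').1 : IsNodeOf N Q' j').unique hQ'
    rw [← hj, ← hj', e1, e2]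

open Classical in
/-- **(2)**, final form: for `P`, `Q` of type N with the same node,
`ord_Q (z - z(P)) = 1` if `Q = P` and `0` otherwise. -/
theorem ord_sub_value (h : CoordData N u ϖ p0 e z) {i : ι} {P Q : Place K F}
    (hP : IsNodeOf N P i) (hQ : IsNodeOf N Q i) {c : K} (hc : ValAt P z c) :
    Q.ord (z - algebraMap K F c) = if Q = P then 1 else 0 := by
  obtain ⟨hle, huniq⟩ := h.zeros_sub hP.1 hc
  have hposP : 0 < P.ord (z - algebraMap K F c) :=
    ((valAt_iff_vanAt P z c).mp hc).resolve_left (h.sub_ne hP.1 hc)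
  split_ifs with hQP
  · subst hQP
    have := hle Q hQ.1
    omega
  · have h0 := h.sub_pole (c := c) Q hQ.1
    by_contra hne
    have hpos : 0 < Q.ord (z - algebraMap K F c) := lt_of_le_of_ne h0 (Ne.symm hne)
    exact hQP (huniq i Q P hQ hP hpos hposP)

/-- **the coordinate is injective** on the places of type N of one node. -/
theorem inj (h : CoordData N u ϖ p0 e z) {i : ι} {P Q : Place K F}
    (hP : IsNodeOf N P i) (hQ : IsNodeOf N Q i) {c : K} (hc : ValAt P z c)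
    (hc' : ValAt Q z c) : Q = P := by
  by_contra hne
  have h1 := h.ord_sub_value hP hQ hc
  rw [if_neg hne] at h1
  have hpos : 0 < Q.ord (z - algebraMap K F c) :=
    ((valAt_iff_vanAt Q z c).mp hc').resolve_left (h.sub_ne hP.1 hc)
  omega

end CoordData

/-! ### (ETA): the function `η_i` -/

/-- the order of a finite product of integral powers. -/
theorem cd_ord_prod_zpow (Q : Place K F) {J : Type*} (s : Finset J) (f : J → F) (n : J → ℤ)
    (hf : ∀ j ∈ s, f j ≠ 0) : Q.ord (∏ j ∈ s, f j ^ n j) = ∑ j ∈ s, n j * Q.ord (f j) := by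
  classical
  induction s using Finset.induction_on with
  | empty =>
    rw [Finset.prod_empty, Finset.sum_empty]
    have := Fermat.Agent.S24Res.ord_algebraMap Q (1 : K)
    rwa [map_one] at this
  | insert a s ha ih =>
    have h1 : f a ^ n a ≠ 0 := zpow_ne_zero _ (hf a (Finset.mem_insert_self a s))
    have h2 : (∏ j ∈ s, f j ^ n j) ≠ 0 :=
      Finset.prod_ne_zero_iff.mpr fun j hj =>
        zpow_ne_zero _ (hf j (Finset.mem_insert_of_mem hj))
    rw [Finset.prod_insert ha, Finset.sum_insert ha, Q.ord_mul h1 h2, Q.ord_zpow,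
      ih fun j hj => hf j (Finset.mem_insert_of_mem hj)]

open Classical in
/-- **(ETA)** `η_i = ∏_{P at node i} (z - z(P)) ^ D(P)`. -/
def coordEta (N : NodalSeed K F k Fk₁ Fk₂ ι) (z : F) (D : Divisor K F) (i : ι) : F :=
  ∏ P ∈ D.support.filter (fun P => IsNodeOf N P i),
    (z - algebraMap K F (valueAt N.S₁.hF P z)) ^ (D P)

namespace CoordData

variable {N : NodalSeed K F k Fk₁ Fk₂ ι} {u : F} {ϖ p0 : K} {e : ℕ} {z : F}
  [Nonempty ι] [Infinite k]

/-- the value of `z` at a place of type N. -/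
theorem valAt_value (h : CoordData N u ϖ p0 e z) {P : Place K F} (hP : N.rmap P = none) :
    ValAt P z (valueAt N.S₁.hF P z) :=
  valueAt_spec N.S₁.hF P (mem_of_ord_nonneg' P (h.z_pole P hP))

theorem coordEta_ne_zero (h : CoordData N u ϖ p0 e z) (D : Divisor K F) (i : ι) :
    coordEta N z D i ≠ 0 := by
  classical
  unfold coordEta
  refine Finset.prod_ne_zero_iff.mpr fun P hP => zpow_ne_zero _ ?_
  have hPi : IsNodeOf N P i := (Finset.mem_filter.mp hP).2
  exact h.sub_ne hPi.1 (h.valAt_value hPi.1)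

/-- **(ETA)**: at the places of type N with node `i` the divisor of `η_i` is `D`. -/
theorem ord_coordEta (h : CoordData N u ϖ p0 e z) (D : Divisor K F) {i : ι} {Q : Place K F}
    (hQ : IsNodeOf N Q i) : Q.ord (coordEta N z D i) = D Q := by
  classical
  unfold coordEta
  rw [cd_ord_prod_zpow Q _ _ _ fun P hP =>
    h.sub_ne (Finset.mem_filter.mp hP).2.1 (h.valAt_value (Finset.mem_filter.mp hP).2.1)]
  have hterm : ∀ P ∈ D.support.filter (fun P => IsNodeOf N P i),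
      D P * Q.ord (z - algebraMap K F (valueAt N.S₁.hF P z)) = if Q = P then D P else 0 := by
    intro P hP
    have hPi : IsNodeOf N P i := (Finset.mem_filter.mp hP).2
    rw [h.ord_sub_value hPi hQ (h.valAt_value hPi.1)]
    split_ifs <;> simp
  rw [Finset.sum_congr rfl hterm, Finset.sum_ite_eq]
  split_ifs with hmem
  · rfl
  · by_contra hne
    exact hmem (Finset.mem_filter.mpr ⟨Finsupp.mem_support_iff.mpr (Ne.symm hne), hQ⟩)

/-- **(ETA)**: `η_i` is fixed by the inertial automorphisms which fix `z` and `D`. -/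
theorem smul_coordEta (h : CoordData N u ϖ p0 e z) (D : Divisor K F) (i : ι)
    {t : SemilinearAut K F} (ht : N.nodalSetup.IsInertial t) (htz : t • z = z)
    (htD : t • D = D) : t • coordEta N z D i = coordEta N z D i := by
  classical
  unfold coordEta
  set Z : Finset (Place K F) := D.support.filter (fun P => IsNodeOf N P i) with hZ
  have hDt : ∀ P, D (t • P) = D P := by
    intro P
    have := SemilinearAut.divisor_smul_apply_smul t D P
    rwa [htD] at this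
  have hstab : ∀ P ∈ Z, t • P ∈ Z := by
    intro P hP
    obtain ⟨h1, h2⟩ := Finset.mem_filter.mp hP
    refine Finset.mem_filter.mpr ⟨?_, isNodeOf_smul ht h2⟩
    rw [Finsupp.mem_support_iff, hDt P]
    exact Finsupp.mem_support_iff.mp h1
  have hstep : ∀ P ∈ Z, t • ((z - algebraMap K F (valueAt N.S₁.hF P z)) ^ (D P)) =
      (z - algebraMap K F (valueAt N.S₁.hF (t • P) z)) ^ (D (t • P)) := by
    intro P hP
    rw [SemilinearAut.smul_def, map_zpow₀, map_sub, ← SemilinearAut.smul_def,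
      ← SemilinearAut.smul_def, htz, SemilinearAut.smul_algebraMap,
      valueAt_smul_of_fixed N.S₁.hF t P htz, hDt P]
  rw [SemilinearAut.smul_def, map_prod]
  simp only [← SemilinearAut.smul_def]
  rw [Finset.prod_congr rfl hstep]
  exact an_prod_smul t Z hstab
    (fun P => (z - algebraMap K F (valueAt N.S₁.hF P z)) ^ (D P))

/-- **(ETA)**, packaged: for every divisor `D` and every node `i` there is `η ≠ 0` whose
divisor at the places of type N with node `i` is `D`, fixed by every inertial automorphism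
fixing `z` and `D`. -/
theorem exists_eta (h : CoordData N u ϖ p0 e z) (D : Divisor K F) (i : ι) :
    ∃ η : F, η ≠ 0 ∧ (∀ Q : Place K F, IsNodeOf N Q i → Q.ord η = D Q) ∧
      ∀ t : SemilinearAut K F, N.nodalSetup.IsInertial t → t • z = z → t • D = D →
        t • η = η :=
  ⟨coordEta N z D i, h.coordEta_ne_zero D i, fun _ hQ => h.ord_coordEta D hQ,
    fun _ ht htz htD => h.smul_coordEta D i ht htz htD⟩

end CoordData

end Fermat.Agent.PeuD
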