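/-
Row 38, block D (INT), seat D-INT core (helper50): the ARITHMETIC CORE of (INT-abs).
Mathlib only.  Blueprint: helper62's note "Row 38 block D (INT): decision + seats v1", step (INT).

Notation at a node `i`:  `ε i` the thickness exponent (`ord_{s₁ i} red₁ u`), `m i` the multiplier
of (ETA), `a i = ord_{s₁ i} red₁ (g / c₁)` the slope of `g`, `b i` the slope of `η_i`,
`Δg = n₂(g) - n₁(g)`, `Δη i = n₂(η_i) - n₁(η_i)` (valuations in units of `v(π)`),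
`v(ϖ) = v(π) ^ (p E')`.

* `intCore_exp` : from the conclusion of `slope_loc` (an equation in the value group) to an
  equation between integers.
* `int_core` : (SL) for `θ_i = g ^ (m i) η_i ^ (-p)`  and (KEY)  ⟹  `ε j * a i ≡ ε i * a j mod p`.
* `int_core_tame` : the tame case (`v(ϖ) = v(π) ^ E`, `p ∤ E`): (SL) alone suffices.
-/
import Mathlib

set_option autoImplicit false

namespace Fermat.Agent.PeuD

/-- exponents in a value group: `x ^ a = x ^ b`, `0 < x < 1` ⟹ `a = b`. -/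
theorem intCore_zpow_inj {Γ : Type*} [LinearOrderedCommGroupWithZero Γ] {x : Γ} (hx0 : x ≠ 0)
    (hx1 : x < 1) {a b : ℤ} (h : x ^ a = x ^ b) : a = b := by
  have hpos : 0 < x := lt_of_le_of_ne zero_le (Ne.symm hx0)
  exact (zpow_right_strictAnti₀ hpos hx1).injective h

/-- from the conclusion of `slope_loc` to integers: `v(c₂/c₁) = x ^ n`, `v(ϖ) = x ^ e`,
`v(c₂/c₁) ^ ε = v(ϖ) ^ A`  ⟹  `ε n = e A`. -/
theorem intCore_exp {Γ : Type*} [LinearOrderedCommGroupWithZero Γ] {x y z : Γ} (hx0 : x ≠ 0)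
    (hx1 : x < 1) {n e A : ℤ} {ε : ℕ} (hy : y = x ^ n) (hz : z = x ^ e)
    (h : y ^ ε = z ^ A) : (ε : ℤ) * n = e * A := by
  rw [hy, hz, ← zpow_natCast, ← zpow_mul, ← zpow_mul] at h
  have := intCore_zpow_inj hx0 hx1 h
  rw [mul_comm]
  exact this

/-- **arithmetic core of (INT)**. -/
theorem int_core (p : ℕ) (hp : p.Prime) {ι : Type*} (ε m : ι → ℕ) (E' Δg : ℤ)
    (a b Δη : ι → ℤ)
    (hε : ∀ i, ¬ (p : ℤ) ∣ (ε i : ℤ)) (hm : ∀ i, ¬ (p : ℤ) ∣ (m i : ℤ)) (hE : ¬ (p : ℤ) ∣ E')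
    (hSL : ∀ i, (ε i : ℤ) * ((m i : ℤ) * Δg - p * Δη i) = p * E' * ((m i : ℤ) * a i - p * b i))
    (hKEY : ∀ i j, (m j : ℤ) * Δη i ≡ (m i : ℤ) * Δη j [ZMOD (p : ℤ)]) (i j : ι) :
    (ε j : ℤ) * a i ≡ (ε i : ℤ) * a j [ZMOD (p : ℤ)] := by
  have hpZ : Prime (p : ℤ) := Nat.prime_iff_prime_int.mp hp
  have hp0 : (p : ℤ) ≠ 0 := hpZ.ne_zero
  -- `p ∣ Δg`
  have hΔ : (p : ℤ) ∣ Δg := by
    have h1 : (p : ℤ) ∣ (ε i : ℤ) * ((m i : ℤ) * Δg) := by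
      refine ⟨E' * ((m i : ℤ) * a i - p * b i) + (ε i : ℤ) * Δη i, ?_⟩
      linear_combination hSL i
    rcases hpZ.dvd_or_dvd h1 with h | h
    · exact absurd h (hε i)
    · rcases hpZ.dvd_or_dvd h with h | h
      · exact absurd h (hm i)
      · exact h
  obtain ⟨W, rfl⟩ := hΔ
  -- the relation divided by `p`
  have hrel : ∀ l, (ε l : ℤ) * ((m l : ℤ) * W - Δη l) = E' * ((m l : ℤ) * a l - p * b l) := by
    intro l
    apply mul_left_cancel₀ hp0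
    linear_combination hSL l
  -- multiply the claim by the unit `E' m_i m_j`
  have hunit : ¬ (p : ℤ) ∣ E' * ((m i : ℤ) * (m j : ℤ)) := by
    intro h
    rcases hpZ.dvd_or_dvd h with h | h
    · exact hE h
    · rcases hpZ.dvd_or_dvd h with h | h
      · exact hm i h
      · exact hm j h
  have hmain : (p : ℤ) ∣ E' * ((m i : ℤ) * (m j : ℤ)) * ((ε j : ℤ) * a i - (ε i : ℤ) * a j) := by
    obtain ⟨c, hc⟩ := (Int.modEq_iff_dvd.mp (hKEY i j))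
    -- hc : m i * Δη j - m j * Δη i = p * c
    refine ⟨(ε i : ℤ) * (ε j : ℤ) * c + E' * ((m j : ℤ) * (ε j : ℤ) * b i
      - (m i : ℤ) * (ε i : ℤ) * b j), ?_⟩
    linear_combination (-(m j : ℤ) * (ε j : ℤ)) * hrel i + ((m i : ℤ) * (ε i : ℤ)) * hrel j
      + ((ε i : ℤ) * (ε j : ℤ)) * hc
  have h2 : (p : ℤ) ∣ (ε j : ℤ) * a i - (ε i : ℤ) * a j :=
    (hpZ.dvd_or_dvd hmain).resolve_left hunit
  exact (Int.modEq_iff_dvd.mpr (by
    have : (ε i : ℤ) * a j - (ε j : ℤ) * a i = -((ε j : ℤ) * a i - (ε i : ℤ) * a j) := by ring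
    rw [this]
    exact (dvd_neg.mpr h2)))

/-- **arithmetic core of (INT), tame case**: `v(ϖ) = v(π) ^ E` with `p ∤ E`. -/
theorem int_core_tame (p : ℕ) (hp : p.Prime) {ι : Type*} (ε m : ι → ℕ) (E Δg : ℤ)
    (a b Δη : ι → ℤ)
    (hm : ∀ i, ¬ (p : ℤ) ∣ (m i : ℤ)) (hE : ¬ (p : ℤ) ∣ E)
    (hSL : ∀ i, (ε i : ℤ) * ((m i : ℤ) * Δg - p * Δη i) = E * ((m i : ℤ) * a i - p * b i))
    (i j : ι) :
    (ε j : ℤ) * a i ≡ (ε i : ℤ) * a j [ZMOD (p : ℤ)] := by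
  have hpZ : Prime (p : ℤ) := Nat.prime_iff_prime_int.mp hp
  have hunit : ¬ (p : ℤ) ∣ E * ((m i : ℤ) * (m j : ℤ)) := by
    intro h
    rcases hpZ.dvd_or_dvd h with h | h
    · exact hE h
    · rcases hpZ.dvd_or_dvd h with h | h
      · exact hm i h
      · exact hm j h
  have hmain : (p : ℤ) ∣ E * ((m i : ℤ) * (m j : ℤ)) * ((ε j : ℤ) * a i - (ε i : ℤ) * a j) := by
    refine ⟨E * ((m j : ℤ) * (ε j : ℤ) * b i - (m i : ℤ) * (ε i : ℤ) * b j)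
      - (ε i : ℤ) * (ε j : ℤ) * ((m j : ℤ) * Δη i - (m i : ℤ) * Δη j), ?_⟩
    linear_combination (-(m j : ℤ) * (ε j : ℤ)) * hSL i + ((m i : ℤ) * (ε i : ℤ)) * hSL j
  have h2 : (p : ℤ) ∣ (ε j : ℤ) * a i - (ε i : ℤ) * a j :=
    (hpZ.dvd_or_dvd hmain).resolve_left hunit
  exact (Int.modEq_iff_dvd.mpr (by
    have : (ε i : ℤ) * a j - (ε j : ℤ) * a i = -((ε j : ℤ) * a i - (ε i : ℤ) * a j) := by ring
    rw [this]
    exact (dvd_neg.mpr h2)))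

end Fermat.Agent.PeuD
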