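/-
Row 38, block D (INT), seat ABS-TAME (helper50).  Sub-architect: helper62 (note "block D WIRING
v1", par. 2).

The TAME case of the abstract theorem of block D, on a nodal seed `N` with a coordinate
(`CoordData N u ϖ p0 e z`): for a class `x ∈ Pic⁰(F)[p]` fixed by a group `H` of inertial
semilinear automorphisms (`= Gal(K̄ / K₁)`), whose `H`-rational constants have valuations in
`v(π) ^ ℤ` with `v(ϖ) = v(π) ^ E`, `p ∤ E`, there is an `H`-stable representative `D` of `x` and an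
`H`-rational Kummer generator `g` (`div g = p D`) such that

  `ε_j · ord_{s₁ i} red₁ (g / c) ≡ ε_i · ord_{s₁ j} red₁ (g / c)  mod p`     for all nodes `i`, `j`.

Chain: `EKp.rep_pic0` (the `H`-stable representative) + Hilbert 90 for the constants (`hH90`)
⟹ `D`, `g`;  `CoordData.exists_eta` (`m = 1`) ⟹ (ETA);  `int_abs_tame` (Int.lean).
The `u`-hypotheses `hϖ`, `hu₁`, `hw₂`, `hu` of `int_abs_tame` come from `CoordData.ann`.
-/
import Mathlib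
import Fermat.Agent.Lib.BadRed.PeuD.Int
import Fermat.Agent.Lib.BadRed.PeuD.Coord
import Fermat.Agent.Lib.BadRed.PeuD.RepM

set_option autoImplicit false
set_option linter.unusedSectionVars false
set_option linter.unusedVariables false
set_option linter.style.haveILetI false

noncomputable section

open AlgebraicCurve Fermat.Agent.RR Fermat.Agent.Deuring Fermat.Agent.BadRed Fermat.Agent.EKp

namespace Fermat.Agent.PeuD

variable {K F k Fk₁ Fk₂ : Type*} [Field K] [Field F] [Algebra K F]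
  [Field k] [Field Fk₁] [Algebra k Fk₁] [Field Fk₂] [Algebra k Fk₂] {ι : Type*} [Fintype ι]

/-! ### the `u`-hypotheses from the annulus datum -/

theorem absTame_hw₂ {N : NodalSeed K F k Fk₁ Fk₂ ι} {u : F} {ϖ : K} (h : AnnulusData N u ϖ) :
    N.S₂.red (algebraMap K F ϖ * u⁻¹) ≠ 0 := by
  rw [← div_eq_mul_inv]
  exact h.red₂_ne

theorem absTame_noDiv {N : NodalSeed K F k Fk₁ Fk₂ ι} {u : F} {ϖ : K} (h : AnnulusData N u ϖ)
    (i : ι) : NoDivAtNode N i u :=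
  fun P hP => h.ord_N P hP.1

/-! ### the `H`-stable representative and its `H`-rational Kummer generator -/

/-- **(REP), tame**: a class `x ∈ Pic⁰(F)[p]` fixed by `H` has an `H`-stable representative `D`
and an `H`-rational Kummer generator `g`, `div g = p D`. -/
theorem absTame_rep (hF : IsRRField K F) (p : ℕ) (H : Subgroup (SemilinearAut K F))
    (hH90 : ∀ f : F, f ≠ 0 → (∀ t ∈ H, ∃ a : K, t • f = algebraMap K F a * f) →
      ∃ a : K, a ≠ 0 ∧ ∀ t ∈ H, t • (algebraMap K F a * f) = algebraMap K F a * f)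
    (oo : Place K F) (hoo : ∀ t ∈ H, t • oo = oo)
    (x : Pic0 K F) (hpx : p • x = 0) (hHx : ∀ t ∈ H, t • x = x) :
    ∃ (D : Divisor.degZero (K := K) (F := F)) (g : F),
      Pic0.mk D = x ∧ (∀ t ∈ H, t • (D : Divisor K F) = (D : Divisor K F)) ∧ g ≠ 0 ∧
        (∀ t ∈ H, t • g = g) ∧ ∀ P : Place K F, P.ord g = p * (D : Divisor K F) P := by
  obtain ⟨D, hDx, hDfix⟩ := Fermat.Agent.EKp.rep_pic0 hF oo (H : Set (SemilinearAut K F))
    hoo x hHx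
  have hDinv : ∀ t ∈ H, ∀ v : Place K F, (D : Divisor K F) (t⁻¹ • v) = (D : Divisor K F) v := by
    intro t ht v
    rw [← SemilinearAut.divisor_smul_apply, hDfix t ht]
  have hpD : Pic0.mk (p • D) = 0 := by
    have : Pic0.mk (p • D) = p • Pic0.mk D := rfl
    rw [this, hDx, hpx]
  obtain ⟨g₀, hg₀, hg₀div⟩ := repM_exists_of_mk_eq_zero hpD
  have hg₀ord : ∀ v : Place K F, v.ord g₀ = p * (D : Divisor K F) v := by
    intro v
    rw [← hg₀div v, AddSubgroup.coe_nsmul, Finsupp.smul_apply, nsmul_eq_mul]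
  obtain ⟨a, ha, hafix⟩ := hH90 g₀ hg₀ (fun t ht =>
    repM_semi_of_div hF t hg₀ (fun v => by rw [hg₀ord, hg₀ord, hDinv t ht]))
  refine ⟨D, algebraMap K F a * g₀, hDx, hDfix, mul_ne_zero (by simpa using ha) hg₀, hafix,
    fun v => ?_⟩
  rw [repM_ord_const_mul v ha hg₀, hg₀ord]

/-! ### ABS-TAME -/

/-- **ABS-TAME** (block D, tame case), with the `H`-rationality of `g` in the conclusion: on a
nodal seed with a coordinate `z` fixed by `H`, every `H`-fixed class `x` of order `p` has a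
representative `D` with an `H`-rational Kummer generator `g` for which the slopes of `red₁ g` at
the nodes are proportional to the thickness exponents modulo `p`. -/
theorem abs_tame_fix [Infinite k] [Nonempty ι] (N : NodalSeed K F k Fk₁ Fk₂ ι) (p : ℕ)
    (hp : p.Prime) {u : F} {ϖ p0 : K} {e : ℕ} {z : F} (hz : CoordData N u ϖ p0 e z)
    {ε : ι → ℕ}
    (hε₁ : ∀ i, (N.s₁ i).ord (N.S₁.red u) = ε i)
    (hε₂ : ∀ i, (N.s₂ i).ord (N.S₂.red (algebraMap K F ϖ * u⁻¹)) = ε i)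
    (H : Subgroup (SemilinearAut K F)) (hHin : ∀ t ∈ H, N.nodalSetup.IsInertial t)
    (hzH : ∀ t ∈ H, t • z = z)
    {π : K} (hπ0 : π ≠ 0) (hπ1 : N.S₁.A.valuation π < 1)
    (hval : ∀ c : K, c ≠ 0 → (∀ t ∈ H, SemilinearAut.baseAut t c = c) →
      ∃ n : ℤ, N.S₁.A.valuation c = N.S₁.A.valuation π ^ n)
    {E : ℕ} (hE : ¬ (p : ℤ) ∣ (E : ℤ))
    (hϖπ : N.S₁.A.valuation ϖ = N.S₁.A.valuation π ^ E)
    (hG1₁ : ∀ f : F, f ≠ 0 → (∀ t ∈ H, t • f = f) →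
      ∃ c : K, (∀ t ∈ H, SemilinearAut.baseAut t c = c) ∧ N.S₁.red (f / algebraMap K F c) ≠ 0)
    (hG1₂ : ∀ f : F, f ≠ 0 → (∀ t ∈ H, t • f = f) →
      ∃ c : K, (∀ t ∈ H, SemilinearAut.baseAut t c = c) ∧ N.S₂.red (f / algebraMap K F c) ≠ 0)
    (hH90 : ∀ f : F, f ≠ 0 → (∀ t ∈ H, ∃ a : K, t • f = algebraMap K F a * f) →
      ∃ a : K, a ≠ 0 ∧ ∀ t ∈ H, t • (algebraMap K F a * f) = algebraMap K F a * f)
    (oo : Place K F) (hoo : ∀ t ∈ H, t • oo = oo)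
    (x : Pic0 K F) (hpx : p • x = 0) (hHx : ∀ t ∈ H, t • x = x) :
    ∃ (D : Divisor.degZero (K := K) (F := F)) (g : F),
      Pic0.mk D = x ∧ g ≠ 0 ∧ (∀ t ∈ H, t • g = g) ∧
        (∀ P : Place K F, P.ord g = p * (D : Divisor K F) P) ∧
        ∀ c : K, N.S₁.red (g / algebraMap K F c) ≠ 0 → ∀ i j : ι,
          (p : ℤ) ∣ (ε j : ℤ) * (N.s₁ i).ord (N.S₁.red (g / algebraMap K F c)) -
            (ε i : ℤ) * (N.s₁ j).ord (N.S₁.red (g / algebraMap K F c)) := by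
  obtain ⟨D, g, hDx, hDfix, hg0, hgH, hgord⟩ :=
    absTame_rep N.S₁.hF p H hH90 oo hoo x hpx hHx
  refine ⟨D, g, hDx, hg0, hgH, hgord, fun c hc i j => ?_⟩
  have hp1 : ¬ (p : ℤ) ∣ ((1 : ℕ) : ℤ) := by
    rw [Nat.cast_one]
    intro h
    have h1 : p ∣ 1 := by exact_mod_cast h
    exact hp.one_lt.ne' (Nat.dvd_one.mp h1)
  have hη : ∀ l : ι, ∃ (m : ℕ) (η : F), ¬ (p : ℤ) ∣ (m : ℤ) ∧ η ≠ 0 ∧
      (∀ t ∈ (H : Set (SemilinearAut K F)), t • η = η) ∧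
      ∀ P : Place K F, IsNodeOf N P l → P.ord η = m * (D : Divisor K F) P := by
    intro l
    obtain ⟨η, hη0, hηord, hηfix⟩ := hz.exists_eta (D : Divisor K F) l
    refine ⟨1, η, hp1, hη0, fun t ht => hηfix t (hHin t ht) (hzH t ht) (hDfix t ht),
      fun P hP => ?_⟩
    rw [hηord P hP, Nat.cast_one, one_mul]
  exact int_abs_tame N p hp hz.ann.varpi_ne hz.ann.red₁_ne (absTame_hw₂ hz.ann) hε₁ hε₂
    (absTame_noDiv hz.ann) (H : Set (SemilinearAut K F)) hπ0 hπ1 hval hE hϖπ hG1₁ hG1₂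
    (fun P => (D : Divisor K F) P) hg0 hgH (fun P l _ => hgord P) hη hc i j

/-- **ABS-TAME** in the shape of helper62's WIRING v1, par. 1-2 (the conclusion of ABS-WILD). -/
theorem abs_tame [Infinite k] [Nonempty ι] (N : NodalSeed K F k Fk₁ Fk₂ ι) (p : ℕ)
    (hp : p.Prime) {u : F} {ϖ p0 : K} {e : ℕ} {z : F} (hz : CoordData N u ϖ p0 e z)
    {ε : ι → ℕ}
    (hε₁ : ∀ i, (N.s₁ i).ord (N.S₁.red u) = ε i)
    (hε₂ : ∀ i, (N.s₂ i).ord (N.S₂.red (algebraMap K F ϖ * u⁻¹)) = ε i)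
    (H : Subgroup (SemilinearAut K F)) (hHin : ∀ t ∈ H, N.nodalSetup.IsInertial t)
    (hzH : ∀ t ∈ H, t • z = z)
    {π : K} (hπ0 : π ≠ 0) (hπ1 : N.S₁.A.valuation π < 1)
    (hval : ∀ c : K, c ≠ 0 → (∀ t ∈ H, SemilinearAut.baseAut t c = c) →
      ∃ n : ℤ, N.S₁.A.valuation c = N.S₁.A.valuation π ^ n)
    {E : ℕ} (hE : ¬ (p : ℤ) ∣ (E : ℤ))
    (hϖπ : N.S₁.A.valuation ϖ = N.S₁.A.valuation π ^ E)
    (hG1₁ : ∀ f : F, f ≠ 0 → (∀ t ∈ H, t • f = f) →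
      ∃ c : K, (∀ t ∈ H, SemilinearAut.baseAut t c = c) ∧ N.S₁.red (f / algebraMap K F c) ≠ 0)
    (hG1₂ : ∀ f : F, f ≠ 0 → (∀ t ∈ H, t • f = f) →
      ∃ c : K, (∀ t ∈ H, SemilinearAut.baseAut t c = c) ∧ N.S₂.red (f / algebraMap K F c) ≠ 0)
    (hH90 : ∀ f : F, f ≠ 0 → (∀ t ∈ H, ∃ a : K, t • f = algebraMap K F a * f) →
      ∃ a : K, a ≠ 0 ∧ ∀ t ∈ H, t • (algebraMap K F a * f) = algebraMap K F a * f)
    (oo : Place K F) (hoo : ∀ t ∈ H, t • oo = oo)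
    (x : Pic0 K F) (hpx : p • x = 0) (hHx : ∀ t ∈ H, t • x = x) :
    ∃ (D : Divisor.degZero (K := K) (F := F)) (g : F),
      Pic0.mk D = x ∧ g ≠ 0 ∧ (∀ P : Place K F, P.ord g = p * (D : Divisor K F) P) ∧
        ∀ c : K, N.S₁.red (g / algebraMap K F c) ≠ 0 → ∀ i j : ι,
          (p : ℤ) ∣ (ε j : ℤ) * (N.s₁ i).ord (N.S₁.red (g / algebraMap K F c)) -
            (ε i : ℤ) * (N.s₁ j).ord (N.S₁.red (g / algebraMap K F c)) := by
  obtain ⟨D, g, h1, h2, -, h3, h4⟩ := abs_tame_fix N p hp hz hε₁ hε₂ H hHin hzH hπ0 hπ1 hval hE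
    hϖπ hG1₁ hG1₂ hH90 oo hoo x hpx hHx
  exact ⟨D, g, h1, h2, h3, h4⟩

/-- **ABS-TAME** with the thickness exponents of the coordinate (`ε_i = e` for all `i`, by
`CoordData.eps_eq`): only the hypothesis on the second side remains. -/
theorem abs_tame_e [Infinite k] [Nonempty ι] (N : NodalSeed K F k Fk₁ Fk₂ ι) (p : ℕ)
    (hp : p.Prime) {u : F} {ϖ p0 : K} {e : ℕ} {z : F} (hz : CoordData N u ϖ p0 e z)
    (hε₂ : ∀ i, (N.s₂ i).ord (N.S₂.red (algebraMap K F ϖ * u⁻¹)) = e)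
    (H : Subgroup (SemilinearAut K F)) (hHin : ∀ t ∈ H, N.nodalSetup.IsInertial t)
    (hzH : ∀ t ∈ H, t • z = z)
    {π : K} (hπ0 : π ≠ 0) (hπ1 : N.S₁.A.valuation π < 1)
    (hval : ∀ c : K, c ≠ 0 → (∀ t ∈ H, SemilinearAut.baseAut t c = c) →
      ∃ n : ℤ, N.S₁.A.valuation c = N.S₁.A.valuation π ^ n)
    {E : ℕ} (hE : ¬ (p : ℤ) ∣ (E : ℤ))
    (hϖπ : N.S₁.A.valuation ϖ = N.S₁.A.valuation π ^ E)
    (hG1₁ : ∀ f : F, f ≠ 0 → (∀ t ∈ H, t • f = f) →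
      ∃ c : K, (∀ t ∈ H, SemilinearAut.baseAut t c = c) ∧ N.S₁.red (f / algebraMap K F c) ≠ 0)
    (hG1₂ : ∀ f : F, f ≠ 0 → (∀ t ∈ H, t • f = f) →
      ∃ c : K, (∀ t ∈ H, SemilinearAut.baseAut t c = c) ∧ N.S₂.red (f / algebraMap K F c) ≠ 0)
    (hH90 : ∀ f : F, f ≠ 0 → (∀ t ∈ H, ∃ a : K, t • f = algebraMap K F a * f) →
      ∃ a : K, a ≠ 0 ∧ ∀ t ∈ H, t • (algebraMap K F a * f) = algebraMap K F a * f)
    (oo : Place K F) (hoo : ∀ t ∈ H, t • oo = oo)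
    (x : Pic0 K F) (hpx : p • x = 0) (hHx : ∀ t ∈ H, t • x = x) :
    ∃ (D : Divisor.degZero (K := K) (F := F)) (g : F),
      Pic0.mk D = x ∧ g ≠ 0 ∧ (∀ t ∈ H, t • g = g) ∧
        (∀ P : Place K F, P.ord g = p * (D : Divisor K F) P) ∧
        ∀ c : K, N.S₁.red (g / algebraMap K F c) ≠ 0 → ∀ i j : ι,
          (p : ℤ) ∣ (e : ℤ) * (N.s₁ i).ord (N.S₁.red (g / algebraMap K F c)) -
            (e : ℤ) * (N.s₁ j).ord (N.S₁.red (g / algebraMap K F c)) :=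
  abs_tame_fix N p hp hz (ε := fun _ => e) (fun i => hz.eps_eq i) hε₂ H hHin hzH hπ0 hπ1 hval hE
    hϖπ hG1₁ hG1₂ hH90 oo hoo x hpx hHx

end Fermat.Agent.PeuD
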