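/-
Row 38, block D (INT), seat D-RAT (helper57), part 4: wiring.

(RSM) in the shape of `KeyData.rsm₁`, `KeyData.rsm₂` (`Key.lean`, helper50) for a nodal seed,
from the data `DatM` of D-REP (`RepM.lean`, helper51), the hypotheses (G2), (RAT) and the
equivariant lifting `RatLift₁`, `RatLift₂` (`RatCoord.lean`).
-/
import Mathlib
import Fermat.Agent.Lib.BadRed.PeuD.Rat
import Fermat.Agent.Lib.BadRed.PeuD.RatCoord
import Fermat.Agent.Lib.BadRed.PeuD.RepM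
import Fermat.Agent.Lib.BadRed.PeuD.Key

set_option autoImplicit false
set_option linter.unusedSectionVars false
set_option linter.unusedVariables false
set_option linter.style.haveILetI false

noncomputable section

open AlgebraicCurve Fermat.Agent.RR Fermat.Agent.Deuring Fermat.Agent.BadRed

namespace Fermat.Agent.PeuD

variable {K F k Fk₁ Fk₂ : Type*} [Field K] [Field F] [Algebra K F]
  [Field k] [Field Fk₁] [Algebra k Fk₁] [Field Fk₂] [Algebra k Fk₂] {ι : Type*}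

theorem rat_apply_smul_of_fix {t : SemilinearAut K F} {D : Divisor K F} (h : t • D = D)
    (P : Place K F) : D (t • P) = D P := by
  have h1 := SemilinearAut.divisor_smul_apply_smul t D P
  rwa [h] at h1

/-- the divisor data of (RSM) from the data (DAT) of D-REP. -/
theorem ratData_of_datM {N : NodalSetup K F k Fk₁ Fk₂ ι} {H : Subgroup (SemilinearAut K F)}
    {s : SemilinearAut K F} {p : ℕ} {c : ℤ} {Dl D : Divisor K F} {g kf : F} {κ₁ κ₂ : K}
    (hdat : DatM N H s p c Dl D g kf κ₁ κ₂) (hDlH : ∀ t ∈ H, t • Dl = Dl) (hDls : s • Dl = Dl)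
    (hDl0 : ∀ Q, Finsupp.mapDomain N.r Dl (some Q) = 0) :
    RatData N (H : Set (SemilinearAut K F)) s kf :=
  ⟨hdat.k_ne, D, Dl, c, fun t ht P => rat_apply_smul_of_fix (hdat.D_fix t ht) P,
    fun t ht P => rat_apply_smul_of_fix (hDlH t ht) P, fun P => rat_apply_smul_of_fix hDls P,
    hDl0, fun P _ => hdat.ord_k P⟩

variable [Fintype ι] [Infinite k]

/-- **(RSM₁)** in the shape of `KeyData.rsm₁`. -/
theorem rat_keyRsm₁ (N : NodalSeed K F k Fk₁ Fk₂ ι) {H : Subgroup (SemilinearAut K F)}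
    {s : SemilinearAut K F} (hH : ∀ t ∈ H, N.nodalSetup.IsInertial t)
    (hs : N.nodalSetup.IsInertial s)
    {π : K} (hπA : π ∈ N.S₁.A) (hπ0 : π ≠ 0) (hπres : N.S₁.res ⟨π, hπA⟩ = 0)
    (hG2 : RatG2Statement N.S₁ (H : Set (SemilinearAut K F)) s π)
    (hRat : RatStatement N.S₁ (H : Set (SemilinearAut K F)) s π)
    {p : ℕ} {c : ℤ} {Dl D : Divisor K F} {g kf : F} {κ₁ κ₂ : K}
    (hdat : DatM N.nodalSetup H s p c Dl D g kf κ₁ κ₂)
    (hDlH : ∀ t ∈ H, t • Dl = Dl) (hDls : s • Dl = Dl)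
    (hDl0 : ∀ Q, Finsupp.mapDomain N.nodalSetup.r Dl (some Q) = 0)
    (hlift : RatLift₁ N (insert s (H : Set (SemilinearAut K F))))
    {B₁ : Fk₁} (hfo : FirstOrd N.S₁ π (kf / algebraMap K F κ₁) B₁)
    (Q : Place k Fk₁) (hQ : ∀ i, Q ≠ N.s₁ i) : 0 ≤ Q.ord B₁ := by
  rw [← hfo.2]
  exact rat_rsm₁ (N := N.nodalSetup) hH hs hπA hπ0 hπres hG2 hRat
    (ratData_of_datM hdat hDlH hDls hDl0) (ratCoord₁_of_lift N hlift) hdat.κ₁_ne Q hQ

/-- **(RSM₂)** in the shape of `KeyData.rsm₂`. -/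
theorem rat_keyRsm₂ (N : NodalSeed K F k Fk₁ Fk₂ ι) {H : Subgroup (SemilinearAut K F)}
    {s : SemilinearAut K F} (hH : ∀ t ∈ H, N.nodalSetup.IsInertial t)
    (hs : N.nodalSetup.IsInertial s)
    {π : K} (hπA : π ∈ N.S₁.A) (hπ0 : π ≠ 0) (hπres : N.S₁.res ⟨π, hπA⟩ = 0)
    (hG2 : RatG2Statement N.S₂ (H : Set (SemilinearAut K F)) s π)
    (hRat : RatStatement N.S₂ (H : Set (SemilinearAut K F)) s π)
    {p : ℕ} {c : ℤ} {Dl D : Divisor K F} {g kf : F} {κ₁ κ₂ : K}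
    (hdat : DatM N.nodalSetup H s p c Dl D g kf κ₁ κ₂)
    (hDlH : ∀ t ∈ H, t • Dl = Dl) (hDls : s • Dl = Dl)
    (hDl0 : ∀ Q, Finsupp.mapDomain N.nodalSetup.r Dl (some Q) = 0)
    (hlift : RatLift₂ N (insert s (H : Set (SemilinearAut K F))))
    {B₂ : Fk₂} (hfo : FirstOrd N.S₂ π (kf / algebraMap K F κ₂) B₂)
    (Q : Place k Fk₂) (hQ : ∀ i, Q ≠ N.s₂ i) : 0 ≤ Q.ord B₂ := by
  rw [← hfo.2]
  exact rat_rsm₂ (N := N.nodalSetup) hH hs hπA hπ0 hπres hG2 hRat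
    (ratData_of_datM hdat hDlH hDls hDl0) (ratCoord₂_of_lift N hlift) hdat.κ₂_ne Q hQ

end Fermat.Agent.PeuD
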