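/-
Row 38, block D (INT), wiring seat W-FO (helper85).  Design: helper62 (D-WIRING seats, 05:00Z).

Builds `KeyData` (`Key.lean`, helper50) from the data `DatM` (`RepM.lean`, helper51), (G1) and the
value group of `M` (`val_rat`), and (RSM) (`RatWire.lean`, helper57).

* `keyFo_div_mem` : an `M`-rational constant of valuation `< 1` is divisible by `π`
  (`v (Mˣ) = v π ^ ℤ`, `v π < 1`).
* `keyFo_firstOrd` : `f` `M`-rational with `red f = 1` ⟹ `(f - 1) / π ∈ O`, i.e.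
  `∃ B, FirstOrd S π f B`   [(G1) + `val_rat`].
* `keyFo_vg` : the field `KeyData.vg` from `val_rat`.
* `keyData_of_datM` : `∃ B₁ B₂, KeyData N π kf κ₁ κ₂ B₁ B₂`.
-/
import Mathlib
import Fermat.Agent.Lib.BadRed.PeuD.RatWire
import Fermat.Agent.Lib.BadRed.PeuD.LemmaA

set_option autoImplicit false
set_option linter.unusedSectionVars false
set_option linter.unusedVariables false

noncomputable section

open AlgebraicCurve Fermat.Agent.RR Fermat.Agent.Deuring Fermat.Agent.BadRed Fermat.Agent.EKp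

namespace Fermat.Agent.PeuD

section One

variable {K F k Fk : Type*} [Field K] [Field F] [Algebra K F]
  [Field k] [Field Fk] [Algebra k Fk]

/-- an element of `A` which is not a unit has valuation `< 1`. -/
theorem keyFo_val_lt_one (A : ValuationSubring K) {c : K} (hinv : c⁻¹ ∉ A) :
    A.valuation c < 1 := by
  by_contra h
  rw [not_lt] at h
  apply hinv
  rw [← A.valuation_le_one_iff, map_inv₀]
  have h0 : 0 < A.valuation c := lt_of_lt_of_le zero_lt_one h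
  exact (inv_le_one₀ h0).mpr h

/-- an `M`-rational constant of valuation `< 1` is divisible by `π`. -/
theorem keyFo_div_mem (A : ValuationSubring K) (IsRat : K → Prop) {π : K} (hπ0 : π ≠ 0)
    (hπ1 : A.valuation π < 1)
    (hval : ∀ c : K, IsRat c → c ≠ 0 → ∃ n : ℤ, A.valuation c = A.valuation π ^ n)
    {c : K} (hcR : IsRat c) (hc1 : A.valuation c < 1) : c / π ∈ A := by
  rcases eq_or_ne c 0 with rfl | hc0
  · rw [zero_div]; exact A.zero_mem
  obtain ⟨n, hn⟩ := hval c hcR hc0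
  have hv0 : 0 < A.valuation π := zero_lt_iff.mpr ((Valuation.ne_zero_iff _).mpr hπ0)
  have hn1 : 1 ≤ n := by
    by_contra hlt
    have hn0 : n ≤ 0 := by omega
    have := one_le_zpow_of_nonpos₀ hv0 hπ1.le hn0
    rw [← hn] at this
    exact absurd hc1 (not_lt.mpr this)
  have hle : A.valuation c ≤ A.valuation π := by
    rw [hn]
    have := zpow_le_zpow_right_of_le_one₀ hv0 hπ1.le hn1
    simpa using this
  rw [← A.valuation_le_one_iff, map_div₀]
  exact (div_le_one₀ hv0).mpr hle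

variable (S : ValSetup K F k Fk)

/-- **W-FO, one valuation**: an `M`-rational function with reduction `1` has a first-order
expansion `f = 1 + π b`, `b ∈ O`. -/
theorem keyFo_firstOrd (H : Set (SemilinearAut K F)) {π : K} (hπ0 : π ≠ 0)
    (hπ1 : S.A.valuation π < 1)
    (hG1 : ∀ f : F, f ≠ 0 → (∀ t ∈ H, t • f = f) →
      ∃ a : K, a ≠ 0 ∧ (∀ t ∈ H, SemilinearAut.baseAut t a = a) ∧
        S.red (f / algebraMap K F a) ≠ 0)
    (hval : ∀ c : K, (∀ t ∈ H, SemilinearAut.baseAut t c = c) → c ≠ 0 →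
      ∃ n : ℤ, S.A.valuation c = S.A.valuation π ^ n)
    {f : F} (hfH : ∀ t ∈ H, t • f = f) (hred : S.red f = 1) :
    ∃ B : Fk, FirstOrd S π f B := by
  have hfO : f ∈ S.Ov := S.mem_of_red_ne_zero (by rw [hred]; exact one_ne_zero)
  have h1O : (1 : F) ∈ S.Ov := S.Ov.one_mem
  have hred0 : S.red (f - 1) = 0 := by
    rw [S.red_sub hfO h1O, hred, S.red_one, sub_self]
  suffices h : (f - 1) / algebraMap K F π ∈ S.Ov from ⟨_, h, rfl⟩
  rcases eq_or_ne (f - 1) 0 with h0 | h0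
  · rw [h0, zero_div]; exact S.Ov.zero_mem
  have hgH : ∀ t ∈ H, t • (f - 1) = f - 1 := by
    intro t ht
    rw [smul_sub, hfH t ht, smul_one]
  obtain ⟨a, ha0, haH, hau⟩ := hG1 (f - 1) h0 hgH
  have ha0' : algebraMap K F a ≠ 0 := (map_ne_zero _).mpr ha0
  have hπ0' : algebraMap K F π ≠ 0 := (map_ne_zero _).mpr hπ0
  have hwO : (f - 1) / algebraMap K F a ∈ S.Ov := S.mem_of_red_ne_zero hau
  -- `a` is not a unit of `A`
  have hainv : a⁻¹ ∉ S.A := by
    intro hinv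
    have hinvO : algebraMap K F a⁻¹ ∈ S.Ov := S.algebraMap_mem hinv
    have e : (f - 1) / algebraMap K F a = (f - 1) * algebraMap K F a⁻¹ := by
      rw [map_inv₀, div_eq_mul_inv]
    rw [e, S.red_mul (sub_mem hfO h1O) hinvO, hred0, zero_mul] at hau
    exact hau rfl
  have ha1 : S.A.valuation a < 1 := keyFo_val_lt_one S.A hainv
  have hdiv : a / π ∈ S.A :=
    keyFo_div_mem S.A (fun c => ∀ t ∈ H, SemilinearAut.baseAut t c = c) hπ0 hπ1 hval haH ha1
  have e : (f - 1) / algebraMap K F π = (f - 1) / algebraMap K F a * algebraMap K F (a / π) := by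
    rw [map_div₀]
    field_simp
  rw [e]
  exact mul_mem hwO (S.algebraMap_mem hdiv)

/-- **(VG)**: the field `KeyData.vg` from the value group of `M`. -/
theorem keyFo_vg (H : Set (SemilinearAut K F)) {π : K} (hπ0 : π ≠ 0)
    (hπ1 : S.A.valuation π < 1)
    (hval : ∀ c : K, (∀ t ∈ H, SemilinearAut.baseAut t c = c) → c ≠ 0 →
      ∃ n : ℤ, S.A.valuation c = S.A.valuation π ^ n)
    {c : K} (hcH : ∀ t ∈ H, SemilinearAut.baseAut t c = c) (hcA : c ∈ S.A)
    (hres : S.res ⟨c, hcA⟩ = 1) : (c - 1) / π ∈ S.A := by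
  have h1A : (1 : K) ∈ S.A := S.A.one_mem
  have hdA : c - 1 ∈ S.A := sub_mem hcA h1A
  have hres0 : S.res ⟨c - 1, hdA⟩ = 0 := by
    have e : (⟨c - 1, hdA⟩ : S.A) = ⟨c, hcA⟩ - 1 := Subtype.ext rfl
    rw [e, map_sub, hres, map_one, sub_self]
  rcases eq_or_ne (c - 1) 0 with h0 | h0
  · rw [h0, zero_div]; exact S.A.zero_mem
  have hinv : (c - 1)⁻¹ ∉ S.A := inv_notMem_of_res_eq_zero S h0 hdA hres0
  have hdH : ∀ t ∈ H, SemilinearAut.baseAut t (c - 1) = c - 1 := by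
    intro t ht
    rw [map_sub, hcH t ht, map_one]
  exact keyFo_div_mem S.A (fun c => ∀ t ∈ H, SemilinearAut.baseAut t c = c) hπ0 hπ1 hval hdH
    (keyFo_val_lt_one S.A hinv)

/-- `res π = 0` from `v π < 1`. -/
theorem keyFo_res_pi {π : K} (hπA : π ∈ S.A) (hπ1 : S.A.valuation π < 1) :
    S.res ⟨π, hπA⟩ = 0 := by
  rcases eq_or_ne π 0 with h0 | h0
  · subst h0
    exact map_zero S.res
  · have h := la_red_pi (S := S) h0 hπ1
    rw [S.red_algebraMap hπA] at h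
    exact (map_eq_zero_iff _ (algebraMap k Fk).injective).mp h

/-- `v π < 1` from `res π = 0`, `π ≠ 0`. -/
theorem keyFo_val_pi {π : K} (hπ0 : π ≠ 0) (hπA : π ∈ S.A) (hπres : S.res ⟨π, hπA⟩ = 0) :
    S.A.valuation π < 1 :=
  keyFo_val_lt_one S.A (inv_notMem_of_res_eq_zero S hπ0 hπA hπres)

end One

section Two

variable {K F k Fk₁ Fk₂ : Type*} [Field K] [Field F] [Algebra K F]
  [Field k] [Field Fk₁] [Algebra k Fk₁] [Field Fk₂] [Algebra k Fk₂] {ι : Type*} [Fintype ι]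
  [Infinite k]

/-- **W-FO**: the global data `KeyData` of (KEY) from (DAT), (G1), the value group of `M`
and (RSM). -/
theorem keyData_of_datM (N : NodalSeed K F k Fk₁ Fk₂ ι) {H : Subgroup (SemilinearAut K F)}
    {s : SemilinearAut K F} (hH : ∀ t ∈ H, N.nodalSetup.IsInertial t)
    (hs : N.nodalSetup.IsInertial s)
    {π : K} (hπA : π ∈ N.S₁.A) (hπ0 : π ≠ 0) (hπres : N.S₁.res ⟨π, hπA⟩ = 0)
    (hval : ∀ c : K, (∀ t ∈ H, SemilinearAut.baseAut t c = c) → c ≠ 0 →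
      ∃ n : ℤ, N.S₁.A.valuation c = N.S₁.A.valuation π ^ n)
    (hG1₁ : ∀ f : F, f ≠ 0 → (∀ t ∈ H, t • f = f) →
      ∃ a : K, a ≠ 0 ∧ (∀ t ∈ H, SemilinearAut.baseAut t a = a) ∧
        N.S₁.red (f / algebraMap K F a) ≠ 0)
    (hG1₂ : ∀ f : F, f ≠ 0 → (∀ t ∈ H, t • f = f) →
      ∃ a : K, a ≠ 0 ∧ (∀ t ∈ H, SemilinearAut.baseAut t a = a) ∧
        N.S₂.red (f / algebraMap K F a) ≠ 0)
    (hG2₁ : RatG2Statement N.S₁ (H : Set (SemilinearAut K F)) s π)
    (hRat₁ : RatStatement N.S₁ (H : Set (SemilinearAut K F)) s π)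
    (hG2₂ : RatG2Statement N.S₂ (H : Set (SemilinearAut K F)) s π)
    (hRat₂ : RatStatement N.S₂ (H : Set (SemilinearAut K F)) s π)
    {p : ℕ} {c : ℤ} {Dl D : Divisor K F} {g kf : F} {κ₁ κ₂ : K}
    (hdat : DatM N.nodalSetup H s p c Dl D g kf κ₁ κ₂)
    (hDlH : ∀ t ∈ H, t • Dl = Dl) (hDls : s • Dl = Dl)
    (hDl0 : ∀ Q, Finsupp.mapDomain N.nodalSetup.r Dl (some Q) = 0)
    (hlift₁ : RatLift₁ N (insert s (H : Set (SemilinearAut K F))))
    (hlift₂ : RatLift₂ N (insert s (H : Set (SemilinearAut K F)))) :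
    ∃ (B₁ : Fk₁) (B₂ : Fk₂), KeyData N π kf κ₁ κ₂ B₁ B₂ := by
  have hAeq : N.S₂.A = N.S₁.A := N.A_eq.symm
  have hπ1 : N.S₁.A.valuation π < 1 := keyFo_val_pi N.S₁ hπ0 hπA hπres
  have hπ1' : N.S₂.A.valuation π < 1 := by
    apply keyFo_val_lt_one
    rw [hAeq]
    exact inv_notMem_of_res_eq_zero N.S₁ hπ0 hπA hπres
  have hval' : ∀ c : K, (∀ t ∈ H, SemilinearAut.baseAut t c = c) → c ≠ 0 →
      ∃ n : ℤ, N.S₂.A.valuation c = N.S₂.A.valuation π ^ n := by
    rw [hAeq]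
    exact hval
  have hk₁H : ∀ t ∈ (H : Set (SemilinearAut K F)), t • (kf / algebraMap K F κ₁) =
      kf / algebraMap K F κ₁ := by
    intro t ht
    rw [SemilinearAut.smul_def, map_div₀, ← SemilinearAut.smul_def, ← SemilinearAut.smul_def,
      hdat.k_fix t ht, SemilinearAut.smul_algebraMap, hdat.κ₁_rat t ht]
  have hk₂H : ∀ t ∈ (H : Set (SemilinearAut K F)), t • (kf / algebraMap K F κ₂) =
      kf / algebraMap K F κ₂ := by
    intro t ht
    rw [SemilinearAut.smul_def, map_div₀, ← SemilinearAut.smul_def, ← SemilinearAut.smul_def,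
      hdat.k_fix t ht, SemilinearAut.smul_algebraMap, hdat.κ₂_rat t ht]
  obtain ⟨B₁, hfo₁⟩ := keyFo_firstOrd N.S₁ (H : Set (SemilinearAut K F)) hπ0 hπ1 hG1₁ hval
    hk₁H hdat.red₁
  obtain ⟨B₂, hfo₂⟩ := keyFo_firstOrd N.S₂ (H : Set (SemilinearAut K F)) hπ0 hπ1' hG1₂ hval'
    hk₂H hdat.red₂
  refine ⟨B₁, B₂, ⟨hπA, hπ0, hπres, hdat.κ₁_ne, hdat.κ₂_ne, hfo₁, hfo₂, ?_, ?_, ?_⟩⟩
  · exact rat_keyRsm₁ N hH hs hπA hπ0 hπres hG2₁ hRat₁ hdat hDlH hDls hDl0 hlift₁ hfo₁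
  · exact rat_keyRsm₂ N hH hs hπA hπ0 hπres hG2₂ hRat₂ hdat hDlH hDls hDl0 hlift₂ hfo₂
  · intro m hc hres
    refine keyFo_vg N.S₁ (H : Set (SemilinearAut K F)) hπ0 hπ1 hval ?_ hc hres
    intro t ht
    rw [map_pow, map_div₀, hdat.κ₁_rat t ht, hdat.κ₂_rat t ht]

end Two

end Fermat.Agent.PeuD
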