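/-
Row 38, block D (INT), seat D-RAT (helper57), part 3: the hypothesis **(RAT)** of `Rat.lean`
from Lemma A (`LemmaA.lean`, helper85).

`RatStatement S H s π`: a function `f` of the maximal ideal of `Ov` which is fixed by `H` and by
`s` is divisible by `π²`.

Proof: `f = c · (unit)` with an `M`-rational constant `c`, `v c = v π ^ n` ((G1) and the value
group of `M`).  Lemma A: `s f / f ≡ 1 + n α₀ π mod π² Ov`; `s f = f` gives `n α₀ / π ∈ A`, so
`n` vanishes in the residue field (`α₀` is a unit): `p ∣ n`.  `red f = 0` gives `n ≥ 1`, hence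
`n ≥ p ≥ 2` and `c / π² ∈ A`.
-/
import Mathlib
import Fermat.Agent.Lib.BadRed.PeuD.Rat
import Fermat.Agent.Lib.BadRed.PeuD.LemmaA

set_option autoImplicit false
set_option linter.unusedSectionVars false
set_option linter.unusedVariables false
set_option linter.style.haveILetI false

noncomputable section

open AlgebraicCurve Fermat.Agent.RR Fermat.Agent.Deuring Fermat.Agent.BadRed

namespace Fermat.Agent.PeuD

variable {K F k Fk : Type*} [Field K] [Field F] [Algebra K F]
  [Field k] [Field Fk] [Algebra k Fk] {S : ValSetup K F k Fk}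

/-- the residue of a constant of valuation `< 1` vanishes. -/
theorem rat_res_eq_zero_of_val_lt {c : K} (hc : S.A.valuation c < 1)
    (hcA : c ∈ S.A) : S.res ⟨c, hcA⟩ = 0 := by
  rcases eq_or_ne c 0 with rfl | hc0
  · exact map_zero S.res
  have hinv : c⁻¹ ∉ S.A := by
    intro h
    have h1 : S.A.valuation c⁻¹ ≤ 1 := (S.A.valuation_le_one_iff _).mpr h
    rw [map_inv₀] at h1
    have hv0 : 0 < S.A.valuation c := zero_lt_iff.mpr ((Valuation.ne_zero_iff _).mpr hc0)
    have h2 : 1 ≤ S.A.valuation c := by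
      have := (inv_le_one₀ hv0).mp h1
      exact this
    exact absurd hc (not_lt.mpr h2)
  obtain ⟨h', hres⟩ := S.res_inv_eq_zero hinv
  have e : (⟨c, hcA⟩ : S.A) = ⟨c⁻¹⁻¹, h'⟩ := Subtype.ext (inv_inv c).symm
  rw [e]
  exact hres

/-- (G2) in the shape of `Rat.lean` from (G2) in the shape of `LemmaA.lean`. -/
theorem ratG2Statement_of {H : Set (SemilinearAut K F)} {s : SemilinearAut K F} {π : K}
    (hG2 : ∀ f : F, f ∈ S.Ov → (∀ t ∈ H, t • f = f) →
      (s • f - f) / algebraMap K F (π ^ 2) ∈ S.Ov) : RatG2Statement S H s π :=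
  fun f hfH hf => hG2 f hf hfH

/-- **(RAT)** from Lemma A. -/
theorem ratStatement_of_lemmaA (p : ℕ) (hp : p.Prime) [CharP k p]
    (s : SemilinearAut K F) (H : Set (SemilinearAut K F)) {π α₀ : K}
    (hπ0 : π ≠ 0) (hπ1 : S.A.valuation π < 1)
    (hπH : ∀ t ∈ H, SemilinearAut.baseAut t π = π) (hα₀ : α₀ ∈ S.A)
    (hα₀u : S.A.valuation α₀ = 1)
    (hsπ : (SemilinearAut.baseAut s π - π * (1 + α₀ * π)) / π ^ 3 ∈ S.A)
    (hA1 : ∀ c : K, c ∈ S.A → (∀ t ∈ H, SemilinearAut.baseAut t c = c) →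
      (SemilinearAut.baseAut s c - c) / π ^ 2 ∈ S.A)
    (hG2 : ∀ f : F, f ∈ S.Ov → (∀ t ∈ H, t • f = f) →
      (s • f - f) / algebraMap K F (π ^ 2) ∈ S.Ov)
    (hG1 : ∀ f : F, f ≠ 0 → (∀ t ∈ H, t • f = f) →
      ∃ c : K, (∀ t ∈ H, SemilinearAut.baseAut t c = c) ∧ S.red (f / algebraMap K F c) ≠ 0)
    (hval : ∀ c : K, c ≠ 0 → (∀ t ∈ H, SemilinearAut.baseAut t c = c) →
      ∃ n : ℤ, S.A.valuation c = S.A.valuation π ^ n) :
    RatStatement S H s π := by
  intro f hfH hfs hf hred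
  rcases eq_or_ne f 0 with rfl | hf0
  · rw [zero_div]
    exact zero_mem _
  obtain ⟨n, c, hcH, hc, hcn⟩ := laOrd_exists (S := S) (π := π) hG1 hval hf0 hfH
  have hc0 : c ≠ 0 := by
    intro h0
    exact S.ne_zero_of_red_ne_zero hc (by rw [h0, map_zero, div_zero])
  have hπF : algebraMap K F π ≠ 0 := rat_const_ne_zero hπ0
  have hcF : algebraMap K F c ≠ 0 := rat_const_ne_zero hc0
  have hvπ0 : 0 < S.A.valuation π := zero_lt_iff.mpr ((Valuation.ne_zero_iff _).mpr hπ0)
  -- Lemma A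
  have hLA := lemmaA s H hπ0 hπ1 hπH hα₀ hsπ hA1 hG2 hfH hcH hc hcn
  rw [hfs, div_self hf0] at hLA
  have e1 : (1 - (1 + algebraMap K F ((n : K) * α₀ * π))) / algebraMap K F (π ^ 2) =
      algebraMap K F (-((n : K) * α₀) / π) := by
    rw [map_div₀, map_neg, map_mul, map_mul, map_pow]
    field_simp
    ring
  rw [e1, S.mem_Ov_iff] at hLA
  have hvn : S.A.valuation (n : K) < 1 := by
    have h1 : S.A.valuation (-((n : K) * α₀) / π) ≤ 1 := (S.A.valuation_le_one_iff _).mpr hLA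
    rw [map_div₀, Valuation.map_neg, map_mul, hα₀u, mul_one, div_le_one₀ hvπ0] at h1
    exact lt_of_le_of_lt h1 hπ1
  have hnA : (n : K) ∈ S.A := intCast_mem S.A n
  have hnres : S.res ⟨(n : K), hnA⟩ = 0 := rat_res_eq_zero_of_val_lt hvn hnA
  have hnk : ((n : ℤ) : k) = 0 := by
    have e : (⟨(n : K), hnA⟩ : S.A) = ((n : ℤ) : S.A) := Subtype.ext (by simp)
    rw [e, map_intCast] at hnres
    exact hnres
  have hpn : (p : ℤ) ∣ n := (CharP.intCast_eq_zero_iff k p n).mp hnk
  -- `n ≥ 1`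
  have hcinv : c⁻¹ ∉ S.A := by
    intro h
    apply hc
    have e : f / algebraMap K F c = c⁻¹ • f := by
      rw [Algebra.smul_def, map_inv₀, div_eq_inv_mul]
    rw [e, S.red_smul h hf, hred, smul_zero]
  have hvc : S.A.valuation c < 1 := by
    by_contra hge
    apply hcinv
    rw [← S.A.valuation_le_one_iff, map_inv₀]
    have hv0 : 0 < S.A.valuation c := zero_lt_iff.mpr ((Valuation.ne_zero_iff _).mpr hc0)
    exact (inv_le_one₀ hv0).mpr (not_lt.mp hge)
  have hn1 : 0 < n := by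
    rw [hcn] at hvc
    exact (zpow_lt_one_iff_right_of_lt_one₀ hvπ0 hπ1).mp hvc
  have hn2 : 2 ≤ n := by
    obtain ⟨j, hj⟩ := hpn
    have hp2 : (2 : ℤ) ≤ p := by exact_mod_cast hp.two_le
    have hj1 : 1 ≤ j := by
      by_contra hlt
      have : j ≤ 0 := by omega
      have : (p : ℤ) * j ≤ 0 := mul_nonpos_of_nonneg_of_nonpos (by omega) this
      omega
    nlinarith
  -- conclusion
  have hcπ : c / π ^ 2 ∈ S.A := by
    rw [← S.A.valuation_le_one_iff, map_div₀, map_pow, hcn, ← zpow_natCast, ← zpow_sub₀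
      (ne_of_gt hvπ0)]
    exact zpow_le_one₀ hvπ0 hπ1.le (by push_cast; omega)
  have e2 : f / algebraMap K F (π ^ 2) = f / algebraMap K F c * algebraMap K F (c / π ^ 2) := by
    rw [map_div₀, map_pow]
    field_simp
  rw [e2]
  exact mul_mem (S.mem_of_red_ne_zero hc) (S.algebraMap_mem hcπ)

end Fermat.Agent.PeuD
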