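/-
Row 38, block D (INT), wiring seat ABS-WILD (helper57).  Design: helper62 (block D WIRING v1).

ONE abstract theorem on a nodal seed `N`, a subgroup `H` of semilinear automorphisms
(`= Gal(K̄ / M)`) and the break automorphism `s` (a generator of `Gal(M / K₁)`):

  `exists_datM` (D-REP, `RepM.lean`)  ⟹  `D`, `g`, `kf`, `κ_j` with (DAT);
  `ratStatement_of_lemmaA` (`RatLA.lean`) + `keyData_of_datM` (W-FO, `KeyFo.lean`)  ⟹  `KeyData`;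
  `CoordData.exists_eta` (`Coord.lean`)  ⟹  (ETA) with `m = 1`;
  `int_abs_wild` (`Int.lean`)  ⟹  the slope congruence for the Kummer generator `g`.

* `absw_isInertial_inv` : the inverse of an inertial automorphism is inertial;
* `absw_res_ne_zero`    : a unit of `A` has nonzero residue;
* `abs_wild_fix`        : the theorem (hypotheses in the shapes of `int_abs_wild`), with the
  `H`-stability of `D` and the `H`-rationality of `g` in the conclusion;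
* `abs_wild`            : the conclusion in the shape of helper62's WIRING v1;
* `abs_wild_e`          : with the thickness exponents of the coordinate (`ε_i = e`).

The `u`-hypotheses `hϖ`, `hu₁`, `hw₂`, `hu` of `int_abs_wild` come from `CoordData.ann`
(as in `AbsTame.lean`, helper50).
-/
import Mathlib
import Fermat.Agent.Lib.BadRed.PeuD.Int
import Fermat.Agent.Lib.BadRed.PeuD.KeyFo
import Fermat.Agent.Lib.BadRed.PeuD.RatLA
import Fermat.Agent.Lib.BadRed.PeuD.Coord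

set_option autoImplicit false
set_option linter.unusedSectionVars false
set_option linter.unusedVariables false

noncomputable section

open AlgebraicCurve Fermat.Agent.RR Fermat.Agent.Deuring Fermat.Agent.BadRed Fermat.Agent.EKp

namespace Fermat.Agent.PeuD

section One

variable {K F k Fk : Type*} [Field K] [Field F] [Algebra K F]
  [Field k] [Field Fk] [Algebra k Fk] (S : ValSetup K F k Fk)

/-- a unit of `A` has nonzero residue. -/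
theorem absw_res_ne_zero {c : K} (hcA : c ∈ S.A) (hc : S.A.valuation c = 1) :
    S.res ⟨c, hcA⟩ ≠ 0 := by
  intro h0
  have hc0 : c ≠ 0 := by
    rintro rfl
    rw [map_zero] at hc
    exact zero_ne_one hc
  apply inv_notMem_of_res_eq_zero S hc0 hcA h0
  rw [← S.A.valuation_le_one_iff, map_inv₀, hc, inv_one]

/-- an automorphism preserving `Ov` and the reduction: its inverse preserves `Ov`. -/
theorem absw_inv_mem (t : SemilinearAut K F) (hmem : ∀ f : F, f ∈ S.Ov → t • f ∈ S.Ov)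
    (hred : ∀ f : F, f ∈ S.Ov → S.red (t • f) = S.red f) {f : F} (hf : f ∈ S.Ov) :
    t⁻¹ • f ∈ S.Ov := by
  by_contra hg
  set g : F := t⁻¹ • f with hgdef
  have hg0 : g ≠ 0 := fun h => hg (h ▸ S.Ov.zero_mem)
  have hginv : g⁻¹ ∈ S.Ov := (S.Ov.mem_or_inv_mem g).resolve_left hg
  have hginv0 : g⁻¹ ≠ 0 := inv_ne_zero hg0
  have hr0 : S.red g⁻¹ = 0 := by
    rw [S.red_eq_zero_iff hginv hginv0, inv_inv]
    exact hg
  have htg : t • g = f := by rw [hgdef, smul_inv_smul]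
  have e : t • g⁻¹ = f⁻¹ := by
    rw [SemilinearAut.smul_def, map_inv₀, ← SemilinearAut.smul_def, htg]
  have hf0 : f ≠ 0 := by
    rintro rfl
    apply hg0
    rw [hgdef, smul_zero]
  have h1 : f⁻¹ ∈ S.Ov := e ▸ hmem _ hginv
  have h2 : S.red f⁻¹ = 0 := by rw [← e, hred _ hginv, hr0]
  have h3 : S.red f ≠ 0 := S.red_ne_zero hf h1 hf0
  have h4 : S.red f * S.red f⁻¹ = 1 := by
    rw [← S.red_mul hf h1, mul_inv_cancel₀ hf0, S.red_one]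
  rw [h2, mul_zero] at h4
  exact zero_ne_one h4

end One

section Two

variable {K F k Fk₁ Fk₂ : Type*} [Field K] [Field F] [Algebra K F]
  [Field k] [Field Fk₁] [Algebra k Fk₁] [Field Fk₂] [Algebra k Fk₂] {ι : Type*}

/-- the inverse of an inertial automorphism is inertial. -/
theorem absw_isInertial_inv {N : NodalSetup K F k Fk₁ Fk₂ ι} {t : SemilinearAut K F}
    (ht : N.IsInertial t) : N.IsInertial t⁻¹ where
  mem₁ := fun f hf => absw_inv_mem N.S₁ t ht.mem₁ ht.red₁ hf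
  red₁ := fun f hf => by
    have h := ht.red₁ (t⁻¹ • f) (absw_inv_mem N.S₁ t ht.mem₁ ht.red₁ hf)
    rw [smul_inv_smul] at h
    exact h.symm
  mem₂ := fun f hf => absw_inv_mem N.S₂ t ht.mem₂ ht.red₂ hf
  red₂ := fun f hf => by
    have h := ht.red₂ (t⁻¹ • f) (absw_inv_mem N.S₂ t ht.mem₂ ht.red₂ hf)
    rw [smul_inv_smul] at h
    exact h.symm
  r_smul := fun P => by
    have h := ht.r_smul (t⁻¹ • P)
    rw [smul_inv_smul] at h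
    exact h.symm

variable [Fintype ι] [Nonempty ι] [Infinite k]

/-- **ABS-WILD**: the slope congruence for an `H`-fixed class `x` of order `p` with
`s x - x = c [Dl]`, in the wild case `v ϖ = v π ^ (p E')`, `p ∤ E'`, `p ∤ ε_i`. -/
theorem abs_wild_fix [PerfectField k] (N : NodalSeed K F k Fk₁ Fk₂ ι) (p : ℕ) [Fact p.Prime]
    [CharP k p] {u : F} {ϖ p0 : K} {e : ℕ} {z : F} {ε : ι → ℕ}
    (hcd : CoordData N u ϖ p0 e z)
    (hε₁ : ∀ i, (N.s₁ i).ord (N.S₁.red u) = ε i)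
    (hε₂ : ∀ i, (N.s₂ i).ord (N.S₂.red (algebraMap K F ϖ * u⁻¹)) = ε i)
    (hεp : ∀ i, ¬ (p : ℤ) ∣ (ε i : ℤ))
    (H : Subgroup (SemilinearAut K F)) (s : SemilinearAut K F)
    (hH : ∀ t ∈ H, N.nodalSetup.IsInertial t) (hs : N.nodalSetup.IsInertial s)
    (hsH : ∀ t ∈ H, s⁻¹ * t * s ∈ H)
    (hzH : ∀ t ∈ H, t • z = z)
    {π α₀ : K}
    (hπ0 : π ≠ 0) (hπ1 : N.S₁.A.valuation π < 1)
    (hπH : ∀ t ∈ H, SemilinearAut.baseAut t π = π)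
    (hα₀u : N.S₁.A.valuation α₀ = 1)
    (hsπ : (SemilinearAut.baseAut s π - π * (1 + α₀ * π)) / π ^ 3 ∈ N.S₁.A)
    (hA1 : ∀ c : K, c ∈ N.S₁.A → (∀ t ∈ H, SemilinearAut.baseAut t c = c) →
      (SemilinearAut.baseAut s c - c) / π ^ 2 ∈ N.S₁.A)
    (hval : ∀ c : K, c ≠ 0 → (∀ t ∈ H, SemilinearAut.baseAut t c = c) →
      ∃ n : ℤ, N.S₁.A.valuation c = N.S₁.A.valuation π ^ n)
    {E' : ℕ} (hE' : ¬ (p : ℤ) ∣ (E' : ℤ))
    (hϖπ : N.S₁.A.valuation ϖ = N.S₁.A.valuation π ^ (p * E'))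
    (hG1₁ : ∀ f : F, f ≠ 0 → (∀ t ∈ H, t • f = f) →
      ∃ c : K, (∀ t ∈ H, SemilinearAut.baseAut t c = c) ∧ N.S₁.red (f / algebraMap K F c) ≠ 0)
    (hG1₂ : ∀ f : F, f ≠ 0 → (∀ t ∈ H, t • f = f) →
      ∃ c : K, (∀ t ∈ H, SemilinearAut.baseAut t c = c) ∧ N.S₂.red (f / algebraMap K F c) ≠ 0)
    (hG2₁ : ∀ f : F, f ∈ N.S₁.Ov → (∀ t ∈ H, t • f = f) →
      (s • f - f) / algebraMap K F (π ^ 2) ∈ N.S₁.Ov)
    (hG2₂ : ∀ f : F, f ∈ N.S₂.Ov → (∀ t ∈ H, t • f = f) →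
      (s • f - f) / algebraMap K F (π ^ 2) ∈ N.S₂.Ov)
    (hH90 : ∀ f : F, f ≠ 0 → (∀ t ∈ H, ∃ a : K, t • f = algebraMap K F a * f) →
      ∃ a : K, a ≠ 0 ∧ ∀ t ∈ H, t • (algebraMap K F a * f) = algebraMap K F a * f)
    (hres : ∀ γ : k, ∃ (a : K) (ha : a ∈ N.S₁.A),
      (∀ t ∈ H, SemilinearAut.baseAut t a = a) ∧ N.S₁.res ⟨a, ha⟩ = γ)
    (hlift₁ : RatLift₁ N (insert s (H : Set (SemilinearAut K F))))
    (hlift₂ : RatLift₂ N (insert s (H : Set (SemilinearAut K F))))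
    (oo : Place K F) (hoo : ∀ t ∈ H, t • oo = oo)
    (x : Pic0 K F) (hpx : p • x = 0) (hHx : ∀ t ∈ H, t • x = x)
    (Dl : Divisor.degZero (K := K) (F := F)) (hl : F) (hl0 : hl ≠ 0)
    (hdivl : ∀ P : Place K F, P.ord hl = p * (Dl : Divisor K F) P)
    (hDlH : ∀ t ∈ H, t • (Dl : Divisor K F) = Dl) (hDls : s • (Dl : Divisor K F) = Dl)
    (hl₁ : N.S₁.red hl = 1) (hl₂ : N.S₂.red hl = 1)
    (hDlred : N.nodalSetup.RedTrivial (Dl : Divisor K F))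
    (c : ℤ) (hsx : s • x - x = c • Pic0.mk Dl) :
    ∃ (D : Divisor.degZero (K := K) (F := F)) (g : F), Pic0.mk D = x ∧ g ≠ 0 ∧
      (∀ t ∈ H, t • (D : Divisor K F) = D) ∧ (∀ t ∈ H, t • g = g) ∧
      (∀ P : Place K F, P.ord g = p * (D : Divisor K F) P) ∧
      ∀ c' : K, N.S₁.red (g / algebraMap K F c') ≠ 0 → ∀ i j : ι,
        (p : ℤ) ∣ (ε j : ℤ) * (N.s₁ i).ord (N.S₁.red (g / algebraMap K F c')) -
          (ε i : ℤ) * (N.s₁ j).ord (N.S₁.red (g / algebraMap K F c')) := by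
  have hp : p.Prime := Fact.out
  have hϖ : ϖ ≠ 0 := hcd.ann.varpi_ne
  have hu₁ : N.S₁.red u ≠ 0 := hcd.ann.red₁_ne
  have hw₂ : N.S₂.red (algebraMap K F ϖ * u⁻¹) ≠ 0 := by
    rw [← div_eq_mul_inv]
    exact hcd.ann.red₂_ne
  have hu : ∀ i, NoDivAtNode N i u := fun i P hP => hcd.ann.ord_N P hP.1
  have hAeq : N.S₂.A = N.S₁.A := N.A_eq.symm
  have hα₀ : α₀ ∈ N.S₁.A := (N.S₁.A.valuation_le_one_iff _).mp hα₀u.le
  have hπA : π ∈ N.S₁.A := (N.S₁.A.valuation_le_one_iff _).mp hπ1.le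
  have hπres : N.S₁.res ⟨π, hπA⟩ = 0 := keyFo_res_pi N.S₁ hπA hπ1
  -- the strong shapes of (G1)
  have hG1₁' : ∀ f : F, f ≠ 0 → (∀ t ∈ H, t • f = f) →
      ∃ a : K, a ≠ 0 ∧ (∀ t ∈ H, SemilinearAut.baseAut t a = a) ∧
        N.S₁.red (f / algebraMap K F a) ≠ 0 := fun f hf hfH => by
    obtain ⟨a, haH, hau⟩ := hG1₁ f hf hfH
    exact ⟨a, int_scale_ne N.S₁ hau, haH, hau⟩
  have hG1₂' : ∀ f : F, f ≠ 0 → (∀ t ∈ H, t • f = f) →
      ∃ a : K, a ≠ 0 ∧ (∀ t ∈ H, SemilinearAut.baseAut t a = a) ∧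
        N.S₂.red (f / algebraMap K F a) ≠ 0 := fun f hf hfH => by
    obtain ⟨a, haH, hau⟩ := hG1₂ f hf hfH
    exact ⟨a, int_scale_ne N.S₂ hau, haH, hau⟩
  have hval' : ∀ c : K, (∀ t ∈ H, SemilinearAut.baseAut t c = c) → c ≠ 0 →
      ∃ n : ℤ, N.S₁.A.valuation c = N.S₁.A.valuation π ^ n := fun c hcH hc0 => hval c hc0 hcH
  -- (DAT)
  obtain ⟨D, g, kf, κ₁, κ₂, hDx, hdat⟩ := exists_datM N.nodalSetup p H s hsH hs hH90 hG1₁' hG1₂'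
    hres oo hoo x hpx hHx Dl hl hl0 hdivl hDlH hl₁ hl₂ c hsx
  -- (RAT) for both valuations
  have hRat₁ : RatStatement N.S₁ (H : Set (SemilinearAut K F)) s π :=
    ratStatement_of_lemmaA (S := N.S₁) p hp s (H : Set (SemilinearAut K F)) hπ0 hπ1 hπH hα₀ hα₀u
      hsπ hA1 hG2₁ hG1₁ hval
  have hRat₂ : RatStatement N.S₂ (H : Set (SemilinearAut K F)) s π := by
    refine ratStatement_of_lemmaA (S := N.S₂) (α₀ := α₀) p hp s (H : Set (SemilinearAut K F))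
      hπ0 ?_ hπH ?_ ?_ ?_ ?_ hG2₂ hG1₂ ?_
    · rw [hAeq]; exact hπ1
    · rw [hAeq]; exact hα₀
    · rw [hAeq]; exact hα₀u
    · rw [hAeq]; exact hsπ
    · rw [hAeq]; exact hA1
    · rw [hAeq]; exact hval
  -- (KEY) data
  obtain ⟨B₁, B₂, hkey⟩ := keyData_of_datM N hH hs hπA hπ0 hπres hval' hG1₁' hG1₂'
    (ratG2Statement_of (S := N.S₁) hG2₁) hRat₁ (ratG2Statement_of (S := N.S₂) hG2₂) hRat₂ hdat
    hDlH hDls hDlred.2 hlift₁ hlift₂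
  refine ⟨D, g, hDx, hdat.g_ne, hdat.D_fix, hdat.g_fix, hdat.ord_g, fun c' hc' i j => ?_⟩
  have hsinv : N.nodalSetup.IsInertial s⁻¹ := absw_isInertial_inv hs
  refine int_abs_wild N p hp hϖ hu₁ hw₂ hε₁ hε₂ hu hεp (H : Set (SemilinearAut K F)) s hπ0 hπ1
    hπH hα₀ (absw_res_ne_zero N.S₁ hα₀ hα₀u) hsπ hA1 hval hE' hϖπ hG1₁ hG1₂ hG2₁ hG2₂
    (fun P i hP => isNodeOf_smul hsinv hP) (fun P => (D : Divisor K F) P) hdat.g_ne hdat.g_fix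
    (fun P _ _ => hdat.ord_g P) (fun P i hP => hdat.ord_k_typeN hDlred.1 P hP.1) hkey
    (fun i => ?_) hc' i j
  obtain ⟨η, hη0, hηord, hηfix⟩ := hcd.exists_eta (D : Divisor K F) i
  refine ⟨1, η, ?_, hη0, fun t ht => hηfix t (hH t ht) (hzH t ht) (hdat.D_fix t ht),
    fun P hP => ?_⟩
  · rw [Nat.cast_one]
    intro h
    have h1 : (p : ℤ) = 1 ∨ (p : ℤ) = -1 := Int.isUnit_iff.mp (isUnit_of_dvd_one h)
    have hp2 := hp.two_le
    omega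
  · rw [hηord P hP, Nat.cast_one, one_mul]

/-- **ABS-WILD** in the shape of helper62's WIRING v1, par. 1. -/
theorem abs_wild [PerfectField k] (N : NodalSeed K F k Fk₁ Fk₂ ι) (p : ℕ) [Fact p.Prime]
    [CharP k p] {u : F} {ϖ p0 : K} {e : ℕ} {z : F} {ε : ι → ℕ}
    (hcd : CoordData N u ϖ p0 e z)
    (hε₁ : ∀ i, (N.s₁ i).ord (N.S₁.red u) = ε i)
    (hε₂ : ∀ i, (N.s₂ i).ord (N.S₂.red (algebraMap K F ϖ * u⁻¹)) = ε i)
    (hεp : ∀ i, ¬ (p : ℤ) ∣ (ε i : ℤ))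
    (H : Subgroup (SemilinearAut K F)) (s : SemilinearAut K F)
    (hH : ∀ t ∈ H, N.nodalSetup.IsInertial t) (hs : N.nodalSetup.IsInertial s)
    (hsH : ∀ t ∈ H, s⁻¹ * t * s ∈ H)
    (hzH : ∀ t ∈ H, t • z = z)
    {π α₀ : K}
    (hπ0 : π ≠ 0) (hπ1 : N.S₁.A.valuation π < 1)
    (hπH : ∀ t ∈ H, SemilinearAut.baseAut t π = π)
    (hα₀u : N.S₁.A.valuation α₀ = 1)
    (hsπ : (SemilinearAut.baseAut s π - π * (1 + α₀ * π)) / π ^ 3 ∈ N.S₁.A)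
    (hA1 : ∀ c : K, c ∈ N.S₁.A → (∀ t ∈ H, SemilinearAut.baseAut t c = c) →
      (SemilinearAut.baseAut s c - c) / π ^ 2 ∈ N.S₁.A)
    (hval : ∀ c : K, c ≠ 0 → (∀ t ∈ H, SemilinearAut.baseAut t c = c) →
      ∃ n : ℤ, N.S₁.A.valuation c = N.S₁.A.valuation π ^ n)
    {E' : ℕ} (hE' : ¬ (p : ℤ) ∣ (E' : ℤ))
    (hϖπ : N.S₁.A.valuation ϖ = N.S₁.A.valuation π ^ (p * E'))
    (hG1₁ : ∀ f : F, f ≠ 0 → (∀ t ∈ H, t • f = f) →
      ∃ c : K, (∀ t ∈ H, SemilinearAut.baseAut t c = c) ∧ N.S₁.red (f / algebraMap K F c) ≠ 0)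
    (hG1₂ : ∀ f : F, f ≠ 0 → (∀ t ∈ H, t • f = f) →
      ∃ c : K, (∀ t ∈ H, SemilinearAut.baseAut t c = c) ∧ N.S₂.red (f / algebraMap K F c) ≠ 0)
    (hG2₁ : ∀ f : F, f ∈ N.S₁.Ov → (∀ t ∈ H, t • f = f) →
      (s • f - f) / algebraMap K F (π ^ 2) ∈ N.S₁.Ov)
    (hG2₂ : ∀ f : F, f ∈ N.S₂.Ov → (∀ t ∈ H, t • f = f) →
      (s • f - f) / algebraMap K F (π ^ 2) ∈ N.S₂.Ov)
    (hH90 : ∀ f : F, f ≠ 0 → (∀ t ∈ H, ∃ a : K, t • f = algebraMap K F a * f) →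
      ∃ a : K, a ≠ 0 ∧ ∀ t ∈ H, t • (algebraMap K F a * f) = algebraMap K F a * f)
    (hres : ∀ γ : k, ∃ (a : K) (ha : a ∈ N.S₁.A),
      (∀ t ∈ H, SemilinearAut.baseAut t a = a) ∧ N.S₁.res ⟨a, ha⟩ = γ)
    (hlift₁ : RatLift₁ N (insert s (H : Set (SemilinearAut K F))))
    (hlift₂ : RatLift₂ N (insert s (H : Set (SemilinearAut K F))))
    (oo : Place K F) (hoo : ∀ t ∈ H, t • oo = oo)
    (x : Pic0 K F) (hpx : p • x = 0) (hHx : ∀ t ∈ H, t • x = x)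
    (Dl : Divisor.degZero (K := K) (F := F)) (hl : F) (hl0 : hl ≠ 0)
    (hdivl : ∀ P : Place K F, P.ord hl = p * (Dl : Divisor K F) P)
    (hDlH : ∀ t ∈ H, t • (Dl : Divisor K F) = Dl) (hDls : s • (Dl : Divisor K F) = Dl)
    (hl₁ : N.S₁.red hl = 1) (hl₂ : N.S₂.red hl = 1)
    (hDlred : N.nodalSetup.RedTrivial (Dl : Divisor K F))
    (c : ℤ) (hsx : s • x - x = c • Pic0.mk Dl) :
    ∃ (D : Divisor.degZero (K := K) (F := F)) (g : F), Pic0.mk D = x ∧ g ≠ 0 ∧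
      (∀ P : Place K F, P.ord g = p * (D : Divisor K F) P) ∧
      ∀ c' : K, N.S₁.red (g / algebraMap K F c') ≠ 0 → ∀ i j : ι,
        (p : ℤ) ∣ (ε j : ℤ) * (N.s₁ i).ord (N.S₁.red (g / algebraMap K F c')) -
          (ε i : ℤ) * (N.s₁ j).ord (N.S₁.red (g / algebraMap K F c')) := by
  obtain ⟨D, g, h1, h2, -, -, h3, h4⟩ := abs_wild_fix N p hcd hε₁ hε₂ hεp H s hH hs hsH hzH hπ0 hπ1 hπH hα₀u hsπ hA1 hval hE'
    hϖπ hG1₁ hG1₂ hG2₁ hG2₂ hH90 hres hlift₁ hlift₂ oo hoo x hpx hHx Dl hl hl0 hdivl hDlH hDls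
    hl₁ hl₂ hDlred c hsx
  exact ⟨D, g, h1, h2, h3, h4⟩

/-- **ABS-WILD** with the thickness exponents of the coordinate (`ε_i = e` for all `i`, by
`CoordData.eps_eq`): only the hypothesis on the second side and `p ∤ e` remain. -/
theorem abs_wild_e [PerfectField k] (N : NodalSeed K F k Fk₁ Fk₂ ι) (p : ℕ) [Fact p.Prime]
    [CharP k p] {u : F} {ϖ p0 : K} {e : ℕ} {z : F}
    (hcd : CoordData N u ϖ p0 e z)
    (hε₂ : ∀ i, (N.s₂ i).ord (N.S₂.red (algebraMap K F ϖ * u⁻¹)) = e)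
    (hep : ¬ (p : ℤ) ∣ (e : ℤ))
    (H : Subgroup (SemilinearAut K F)) (s : SemilinearAut K F)
    (hH : ∀ t ∈ H, N.nodalSetup.IsInertial t) (hs : N.nodalSetup.IsInertial s)
    (hsH : ∀ t ∈ H, s⁻¹ * t * s ∈ H)
    (hzH : ∀ t ∈ H, t • z = z)
    {π α₀ : K}
    (hπ0 : π ≠ 0) (hπ1 : N.S₁.A.valuation π < 1)
    (hπH : ∀ t ∈ H, SemilinearAut.baseAut t π = π)
    (hα₀u : N.S₁.A.valuation α₀ = 1)
    (hsπ : (SemilinearAut.baseAut s π - π * (1 + α₀ * π)) / π ^ 3 ∈ N.S₁.A)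
    (hA1 : ∀ c : K, c ∈ N.S₁.A → (∀ t ∈ H, SemilinearAut.baseAut t c = c) →
      (SemilinearAut.baseAut s c - c) / π ^ 2 ∈ N.S₁.A)
    (hval : ∀ c : K, c ≠ 0 → (∀ t ∈ H, SemilinearAut.baseAut t c = c) →
      ∃ n : ℤ, N.S₁.A.valuation c = N.S₁.A.valuation π ^ n)
    {E' : ℕ} (hE' : ¬ (p : ℤ) ∣ (E' : ℤ))
    (hϖπ : N.S₁.A.valuation ϖ = N.S₁.A.valuation π ^ (p * E'))
    (hG1₁ : ∀ f : F, f ≠ 0 → (∀ t ∈ H, t • f = f) →
      ∃ c : K, (∀ t ∈ H, SemilinearAut.baseAut t c = c) ∧ N.S₁.red (f / algebraMap K F c) ≠ 0)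
    (hG1₂ : ∀ f : F, f ≠ 0 → (∀ t ∈ H, t • f = f) →
      ∃ c : K, (∀ t ∈ H, SemilinearAut.baseAut t c = c) ∧ N.S₂.red (f / algebraMap K F c) ≠ 0)
    (hG2₁ : ∀ f : F, f ∈ N.S₁.Ov → (∀ t ∈ H, t • f = f) →
      (s • f - f) / algebraMap K F (π ^ 2) ∈ N.S₁.Ov)
    (hG2₂ : ∀ f : F, f ∈ N.S₂.Ov → (∀ t ∈ H, t • f = f) →
      (s • f - f) / algebraMap K F (π ^ 2) ∈ N.S₂.Ov)
    (hH90 : ∀ f : F, f ≠ 0 → (∀ t ∈ H, ∃ a : K, t • f = algebraMap K F a * f) →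
      ∃ a : K, a ≠ 0 ∧ ∀ t ∈ H, t • (algebraMap K F a * f) = algebraMap K F a * f)
    (hres : ∀ γ : k, ∃ (a : K) (ha : a ∈ N.S₁.A),
      (∀ t ∈ H, SemilinearAut.baseAut t a = a) ∧ N.S₁.res ⟨a, ha⟩ = γ)
    (hlift₁ : RatLift₁ N (insert s (H : Set (SemilinearAut K F))))
    (hlift₂ : RatLift₂ N (insert s (H : Set (SemilinearAut K F))))
    (oo : Place K F) (hoo : ∀ t ∈ H, t • oo = oo)
    (x : Pic0 K F) (hpx : p • x = 0) (hHx : ∀ t ∈ H, t • x = x)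
    (Dl : Divisor.degZero (K := K) (F := F)) (hl : F) (hl0 : hl ≠ 0)
    (hdivl : ∀ P : Place K F, P.ord hl = p * (Dl : Divisor K F) P)
    (hDlH : ∀ t ∈ H, t • (Dl : Divisor K F) = Dl) (hDls : s • (Dl : Divisor K F) = Dl)
    (hl₁ : N.S₁.red hl = 1) (hl₂ : N.S₂.red hl = 1)
    (hDlred : N.nodalSetup.RedTrivial (Dl : Divisor K F))
    (c : ℤ) (hsx : s • x - x = c • Pic0.mk Dl) :
    ∃ (D : Divisor.degZero (K := K) (F := F)) (g : F), Pic0.mk D = x ∧ g ≠ 0 ∧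
      (∀ t ∈ H, t • (D : Divisor K F) = D) ∧ (∀ t ∈ H, t • g = g) ∧
      (∀ P : Place K F, P.ord g = p * (D : Divisor K F) P) ∧
      ∀ c' : K, N.S₁.red (g / algebraMap K F c') ≠ 0 → ∀ i j : ι,
        (p : ℤ) ∣ (e : ℤ) * (N.s₁ i).ord (N.S₁.red (g / algebraMap K F c')) -
          (e : ℤ) * (N.s₁ j).ord (N.S₁.red (g / algebraMap K F c')) :=
  abs_wild_fix N p hcd (ε := fun _ => e) (fun i => hcd.eps_eq i) hε₂ (fun _ => hep) H s hH hs hsH hzH hπ0 hπ1 hπH hα₀u hsπ hA1 hval hE'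
    hϖπ hG1₁ hG1₂ hG2₁ hG2₂ hH90 hres hlift₁ hlift₂ oo hoo x hpx hHx Dl hl hl0 hdivl hDlH hDls
    hl₁ hl₂ hDlred c hsx

end Two

end Fermat.Agent.PeuD
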