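/-
Row 38 (target S44), block D, seat ETA-EQ (helper19): **AUX-EQ**, the count at an auxiliary level.

For the modular nodal package `kpN` at the level `q R` (`q = D.Q` prime, `R = D.R`, `A | q`):

* `auxCount_sum_zeros`: `∑_{zeros} ord f = deg (f⁻¹)_∞` (abstract);
* `auxCount_sum_ord`  : `∑_i ord_{s₁ i} (red₁ u) = (q - 1) ψ(R)` (the zeros of `ū`, `ℤ`-form);
* `auxCount_kpD`      : `kpD = ∑_i ε_i = (q - 1) ψ(R)`;
* `auxCount_card`     : `12 * #nodes = (q - 1) ψ(R)` if `4 ∣ R` or `9 ∣ R`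
                        (`GenusRel` of `kpN`, genus equality at the level `R`, `12 g + 6 c = 12 + ψ`
                        at the levels `R` and `q R`);
* `auxEq`             : **AUX-EQ**  `∑_i ε_i = 12 * #nodes` if `4 ∣ R` or `9 ∣ R`;
* `auxEq_int`         : the same for `ord_{s₁ i} (red₁ u)` in `ℤ`.
-/
import Mathlib
import Fermat.Agent.E.Desc.Kp.ModDefs
import Fermat.Agent.Lib.GenusEq.Main
import Fermat.Agent.Lib.GenusEq.GenusFM
import Fermat.Agent.Lib.BadRed.Mod.SSArith
import Fermat.Agent.Lib.BadRed.Mod.SSDeg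
import Fermat.Agent.Lib.BadRed.Mod.SeedOfU

set_option autoImplicit false
set_option linter.style.haveILetI false
set_option linter.unusedSectionVars false
set_option synthInstance.maxHeartbeats 400000

noncomputable section

namespace Fermat.Agent.PeuD

open IntermediateField ModularCurve AlgebraicCurve Fermat.Agent.F3 Fermat.Agent.F3G
  Fermat.Agent.GaussInt Fermat.Agent.AtkinLehner Fermat.Agent.Deuring Fermat.Agent.RR
  Fermat.Agent.BadRed Fermat.Agent.EKp

local notation "Qb" => AlgebraicClosure ℚ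

attribute [local instance] Fermat.Agent.BadRed.fwFintype

/-- the sum of the orders of a function over its zeros is the degree of its zero divisor. -/
theorem auxCount_sum_zeros {k Fk : Type*} [Field k] [Field Fk] [Algebra k Fk]
    (hRR : IsRRField k Fk) (f : Fk) [Fintype {v : Place k Fk // 0 < v.ord f}] :
    ∑ i : {v : Place k Fk // 0 < v.ord f}, i.1.ord f = Divisor.degree (poleDiv hRR f⁻¹) := by
  classical
  rw [degree_eq_sum hRR]
  have hmem : ∀ v : Place k Fk, v ∈ (poleDiv hRR f⁻¹).support ↔ 0 < v.ord f := by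
    intro v
    rw [Finsupp.mem_support_iff, poleDiv_apply, v.ord_inv, neg_neg]
    constructor
    · intro h
      by_contra hle
      exact h (max_eq_right (not_lt.mp hle))
    · intro h
      rw [max_eq_left h.le]
      exact h.ne'
  rw [Finset.sum_subtype _ hmem]
  refine Finset.sum_congr rfl fun i _ => ?_
  rw [poleDiv_apply, i.1.ord_inv, neg_neg, max_eq_left i.2.le]

variable (D : ALData) [NeZero D.Q] [NeZero D.R] [NeZero (D.Q * D.R)]
  (A : ValuationSubring Qb) (hq : D.Q.Prime) (hA : A.LiesOverPrime D.Q) (hqR : ¬ D.Q ∣ D.R)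
  [Fact D.Q.Prime] [CharP (IsLocalRing.ResidueField A) D.Q]
  [PerfectRing (IsLocalRing.ResidueField A) D.Q]

/-- the zeros of `ū`, counted with multiplicity: `∑_i ord_{s₁ i} ū = (q - 1) ψ(R)`. -/
theorem auxCount_sum_ord :
    ∑ i : kpIota D A hq hA hqR, i.1.ord ((kpS D A hq hA hqR).red (fwU D)) =
      (((D.Q - 1) * dedekindPsi D.R : ℕ) : ℤ) := by
  haveI : IsAlgClosed (IsLocalRing.ResidueField A) := Fermat.Agent.GaussInt.isAlgClosed_residue A
  have hS := isGaussSetup_gaussSetupBad D hq hqR A hA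
  have hRR := Fermat.Agent.RRMod.isRRField_fullC' (IsLocalRing.ResidueField A) D.R
  have hss := fw_coe_red_uF D A hq hA (kpS D A hq hA hqR) hS
  have hdeg := degree_poleDiv_ss D.R hq hqR hA hRR _ hss
  rw [← SeedPoles.degree_poleDiv_inv hRR] at hdeg
  rw [← hdeg]
  exact auxCount_sum_zeros hRR _

/-- `kpD = ∑_i ε_i = (q - 1) ψ(R)`. -/
theorem auxCount_kpD : kpD D A hq hA hqR = (D.Q - 1) * dedekindPsi D.R := by
  have h := auxCount_sum_ord D A hq hA hqR
  have h2 : ((kpD D A hq hA hqR : ℕ) : ℤ) =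
      ∑ i : kpIota D A hq hA hqR, i.1.ord ((kpS D A hq hA hqR).red (fwU D)) := by
    unfold kpD
    rw [Nat.cast_sum]
    exact Finset.sum_congr rfl fun i _ => kpEps_cast D A hq hA hqR i
  rw [h] at h2
  exact_mod_cast h2

/-- `12 * #nodes = (q - 1) ψ(R)` at a level `R` divisible by `4` or `9`. -/
theorem auxCount_card (haux : AuxLevelOK D.Q D.R) (h4 : 4 ∣ D.R ∨ 9 ∣ D.R) :
    12 * Fintype.card (kpIota D A hq hA hqR) = (D.Q - 1) * dedekindPsi D.R := by
  have hrel : genusFF Qb (modularFunctionFieldBar (D.Q * D.R)) + 1 =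
      genusFF (IsLocalRing.ResidueField A)
          (modularFunctionFieldFullC (IsLocalRing.ResidueField A) D.R) +
        genusFF (IsLocalRing.ResidueField A)
          (modularFunctionFieldFullC (IsLocalRing.ResidueField A) D.R) +
        Fintype.card (kpIota D A hq hA hqR) := kpN_genusRel D A hq hA hqR haux
  have heq := Fermat.Agent.GenusEq.genusFF_eq D.R h4 D.Q hq hqR A hA
  have h4' : 4 ∣ D.Q * D.R ∨ 9 ∣ D.Q * D.R := by
    rcases h4 with h | h
    · exact Or.inl (h.mul_left _)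
    · exact Or.inr (h.mul_left _)
  have e1 := Fermat.Agent.GenusEq.twelve_genusFF_add (D.Q * D.R) h4'
  have e2 := Fermat.Agent.GenusEq.twelve_genusFF_add D.R h4
  have e3 := Fermat.Agent.BadRed.SSA.cuspCount_prime_mul hq hqR (NeZero.ne D.R)
  have e4 := Fermat.Agent.BadRed.SSA.dedekindPsi_prime_mul hq hqR
  obtain ⟨q', hq'⟩ : ∃ q' : ℕ, D.Q = q' + 1 := ⟨D.Q - 1, by have := hq.pos; omega⟩
  have e5 : D.Q - 1 = q' := by omega
  rw [e5]
  have e6 : dedekindPsi (D.Q * D.R) = q' * dedekindPsi D.R + 2 * dedekindPsi D.R := by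
    rw [e4, hq']
    ring
  rw [← heq] at hrel
  rw [e3, e6] at e1
  generalize q' * dedekindPsi D.R = X at *
  omega

/-- **AUX-EQ**: `∑_i ε_i = 12 * #nodes` at a level `q R` with `4 ∣ R` or `9 ∣ R`: every node has
thickness `1` on average (hence, by the slope count, each of them). -/
theorem auxEq (haux : AuxLevelOK D.Q D.R) (h4 : 4 ∣ D.R ∨ 9 ∣ D.R) :
    ∑ i : kpIota D A hq hA hqR, kpEps D A hq hA hqR i =
      12 * Fintype.card (kpIota D A hq hA hqR) := by
  rw [auxCount_card D A hq hA hqR haux h4]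
  exact auxCount_kpD D A hq hA hqR

/-- **AUX-EQ**, `ℤ`-form. -/
theorem auxEq_int (haux : AuxLevelOK D.Q D.R) (h4 : 4 ∣ D.R ∨ 9 ∣ D.R) :
    ∑ i : kpIota D A hq hA hqR, i.1.ord ((kpS D A hq hA hqR).red (fwU D)) =
      12 * (Fintype.card (kpIota D A hq hA hqR) : ℤ) := by
  rw [auxCount_sum_ord D A hq hA hqR, ← auxCount_card D A hq hA hqR haux h4]
  push_cast
  ring

end Fermat.Agent.PeuD
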