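/-
Row 38, wall (d), seat (d1) BREAK (helper97): the ramification break of a wild cyclic layer of
degree `p`, inside `ℚ̄`, elementwise (no Galois theory of infinite extensions).

Setting (`BreakSetting`): `S : MonoSetting p P Γ0 Γ p π0 ϖ` (`Lib/FFL/FB/FieldMono`): `Γ ≤ Γ0`
subgroups of the decomposition group of `P` with `[Γ0 : Γ] = p`, `π0` a uniformiser of the fixed
field `K1` of `Γ0`, `ϖ` a uniformiser of the fixed field `M` of `Γ`, `v(ϖ^p) = v(π0)`;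
`s ∈ Γ0` with `v(s ϖ - ϖ) = v(ϖ)^2` (the break of `M / K1` is `1`) and `v_M(p) ≥ p + 1`.
`v = P.valuation` is written multiplicatively: `v x ≤ v ϖ ^ n` means `v_M(x) ≥ n`.

* `break_depth`   (A1): `x ≠ 0` fixed by `Γ`  ⟹  `v (s x - x) ≤ v ϖ * v x`;
* `break_val`     (A3): `ρ ^ p = c * γ`, `ρ` fixed by `Γ`, `c ≠ 0` fixed by `Γ0`, `γ` a unit with
                        `v (s γ - γ) ≤ v ϖ ^ (p + 1)`  ⟹  `v ρ = v π0 ^ k`, `k : ℤ`
                        (`p ∣ v_M(ρ)`);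
* `break_dvd`  (Step 3): if moreover `v π0 ^ (p - 1) = v p` and `v c = v p ^ e`, then `p ∣ e`.
-/
import Fermat.Agent.Lib.FFL.FB.FieldMono

set_option autoImplicit false

namespace Fermat.Agent.PeuDBreak

open Fermat.Agent.FFL Fermat.Agent.FFL.FB

local notation "Kb" => AlgebraicClosure ℚ
local notation "GK" => (AlgebraicClosure ℚ ≃ₐ[ℚ] AlgebraicClosure ℚ)

/-- A wild cyclic layer of degree `p` with break `1`. -/
structure BreakSetting (p : ℕ) (P : ValuationSubring Kb) (Γ0 Γ : Subgroup GK) (π0 ϖ : Kb)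
    (s : GK) : Prop where
  mono : MonoSetting p P Γ0 Γ p π0 ϖ
  hs : s ∈ Γ0
  hbreak : P.valuation (s ϖ - ϖ) = P.valuation ϖ ^ 2
  hpval : P.valuation (p : Kb) ≤ P.valuation ϖ ^ (p + 1)

/-! ### Generalities on valuations -/

section Val

variable {P : ValuationSubring Kb}

/-- an integer is integral. -/
theorem brk_val_intCast_le (a : ℤ) : P.valuation (a : Kb) ≤ 1 :=
  (P.valuation_le_one_iff _).2 (intCast_mem P a)

/-- a natural number is integral. -/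
theorem brk_val_natCast_le (a : ℕ) : P.valuation (a : Kb) ≤ 1 :=
  (P.valuation_le_one_iff _).2 (natCast_mem P a)

/-- a natural number prime to `p` is a unit at a place over `p`. -/
theorem brk_val_natCast_eq_one {p : ℕ} (hp : p.Prime) (hP : P.LiesOverPrime p) {n : ℕ}
    (hn : ¬ p ∣ n) : P.valuation (n : Kb) = 1 := by
  refine le_antisymm (brk_val_natCast_le n) ?_
  by_contra hlt
  rw [not_le] at hlt
  have hcop : Nat.Coprime p n := (Nat.Prime.coprime_iff_not_dvd hp).2 hn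
  have h1 : (1 : Kb) = (Nat.gcdA p n : Kb) * (p : Kb) + (Nat.gcdB p n : Kb) * (n : Kb) := by
    have h := Nat.gcd_eq_gcd_ab p n
    rw [hcop.gcd_eq_one] at h
    have h2 := congrArg (Int.cast : ℤ → Kb) h
    push_cast at h2
    rw [h2]
    ring
  have hvp : P.valuation (p : Kb) < 1 := (ValuationSubring.mem_nonunits_iff P).1 hP
  have h3 : P.valuation (1 : Kb) < 1 := by
    rw [h1]
    refine lt_of_le_of_lt (Valuation.map_add _ _ _) (max_lt ?_ ?_)
    · rw [map_mul]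
      exact lt_of_le_of_lt (mul_le_mul' (brk_val_intCast_le _) le_rfl) (by rwa [one_mul])
    · rw [map_mul]
      exact lt_of_le_of_lt (mul_le_mul' (brk_val_intCast_le _) le_rfl) (by rwa [one_mul])
  rw [map_one] at h3
  exact lt_irrefl _ h3

end Val

namespace BreakSetting

variable {p : ℕ} {P : ValuationSubring Kb} {Γ0 Γ : Subgroup GK} {π0 ϖ : Kb} {s : GK}
  (B : BreakSetting p P Γ0 Γ π0 ϖ s)
include B

theorem val_s (x : Kb) : P.valuation (s x) = P.valuation x :=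
  val_decomp (B.mono.hΓ0 B.hs) x

theorem vϖ_pos : 0 < P.valuation ϖ := zero_lt_iff.2 B.mono.val_ϖ_ne_zero

theorem vϖ_lt : P.valuation ϖ < 1 := B.mono.val_ϖ_lt

theorem vϖ_pow_le_one (n : ℕ) : P.valuation ϖ ^ n ≤ 1 := pow_le_one₀ zero_le B.vϖ_lt.le

theorem vϖ_pow_anti {m n : ℕ} (h : m ≤ n) : P.valuation ϖ ^ n ≤ P.valuation ϖ ^ m :=
  pow_le_pow_of_le_one zero_le B.vϖ_lt.le h

theorem vϖ_pow_lt {m n : ℕ} (h : m < n) : P.valuation ϖ ^ n < P.valuation ϖ ^ m :=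
  pow_lt_pow_right_of_lt_one₀ B.vϖ_pos B.vϖ_lt h

/-- normal form of the valuation of an integral element of `M`. -/
theorem exists_val_eq_pow {x : Kb} (hx0 : x ≠ 0) (hxP : x ∈ P) (hx : ∀ σ ∈ Γ, σ x = x) :
    ∃ n : ℕ, P.valuation x = P.valuation ϖ ^ n :=
  fm_val_eq_pow B.mono.hp B.mono.hP Γ B.mono.ϖ_ne_zero B.mono.ϖ_mem_nonunits B.mono.hϖfix
    (fun _ hy hfix => B.mono.unif hy hfix) hx0 hxP hx

theorem val_pow_sub (n : ℕ) : P.valuation ((s ϖ) ^ n - ϖ ^ n) ≤ P.valuation ϖ ^ (n + 1) := by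
  induction n with
  | zero => simp
  | succ n ih =>
    have h : (s ϖ) ^ (n + 1) - ϖ ^ (n + 1) =
        (s ϖ) ^ n * (s ϖ - ϖ) + ((s ϖ) ^ n - ϖ ^ n) * ϖ := by ring
    rw [h]
    refine (Valuation.map_add _ _ _).trans (max_le ?_ ?_)
    · rw [map_mul, map_pow, B.val_s, B.hbreak, ← pow_add]
    · rw [map_mul]
      calc P.valuation ((s ϖ) ^ n - ϖ ^ n) * P.valuation ϖ
          ≤ P.valuation ϖ ^ (n + 1) * P.valuation ϖ := mul_le_mul' ih le_rfl
        _ = P.valuation ϖ ^ (n + 1 + 1) := by rw [← pow_succ]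

/-- (A1) for integral elements. -/
theorem depth_int {x : Kb} (hx0 : x ≠ 0) (hxP : x ∈ P) (hx : ∀ σ ∈ Γ, σ x = x) :
    P.valuation (s x - x) ≤ P.valuation ϖ * P.valuation x := by
  obtain ⟨n, hn⟩ := B.exists_val_eq_pow hx0 hxP hx
  have hϖ0 := B.mono.ϖ_ne_zero
  obtain ⟨u, hu⟩ : ∃ u : Kb, u = x / ϖ ^ n := ⟨_, rfl⟩
  have hvu : P.valuation u = 1 := by
    rw [hu, map_div₀, map_pow, hn, div_self (pow_ne_zero _ B.mono.val_ϖ_ne_zero)]
  have huP : u ∈ P := (P.valuation_le_one_iff _).1 hvu.le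
  have hufix : ∀ σ ∈ Γ, σ u = u := fun σ hσ => by
    rw [hu, map_div₀, map_pow, hx σ hσ, B.mono.hϖfix σ hσ]
  obtain ⟨t, ht, hst⟩ := B.mono.depth B.hs ⟨huP, hufix⟩
  have hxu : x = ϖ ^ n * u := by rw [hu]; field_simp
  have h : s x - x = ((s ϖ) ^ n - ϖ ^ n) * s u + ϖ ^ n * ((s ϖ - ϖ) * t) := by
    rw [← hst, hxu, map_mul, map_pow]; ring
  rw [h, hn, ← pow_succ']
  refine (Valuation.map_add _ _ _).trans (max_le ?_ ?_)
  · rw [map_mul, B.val_s, hvu, mul_one]; exact B.val_pow_sub n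
  · rw [map_mul, map_mul, map_pow, B.hbreak]
    calc P.valuation ϖ ^ n * (P.valuation ϖ ^ 2 * P.valuation t)
        ≤ P.valuation ϖ ^ n * (P.valuation ϖ ^ 1 * 1) :=
          mul_le_mul' le_rfl (mul_le_mul' (B.vϖ_pow_anti (by norm_num))
            ((P.valuation_le_one_iff _).2 ht))
      _ = P.valuation ϖ ^ (n + 1) := by rw [mul_one, pow_one, pow_succ]

/-- **(A1)**: `s` moves an element of `M` by one level more than its valuation. -/
theorem break_depth {x : Kb} (hx0 : x ≠ 0) (hx : ∀ σ ∈ Γ, σ x = x) :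
    P.valuation (s x - x) ≤ P.valuation ϖ * P.valuation x := by
  rcases P.mem_or_inv_mem x with hxP | hxP
  · exact B.depth_int hx0 hxP hx
  · have h1 := B.depth_int (inv_ne_zero hx0) hxP (fun σ hσ => by rw [map_inv₀, hx σ hσ])
    have hsx0 : s x ≠ 0 := (map_ne_zero _).2 hx0
    have h : s x - x = -((s x⁻¹ - x⁻¹) * x * s x) := by
      rw [map_inv₀]; field_simp; ring
    have hvx : P.valuation x ≠ 0 := (Valuation.ne_zero_iff _).2 hx0
    rw [h, Valuation.map_neg, map_mul, map_mul, B.val_s]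
    calc P.valuation (s x⁻¹ - x⁻¹) * P.valuation x * P.valuation x
        ≤ (P.valuation ϖ * P.valuation x⁻¹) * P.valuation x * P.valuation x :=
          mul_le_mul' (mul_le_mul' h1 le_rfl) le_rfl
      _ = P.valuation ϖ * P.valuation x := by
          rw [map_inv₀, mul_assoc (P.valuation ϖ), inv_mul_cancel₀ hvx, mul_one]


/-! ### The exact level of `s ρ / ρ - 1` -/

theorem val_q : P.valuation (s ϖ / ϖ) = 1 := by
  rw [map_div₀, B.val_s, div_self B.mono.val_ϖ_ne_zero]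

theorem val_q_sub_one : P.valuation (s ϖ / ϖ - 1) = P.valuation ϖ := by
  have hϖ0 := B.mono.ϖ_ne_zero
  have h : s ϖ / ϖ - 1 = (s ϖ - ϖ) / ϖ := by field_simp
  rw [h, map_div₀, B.hbreak, pow_two, mul_div_assoc, div_self B.mono.val_ϖ_ne_zero, mul_one]

omit B in
/-- `v (y ^ k - 1) ≤ v (y - 1)` for integral `y`. -/
theorem val_pow_sub_one_le {y : Kb} (hy : P.valuation y ≤ 1) (k : ℕ) :
    P.valuation (y ^ k - 1) ≤ P.valuation (y - 1) := by
  rw [← geom_sum_mul, map_mul]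
  have h1 : P.valuation (∑ i ∈ Finset.range k, y ^ i) ≤ 1 := by
    refine Valuation.map_sum_le _ (fun i _ => ?_)
    rw [map_pow]
    exact pow_le_one₀ zero_le hy
  calc P.valuation (∑ i ∈ Finset.range k, y ^ i) * P.valuation (y - 1)
      ≤ 1 * P.valuation (y - 1) := mul_le_mul' h1 le_rfl
    _ = P.valuation (y - 1) := one_mul _

omit B in
/-- `v (1 + y + ⋯ + y^(n-1)) = 1` for `y ≡ 1` and `p ∤ n`. -/
theorem val_geom_sum (hp : p.Prime) (hP : P.LiesOverPrime p) {y : Kb} (hy : P.valuation y ≤ 1)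
    (hy1 : P.valuation (y - 1) < 1) {n : ℕ} (hn : ¬ p ∣ n) :
    P.valuation (∑ i ∈ Finset.range n, y ^ i) = 1 := by
  have h : ∑ i ∈ Finset.range n, y ^ i = (n : Kb) + ∑ i ∈ Finset.range n, (y ^ i - 1) := by
    rw [Finset.sum_sub_distrib, Finset.sum_const, Finset.card_range, nsmul_eq_mul, mul_one]
    ring
  have h2 : P.valuation (∑ i ∈ Finset.range n, (y ^ i - 1)) < 1 := by
    refine lt_of_le_of_lt (Valuation.map_sum_le _ (fun i _ => ?_)) hy1
    exact val_pow_sub_one_le hy i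
  have h3 : P.valuation (n : Kb) = 1 := brk_val_natCast_eq_one hp hP hn
  rw [h, Valuation.map_add_eq_of_lt_left _ (by rw [h3]; exact h2), h3]

/-- `v ((s ϖ / ϖ) ^ n - 1) = v ϖ` for `p ∤ n`. -/
theorem val_q_pow_sub_one {n : ℕ} (hn : ¬ p ∣ n) :
    P.valuation ((s ϖ / ϖ) ^ n - 1) = P.valuation ϖ := by
  rw [← geom_sum_mul, map_mul, B.val_q_sub_one,
    val_geom_sum B.mono.hp B.mono.hP B.val_q.le (by rw [B.val_q_sub_one]; exact B.vϖ_lt) hn,
    one_mul]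

/-- a unit of `M` is moved by `s` at level `≥ 2`. -/
theorem depth_unit {u : Kb} (huP : u ∈ P) (hufix : ∀ σ ∈ Γ, σ u = u) :
    P.valuation (s u - u) ≤ P.valuation ϖ ^ 2 := by
  obtain ⟨t, ht, hst⟩ := B.mono.depth B.hs ⟨huP, hufix⟩
  rw [hst, map_mul, B.hbreak]
  calc P.valuation ϖ ^ 2 * P.valuation t ≤ P.valuation ϖ ^ 2 * 1 :=
        mul_le_mul' le_rfl ((P.valuation_le_one_iff _).2 ht)
    _ = P.valuation ϖ ^ 2 := mul_one _

/-- if `p ∤ v_M(ρ)` then `s ρ / ρ - 1` has exact level `1`. -/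
theorem val_ratio_sub_one {ρ : Kb} (hρ0 : ρ ≠ 0) (hρ : ∀ σ ∈ Γ, σ ρ = ρ) {n : ℕ}
    (hn : P.valuation ρ = P.valuation ϖ ^ n) (hpn : ¬ p ∣ n) :
    P.valuation (s ρ / ρ - 1) = P.valuation ϖ := by
  have hϖ0 := B.mono.ϖ_ne_zero
  obtain ⟨u, hu⟩ : ∃ u : Kb, u = ρ / ϖ ^ n := ⟨_, rfl⟩
  have hvu : P.valuation u = 1 := by
    rw [hu, map_div₀, map_pow, hn, div_self (pow_ne_zero _ B.mono.val_ϖ_ne_zero)]
  have hu0 : u ≠ 0 := by
    intro h0
    rw [h0, map_zero] at hvu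
    exact zero_ne_one hvu
  have huP : u ∈ P := (P.valuation_le_one_iff _).1 hvu.le
  have hufix : ∀ σ ∈ Γ, σ u = u := fun σ hσ => by
    rw [hu, map_div₀, map_pow, hρ σ hσ, B.mono.hϖfix σ hσ]
  have hρu : ρ = ϖ ^ n * u := by rw [hu]; field_simp
  have hsϖ0 : s ϖ ≠ 0 := (map_ne_zero _).2 hϖ0
  have hsu0 : s u ≠ 0 := (map_ne_zero _).2 hu0
  have h : s ρ / ρ - 1 = ((s ϖ / ϖ) ^ n - 1) * (s u / u) + (s u - u) / u := by
    have e1 : s ρ / ρ = (s ϖ / ϖ) ^ n * (s u / u) := by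
      rw [hρu, map_mul, map_pow, div_pow, mul_div_mul_comm]
    have e2 : (s u - u) / u = s u / u - 1 := by rw [sub_div, div_self hu0]
    rw [e1, e2]
    ring
  have h1 : P.valuation (((s ϖ / ϖ) ^ n - 1) * (s u / u)) = P.valuation ϖ := by
    rw [map_mul, B.val_q_pow_sub_one hpn, map_div₀, B.val_s, hvu, div_one, mul_one]
  have h2 : P.valuation ((s u - u) / u) < P.valuation ϖ := by
    rw [map_div₀, hvu, div_one]
    refine lt_of_le_of_lt (B.depth_unit huP hufix) ?_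
    have := B.vϖ_pow_lt (m := 1) (n := 2) (by norm_num)
    rwa [pow_one] at this
  rw [h, Valuation.map_add_eq_of_lt_left _ (by rw [h1]; exact h2), h1]

omit B in
/-- `v ((1 + η)^p - 1) = v η ^ p` if `v p * v η < v η ^ p` and `η` is integral. -/
theorem val_one_add_pow (hp : p.Prime) {η : Kb} (hη : P.valuation η ≤ 1)
    (h : P.valuation (p : Kb) * P.valuation η < P.valuation η ^ p) :
    P.valuation ((1 + η) ^ p - 1) = P.valuation η ^ p := by
  have h1 := add_pow_prime_eq hp (1 : Kb) η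
  have h2 : (1 + η) ^ p - 1 = η ^ p + (p : Kb) * η *
      ∑ k ∈ Finset.Ioo 0 p, (1 : Kb) ^ (k - 1) * η ^ (p - k - 1) * ((p.choose k / p : ℕ) : Kb) := by
    rw [h1]; ring
  have h3 : P.valuation (∑ k ∈ Finset.Ioo 0 p,
      (1 : Kb) ^ (k - 1) * η ^ (p - k - 1) * ((p.choose k / p : ℕ) : Kb)) ≤ 1 := by
    refine Valuation.map_sum_le _ (fun k _ => ?_)
    rw [map_mul, map_mul, map_pow, map_pow, map_one, one_pow, one_mul]
    calc P.valuation η ^ (p - k - 1) * P.valuation ((p.choose k / p : ℕ) : Kb)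
        ≤ 1 * 1 := mul_le_mul' (pow_le_one₀ zero_le hη) (brk_val_natCast_le _)
      _ = 1 := one_mul _
  have h4 : P.valuation ((p : Kb) * η * ∑ k ∈ Finset.Ioo 0 p,
      (1 : Kb) ^ (k - 1) * η ^ (p - k - 1) * ((p.choose k / p : ℕ) : Kb)) <
      P.valuation (η ^ p) := by
    rw [map_mul, map_mul, map_pow]
    refine lt_of_le_of_lt ?_ h
    calc P.valuation (p : Kb) * P.valuation η * _ ≤ P.valuation (p : Kb) * P.valuation η * 1 :=
          mul_le_mul' le_rfl h3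
      _ = _ := mul_one _
  rw [h2, Valuation.map_add_eq_of_lt_left _ h4, map_pow]

/-- (A3) for integral `ρ`. -/
theorem val_int {ρ c γ : Kb} (hρ0 : ρ ≠ 0) (hρP : ρ ∈ P) (hρ : ∀ σ ∈ Γ, σ ρ = ρ)
    (hc0 : c ≠ 0) (hc : ∀ σ ∈ Γ0, σ c = c) (hγ : P.valuation γ = 1)
    (hγs : P.valuation (s γ - γ) ≤ P.valuation ϖ ^ (p + 1)) (h : ρ ^ p = c * γ) :
    ∃ k : ℕ, P.valuation ρ = P.valuation π0 ^ k := by
  obtain ⟨n, hn⟩ := B.exists_val_eq_pow hρ0 hρP hρ
  by_cases hpn : p ∣ n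
  · obtain ⟨m, rfl⟩ := hpn
    exact ⟨m, by rw [hn, pow_mul, B.mono.val_pow]⟩
  exfalso
  have hp := B.mono.hp
  have hγ0 : γ ≠ 0 := by
    intro h0
    rw [h0, map_zero] at hγ
    exact zero_ne_one hγ
  have hsρ0 : s ρ ≠ 0 := (map_ne_zero _).2 hρ0
  have hsγ0 : s γ ≠ 0 := (map_ne_zero _).2 hγ0
  have hη := B.val_ratio_sub_one hρ0 hρ hn hpn
  -- `(1 + η)^p = s γ / γ`
  have h1 : (1 + (s ρ / ρ - 1)) ^ p - 1 = (s γ - γ) / γ := by
    have h2 : s ρ ^ p = c * s γ := by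
      have := congrArg s h
      rwa [map_pow, map_mul, hc s B.hs] at this
    have h3 : (1 + (s ρ / ρ - 1)) ^ p = s γ / γ := by
      rw [add_sub_cancel, div_pow, h2, h]
      field_simp
    rw [h3]
    field_simp
  have h4 : P.valuation ((1 + (s ρ / ρ - 1)) ^ p - 1) = P.valuation ϖ ^ p := by
    rw [val_one_add_pow hp (by rw [hη]; exact B.vϖ_lt.le) ?_, hη]
    rw [hη]
    calc P.valuation (p : Kb) * P.valuation ϖ ≤ P.valuation ϖ ^ (p + 1) * P.valuation ϖ :=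
          mul_le_mul' B.hpval le_rfl
      _ = P.valuation ϖ ^ (p + 2) := by rw [← pow_succ]
      _ < P.valuation ϖ ^ p := B.vϖ_pow_lt (by omega)
  rw [h1, map_div₀, hγ, div_one] at h4
  rw [h4] at hγs
  exact absurd hγs (not_le.2 (B.vϖ_pow_lt (by omega)))

/-- **(A3)**: if `ρ ^ p = c γ` with `c ∈ K1` and `γ` a unit of `M` moved by `s` at level
`≥ p + 1`, then `p ∣ v_M(ρ)`: the valuation of `ρ` is that of a power of `π0`. -/
theorem break_val {ρ c γ : Kb} (hρ0 : ρ ≠ 0) (hρ : ∀ σ ∈ Γ, σ ρ = ρ)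
    (hc0 : c ≠ 0) (hc : ∀ σ ∈ Γ0, σ c = c) (hγ : P.valuation γ = 1)
    (hγs : P.valuation (s γ - γ) ≤ P.valuation ϖ ^ (p + 1)) (h : ρ ^ p = c * γ) :
    ∃ k : ℤ, P.valuation ρ = P.valuation π0 ^ k := by
  rcases P.mem_or_inv_mem ρ with hρP | hρP
  · obtain ⟨k, hk⟩ := B.val_int hρ0 hρP hρ hc0 hc hγ hγs h
    exact ⟨k, by rw [hk, zpow_natCast]⟩
  · have hγ0 : γ ≠ 0 := by
      intro h0
      rw [h0, map_zero] at hγ
      exact zero_ne_one hγ
    have hsγ0 : s γ ≠ 0 := (map_ne_zero _).2 hγ0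
    have hγ' : P.valuation γ⁻¹ = 1 := by rw [map_inv₀, hγ, inv_one]
    have hγs' : P.valuation (s γ⁻¹ - γ⁻¹) ≤ P.valuation ϖ ^ (p + 1) := by
      have e : s γ⁻¹ - γ⁻¹ = -((s γ - γ) / (γ * s γ)) := by
        rw [map_inv₀]; field_simp; ring
      rw [e, Valuation.map_neg, map_div₀, map_mul, B.val_s, hγ, mul_one, div_one]
      exact hγs
    obtain ⟨k, hk⟩ := B.val_int (inv_ne_zero hρ0) hρP
      (fun σ hσ => by rw [map_inv₀, hρ σ hσ]) (inv_ne_zero hc0)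
      (fun σ hσ => by rw [map_inv₀, hc σ hσ]) hγ' hγs' (by rw [inv_pow, h, mul_inv])
    refine ⟨-(k : ℤ), ?_⟩
    rw [map_inv₀] at hk
    rw [zpow_neg, zpow_natCast, ← hk, inv_inv]

/-- **Step 3**: if moreover `v(π0)^(p-1) = v(p)` and `v(c) = v(p)^e`, then `p ∣ e`. -/
theorem break_dvd {ρ c γ : Kb} (hρ0 : ρ ≠ 0) (hρ : ∀ σ ∈ Γ, σ ρ = ρ)
    (hc0 : c ≠ 0) (hc : ∀ σ ∈ Γ0, σ c = c) (hγ : P.valuation γ = 1)
    (hγs : P.valuation (s γ - γ) ≤ P.valuation ϖ ^ (p + 1)) (h : ρ ^ p = c * γ)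
    (hπ0 : P.valuation π0 ^ (p - 1) = P.valuation (p : Kb)) {e : ℤ}
    (hce : P.valuation c = P.valuation (p : Kb) ^ e) : (p : ℤ) ∣ e := by
  obtain ⟨k, hk⟩ := B.break_val hρ0 hρ hc0 hc hγ hγs h
  have hp := B.mono.hp
  have hv0 : 0 < P.valuation π0 := zero_lt_iff.2 ((Valuation.ne_zero_iff _).2 B.mono.hπ0)
  have hv1 : P.valuation π0 ≠ 1 := ((ValuationSubring.mem_nonunits_iff P).1 B.mono.hπ0m).ne
  have h1 : P.valuation π0 ^ (k * (p : ℤ)) = P.valuation π0 ^ (((p - 1 : ℕ) : ℤ) * e) := by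
    have h2 := congrArg P.valuation h
    rw [map_pow, map_mul, hγ, mul_one, hk, hce, ← hπ0] at h2
    rw [zpow_mul, zpow_natCast, h2, zpow_mul, zpow_natCast]
  have h3 : k * (p : ℤ) = ((p - 1 : ℕ) : ℤ) * e := zpow_right_injective₀ hv0 hv1 h1
  have h4 : (p : ℤ) ∣ ((p - 1 : ℕ) : ℤ) * e := ⟨k, by rw [← h3, mul_comm]⟩
  rcases (Nat.prime_iff_prime_int.1 hp).dvd_or_dvd h4 with h5 | h5
  · exfalso
    have h6 : p ∣ p - 1 := Int.natCast_dvd_natCast.1 h5
    have h7 := Nat.le_of_dvd (Nat.sub_pos_of_lt hp.one_lt) h6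
    have := hp.one_lt
    omega
  · exact h5


/-! ### The first-order formula (Lemma A on constants) -/

/-- `v ((s ϖ / ϖ) ^ n - 1 - n δ) ≤ v ϖ ^ 2`, `δ = s ϖ / ϖ - 1`. -/
theorem val_q_pow_first (n : ℕ) :
    P.valuation ((s ϖ / ϖ) ^ n - 1 - (n : Kb) * (s ϖ / ϖ - 1)) ≤ P.valuation ϖ ^ 2 := by
  induction n with
  | zero => simp
  | succ n ih =>
    have h : (s ϖ / ϖ) ^ (n + 1) - 1 - ((n + 1 : ℕ) : Kb) * (s ϖ / ϖ - 1) =
        ((s ϖ / ϖ) ^ n - 1 - (n : Kb) * (s ϖ / ϖ - 1)) +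
          (s ϖ / ϖ - 1) * ((s ϖ / ϖ) ^ n - 1) := by
      push_cast
      ring
    rw [h]
    refine (Valuation.map_add _ _ _).trans (max_le ih ?_)
    rw [map_mul, B.val_q_sub_one, pow_two]
    refine mul_le_mul' le_rfl ?_
    have := val_pow_sub_one_le (P := P) B.val_q.le n
    rwa [B.val_q_sub_one] at this

/-- the first-order formula for integral elements. -/
theorem first_order_int {ρ : Kb} (hρ0 : ρ ≠ 0) (hρ : ∀ σ ∈ Γ, σ ρ = ρ) {n : ℕ}
    (hn : P.valuation ρ = P.valuation ϖ ^ n) :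
    P.valuation (s ρ / ρ - 1 - (n : Kb) * (s ϖ / ϖ - 1)) ≤ P.valuation ϖ ^ 2 := by
  have hϖ0 := B.mono.ϖ_ne_zero
  obtain ⟨u, hu⟩ : ∃ u : Kb, u = ρ / ϖ ^ n := ⟨_, rfl⟩
  have hvu : P.valuation u = 1 := by
    rw [hu, map_div₀, map_pow, hn, div_self (pow_ne_zero _ B.mono.val_ϖ_ne_zero)]
  have hu0 : u ≠ 0 := by
    intro h0
    rw [h0, map_zero] at hvu
    exact zero_ne_one hvu
  have huP : u ∈ P := (P.valuation_le_one_iff _).1 hvu.le
  have hufix : ∀ σ ∈ Γ, σ u = u := fun σ hσ => by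
    rw [hu, map_div₀, map_pow, hρ σ hσ, B.mono.hϖfix σ hσ]
  have hρu : ρ = ϖ ^ n * u := by rw [hu]; field_simp
  have hd : P.valuation ((s u - u) / u) ≤ P.valuation ϖ ^ 2 := by
    rw [map_div₀, hvu, div_one]
    exact B.depth_unit huP hufix
  have h : s ρ / ρ - 1 - (n : Kb) * (s ϖ / ϖ - 1) =
      ((s ϖ / ϖ) ^ n - 1 - (n : Kb) * (s ϖ / ϖ - 1)) +
        ((s ϖ / ϖ) ^ n - 1) * ((s u - u) / u) + (s u - u) / u := by
    have e1 : s ρ / ρ = (s ϖ / ϖ) ^ n * (s u / u) := by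
      rw [hρu, map_mul, map_pow, div_pow, mul_div_mul_comm]
    have e2 : (s u - u) / u = s u / u - 1 := by rw [sub_div, div_self hu0]
    rw [e1, e2]
    ring
  rw [h]
  refine (Valuation.map_add _ _ _).trans (max_le
    ((Valuation.map_add _ _ _).trans (max_le (B.val_q_pow_first n) ?_)) hd)
  rw [map_mul]
  have h1 : P.valuation ((s ϖ / ϖ) ^ n - 1) ≤ 1 := by
    refine (val_pow_sub_one_le (P := P) B.val_q.le n).trans ?_
    rw [B.val_q_sub_one]
    exact B.vϖ_lt.le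
  calc P.valuation ((s ϖ / ϖ) ^ n - 1) * P.valuation ((s u - u) / u)
      ≤ 1 * P.valuation ϖ ^ 2 := mul_le_mul' h1 hd
    _ = P.valuation ϖ ^ 2 := one_mul _

/-- the valuation of an element of `Mˣ` is an integral power of `v ϖ`. -/
theorem exists_val_eq_zpow {ρ : Kb} (hρ0 : ρ ≠ 0) (hρ : ∀ σ ∈ Γ, σ ρ = ρ) :
    ∃ k : ℤ, P.valuation ρ = P.valuation ϖ ^ k := by
  rcases P.mem_or_inv_mem ρ with hρP | hρP
  · obtain ⟨n, hn⟩ := B.exists_val_eq_pow hρ0 hρP hρ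
    exact ⟨n, by rw [hn, zpow_natCast]⟩
  · obtain ⟨n, hn⟩ := B.exists_val_eq_pow (inv_ne_zero hρ0) hρP
      (fun σ hσ => by rw [map_inv₀, hρ σ hσ])
    refine ⟨-(n : ℤ), ?_⟩
    rw [map_inv₀] at hn
    rw [zpow_neg, zpow_natCast, ← hn, inv_inv]

/-- **First-order formula** (Lemma A on constants): for `ρ ∈ Mˣ` with `v ρ = v ϖ ^ k`,
`s ρ / ρ ≡ 1 + k δ` modulo `ϖ²`, where `δ = s ϖ / ϖ - 1` (`v δ = v ϖ`). -/
theorem break_first_order {ρ : Kb} (hρ0 : ρ ≠ 0) (hρ : ∀ σ ∈ Γ, σ ρ = ρ) {k : ℤ}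
    (hk : P.valuation ρ = P.valuation ϖ ^ k) :
    P.valuation (s ρ / ρ - 1 - (k : Kb) * (s ϖ / ϖ - 1)) ≤ P.valuation ϖ ^ 2 := by
  have hinj := zpow_right_injective₀ B.vϖ_pos B.vϖ_lt.ne
  rcases P.mem_or_inv_mem ρ with hρP | hρP
  · obtain ⟨n, hn⟩ := B.exists_val_eq_pow hρ0 hρP hρ
    have hkn : k = n := by
      apply hinj
      show P.valuation ϖ ^ k = P.valuation ϖ ^ ((n : ℕ) : ℤ)
      rw [← hk, hn, zpow_natCast]
    rw [hkn, Int.cast_natCast]
    exact B.first_order_int hρ0 hρ hn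
  · obtain ⟨n, hn⟩ := B.exists_val_eq_pow (inv_ne_zero hρ0) hρP
      (fun σ hσ => by rw [map_inv₀, hρ σ hσ])
    have h1 := B.first_order_int (inv_ne_zero hρ0) (fun σ hσ => by rw [map_inv₀, hρ σ hσ]) hn
    have hkn : k = -(n : ℤ) := by
      apply hinj
      show P.valuation ϖ ^ k = P.valuation ϖ ^ (-(n : ℤ))
      rw [← hk, zpow_neg, zpow_natCast, ← hn, map_inv₀, inv_inv]
    have hsρ0 : s ρ ≠ 0 := (map_ne_zero _).2 hρ0
    have hvr : P.valuation (s ρ / ρ) = 1 := by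
      rw [map_div₀, B.val_s, div_self ((Valuation.ne_zero_iff _).2 hρ0)]
    -- `x = s ρ⁻¹ / ρ⁻¹ - 1 = (s ρ / ρ)⁻¹ - 1`
    obtain ⟨x, hx⟩ : ∃ x : Kb, x = s ρ⁻¹ / ρ⁻¹ - 1 := ⟨_, rfl⟩
    have hx' : s ρ / ρ = (1 + x)⁻¹ := by
      rw [hx, map_inv₀, add_sub_cancel, inv_div_inv, inv_div]
    have hδ : P.valuation ((n : Kb) * (s ϖ / ϖ - 1)) ≤ P.valuation ϖ := by
      rw [map_mul, B.val_q_sub_one]
      calc P.valuation (n : Kb) * P.valuation ϖ ≤ 1 * P.valuation ϖ :=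
            mul_le_mul' (brk_val_natCast_le n) le_rfl
        _ = P.valuation ϖ := one_mul _
    have hvx : P.valuation x ≤ P.valuation ϖ := by
      have e : x = (x - (n : Kb) * (s ϖ / ϖ - 1)) + (n : Kb) * (s ϖ / ϖ - 1) := by ring
      rw [e]
      refine (Valuation.map_add _ _ _).trans (max_le ?_ hδ)
      rw [hx]
      exact h1.trans (B.vϖ_pow_anti (m := 1) (n := 2) (by norm_num) |>.trans (by rw [pow_one]))
    have h1x : P.valuation (1 + x) = 1 := by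
      rw [add_comm]
      rw [Valuation.map_add_eq_of_lt_right _ (by rw [map_one]; exact lt_of_le_of_lt hvx B.vϖ_lt),
        map_one]
    have h1x0 : (1 + x) ≠ 0 := by
      intro h0
      rw [h0, map_zero] at h1x
      exact zero_ne_one h1x
    have e : s ρ / ρ - 1 - (k : Kb) * (s ϖ / ϖ - 1) =
        x * x / (1 + x) - (x - (n : Kb) * (s ϖ / ϖ - 1)) := by
      rw [hx', hkn]
      push_cast
      field_simp
      ring
    rw [e]
    refine (Valuation.map_sub _ _ _).trans (max_le ?_ (by rw [hx]; exact h1))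
    rw [map_div₀, h1x, div_one, map_mul, pow_two]
    exact mul_le_mul' hvx hvx

/-! ### (A2): descent of units moved at level `≥ p + 1` -/

/-- **(A2)**: a unit `w` of `M` with `v (s w - w) ≤ v ϖ ^ (p + 1)` is congruent modulo `ϖ ^ p`
to a unit `c` of `K1`. -/
theorem break_descend {w : Kb} (hw : P.valuation w = 1) (hwfix : ∀ σ ∈ Γ, σ w = w)
    (hws : P.valuation (s w - w) ≤ P.valuation ϖ ^ (p + 1)) :
    ∃ c : Kb, (∀ σ ∈ Γ0, σ c = c) ∧ P.valuation c = 1 ∧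
      P.valuation (w - c) ≤ P.valuation ϖ ^ p := by
  classical
  have hp := B.mono.hp
  have hwP : w ∈ P := (P.valuation_le_one_iff _).1 hw.le
  obtain ⟨r, ⟨hr, hwr⟩, -⟩ := B.mono.basis ⟨hwP, hwfix⟩
  let i0 : Fin p := ⟨0, hp.pos⟩
  -- the part without constant term
  let r' : Fin p → Kb := fun i => if i = i0 then 0 else r i
  have hr'fix : ∀ i, ∀ σ ∈ Γ0, σ (r' i) = r' i := by
    intro i σ hσ
    by_cases hi : i = i0
    · simp only [r', hi, if_true, map_zero]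
    · simp only [r', hi, if_false]
      exact (hr i).2 σ hσ
  have hr'P : ∀ i, P.valuation (r' i) ≤ 1 := by
    intro i
    by_cases hi : i = i0
    · simp only [r', hi, if_true, map_zero]
      exact zero_le_one
    · simp only [r', hi, if_false]
      exact (P.valuation_le_one_iff _).2 (hr i).1
  have hr'0 : r' i0 = 0 := by simp only [r', if_true]
  have ht : w - r i0 = ∑ i, r' i * ϖ ^ (i : ℕ) := by
    rw [hwr, ← Finset.add_sum_erase Finset.univ _ (Finset.mem_univ i0),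
      ← Finset.add_sum_erase Finset.univ (fun i => r' i * ϖ ^ (i : ℕ)) (Finset.mem_univ i0)]
    simp only [hr'0, zero_mul, zero_add]
    have : ((i0 : Fin p) : ℕ) = 0 := rfl
    rw [this, pow_zero, mul_one, add_sub_cancel_left]
    refine Finset.sum_congr rfl (fun i hi => ?_)
    have hi' : i ≠ i0 := Finset.ne_of_mem_erase hi
    simp only [r', hi', if_false]
  obtain ⟨t, htdef⟩ : ∃ t : Kb, t = w - r i0 := ⟨_, rfl⟩
  rw [← htdef] at ht
  have hterm : ∀ i : Fin p, P.valuation (r' i * ϖ ^ (i : ℕ)) ≤ P.valuation ϖ := by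
    intro i
    by_cases hi : i = i0
    · rw [hi, hr'0, zero_mul, map_zero]
      exact zero_le
    · have hi1 : 1 ≤ (i : ℕ) := by
        rcases Nat.eq_zero_or_pos (i : ℕ) with h0 | h0
        · exact absurd (Fin.ext h0) hi
        · exact h0
      rw [map_mul, map_pow]
      calc P.valuation (r' i) * P.valuation ϖ ^ (i : ℕ) ≤ 1 * P.valuation ϖ ^ 1 :=
            mul_le_mul' (hr'P i) (B.vϖ_pow_anti hi1)
        _ = P.valuation ϖ := by rw [one_mul, pow_one]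
  have hvt : P.valuation t ≤ P.valuation ϖ := by
    rw [ht]
    exact Valuation.map_sum_le _ (fun i _ => hterm i)
  have hvc : P.valuation (r i0) = 1 := by
    have e : r i0 = w - t := by rw [htdef]; ring
    rw [e, Valuation.map_sub_eq_of_lt_left _ (by rw [hw]; exact lt_of_le_of_lt hvt B.vϖ_lt), hw]
  refine ⟨r i0, (hr i0).2, hvc, ?_⟩
  rw [← htdef]
  by_contra hlt
  rw [not_le] at hlt
  have ht0 : t ≠ 0 := by
    intro h0
    rw [h0, map_zero] at hlt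
    exact absurd hlt (not_lt.2 zero_le)
  -- the dominant term
  obtain ⟨hle, hdom⟩ := fm_val_sum_aux P.valuation (fun j : Fin p => r' j * ϖ ^ (j : ℕ))
    Finset.univ (fun i _ j _ hij hai haj =>
      B.mono.val_ne i.2 j.2 (fun h => hij (Fin.ext h)) (left_ne_zero_of_mul hai)
        (left_ne_zero_of_mul haj) (hr'fix i) (hr'fix j))
  rw [← ht] at hle hdom
  rcases hdom with h0 | ⟨j, -, hj0, hjv⟩
  · exact ht0 h0
  have hrj0 : r' j ≠ 0 := left_ne_zero_of_mul hj0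
  have hji0 : j ≠ i0 := fun h => hrj0 (h ▸ hr'0)
  have hj1 : 1 ≤ (j : ℕ) := by
    rcases Nat.eq_zero_or_pos (j : ℕ) with h0 | h0
    · exact absurd (Fin.ext h0) hji0
    · exact h0
  -- `v (r' j) = 1`
  have hvrj : P.valuation (r' j) = 1 := by
    obtain ⟨m, hm⟩ := fm_val_eq_pow hp B.mono.hP Γ0 B.mono.hπ0 B.mono.hπ0m B.mono.hπ0fix
      B.mono.hunif hrj0 ((P.valuation_le_one_iff _).1 (hr'P j)) (hr'fix j)
    rcases Nat.eq_zero_or_pos m with hm0 | hm0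
    · rw [hm, hm0, pow_zero]
    · exfalso
      have h1 : P.valuation (r' j) ≤ P.valuation ϖ ^ p := by
        rw [hm, ← B.mono.val_pow, ← pow_mul]
        exact B.vϖ_pow_anti (Nat.le_mul_of_pos_right p hm0)
      have h2 : P.valuation t ≤ P.valuation ϖ ^ p := by
        rw [hjv, map_mul, map_pow]
        calc P.valuation (r' j) * P.valuation ϖ ^ (j : ℕ) ≤ P.valuation ϖ ^ p * 1 :=
              mul_le_mul' h1 (B.vϖ_pow_le_one _)
          _ = P.valuation ϖ ^ p := mul_one _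
      exact absurd h2 (not_le.2 hlt)
  have hvtj : P.valuation t = P.valuation ϖ ^ (j : ℕ) := by
    rw [hjv, map_mul, map_pow, hvrj, one_mul]
  have hpj : ¬ p ∣ (j : ℕ) := fun h => absurd (Nat.le_of_dvd hj1 h) (not_le.2 j.2)
  -- `s w - w = ∑ r' i ((s ϖ)^i - ϖ^i)`
  have hsw : s w - w = ∑ i, r' i * ϖ ^ (i : ℕ) * ((s ϖ / ϖ) ^ (i : ℕ) - 1) := by
    have e1 : s w - w = s t - t := by
      rw [htdef, map_sub, (hr i0).2 s B.hs]; ring
    rw [e1, ht, map_sum, ← Finset.sum_sub_distrib]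
    refine Finset.sum_congr rfl (fun i _ => ?_)
    rw [map_mul, map_pow, hr'fix i s B.hs, div_pow]
    have := pow_ne_zero (i : ℕ) B.mono.ϖ_ne_zero
    field_simp
  have hdomv : P.valuation (r' j * ϖ ^ (j : ℕ) * ((s ϖ / ϖ) ^ (j : ℕ) - 1)) =
      P.valuation ϖ ^ ((j : ℕ) + 1) := by
    rw [map_mul, ← hjv, hvtj, B.val_q_pow_sub_one hpj, pow_succ]
  have hrest : P.valuation (∑ i ∈ Finset.univ.erase j,
      r' i * ϖ ^ (i : ℕ) * ((s ϖ / ϖ) ^ (i : ℕ) - 1)) < P.valuation ϖ ^ ((j : ℕ) + 1) := by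
    refine Valuation.map_sum_lt _ (pow_ne_zero _ B.mono.val_ϖ_ne_zero) (fun i hi => ?_)
    have hij : i ≠ j := Finset.ne_of_mem_erase hi
    by_cases hri : r' i = 0
    · rw [hri, zero_mul, zero_mul, map_zero]
      exact pow_pos B.vϖ_pos _
    have h1 : P.valuation (r' i * ϖ ^ (i : ℕ)) < P.valuation ϖ ^ (j : ℕ) := by
      rw [← hvtj]
      refine lt_of_le_of_ne (hle i (Finset.mem_univ i)) ?_
      rw [hjv]
      exact B.mono.val_ne i.2 j.2 (fun h => hij (Fin.ext h)) hri hrj0 (hr'fix i) (hr'fix j)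
    have h2 : P.valuation ((s ϖ / ϖ) ^ (i : ℕ) - 1) ≤ P.valuation ϖ := by
      have := val_pow_sub_one_le (P := P) B.val_q.le (i : ℕ)
      rwa [B.val_q_sub_one] at this
    rw [map_mul, pow_succ]
    calc P.valuation (r' i * ϖ ^ (i : ℕ)) * P.valuation ((s ϖ / ϖ) ^ (i : ℕ) - 1)
        ≤ P.valuation (r' i * ϖ ^ (i : ℕ)) * P.valuation ϖ := mul_le_mul' le_rfl h2
      _ < P.valuation ϖ ^ (j : ℕ) * P.valuation ϖ :=
          mul_lt_mul_of_pos_right h1 B.vϖ_pos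
  have hfinal : P.valuation (s w - w) = P.valuation ϖ ^ ((j : ℕ) + 1) := by
    rw [hsw, ← Finset.add_sum_erase Finset.univ _ (Finset.mem_univ j),
      Valuation.map_add_eq_of_lt_left _ (by rw [hdomv]; exact hrest), hdomv]
  rw [hfinal] at hws
  have hjp : (j : ℕ) + 1 < p + 1 := by have := j.2; omega
  exact absurd hws (not_le.2 (B.vϖ_pow_lt hjp))

end BreakSetting

end Fermat.Agent.PeuDBreak
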