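/-
Row 38, case (d) (non-split peu ramifie), seat BREAK-ABS (helper69): the ABSTRACT break lemma.
Mathlib only.  Design: helper62 (note 3mwhuvjiear2w, Step 0) and helper16 (note 3mwhv7jtddr2w, §2).

Setting: `L` a field with a valuation `v` (multiplicative notation), `s : L →+* L`,
`K₁` a subfield fixed by `s`, `π ∈ L` with
* `v π < 1`, `π ≠ 0`,
* `v (s π - π) = v π * v π`            (the break of `K₁(π) / K₁` is `1`: `s π / π` has EXACT level `1`),
* `v c ≠ v π ^ k` for `c ∈ K₁ˣ`, `0 < k < p`   (`K₁(π) / K₁` is totally ramified of degree `p`),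
* `v p < v π ^ (p - 1)`, `v k = 1` for `0 < k < p`     (residue characteristic `p`).

`break_sub` (A1/A3, first order): for `ρ = ∑_{k < p} c_k π^k ≠ 0` (`c_k ∈ K₁`), either
`v ρ ∈ v (K₁ˣ)` or `v (s ρ - ρ) = v π * v ρ`.
`break_pow` : if `v (s (ρ ^ p) - ρ ^ p) < v π ^ p * v (ρ ^ p)` then `v ρ ∈ v (K₁ˣ)`.
`break_pow_mul` : the form used by the consumer: `ρ ^ p = w * γ`, `w ∈ K₁`,
`v (s γ - γ) < v π ^ p * v γ`  ⟹  `v ρ ∈ v (K₁ˣ)`.
-/
import Mathlib

set_option autoImplicit false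

namespace Fermat.Agent.PeuD

open Finset

variable {L : Type*} [Field L] {Γ₀ : Type*} [LinearOrderedCommGroupWithZero Γ₀]

/-- the valuation of a natural number is at most `1`. -/
theorem val_natCast_le_one (v : Valuation L Γ₀) (n : ℕ) : v (n : L) ≤ 1 := by
  induction n with
  | zero => simp
  | succ n ih =>
    rw [Nat.cast_succ]
    exact v.map_add_le ih (le_of_eq v.map_one)

/-- powers of an element of valuation `1`. -/
theorem val_pow_eq_one (v : Valuation L Γ₀) {X : L} (hX : v X = 1) (n : ℕ) : v (X ^ n) = 1 := by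
  rw [v.map_pow, hX, one_pow]

/-- `v (X ^ i - 1) ≤ v (X - 1)` if `v X = 1`. -/
theorem val_pow_sub_one_le (v : Valuation L Γ₀) {X : L} (hX : v X = 1) (i : ℕ) :
    v (X ^ i - 1) ≤ v (X - 1) := by
  rw [← mul_geom_sum X i, v.map_mul]
  have h1 : v (∑ j ∈ range i, X ^ j) ≤ 1 :=
    v.map_sum_le fun j _ => le_of_eq (val_pow_eq_one v hX j)
  calc v (X - 1) * v (∑ j ∈ range i, X ^ j) ≤ v (X - 1) * 1 := by gcongr
    _ = v (X - 1) := mul_one _

/-- **first-order expansion**: `v (X ^ k - 1) = v (X - 1)` if `v (X - 1) < 1` and `v k = 1`. -/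
theorem val_pow_sub_one (v : Valuation L Γ₀) {X : L} (hη : v (X - 1) < 1) {k : ℕ}
    (hk : v (k : L) = 1) : v (X ^ k - 1) = v (X - 1) := by
  have hX : v X = 1 := by
    have : X = 1 + (X - 1) := by ring
    rw [this]
    exact v.map_one_add_of_lt hη
  rw [← mul_geom_sum X k, v.map_mul]
  have hG : v (∑ j ∈ range k, X ^ j) = 1 := by
    have e : ∑ j ∈ range k, X ^ j = (k : L) + ∑ j ∈ range k, (X ^ j - 1) := by
      rw [Finset.sum_sub_distrib, Finset.sum_const, card_range, nsmul_eq_mul, mul_one]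
      ring
    rw [e]
    have hlt : v (∑ j ∈ range k, (X ^ j - 1)) < v (k : L) := by
      rw [hk]
      exact v.map_sum_lt one_ne_zero fun j _ => lt_of_le_of_lt (val_pow_sub_one_le v hX j) hη
    rw [v.map_add_eq_of_lt_left hlt, hk]
  rw [hG, mul_one]

/-- **binomial step**: `v ((1 + x) ^ p - 1) = v x ^ p` if `v p < v x ^ (p - 1)`. -/
theorem val_one_add_pow_sub_one (v : Valuation L Γ₀) {p : ℕ} (hp : p.Prime) {x : L}
    (hx1 : v x ≤ 1) (hx0 : x ≠ 0) (hpx : v (p : L) < v x ^ (p - 1)) :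
    v ((x + 1) ^ p - 1) = v x ^ p := by
  have hvx0 : v x ≠ 0 := (v.ne_zero_iff).mpr hx0
  obtain ⟨n, hn⟩ : ∃ n, p = n + 1 := ⟨p - 1, (Nat.succ_pred_eq_of_pos hp.pos).symm⟩
  have hexp : (x + 1) ^ p - 1 =
      x ^ p + ∑ m ∈ range n, x ^ (m + 1) * ((p.choose (m + 1) : ℕ) : L) := by
    rw [add_pow]
    rw [show p + 1 = (n + 1) + 1 by omega, Finset.sum_range_succ, Finset.sum_range_succ']
    simp only [one_pow, mul_one, pow_zero, Nat.choose_zero_right, Nat.cast_one]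
    rw [← hn, Nat.choose_self, Nat.cast_one, mul_one]
    ring
  rw [hexp]
  have hmid : v (∑ m ∈ range n, x ^ (m + 1) * ((p.choose (m + 1) : ℕ) : L)) < v (x ^ p) := by
    rw [v.map_pow]
    refine v.map_sum_lt (pow_ne_zero _ hvx0) fun m hm => ?_
    have hm' : m + 1 < p := by
      have := Finset.mem_range.mp hm
      omega
    obtain ⟨q, hq⟩ := hp.dvd_choose_self (Nat.succ_ne_zero m) hm'
    rw [hq, Nat.cast_mul, v.map_mul, v.map_mul, v.map_pow]
    have h1 : v x ^ (m + 1) ≤ v x := by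
      calc v x ^ (m + 1) = v x ^ m * v x := pow_succ _ _
        _ ≤ 1 * v x := by
            gcongr
            exact pow_le_one₀ zero_le hx1
        _ = v x := one_mul _
    have h2 : v (p : L) * v (q : L) ≤ v (p : L) := by
      calc v (p : L) * v (q : L) ≤ v (p : L) * 1 := by
            gcongr
            exact val_natCast_le_one v q
        _ = v (p : L) := mul_one _
    calc v x ^ (m + 1) * (v (p : L) * v (q : L)) ≤ v x * v (p : L) := by gcongr
      _ < v x * v x ^ (p - 1) := by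
          exact mul_lt_mul_of_pos_left hpx (zero_lt_iff.mpr hvx0)
      _ = v x ^ p := by
          rw [← pow_succ']
          congr 1
          omega
  exact (v.map_add_eq_of_lt_left hmid).trans (v.map_pow x p)

/-- a finite family with pairwise distinct valuations on its nonzero terms and nonzero sum has a
dominant term. -/
theorem exists_dominant (v : Valuation L Γ₀) {ι : Type*} [Fintype ι] [DecidableEq ι] [Nonempty ι]
    (t : ι → L) (hdist : ∀ i j, i ≠ j → t i ≠ 0 → t j ≠ 0 → v (t i) ≠ v (t j))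
    (hne : ∃ i, t i ≠ 0) :
    ∃ j, t j ≠ 0 ∧ (∀ i, i ≠ j → v (t i) < v (t j)) ∧ v (∑ i, t i) = v (t j) := by
  obtain ⟨j, -, hj⟩ := Finset.exists_max_image (Finset.univ : Finset ι) (fun i => v (t i))
    Finset.univ_nonempty
  have hj0 : t j ≠ 0 := by
    obtain ⟨i, hi⟩ := hne
    intro h0
    have := hj i (Finset.mem_univ i)
    rw [h0, v.map_zero] at this
    exact hi ((v.zero_iff).mp (le_antisymm this zero_le))
  have hlt : ∀ i, i ≠ j → v (t i) < v (t j) := by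
    intro i hij
    by_cases hi0 : t i = 0
    · rw [hi0, v.map_zero]
      exact zero_lt_iff.mpr ((v.ne_zero_iff).mpr hj0)
    · exact lt_of_le_of_ne (hj i (Finset.mem_univ i)) (hdist i j hij hi0 hj0)
  refine ⟨j, hj0, hlt, ?_⟩
  refine v.map_sum_eq_of_lt (Finset.mem_univ j) fun i hi => ?_
  exact hlt i (by
    rw [Finset.mem_sdiff, Finset.mem_singleton] at hi
    exact hi.2)

/-- **the data of a cyclic step of degree `p` with break `1`**. -/
structure BreakData (v : Valuation L Γ₀) (K₁ : Subfield L) (s : L →+* L) (π : L) (p : ℕ) :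
    Prop where
  prime : p.Prime
  /-- `s` fixes `K₁` -/
  s_fix : ∀ c ∈ K₁, s c = c
  pi_lt : v π < 1
  pi_ne : π ≠ 0
  /-- `s π / π - 1` has EXACT level one -/
  level : v (s π - π) = v π * v π
  /-- `1, π, …, π ^ (p - 1)` have valuations in distinct classes modulo `v (K₁ˣ)` -/
  indep : ∀ c ∈ K₁, c ≠ 0 → ∀ k : ℕ, 0 < k → k < p → v c ≠ v π ^ k
  /-- `p` is small -/
  vp : v (p : L) < v π ^ (p - 1)
  /-- the residue characteristic is `p` (or `0`) -/
  unit : ∀ k : ℕ, 0 < k → k < p → v (k : L) = 1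

namespace BreakData

variable {v : Valuation L Γ₀} {K₁ : Subfield L} {s : L →+* L} {π : L} {p : ℕ}

theorem val_pi_ne_zero (h : BreakData v K₁ s π p) : v π ≠ 0 := (v.ne_zero_iff).mpr h.pi_ne

/-- `v (s π / π - 1) = v π`. -/
theorem val_ratio_sub_one (h : BreakData v K₁ s π p) : v (s π / π - 1) = v π := by
  have e : s π / π - 1 = (s π - π) / π := by
    field_simp [h.pi_ne]
  rw [e, map_div₀, h.level, mul_div_assoc, div_self h.val_pi_ne_zero, mul_one]

/-- `v (s π ^ k - π ^ k) = v π ^ k * v π` for `0 < k < p`. -/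
theorem val_spow_sub_pow (h : BreakData v K₁ s π p) {k : ℕ} (hk0 : 0 < k) (hkp : k < p) :
    v (s π ^ k - π ^ k) = v π ^ k * v π := by
  have e : s π ^ k - π ^ k = π ^ k * ((s π / π) ^ k - 1) := by
    rw [div_pow]
    field_simp [h.pi_ne]
  rw [e, v.map_mul, v.map_pow]
  congr 1
  have hη : v (s π / π - 1) < 1 := by
    rw [h.val_ratio_sub_one]
    exact h.pi_lt
  rw [val_pow_sub_one v hη (h.unit k hk0 hkp), h.val_ratio_sub_one]

/-- the terms `c_k π ^ k` have pairwise distinct valuations. -/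
theorem terms_distinct (h : BreakData v K₁ s π p) (c : Fin p → L) (hc : ∀ k, c k ∈ K₁)
    (i j : Fin p) (hij : i ≠ j) (hi : c i * π ^ (i : ℕ) ≠ 0) (hj : c j * π ^ (j : ℕ) ≠ 0) :
    v (c i * π ^ (i : ℕ)) ≠ v (c j * π ^ (j : ℕ)) := by
  have hπ := h.val_pi_ne_zero
  -- reduce to `i < j`
  have key : ∀ a b : Fin p, (a : ℕ) < (b : ℕ) → c a * π ^ (a : ℕ) ≠ 0 → c b * π ^ (b : ℕ) ≠ 0 →
      v (c a * π ^ (a : ℕ)) ≠ v (c b * π ^ (b : ℕ)) := by
    intro a b hab ha hb heq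
    have hca : c a ≠ 0 := left_ne_zero_of_mul ha
    have hcb : c b ≠ 0 := left_ne_zero_of_mul hb
    rw [v.map_mul, v.map_mul, v.map_pow, v.map_pow] at heq
    have hd : (b : ℕ) = (a : ℕ) + ((b : ℕ) - (a : ℕ)) := by omega
    rw [hd, pow_add, ← mul_assoc] at heq
    -- `v (c a) = v (c b) * v π ^ (b - a)`
    have h1 : v (c a) * v π ^ (a : ℕ) = v (c b) * v π ^ ((b : ℕ) - (a : ℕ)) * v π ^ (a : ℕ) := by
      rw [heq, mul_right_comm]
    have h2 : v (c a) = v (c b) * v π ^ ((b : ℕ) - (a : ℕ)) :=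
      mul_right_cancel₀ (pow_ne_zero _ hπ) h1
    have h3 : v (c a / c b) = v π ^ ((b : ℕ) - (a : ℕ)) := by
      rw [map_div₀, h2, mul_comm, mul_div_assoc, div_self ((v.ne_zero_iff).mpr hcb), mul_one]
    exact h.indep (c a / c b) (K₁.div_mem (hc a) (hc b)) (div_ne_zero hca hcb)
      ((b : ℕ) - (a : ℕ)) (by omega) (by have := b.2; omega) h3
  rcases lt_or_gt_of_ne (fun e => hij (Fin.ext e)) with hlt | hgt
  · exact key i j hlt hi hj
  · exact fun e => key j i hgt hj hi e.symm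

/-- **(A1)/(A3), first order**: for `ρ ∈ K₁[π]`, `ρ ≠ 0`: either `v ρ ∈ v (K₁ˣ)` or
`s ρ / ρ - 1` has EXACT level one. -/
theorem break_sub (h : BreakData v K₁ s π p) {ρ : L} (hρ0 : ρ ≠ 0)
    (hρ : ∃ c : Fin p → L, (∀ k, c k ∈ K₁) ∧ ρ = ∑ k, c k * π ^ (k : ℕ)) :
    (∃ c ∈ K₁, c ≠ 0 ∧ v ρ = v c) ∨ v (s ρ - ρ) = v π * v ρ := by
  classical
  obtain ⟨c, hc, rfl⟩ := hρ
  have : NeZero p := ⟨h.prime.ne_zero⟩
  have : Nonempty (Fin p) := ⟨0⟩
  have hne : ∃ i, c i * π ^ (i : ℕ) ≠ 0 := by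
    by_contra hall
    push Not at hall
    exact hρ0 (Finset.sum_eq_zero fun i _ => hall i)
  obtain ⟨j, hj0, hjlt, hjv⟩ := exists_dominant v (fun k : Fin p => c k * π ^ (k : ℕ))
    (fun a b hab ha hb => h.terms_distinct c hc a b hab ha hb) hne
  by_cases hj : (j : ℕ) = 0
  · left
    refine ⟨c j, hc j, left_ne_zero_of_mul hj0, ?_⟩
    rw [hjv]
    simp only [hj, pow_zero, mul_one]
  · right
    have hπ := h.val_pi_ne_zero
    -- `s ρ - ρ = ∑ c_k (s π ^ k - π ^ k)`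
    have hs : s (∑ k, c k * π ^ (k : ℕ)) - ∑ k, c k * π ^ (k : ℕ) =
        ∑ k : Fin p, c k * (s π ^ (k : ℕ) - π ^ (k : ℕ)) := by
      rw [map_sum, ← Finset.sum_sub_distrib]
      refine Finset.sum_congr rfl fun k _ => ?_
      rw [map_mul, map_pow, h.s_fix _ (hc k)]
      ring
    have hterm : ∀ k : Fin p, (k : ℕ) ≠ 0 →
        v (c k * (s π ^ (k : ℕ) - π ^ (k : ℕ))) = v (c k * π ^ (k : ℕ)) * v π := by
      intro k hk
      rw [v.map_mul, h.val_spow_sub_pow (Nat.pos_of_ne_zero hk) k.2, v.map_mul, v.map_pow,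
        mul_assoc]
    rw [hs, hjv, mul_comm]
    rw [← hterm j hj]
    refine v.map_sum_eq_of_lt (Finset.mem_univ j) fun i hi => ?_
    have hij : i ≠ j := by
      rw [Finset.mem_sdiff, Finset.mem_singleton] at hi
      exact hi.2
    rw [hterm j hj]
    by_cases hi0 : (i : ℕ) = 0
    · simp only [hi0, pow_zero, sub_self, mul_zero, map_zero]
      exact zero_lt_iff.mpr (mul_ne_zero ((v.ne_zero_iff).mpr hj0) hπ)
    · rw [hterm i hi0]
      exact mul_lt_mul_of_pos_right (hjlt i hij) (zero_lt_iff.mpr hπ)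

/-- **BREAK** (`(A3)`): if `s (ρ ^ p) / ρ ^ p - 1` has level `> p`, then `v ρ ∈ v (K₁ˣ)`. -/
theorem break_pow (h : BreakData v K₁ s π p) {ρ : L} (hρ0 : ρ ≠ 0)
    (hρ : ∃ c : Fin p → L, (∀ k, c k ∈ K₁) ∧ ρ = ∑ k, c k * π ^ (k : ℕ))
    (hlev : v (s (ρ ^ p) - ρ ^ p) < v π ^ p * v (ρ ^ p)) :
    ∃ c ∈ K₁, c ≠ 0 ∧ v ρ = v c := by
  rcases h.break_sub hρ0 hρ with h1 | h1
  · exact h1
  · exfalso
    have hπ := h.val_pi_ne_zero
    have hvρ : v ρ ≠ 0 := (v.ne_zero_iff).mpr hρ0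
    set x : L := s ρ / ρ - 1 with hx
    have hxv : v x = v π := by
      have e : x = (s ρ - ρ) / ρ := by
        rw [hx]
        field_simp [hρ0]
      rw [e, map_div₀, h1, mul_div_assoc, div_self hvρ, mul_one]
    have hx0 : x ≠ 0 := (v.ne_zero_iff).mp (by rw [hxv]; exact hπ)
    have hbin := val_one_add_pow_sub_one v h.prime (x := x) (by rw [hxv]; exact le_of_lt h.pi_lt)
      hx0 (by rw [hxv]; exact h.vp)
    have e2 : s (ρ ^ p) - ρ ^ p = ρ ^ p * ((x + 1) ^ p - 1) := by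
      rw [hx, map_pow, sub_add_cancel, div_pow]
      field_simp [hρ0]
    rw [e2, v.map_mul, hbin, hxv, mul_comm] at hlev
    exact lt_irrefl _ hlev

/-- **BREAK, consumer form**: `ρ ^ p = w * γ` with `w ∈ K₁` and `s γ / γ - 1` of level `> p`
⟹ `v ρ ∈ v (K₁ˣ)`. -/
theorem break_pow_mul (h : BreakData v K₁ s π p) {ρ w γ : L} (hρ0 : ρ ≠ 0)
    (hρ : ∃ c : Fin p → L, (∀ k, c k ∈ K₁) ∧ ρ = ∑ k, c k * π ^ (k : ℕ))
    (hw : w ∈ K₁) (hprod : ρ ^ p = w * γ) (hγ : v (s γ - γ) < v π ^ p * v γ) :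
    ∃ c ∈ K₁, c ≠ 0 ∧ v ρ = v c := by
  refine h.break_pow hρ0 hρ ?_
  have hw0 : w ≠ 0 := by
    intro h0
    rw [h0, zero_mul] at hprod
    exact hρ0 (pow_eq_zero_iff (h.prime.ne_zero) |>.mp hprod)
  have e : s (ρ ^ p) - ρ ^ p = w * (s γ - γ) := by
    rw [hprod, map_mul, h.s_fix w hw]
    ring
  rw [e, hprod, v.map_mul, v.map_mul]
  calc v w * v (s γ - γ) < v w * (v π ^ p * v γ) :=
        mul_lt_mul_of_pos_left hγ (zero_lt_iff.mpr ((v.ne_zero_iff).mpr hw0))
    _ = v π ^ p * (v w * v γ) := mul_left_comm _ _ _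

end BreakData

end Fermat.Agent.PeuD
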