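/-
Row 38, wall (d), seat (d1) BREAK (helper97): the concrete instance of `BreakSetting` for the
peu ramifiée Kummer layer `M = K1(α)`, `α ^ p = 1 + p z` (helper91's `PeuSetting`,
`Lib/FFL/FB/PeuMono.lean`): `Γ0 = stabI P ζ` (the group of `K1 = K0(ζ)`),
`Γ = peuStab P ζ α` (the group of `M`), `π0 = ζ - 1`, `ϖ = peuUnif ζ α = (ζ - 1)/(α - 1)`,
`s ζ = ζ`, `s α = ζ α`.

* `breakSetting_of_peu` : the `BreakSetting`;
* `peu_break_depth`, `peu_break_first_order`, `peu_break_descend`, `peu_break_val`,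
  `peu_break_dvd` : (A1), Lemma A on constants, (A2), (A3), Step 3 in this setting.
-/
import Fermat.Agent.Lib.FFL.FB.PeuMono
import Fermat.Agent.Lib.BadRed.PeuD.Break

set_option autoImplicit false

namespace Fermat.Agent.PeuDBreak

open Fermat.Agent.FFL Fermat.Agent.FFL.FB

local notation "Kb" => AlgebraicClosure ℚ
local notation "GK" => (AlgebraicClosure ℚ ≃ₐ[ℚ] AlgebraicClosure ℚ)

variable {p : ℕ} {P : ValuationSubring Kb} {ζ α z : Kb}

/-- The peu ramifiée Kummer layer has break `1`. -/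
theorem breakSetting_of_peu (S : PeuSetting p P ζ α z) {s : GK} (hs : s ∈ stabI P ζ)
    (hsα : s α = ζ * α) :
    BreakSetting p P (stabI P ζ) (peuStab P ζ α) (ζ - 1) (peuUnif ζ α) s :=
  ⟨S.monoSetting_rel, hs, S.val_smul_unif_sub (mem_stabI.1 hs).2 hsα, S.val_p_le⟩

/-- a generator `s` of `Gal(M / K1)` exists, with its `BreakSetting`. -/
theorem exists_breakSetting_of_peu (S : PeuSetting p P ζ α z) :
    ∃ s : GK, s ∈ stabI P ζ ∧ s α = ζ * α ∧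
      BreakSetting p P (stabI P ζ) (peuStab P ζ α) (ζ - 1) (peuUnif ζ α) s := by
  obtain ⟨s, hs, hsα⟩ := S.exists_gen
  exact ⟨s, hs, hsα, breakSetting_of_peu S hs hsα⟩

/-- **(A1)** in the Kummer setting. -/
theorem peu_break_depth (S : PeuSetting p P ζ α z) {s : GK} (hs : s ∈ stabI P ζ)
    (hsα : s α = ζ * α) {x : Kb} (hx0 : x ≠ 0) (hx : ∀ σ ∈ peuStab P ζ α, σ x = x) :
    P.valuation (s x - x) ≤ P.valuation (peuUnif ζ α) * P.valuation x :=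
  (breakSetting_of_peu S hs hsα).break_depth hx0 hx

/-- **Lemma A on constants** in the Kummer setting. -/
theorem peu_break_first_order (S : PeuSetting p P ζ α z) {s : GK} (hs : s ∈ stabI P ζ)
    (hsα : s α = ζ * α) {ρ : Kb} (hρ0 : ρ ≠ 0) (hρ : ∀ σ ∈ peuStab P ζ α, σ ρ = ρ) {k : ℤ}
    (hk : P.valuation ρ = P.valuation (peuUnif ζ α) ^ k) :
    P.valuation (s ρ / ρ - 1 - (k : Kb) * (s (peuUnif ζ α) / peuUnif ζ α - 1)) ≤
      P.valuation (peuUnif ζ α) ^ 2 :=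
  (breakSetting_of_peu S hs hsα).break_first_order hρ0 hρ hk

/-- **(A2)** in the Kummer setting. -/
theorem peu_break_descend (S : PeuSetting p P ζ α z) {s : GK} (hs : s ∈ stabI P ζ)
    (hsα : s α = ζ * α) {w : Kb} (hw : P.valuation w = 1)
    (hwfix : ∀ σ ∈ peuStab P ζ α, σ w = w)
    (hws : P.valuation (s w - w) ≤ P.valuation (peuUnif ζ α) ^ (p + 1)) :
    ∃ c : Kb, (∀ σ ∈ stabI P ζ, σ c = c) ∧ P.valuation c = 1 ∧
      P.valuation (w - c) ≤ P.valuation (peuUnif ζ α) ^ p :=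
  (breakSetting_of_peu S hs hsα).break_descend hw hwfix hws

/-- **(A3)** in the Kummer setting. -/
theorem peu_break_val (S : PeuSetting p P ζ α z) {s : GK} (hs : s ∈ stabI P ζ)
    (hsα : s α = ζ * α) {ρ c γ : Kb} (hρ0 : ρ ≠ 0) (hρ : ∀ σ ∈ peuStab P ζ α, σ ρ = ρ)
    (hc0 : c ≠ 0) (hc : ∀ σ ∈ stabI P ζ, σ c = c) (hγ : P.valuation γ = 1)
    (hγs : P.valuation (s γ - γ) ≤ P.valuation (peuUnif ζ α) ^ (p + 1))
    (h : ρ ^ p = c * γ) :
    ∃ k : ℤ, P.valuation ρ = P.valuation (ζ - 1) ^ k :=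
  (breakSetting_of_peu S hs hsα).break_val hρ0 hρ hc0 hc hγ hγs h

/-- **Step 3** in the Kummer setting: `ρ ^ p = c γ`, `c ∈ K1` with `v c = v p ^ e`, `γ` a unit of
`M` with `s γ ≡ γ` modulo `ϖ ^ (p + 1)`  ⟹  `p ∣ e`. -/
theorem peu_break_dvd (S : PeuSetting p P ζ α z) {s : GK} (hs : s ∈ stabI P ζ)
    (hsα : s α = ζ * α) {ρ c γ : Kb} (hρ0 : ρ ≠ 0) (hρ : ∀ σ ∈ peuStab P ζ α, σ ρ = ρ)
    (hc0 : c ≠ 0) (hc : ∀ σ ∈ stabI P ζ, σ c = c) (hγ : P.valuation γ = 1)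
    (hγs : P.valuation (s γ - γ) ≤ P.valuation (peuUnif ζ α) ^ (p + 1))
    (h : ρ ^ p = c * γ) {e : ℤ} (hce : P.valuation c = P.valuation (p : Kb) ^ e) :
    (p : ℤ) ∣ e :=
  (breakSetting_of_peu S hs hsα).break_dvd hρ0 hρ hc0 hc hγ hγs h S.val_zeta hce

end Fermat.Agent.PeuDBreak
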