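/-
Row 38, block D (INT), seat D-BRK (helper97).  Blueprint: helper62's note "block D = (INT):
DECISION + SEATS v1", hypothesis **(BRK)**.

`Brk A IsRat s p π α0` is the hypothesis (BRK) of the abstract theorem (INT-abs), on the level of
the constants `K` only:

* `IsRat c` : "`c` is `M`-rational" (consumer: `IsRat c := ∀ t ∈ H, baseAut t c = c`);
* `s : K ≃+* K` : the generator of `Gal(M / K1)` on the constants (consumer: `baseAut s`);
* `π` : a uniformiser of `M`, `0 < v π < 1`, every `M`-rational `c ≠ 0` has `v c ∈ v π ^ ℤ`;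
* `α0` a unit with `s π ≡ π (1 + α0 π)` modulo `π ^ 3`;
* (A1) `depth` : `c ∈ A` `M`-rational ⟹ `(s c - c) / π² ∈ A`;
* `val_p` : `v p = v π ^ (p (p - 1))`.

`brk_of_peu` : the CONCRETE instance for the peu ramifiée Kummer layer `M = K1(α)`,
`α ^ p = 1 + p z` (helper91's `PeuSetting`), `π = peuUnif ζ α = (ζ - 1) / (α - 1)`, `α0 = -1`.
-/
import Fermat.Agent.Lib.BadRed.PeuD.BreakPeu

set_option autoImplicit false

namespace Fermat.Agent.PeuD

open Fermat.Agent.FFL Fermat.Agent.FFL.FB Fermat.Agent.PeuDBreak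

/-- **(BRK)**: the break data of the wild layer `M / K1` on the constants. -/
structure Brk {K : Type*} [Field K] (A : ValuationSubring K) (IsRat : K → Prop) (s : K ≃+* K)
    (p : ℕ) (π α0 : K) : Prop where
  /-- `π` is `M`-rational -/
  rat_π : IsRat π
  π_ne : π ≠ 0
  π_lt : A.valuation π < 1
  /-- the value group of `M` is generated by `v π` -/
  val_rat : ∀ c, IsRat c → c ≠ 0 → ∃ n : ℤ, A.valuation c = A.valuation π ^ n
  α0_unit : A.valuation α0 = 1
  /-- the break: `s π ≡ π (1 + α0 π)` modulo `π ^ 3` -/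
  s_π : A.valuation (s π - π * (1 + α0 * π)) ≤ A.valuation π ^ 3
  /-- (A1): `s` moves the integers of `M` at level `≥ 2` -/
  depth : ∀ c, IsRat c → c ∈ A → A.valuation (s c - c) ≤ A.valuation π ^ 2
  val_p : A.valuation (p : K) = A.valuation π ^ (p * (p - 1))

namespace Brk

variable {K : Type*} [Field K] {A : ValuationSubring K} {IsRat : K → Prop} {s : K ≃+* K}
  {p : ℕ} {π α0 : K} (B : Brk A IsRat s p π α0)
include B

theorem val_π_pos : 0 < A.valuation π := zero_lt_iff.2 ((Valuation.ne_zero_iff _).2 B.π_ne)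

theorem π_mem : π ∈ A := (A.valuation_le_one_iff _).1 B.π_lt.le

theorem α0_ne : α0 ≠ 0 := by
  intro h
  have := B.α0_unit
  rw [h, map_zero] at this
  exact zero_ne_one this

/-- `(s c - c) / π ^ 2 ∈ A` for `c ∈ A` `M`-rational. -/
theorem depth_div {c : K} (hc : IsRat c) (hcA : c ∈ A) : (s c - c) / π ^ 2 ∈ A := by
  rw [← A.valuation_le_one_iff, map_div₀, map_pow]
  exact div_le_one_of_le₀ (B.depth c hc hcA) zero_le

/-- `v (s π - π) = v π ^ 2`. -/
theorem val_s_π_sub : A.valuation (s π - π) = A.valuation π ^ 2 := by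
  have h0 := B.val_π_pos
  have e : s π - π = (s π - π * (1 + α0 * π)) + α0 * π ^ 2 := by ring
  have h2 : A.valuation (α0 * π ^ 2) = A.valuation π ^ 2 := by
    rw [map_mul, B.α0_unit, one_mul, map_pow]
  have h3 : A.valuation π ^ 3 < A.valuation π ^ 2 :=
    pow_lt_pow_right_of_lt_one₀ h0 B.π_lt (by norm_num)
  rw [e, Valuation.map_add_eq_of_lt_right _ (by rw [h2]; exact lt_of_le_of_lt B.s_π h3), h2]

/-- `s π / π ≡ 1 + α0 π` modulo `π ^ 2`. -/
theorem val_s_π_div : A.valuation (s π / π - (1 + α0 * π)) ≤ A.valuation π ^ 2 := by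
  have h0 := B.val_π_pos
  have e : s π / π - (1 + α0 * π) = (s π - π * (1 + α0 * π)) / π := by
    field_simp [B.π_ne]
  rw [e, map_div₀, div_le_iff₀ h0, ← pow_succ]
  exact B.s_π

/-- transport of (BRK) to another description of the `M`-rational constants and of `s`
(e.g. `IsRat' c := ∀ t ∈ H, baseAut t c = c`, `s' = baseAut s`). -/
theorem of_imp {IsRat' : K → Prop} {s' : K ≃+* K} (h : ∀ c, IsRat' c → IsRat c)
    (hπ : IsRat' π) (hs : ∀ c, s' c = s c) : Brk A IsRat' s' p π α0 where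
  rat_π := hπ
  π_ne := B.π_ne
  π_lt := B.π_lt
  val_rat := fun c hc hc0 => B.val_rat c (h c hc) hc0
  α0_unit := B.α0_unit
  s_π := by rw [hs]; exact B.s_π
  depth := fun c hc hcA => by rw [hs]; exact B.depth c (h c hc) hcA
  val_p := B.val_p

end Brk

local notation "Kb" => AlgebraicClosure ℚ
local notation "GK" => (AlgebraicClosure ℚ ≃ₐ[ℚ] AlgebraicClosure ℚ)

variable {p : ℕ} {P : ValuationSubring Kb} {ζ α z : Kb}

/-- the break of the Kummer uniformiser to second order: `s ϖ ≡ ϖ (1 - ϖ)` modulo `ϖ ^ 3`. -/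
theorem peu_val_s_unif (S : PeuSetting p P ζ α z) {s : GK} (hs : s ∈ stabI P ζ)
    (hsα : s α = ζ * α) :
    P.valuation (s (peuUnif ζ α) - peuUnif ζ α * (1 + (-1) * peuUnif ζ α)) ≤
      P.valuation (peuUnif ζ α) ^ 3 := by
  have hsζ := (mem_stabI.1 hs).2
  have h1 := S.smul_unif hsζ hsα
  have hu := S.val_unif_add_zeta
  have hne : peuUnif ζ α + ζ ≠ 0 := by
    intro h
    rw [h, map_zero] at hu
    exact zero_ne_one hu
  have hlt := S.val_unif_lt
  have h0 : 0 < P.valuation (peuUnif ζ α) := zero_lt_iff.2 S.val_unif_ne_zero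
  have key : s (peuUnif ζ α) - peuUnif ζ α * (1 + (-1) * peuUnif ζ α) =
      peuUnif ζ α * ((1 - peuUnif ζ α) * (-(ζ - 1)) + peuUnif ζ α ^ 2) / (peuUnif ζ α + ζ) := by
    rw [h1]
    field_simp
    ring
  have hζ1 : P.valuation (-(ζ - 1)) ≤ P.valuation (peuUnif ζ α) ^ 2 := by
    rw [Valuation.map_neg, ← S.val_unif_pow_p]
    exact pow_le_pow_of_le_one zero_le hlt.le S.hp.two_le
  have h1m : P.valuation (1 - peuUnif ζ α) ≤ 1 := by
    exact P.valuation.map_sub_le (le_of_eq (map_one _)) hlt.le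
  have hbr : P.valuation ((1 - peuUnif ζ α) * (-(ζ - 1)) + peuUnif ζ α ^ 2) ≤
      P.valuation (peuUnif ζ α) ^ 2 := by
    refine Valuation.map_add_le _ ?_ (by rw [map_pow])
    rw [map_mul]
    calc P.valuation (1 - peuUnif ζ α) * P.valuation (-(ζ - 1))
        ≤ 1 * P.valuation (peuUnif ζ α) ^ 2 := mul_le_mul' h1m hζ1
      _ = P.valuation (peuUnif ζ α) ^ 2 := one_mul _
  rw [key, map_div₀, hu, div_one, map_mul, pow_succ' _ 2]
  exact mul_le_mul' le_rfl hbr

/-- **D-BRK**: (BRK) for the peu ramifiée Kummer layer `M = K1(α)`, with `α0 = -1`. -/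
theorem brk_of_peu (S : PeuSetting p P ζ α z) {s : GK} (hs : s ∈ stabI P ζ)
    (hsα : s α = ζ * α) :
    Brk P (fun c => ∀ σ ∈ peuStab P ζ α, σ c = c) s.toRingEquiv p (peuUnif ζ α) (-1) where
  rat_π := S.unif_fixed
  π_ne := S.unif_ne_zero
  π_lt := S.val_unif_lt
  val_rat := fun c hc hc0 => (breakSetting_of_peu S hs hsα).exists_val_eq_zpow hc0 hc
  α0_unit := by rw [Valuation.map_neg, map_one]
  s_π := peu_val_s_unif S hs hsα
  depth := fun c hc hcP => (breakSetting_of_peu S hs hsα).depth_unit hcP hc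
  val_p := S.val_unif.symm

/-- a generator `s` of `Gal(M / K1)` exists, with (BRK). -/
theorem exists_brk_of_peu (S : PeuSetting p P ζ α z) :
    ∃ s : GK, s ∈ stabI P ζ ∧ s α = ζ * α ∧
      Brk P (fun c => ∀ σ ∈ peuStab P ζ α, σ c = c) s.toRingEquiv p (peuUnif ζ α) (-1) := by
  obtain ⟨s, hs, hsα⟩ := S.exists_gen
  exact ⟨s, hs, hsα, brk_of_peu S hs hsα⟩

end Fermat.Agent.PeuD
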