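/-
Row 38, block D (INT), seat D-BRK, WIRING 2 (helper97): the group theory of the wild layer.
`H = Gal(ℚ̄ / M)` is the image of `peuStab P ζ α`, `s = arithmeticGalois s₀` with `s₀ ∈ stabI P ζ`,
`s₀ α = ζ α`.

* `peu_conj_mem`, `peu_conj_mem'` : `s₀` normalises `peuStab P ζ α`;
* `brkN_hsH`, `brkN_hsH_set` : `hsH` of `exists_datM` / ABS-WILD (`∀ t ∈ H, s⁻¹ * t * s ∈ H`) for
  `H = (peuStab P ζ α).map (arithmeticGalois F₀)` (resp. a set `H` with the same elements);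
* `brkN_pow_apply`, `brkN_pow_mem` : `s₀ ^ n α = ζ ^ n α`, `s₀ ^ p ∈ peuStab P ζ α` (the layer
  `M / K1` is cyclic of order `p`);
* `brkN_mem_inertia`, `brkN_s_mem_inertia` : the elements of `H` and `s` come from inertia.
-/
import Fermat.Agent.Lib.FFL.FB.PeuMono
import Fermat.Prelude.Def_ModularCurve_ArithmeticGalois

set_option autoImplicit false
set_option linter.unusedSectionVars false
set_option linter.unusedVariables false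

noncomputable section

namespace Fermat.Agent.PeuD

open Fermat.Agent.FFL Fermat.Agent.FFL.FB ModularCurve AlgebraicCurve

local notation "Kb" => AlgebraicClosure ℚ
local notation "GK" => (AlgebraicClosure ℚ ≃ₐ[ℚ] AlgebraicClosure ℚ)

variable {p : ℕ} {P : ValuationSubring Kb} {ζ α : Kb}
  (F₀ : IntermediateField ℚ (LaurentSeries ℚ))

theorem brkN_inv_apply {s₀ : GK} {x y : Kb} (h : s₀ x = y) : s₀⁻¹ y = x := by
  rw [← h, ← AlgEquiv.mul_apply, inv_mul_cancel, AlgEquiv.one_apply]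

/-- `s₀⁻¹ σ s₀ ∈ Gal(ℚ̄ / M)` for `σ ∈ Gal(ℚ̄ / M)`. -/
theorem peu_conj_mem {s₀ : GK} (hs : s₀ ∈ stabI P ζ) (hsα : s₀ α = ζ * α) {σ : GK}
    (hσ : σ ∈ peuStab P ζ α) : s₀⁻¹ * σ * s₀ ∈ peuStab P ζ α := by
  obtain ⟨hσI, hσζ, hσα⟩ := mem_peuStab.1 hσ
  obtain ⟨hsI, hsζ⟩ := mem_stabI.1 hs
  refine mem_peuStab.2 ⟨mul_mem (mul_mem (inv_mem hsI) hσI) hsI, ?_, ?_⟩
  · rw [AlgEquiv.mul_apply, AlgEquiv.mul_apply, hsζ, hσζ, brkN_inv_apply hsζ]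
  · rw [AlgEquiv.mul_apply, AlgEquiv.mul_apply, hsα, map_mul, hσζ, hσα, brkN_inv_apply hsα]

/-- `s₀ σ s₀⁻¹ ∈ Gal(ℚ̄ / M)` for `σ ∈ Gal(ℚ̄ / M)`. -/
theorem peu_conj_mem' {s₀ : GK} (hs : s₀ ∈ stabI P ζ) (hsα : s₀ α = ζ * α) {σ : GK}
    (hσ : σ ∈ peuStab P ζ α) : s₀ * σ * s₀⁻¹ ∈ peuStab P ζ α := by
  obtain ⟨hσI, hσζ, hσα⟩ := mem_peuStab.1 hσ
  obtain ⟨hsI, hsζ⟩ := mem_stabI.1 hs
  have hinvζ : s₀⁻¹ ζ = ζ := brkN_inv_apply hsζ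
  -- `α = ζ β` with `β = s₀⁻¹ α`
  have hβ : α = ζ * s₀⁻¹ α := by
    have h := brkN_inv_apply hsα
    rw [map_mul, hinvζ] at h
    exact h.symm
  have hσβ : σ (s₀⁻¹ α) = s₀⁻¹ α := by
    rcases eq_or_ne ζ 0 with h0 | h0
    · have hα0 : α = 0 := by rw [hβ, h0, zero_mul]
      rw [hα0, map_zero, map_zero]
    · have h := hσα
      rw [hβ, map_mul, hσζ] at h
      exact mul_left_cancel₀ h0 (by rw [h, ← hβ])
  refine mem_peuStab.2 ⟨mul_mem (mul_mem hsI hσI) (inv_mem hsI), ?_, ?_⟩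
  · rw [AlgEquiv.mul_apply, AlgEquiv.mul_apply, hinvζ, hσζ, hsζ]
  · rw [AlgEquiv.mul_apply, AlgEquiv.mul_apply, hσβ, ← AlgEquiv.mul_apply, mul_inv_cancel,
      AlgEquiv.one_apply]

/-- `hsH` for the subgroup `H = (peuStab P ζ α).map arithmeticGalois`. -/
theorem brkN_hsH {s₀ : GK} (hs : s₀ ∈ stabI P ζ) (hsα : s₀ α = ζ * α) :
    ∀ t ∈ (peuStab P ζ α).map (arithmeticGalois F₀),
      (arithmeticGalois F₀ s₀)⁻¹ * t * arithmeticGalois F₀ s₀ ∈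
        (peuStab P ζ α).map (arithmeticGalois F₀) := by
  rintro _ ⟨σ, hσ, rfl⟩
  refine ⟨s₀⁻¹ * σ * s₀, peu_conj_mem hs hsα hσ, ?_⟩
  rw [map_mul, map_mul, map_inv]

/-- `hsH` for a set `H` with the elements of the image of `peuStab P ζ α`. -/
theorem brkN_hsH_set {s₀ : GK} (hs : s₀ ∈ stabI P ζ) (hsα : s₀ α = ζ * α)
    (H : Set (SemilinearAut Kb (laurentBaseChange Kb F₀)))
    (hH : ∀ t, t ∈ H ↔ ∃ σ ∈ peuStab P ζ α, t = arithmeticGalois F₀ σ) :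
    ∀ t ∈ H, (arithmeticGalois F₀ s₀)⁻¹ * t * arithmeticGalois F₀ s₀ ∈ H := by
  intro t ht
  obtain ⟨σ, hσ, rfl⟩ := (hH t).1 ht
  refine (hH _).2 ⟨s₀⁻¹ * σ * s₀, peu_conj_mem hs hsα hσ, ?_⟩
  rw [map_mul, map_mul, map_inv]

/-- `s₀ ^ n α = ζ ^ n α`. -/
theorem brkN_pow_apply {s₀ : GK} (hs : s₀ ∈ stabI P ζ) (hsα : s₀ α = ζ * α) (n : ℕ) :
    (s₀ ^ n) α = ζ ^ n * α := by
  induction n with
  | zero => simp
  | succ n ih =>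
    have hsn : (s₀ ^ n) ζ = ζ := (mem_stabI.1 (pow_mem hs n)).2
    rw [pow_succ, AlgEquiv.mul_apply, hsα, map_mul, hsn, ih]
    ring

/-- `s₀ ^ p ∈ Gal(ℚ̄ / M)`: the layer `M / K1` is cyclic of order `p`. -/
theorem brkN_pow_mem {s₀ : GK} (hs : s₀ ∈ stabI P ζ) (hsα : s₀ α = ζ * α)
    (hζ : ζ ^ p = 1) : s₀ ^ p ∈ peuStab P ζ α := by
  have h := mem_stabI.1 (pow_mem hs p)
  exact mem_peuStab.2 ⟨h.1, h.2, by rw [brkN_pow_apply hs hsα, hζ, one_mul]⟩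

/-- the elements of `H` come from inertia. -/
theorem brkN_mem_inertia (H : Set (SemilinearAut Kb (laurentBaseChange Kb F₀)))
    (hH : ∀ t, t ∈ H ↔ ∃ σ ∈ peuStab P ζ α, t = arithmeticGalois F₀ σ) :
    ∀ t ∈ H, ∃ τ ∈ P.inertiaSubgroupIn ℚ, t = arithmeticGalois F₀ τ := by
  intro t ht
  obtain ⟨σ, hσ, rfl⟩ := (hH t).1 ht
  exact ⟨σ, peuStab_le P ζ α hσ, rfl⟩

/-- `s` comes from inertia. -/
theorem brkN_s_mem_inertia {s₀ : GK} (hs : s₀ ∈ stabI P ζ) :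
    ∃ τ ∈ P.inertiaSubgroupIn ℚ, arithmeticGalois F₀ s₀ = arithmeticGalois F₀ τ :=
  ⟨s₀, (mem_stabI.1 hs).1, rfl⟩

/-- the tame analogue: the elements of the image of `stabI P ζ` come from inertia. -/
theorem brkN_mem_inertia_tame (H : Set (SemilinearAut Kb (laurentBaseChange Kb F₀)))
    (hH : ∀ t, t ∈ H ↔ ∃ σ ∈ stabI P ζ, t = arithmeticGalois F₀ σ) :
    ∀ t ∈ H, ∃ τ ∈ P.inertiaSubgroupIn ℚ, t = arithmeticGalois F₀ τ := by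
  intro t ht
  obtain ⟨σ, hσ, rfl⟩ := (hH t).1 ht
  exact ⟨σ, (mem_stabI.1 hσ).1, rfl⟩

end Fermat.Agent.PeuD
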