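/-
Row 38, block D (INT), seat D-GAU (helper64): the MODULAR instance of (GAU) and (RES).

`M : ModularNodal D A` (cluster T), `q = D.Q` prime, `A` over `q`, `F = ℚ̄(X₀(Q R))`.
The first valuation ring is the Gauss ring of `q`-expansions, the second one its transport by the
Atkin-Lehner involution; the Galois action is on the coefficients.  `Γ` is any set of
automorphisms of `ℚ̄` (in the application: `Gal(ℚ̄ / M)`).

* `gau_scale₁ / gau_scale₂` **(G1)** : `f ≠ 0` fixed by `Γ` ⇒ `f / c` is a unit of `O_j` for a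
  `Γ`-fixed constant `c ≠ 0`;
* `gau_depth₁ / gau_depth₂` **(G2)** : if `d (s c - c) ∈ A` for all `Γ`-fixed `c ∈ A`
  (`d = π⁻²`), then `d (s f - f) ∈ O_j` for all `Γ`-fixed `f ∈ O_j`;
* `gau_res₁ / gau_res₂` **(RES)** : every element of `Fk_j` is the reduction of a function fixed by
  the inertia group of `A`.
* `gau_inertial` : the elements of the inertia group are inertial for the nodal package.
-/
import Mathlib
import Fermat.Agent.Lib.BadRed.PeuD.GaussLift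
import Fermat.Agent.Lib.BadRed.Bridge.Assembly
import Fermat.Agent.Lib.BadRed.Mod.GaloisSemi
import Fermat.Agent.Lib.FFL.FB.FieldTeich

set_option autoImplicit false
set_option linter.unusedSectionVars false
set_option linter.unusedVariables false
set_option maxHeartbeats 1000000
set_option synthInstance.maxHeartbeats 400000

noncomputable section

namespace Fermat.Agent.PeuD

open ModularCurve AlgebraicCurve HahnSeries Fermat.Agent.GaussInt Fermat.Agent.BadRed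
  Fermat.Agent.AtkinLehner Fermat.Agent.Deuring

local notation "Qb" => AlgebraicClosure ℚ
local notation "GQb" => (AlgebraicClosure ℚ ≃ₐ[ℚ] AlgebraicClosure ℚ)

variable {D : ALData} {A : ValuationSubring Qb} (M : ModularNodal D A)

/-! ### coercions -/

theorem gau_coe_smul (σ : GQb) (f : modularFunctionFieldBar (D.Q * D.R)) :
    ((arithmeticGalois (modularFunctionFieldFull (D.Q * D.R)) σ • f :
      modularFunctionFieldBar (D.Q * D.R)) : LaurentSeries Qb) =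
      coeffMap ((σ : GQb) : Qb →+* Qb) (f : LaurentSeries Qb) :=
  rfl

theorem gau_fix_iff (σ : GQb) (f : modularFunctionFieldBar (D.Q * D.R)) :
    arithmeticGalois (modularFunctionFieldFull (D.Q * D.R)) σ • f = f ↔
      coeffMap ((σ : GQb) : Qb →+* Qb) (f : LaurentSeries Qb) = f := by
  rw [← gau_coe_smul]
  exact ⟨fun h => congrArg Subtype.val h, fun h => Subtype.ext h⟩

theorem gau_coe_algebraMap (c : Qb) :
    ((algebraMap Qb (modularFunctionFieldBar (D.Q * D.R)) c :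
      modularFunctionFieldBar (D.Q * D.R)) : LaurentSeries Qb) =
      algebraMap Qb (LaurentSeries Qb) c :=
  rfl

/-! ### (G1) -/

/-- **(G1)** for the first valuation. -/
theorem gau_scale₁ (hQ : D.Q.Prime) (hA : A.LiesOverPrime D.Q) (Γ : Set GQb)
    {f : modularFunctionFieldBar (D.Q * D.R)} (hf0 : f ≠ 0)
    (hfix : ∀ σ ∈ Γ, arithmeticGalois (modularFunctionFieldFull (D.Q * D.R)) σ • f = f) :
    ∃ c : Qb, c ≠ 0 ∧ (∀ σ ∈ Γ, σ c = c) ∧
      f * (algebraMap Qb (modularFunctionFieldBar (D.Q * D.R)) c)⁻¹ ∈ M.N.S₁.Ov ∧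
      (f * (algebraMap Qb (modularFunctionFieldBar (D.Q * D.R)) c)⁻¹)⁻¹ ∈ M.N.S₁.Ov ∧
      M.N.S₁.red (f * (algebraMap Qb (modularFunctionFieldBar (D.Q * D.R)) c)⁻¹) ≠ 0 := by
  have hf0' : (f : LaurentSeries Qb) ≠ 0 := fun h => hf0 (Subtype.ext h)
  obtain ⟨c, hc, hcfix, hmem, hinv, -⟩ := gf_scale hQ hA
    (isIntGen_modularFunctionFieldFull (D.Q * D.R)) Γ f.2 hf0'
    (fun σ hσ => (gau_fix_iff σ f).mp (hfix σ hσ))
  have e : ((f * (algebraMap Qb (modularFunctionFieldBar (D.Q * D.R)) c)⁻¹ :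
      modularFunctionFieldBar (D.Q * D.R)) : LaurentSeries Qb) =
      algebraMap Qb (LaurentSeries Qb) c⁻¹ * (f : LaurentSeries Qb) := by
    show (f : LaurentSeries Qb) * (algebraMap Qb (LaurentSeries Qb) c)⁻¹ = _
    rw [map_inv₀, mul_comm (f : LaurentSeries Qb)]
  have h1 : f * (algebraMap Qb (modularFunctionFieldBar (D.Q * D.R)) c)⁻¹ ∈ M.N.S₁.Ov := by
    rw [M.mem₁_iff, e]
    exact hmem
  have h2 : (f * (algebraMap Qb (modularFunctionFieldBar (D.Q * D.R)) c)⁻¹)⁻¹ ∈ M.N.S₁.Ov := by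
    rw [M.mem₁_iff]
    have : (((f * (algebraMap Qb (modularFunctionFieldBar (D.Q * D.R)) c)⁻¹)⁻¹ :
        modularFunctionFieldBar (D.Q * D.R)) : LaurentSeries Qb) =
        (algebraMap Qb (LaurentSeries Qb) c⁻¹ * (f : LaurentSeries Qb))⁻¹ := by
      rw [← e]
      rfl
    rw [this]
    exact hinv
  have h3 : f * (algebraMap Qb (modularFunctionFieldBar (D.Q * D.R)) c)⁻¹ ≠ 0 :=
    mul_ne_zero hf0 (inv_ne_zero ((_root_.map_ne_zero _).mpr hc))
  exact ⟨c, hc, hcfix, h1, h2, M.N.S₁.red_ne_zero h1 h2 h3⟩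

/-- the Atkin-Lehner involution preserves the `Γ`-fixed functions. -/
theorem gau_atkinLehner_fix {σ : GQb} {f : modularFunctionFieldBar (D.Q * D.R)}
    (h : arithmeticGalois (modularFunctionFieldFull (D.Q * D.R)) σ • f = f) :
    arithmeticGalois (modularFunctionFieldFull (D.Q * D.R)) σ • atkinLehner D f =
      atkinLehner D f := by
  rw [← atkinLehner_galois_smul, h]

/-- **(G1)** for the second valuation. -/
theorem gau_scale₂ (hQ : D.Q.Prime) (hA : A.LiesOverPrime D.Q) (Γ : Set GQb)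
    {f : modularFunctionFieldBar (D.Q * D.R)} (hf0 : f ≠ 0)
    (hfix : ∀ σ ∈ Γ, arithmeticGalois (modularFunctionFieldFull (D.Q * D.R)) σ • f = f) :
    ∃ c : Qb, c ≠ 0 ∧ (∀ σ ∈ Γ, σ c = c) ∧
      f * (algebraMap Qb (modularFunctionFieldBar (D.Q * D.R)) c)⁻¹ ∈ M.N.S₂.Ov ∧
      (f * (algebraMap Qb (modularFunctionFieldBar (D.Q * D.R)) c)⁻¹)⁻¹ ∈ M.N.S₂.Ov ∧
      M.N.S₂.red (f * (algebraMap Qb (modularFunctionFieldBar (D.Q * D.R)) c)⁻¹) ≠ 0 := by
  have hw0 : atkinLehner D f ≠ 0 := (_root_.map_ne_zero _).mpr hf0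
  obtain ⟨c, hc, hcfix, h1, h2, -⟩ := gau_scale₁ M hQ hA Γ hw0
    (fun σ hσ => gau_atkinLehner_fix (hfix σ hσ))
  have e : atkinLehner D (f * (algebraMap Qb (modularFunctionFieldBar (D.Q * D.R)) c)⁻¹) =
      atkinLehner D f * (algebraMap Qb (modularFunctionFieldBar (D.Q * D.R)) c)⁻¹ := by
    rw [map_mul, map_inv₀, AlgEquiv.commutes]
  have h1' : f * (algebraMap Qb (modularFunctionFieldBar (D.Q * D.R)) c)⁻¹ ∈ M.N.S₂.Ov := by
    rw [M.mem₂_iff, e]
    exact h1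
  have h2' : (f * (algebraMap Qb (modularFunctionFieldBar (D.Q * D.R)) c)⁻¹)⁻¹ ∈ M.N.S₂.Ov := by
    rw [M.mem₂_iff, map_inv₀, e]
    exact h2
  have h3 : f * (algebraMap Qb (modularFunctionFieldBar (D.Q * D.R)) c)⁻¹ ≠ 0 :=
    mul_ne_zero hf0 (inv_ne_zero ((_root_.map_ne_zero _).mpr hc))
  exact ⟨c, hc, hcfix, h1', h2', M.N.S₂.red_ne_zero h1' h2' h3⟩

/-! ### (G2) -/

/-- **(G2)** for the first valuation. -/
theorem gau_depth₁ (hQ : D.Q.Prime) (hA : A.LiesOverPrime D.Q) (Γ : Set GQb) (s : GQb)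
    (hsA : ∀ a ∈ A, s a ∈ A) (d : Qb)
    (hA1 : ∀ c ∈ A, (∀ σ ∈ Γ, σ c = c) → d * (s c - c) ∈ A)
    {f : modularFunctionFieldBar (D.Q * D.R)} (hf : f ∈ M.N.S₁.Ov)
    (hfix : ∀ σ ∈ Γ, arithmeticGalois (modularFunctionFieldFull (D.Q * D.R)) σ • f = f) :
    algebraMap Qb (modularFunctionFieldBar (D.Q * D.R)) d *
      (arithmeticGalois (modularFunctionFieldFull (D.Q * D.R)) s • f - f) ∈ M.N.S₁.Ov := by
  rw [M.mem₁_iff] at hf ⊢
  exact gf_depth hQ hA (isIntGen_modularFunctionFieldFull (D.Q * D.R)) Γ s hsA d hA1 hf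
    (fun σ hσ => (gau_fix_iff σ f).mp (hfix σ hσ))

/-- **(G2)** for the second valuation. -/
theorem gau_depth₂ (hQ : D.Q.Prime) (hA : A.LiesOverPrime D.Q) (Γ : Set GQb) (s : GQb)
    (hsA : ∀ a ∈ A, s a ∈ A) (d : Qb)
    (hA1 : ∀ c ∈ A, (∀ σ ∈ Γ, σ c = c) → d * (s c - c) ∈ A)
    {f : modularFunctionFieldBar (D.Q * D.R)} (hf : f ∈ M.N.S₂.Ov)
    (hfix : ∀ σ ∈ Γ, arithmeticGalois (modularFunctionFieldFull (D.Q * D.R)) σ • f = f) :
    algebraMap Qb (modularFunctionFieldBar (D.Q * D.R)) d *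
      (arithmeticGalois (modularFunctionFieldFull (D.Q * D.R)) s • f - f) ∈ M.N.S₂.Ov := by
  rw [M.mem₂_iff] at hf ⊢
  have h := gau_depth₁ M hQ hA Γ s hsA d hA1 hf (fun σ hσ => gau_atkinLehner_fix (hfix σ hσ))
  rw [map_mul, AlgEquiv.commutes, map_sub, atkinLehner_galois_smul]
  exact h

/-! ### inertia -/

/-- the elements of the inertia group are inertial. -/
theorem gau_inertial {τ : GQb} (hτ : τ ∈ A.inertiaSubgroupIn ℚ) :
    M.N.IsInertial (arithmeticGalois (modularFunctionFieldFull (D.Q * D.R)) τ) :=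
  M.inertial τ hτ

/-- Teichmüller: every residue class of `A` contains an inertia-fixed element. -/
theorem gau_teich (hQ : D.Q.Prime) (hA : A.LiesOverPrime D.Q) :
    ∀ x ∈ A, ∃ t ∈ A, (∀ σ ∈ ((A.inertiaSubgroupIn ℚ : Subgroup GQb) : Set GQb), σ t = t) ∧
      A.valuation (x - t) < 1 := by
  intro x hx
  obtain ⟨t, ht, hxt⟩ := Fermat.Agent.FFL.FB.exists_inertiaRing_sub_mem hQ hA hx
  exact ⟨t, ht.1, fun σ hσ => ht.2 σ hσ, hxt⟩

/-! ### (RES) -/

/-- the Gauss residue of a unit of the first valuation ring is nonzero. -/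
theorem gau_gaussRes_ne_zero {f : modularFunctionFieldBar (D.Q * D.R)}
    (hf : (f : LaurentSeries Qb) ∈ gaussSub A (modularFunctionFieldBar (D.Q * D.R)))
    (hinv : ((f : LaurentSeries Qb))⁻¹ ∈ gaussSub A (modularFunctionFieldBar (D.Q * D.R)))
    (hf0 : f ≠ 0) :
    gaussResFun A (modularFunctionFieldBar (D.Q * D.R)) (f : LaurentSeries Qb) ≠ 0 := by
  intro h0
  have hf0' : (f : LaurentSeries Qb) ≠ 0 := fun h => hf0 (Subtype.ext h)
  have h1 : gaussRes A (modularFunctionFieldBar (D.Q * D.R)) (⟨_, hf⟩ * ⟨_, hinv⟩) = 1 := by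
    have : (⟨_, hf⟩ * ⟨_, hinv⟩ : gaussSub A (modularFunctionFieldBar (D.Q * D.R))) = 1 :=
      Subtype.ext (mul_inv_cancel₀ hf0')
    rw [this, map_one]
  rw [map_mul] at h1
  have h2 : gaussRes A (modularFunctionFieldBar (D.Q * D.R)) ⟨_, hf⟩ = 0 := h0
  rw [h2, zero_mul] at h1
  exact zero_ne_one h1

/-- two units of the first valuation ring with the same Gauss residue have the same
reduction. -/
theorem gau_red₁_eq {f g : modularFunctionFieldBar (D.Q * D.R)} (hf : f ∈ M.N.S₁.Ov)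
    (hfinv : f⁻¹ ∈ M.N.S₁.Ov) (hf0 : f ≠ 0) (hg : g ∈ M.N.S₁.Ov)
    (h : gaussResFun A (modularFunctionFieldBar (D.Q * D.R)) (g : LaurentSeries Qb) =
      gaussResFun A (modularFunctionFieldBar (D.Q * D.R)) (f : LaurentSeries Qb)) :
    M.N.S₁.red g = M.N.S₁.red f := by
  have hf' := (M.mem₁_iff f).mp hf
  have hfinv' : ((f : LaurentSeries Qb))⁻¹ ∈ gaussSub A (modularFunctionFieldBar (D.Q * D.R)) :=
    (M.mem₁_iff f⁻¹).mp hfinv
  have hg' := (M.mem₁_iff g).mp hg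
  have hres := gau_gaussRes_ne_zero hf' hfinv' hf0
  have hq : g * f⁻¹ ∈ M.N.S₁.Ov := mul_mem hg hfinv
  have h1 : gaussResFun A (modularFunctionFieldBar (D.Q * D.R))
      ((g * f⁻¹ : modularFunctionFieldBar (D.Q * D.R)) : LaurentSeries Qb) = 1 := by
    have e : ((g * f⁻¹ : modularFunctionFieldBar (D.Q * D.R)) : LaurentSeries Qb) =
        (g : LaurentSeries Qb) * ((f : LaurentSeries Qb))⁻¹ := rfl
    rw [e]
    have h2 : gaussRes A (modularFunctionFieldBar (D.Q * D.R)) (⟨_, hg'⟩ * ⟨_, hfinv'⟩) =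
        gaussResFun A (modularFunctionFieldBar (D.Q * D.R)) (g : LaurentSeries Qb) *
          gaussResFun A (modularFunctionFieldBar (D.Q * D.R)) ((f : LaurentSeries Qb))⁻¹ := by
      rw [map_mul]
      rfl
    have h3 : gaussRes A (modularFunctionFieldBar (D.Q * D.R)) (⟨_, hg'⟩ * ⟨_, hfinv'⟩) =
        gaussResFun A (modularFunctionFieldBar (D.Q * D.R))
          ((g : LaurentSeries Qb) * ((f : LaurentSeries Qb))⁻¹) := rfl
    rw [← h3, h2, h, gaussResFun_inv hf' hres, mul_inv_cancel₀ hres]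
  have h4 := M.red₁_eq_one _ hq h1
  have h5 : g = g * f⁻¹ * f := by
    rw [mul_assoc, inv_mul_cancel₀ hf0, mul_one]
  rw [h5, M.N.S₁.red_mul hq hf, h4, one_mul]

/-- **(RES)** for the first valuation, units. -/
theorem gau_res₁_unit (hQ : D.Q.Prime) (hA : A.LiesOverPrime D.Q)
    {f : modularFunctionFieldBar (D.Q * D.R)} (hf : f ∈ M.N.S₁.Ov) (hfinv : f⁻¹ ∈ M.N.S₁.Ov)
    (hf0 : f ≠ 0) :
    ∃ g : modularFunctionFieldBar (D.Q * D.R),
      (∀ σ ∈ A.inertiaSubgroupIn ℚ,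
        arithmeticGalois (modularFunctionFieldFull (D.Q * D.R)) σ • g = g) ∧
      g ∈ M.N.S₁.Ov ∧
      gaussResFun A (modularFunctionFieldBar (D.Q * D.R)) (g : LaurentSeries Qb) =
        gaussResFun A (modularFunctionFieldBar (D.Q * D.R)) (f : LaurentSeries Qb) ∧
      M.N.S₁.red g = M.N.S₁.red f := by
  obtain ⟨g, hg, hgfix, hgres⟩ := gf_lift hQ hA (isIntGen_modularFunctionFieldFull (D.Q * D.R))
    ((A.inertiaSubgroupIn ℚ : Subgroup GQb) : Set GQb) (gau_teich hQ hA) ((M.mem₁_iff f).mp hf)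
  have hgF : g ∈ modularFunctionFieldBar (D.Q * D.R) := mem_of_mem_gaussSub hg
  have hg1 : (⟨g, hgF⟩ : modularFunctionFieldBar (D.Q * D.R)) ∈ M.N.S₁.Ov :=
    (M.mem₁_iff _).mpr hg
  refine ⟨⟨g, hgF⟩, fun σ hσ => (gau_fix_iff σ _).mpr (hgfix σ hσ), hg1, hgres, ?_⟩
  exact gau_red₁_eq M hf hfinv hf0 hg1 hgres

/-- **(RES)** for the first valuation: every element of `Fk₁` is the reduction of an
inertia-fixed function. -/
theorem gau_res₁ (hQ : D.Q.Prime) (hA : A.LiesOverPrime D.Q) (φ : M.Fk₁) :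
    ∃ g : modularFunctionFieldBar (D.Q * D.R),
      (∀ σ ∈ A.inertiaSubgroupIn ℚ,
        arithmeticGalois (modularFunctionFieldFull (D.Q * D.R)) σ • g = g) ∧
      g ∈ M.N.S₁.Ov ∧ M.N.S₁.red g = φ := by
  by_cases hφ : φ = 0
  · refine ⟨0, fun σ _ => smul_zero _, zero_mem _, ?_⟩
    rw [M.N.S₁.red_zero, hφ]
  obtain ⟨⟨f, hf⟩, hfφ⟩ := M.N.S₁.ρ_surj φ
  have hred : M.N.S₁.red f = φ := by rw [M.N.S₁.red_of_mem hf]; exact hfφ
  have hred0 : M.N.S₁.red f ≠ 0 := by rw [hred]; exact hφ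
  obtain ⟨g, hgfix, hg, -, hgred⟩ := gau_res₁_unit M hQ hA hf
    (M.N.S₁.inv_mem_of_red_ne_zero hred0) (M.N.S₁.ne_zero_of_red_ne_zero hred0)
  exact ⟨g, hgfix, hg, by rw [hgred, hred]⟩

/-- **(RES)** for the second valuation. -/
theorem gau_res₂ (hQ : D.Q.Prime) (hA : A.LiesOverPrime D.Q) (φ : M.Fk₂) :
    ∃ g : modularFunctionFieldBar (D.Q * D.R),
      (∀ σ ∈ A.inertiaSubgroupIn ℚ,
        arithmeticGalois (modularFunctionFieldFull (D.Q * D.R)) σ • g = g) ∧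
      g ∈ M.N.S₂.Ov ∧ M.N.S₂.red g = φ := by
  by_cases hφ : φ = 0
  · refine ⟨0, fun σ _ => smul_zero _, zero_mem _, ?_⟩
    rw [M.N.S₂.red_zero, hφ]
  obtain ⟨⟨f, hf⟩, hfφ⟩ := M.N.S₂.ρ_surj φ
  have hred : M.N.S₂.red f = φ := by rw [M.N.S₂.red_of_mem hf]; exact hfφ
  have hred0 : M.N.S₂.red f ≠ 0 := by rw [hred]; exact hφ
  have hf0 := M.N.S₂.ne_zero_of_red_ne_zero hred0
  have hfinv := M.N.S₂.inv_mem_of_red_ne_zero hred0
  have hw : atkinLehner D f ∈ M.N.S₁.Ov := (M.mem₂_iff f).mp hf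
  have hwinv : (atkinLehner D f)⁻¹ ∈ M.N.S₁.Ov := by
    have := (M.mem₂_iff f⁻¹).mp hfinv
    rwa [map_inv₀] at this
  have hw0 : atkinLehner D f ≠ 0 := (_root_.map_ne_zero _).mpr hf0
  obtain ⟨g, hgfix, hg, hgres, -⟩ := gau_res₁_unit M hQ hA hw hwinv hw0
  have hwg : atkinLehner D (atkinLehner D g) = g := atkinLehner_atkinLehner D g
  have hg2 : atkinLehner D g ∈ M.N.S₂.Ov := by
    rw [M.mem₂_iff, hwg]
    exact hg
  refine ⟨atkinLehner D g, fun σ hσ => gau_atkinLehner_fix (hgfix σ hσ), hg2, ?_⟩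
  -- the quotient `w g / f` reduces to `1`
  have hq : atkinLehner D g * f⁻¹ ∈ M.N.S₂.Ov := mul_mem hg2 hfinv
  have hq1 : atkinLehner D (atkinLehner D g * f⁻¹) = g * (atkinLehner D f)⁻¹ := by
    rw [map_mul, hwg, map_inv₀]
  have hq1mem : g * (atkinLehner D f)⁻¹ ∈ M.N.S₁.Ov := mul_mem hg hwinv
  have h1 : M.N.S₁.red (g * (atkinLehner D f)⁻¹) = 1 := by
    rw [M.N.S₁.red_mul hg hwinv, gau_red₁_eq M hw hwinv hw0 hg hgres, ← M.N.S₁.red_mul hw hwinv,
      mul_inv_cancel₀ hw0, M.N.S₁.red_one]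
  have h2 : M.N.S₂.red (atkinLehner D g * f⁻¹) = 1 := by
    apply M.red₂_eq_one _ hq
    rw [hq1]
    exact h1
  have h5 : atkinLehner D g = atkinLehner D g * f⁻¹ * f := by
    rw [mul_assoc, inv_mul_cancel₀ hf0, mul_one]
  rw [h5, M.N.S₂.red_mul hq hf, h2, one_mul, hred]

end Fermat.Agent.PeuD
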