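/-
Row 38, block D (INT), seat BRK-TAME (helper85).  Design: helper62 (05:12Z).

The TAME break data: `P | p` a place of `ℚ̄`, `ζ` a primitive `p`-th root of unity,
`π := ζ - 1`, `Γ₁ := stabI P ζ = {σ ∈ I_P | σ ζ = ζ}` (`= Gal(ℚ̄ / K₁)`, `K₁ = K₀(ζ)`).

* `brkTame_pi_ne`, `brkTame_pi_lt` : `π ≠ 0`, `v π < 1`;
* `brkTame_val_rat` : every `c ≠ 0` fixed by `Γ₁` has `v c = v π ^ n`, `n : ℤ`
  (`π` is a uniformiser of `K₁`);
* `brkTame_val_p`, `brkTame_val_varpi` : `v p = v π ^ (p - 1)`, `v (p ^ 12) = v π ^ (12 (p - 1))`;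
* `brkTame_not_dvd` : `p ∤ 12 (p - 1)` for `p ≥ 5`;
* the same for `H = gauH N Γ₁` in the shapes `hval`, `hϖπ` of `int_abs_tame` (`Int.lean`).

Proof of `val_rat`: `λ := π₁ ^ (p + 1)` with `π₁ ^ (p² - 1) = -p` has `λ ^ (p - 1) = -p`;
`TameSetting p P (p - 1) λ` (`FieldTame.lean`) says that `λ` is a uniformiser of the field fixed by
`stabI P λ`; `stabI P λ ≤ stabI P ζ` by KT-CYC (`cycTame`); `v λ = v (ζ - 1)`.
-/
import Mathlib
import Fermat.Agent.Lib.FFL.FB.CycTame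
import Fermat.Agent.Lib.FFL.FB.FieldMono
import Fermat.Agent.Lib.BadRed.PeuD.GaussWire

set_option autoImplicit false
set_option linter.unusedSectionVars false
set_option linter.unusedVariables false
set_option linter.style.haveILetI false

noncomputable section

namespace Fermat.Agent.PeuD

open Fermat.Agent.FFL Fermat.Agent.FFL.FB AlgebraicCurve

local notation "Kb" => AlgebraicClosure ℚ
local notation "GK" => (AlgebraicClosure ℚ ≃ₐ[ℚ] AlgebraicClosure ℚ)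

variable {p : ℕ} {P : ValuationSubring Kb} {ζ π1 : Kb}

theorem brkTame_pi_ne (hp : p.Prime) (hζ : IsPrimitiveRoot ζ p) : ζ - 1 ≠ 0 :=
  sub_ne_zero.2 (hζ.ne_one hp.one_lt)

theorem brkTame_pi_lt (hp : p.Prime) (hP : P.LiesOverPrime p) (hζ : IsPrimitiveRoot ζ p) :
    P.valuation (ζ - 1) < 1 :=
  (ValuationSubring.mem_nonunits_iff P).1 (zeta_sub_one_mem_nonunits hp hP hζ.pow_eq_one)

theorem brkTame_val_p (hp : p.Prime) (hζ : IsPrimitiveRoot ζ p) :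
    P.valuation (p : Kb) = P.valuation (ζ - 1) ^ (p - 1) :=
  (val_root_sub_one_pow hp hζ.pow_eq_one (hζ.ne_one hp.one_lt)).symm

theorem brkTame_val_varpi (hp : p.Prime) (hζ : IsPrimitiveRoot ζ p) :
    P.valuation ((p : Kb) ^ 12) = P.valuation (ζ - 1) ^ (12 * (p - 1)) := by
  rw [map_pow, brkTame_val_p hp hζ, ← pow_mul, mul_comm]

theorem brkTame_not_dvd (hp : p.Prime) (h5 : 5 ≤ p) : ¬ (p : ℤ) ∣ ((12 * (p - 1) : ℕ) : ℤ) := by
  intro h
  have h1 : p ∣ 12 * (p - 1) := by exact_mod_cast h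
  rcases (Nat.Prime.dvd_mul hp).1 h1 with h2 | h2
  · have h3 : p ≤ 12 := Nat.le_of_dvd (by norm_num) h2
    interval_cases p <;> simp_all (config := { decide := true })
  · have h3 : p ≤ p - 1 := Nat.le_of_dvd (by omega) h2
    omega

/-- a root `π₁` of `X ^ (p² - 1) = -p`. -/
theorem brkTame_exists_pi1 (hp : p.Prime) : ∃ π1 : Kb, IsPi1 p π1 := by
  have h0 : 0 < p ^ 2 - 1 := by
    have : 2 ≤ p := hp.two_le
    have : 4 ≤ p ^ 2 := by nlinarith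
    omega
  obtain ⟨z, hz⟩ := IsAlgClosed.exists_pow_nat_eq (-(p : Kb)) h0
  exact ⟨z, hz⟩

/-- the tame setting of `λ = π₁ ^ (p + 1)`, `λ ^ (p - 1) = -p`. -/
theorem brkTame_tameSetting (hp : p.Prime) (hP : P.LiesOverPrime p) (hπ : IsPi1 p π1) :
    TameSetting p P (p - 1) (π1 ^ (p + 1)) := by
  have hp0 : (p : Kb) ≠ 0 := ar_p_ne_zero hp
  have hlam : (π1 ^ (p + 1)) ^ (p - 1) = -(p : Kb) := pi1_pow_succ_pow hp hπ
  have hπ0 : π1 ≠ 0 := (tameSetting_of_isPi1 hp hP hπ).hπ0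
  refine ⟨hp, hP, ?_, pow_ne_zero _ hπ0, ?_, ?_, ?_⟩
  · intro hdvd
    have h1 : p ≤ p - 1 := Nat.le_of_dvd (by have := hp.two_le; omega) hdvd
    have := hp.two_le
    omega
  · intro σ _
    rw [hlam, map_neg, map_natCast]
  · rw [hlam, neg_div, div_self hp0]
    exact neg_mem P.one_mem
  · rw [hlam, div_neg, div_self hp0]
    exact neg_mem P.one_mem

/-- `stabI P λ ≤ stabI P ζ`: an inertia element fixing `λ = π₁ ^ (p + 1)` fixes `ζ`. -/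
theorem brkTame_zeta_fixed (hp : p.Prime) (hP : P.LiesOverPrime p) (hπ : IsPi1 p π1)
    (hζ : IsPrimitiveRoot ζ p) {τ : GK} (hτ : τ ∈ stabI P (π1 ^ (p + 1))) : τ ζ = ζ := by
  haveI : NeZero p := ⟨hp.ne_zero⟩
  have hπ0 : π1 ≠ 0 := (tameSetting_of_isPi1 hp hP hπ).hπ0
  have hτζp : (τ ζ) ^ p = 1 := by rw [← map_pow, hζ.pow_eq_one, map_one]
  obtain ⟨w, hw, hwζ⟩ := hζ.eq_pow_of_pow_eq_one hτζp
  have h1 := cycTame hp hP hπ ζ τ w hζ hτ.1 hwζ.symm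
  have hθ : (τ π1 / π1) ^ (p + 1) = 1 := by
    rw [div_pow, ← map_pow, hτ.2, div_self (pow_ne_zero _ hπ0)]
  rw [hθ] at h1
  have hdvd : (p : ℤ) ∣ (w : ℤ) - 1 := by
    by_contra hnd
    have h3 := ar_val_int_eq_one hp hP hnd
    have h4 : P.valuation (((w : ℤ) - 1 : ℤ) : Kb) < 1 := by
      have := (ValuationSubring.mem_nonunits_iff P).1 h1
      push_cast
      exact this
    rw [h3] at h4
    exact lt_irrefl _ h4
  have h2 : (w : ℤ) - 1 = 0 := by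
    refine Int.eq_zero_of_abs_lt_dvd hdvd (abs_lt.2 ⟨?_, ?_⟩)
    · have : 2 ≤ p := hp.two_le
      omega
    · omega
  have hw1 : w = 1 := by omega
  rw [← hwζ, hw1, pow_one]

/-- `v λ = v (ζ - 1)`. -/
theorem brkTame_val_lam (hp : p.Prime) (hP : P.LiesOverPrime p) (hπ : IsPi1 p π1)
    (hζ : IsPrimitiveRoot ζ p) : P.valuation (π1 ^ (p + 1)) = P.valuation (ζ - 1) := by
  have h := val_zeta_div hp hP hπ hζ
  have hπ0 : π1 ≠ 0 := (tameSetting_of_isPi1 hp hP hπ).hπ0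
  have h0 : P.valuation (π1 ^ (p + 1)) ≠ 0 := (Valuation.ne_zero_iff _).2 (pow_ne_zero _ hπ0)
  rw [map_div₀, div_eq_one_iff_eq h0] at h
  exact h.symm

/-- integral form of `val_rat`. -/
theorem brkTame_val_rat_int (hp : p.Prime) (hP : P.LiesOverPrime p) (hζ : IsPrimitiveRoot ζ p)
    {c : Kb} (hc0 : c ≠ 0) (hcP : c ∈ P) (hc : ∀ σ ∈ stabI P ζ, σ c = c) :
    ∃ n : ℕ, P.valuation c = P.valuation (ζ - 1) ^ n := by
  obtain ⟨π1, hπ⟩ := brkTame_exists_pi1 (p := p) hp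
  have S := brkTame_tameSetting hp hP hπ
  have hfix : ∀ σ ∈ stabI P (π1 ^ (p + 1)), σ c = c := fun σ hσ =>
    hc σ ⟨hσ.1, brkTame_zeta_fixed hp hP hπ hζ hσ⟩
  obtain ⟨n, hn⟩ := fm_val_eq_pow hp hP (stabI P (π1 ^ (p + 1))) S.hπ0 S.π_mem_nonunits
    (fun σ hσ => hσ.2) (fun x hx hxfix => S.unif hx hxfix) hc0 hcP hfix
  exact ⟨n, by rw [hn, brkTame_val_lam hp hP hπ hζ]⟩

/-- **BRK-TAME (ii)**: the value group of `K₁ = K₀(ζ)` is generated by `v (ζ - 1)`. -/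
theorem brkTame_val_rat (hp : p.Prime) (hP : P.LiesOverPrime p) (hζ : IsPrimitiveRoot ζ p)
    {c : Kb} (hc0 : c ≠ 0) (hc : ∀ σ ∈ stabI P ζ, σ c = c) :
    ∃ n : ℤ, P.valuation c = P.valuation (ζ - 1) ^ n := by
  rcases P.mem_or_inv_mem c with hcP | hcP
  · obtain ⟨n, hn⟩ := brkTame_val_rat_int hp hP hζ hc0 hcP hc
    exact ⟨n, by rw [hn, zpow_natCast]⟩
  · obtain ⟨n, hn⟩ := brkTame_val_rat_int hp hP hζ (inv_ne_zero hc0) hcP
      (fun σ hσ => by rw [map_inv₀, hc σ hσ])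
    refine ⟨-(n : ℤ), ?_⟩
    rw [map_inv₀] at hn
    rw [zpow_neg, zpow_natCast, ← hn, inv_inv]

/-- `ζ - 1` is fixed by `Γ₁`. -/
theorem brkTame_pi_fixed : ∀ σ ∈ stabI P ζ, σ (ζ - 1) = ζ - 1 := by
  intro σ hσ
  rw [map_sub, map_one, hσ.2]

/-! ### the shapes of `int_abs_tame` for `H = gauH N Γ₁` -/

/-- `hval` of `int_abs_tame` for `H = gauH N (stabI P ζ)`. -/
theorem brkTame_hval (N : ℕ) (hp : p.Prime) (hP : P.LiesOverPrime p)
    (hζ : IsPrimitiveRoot ζ p) :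
    ∀ c : Kb, c ≠ 0 →
      (∀ t ∈ gauH N (stabI P ζ : Set GK), SemilinearAut.baseAut t c = c) →
      ∃ n : ℤ, P.valuation c = P.valuation (ζ - 1) ^ n :=
  fun c hc0 hc => brkTame_val_rat hp hP hζ hc0 (gauH_baseAut' hc)

/-- `π = ζ - 1` is `H`-rational for `H = gauH N (stabI P ζ)`. -/
theorem brkTame_pi_rat (N : ℕ) :
    ∀ t ∈ gauH N (stabI P ζ : Set GK), SemilinearAut.baseAut t (ζ - 1) = ζ - 1 :=
  gauH_baseAut (fun σ hσ => brkTame_pi_fixed σ hσ)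

end Fermat.Agent.PeuD
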