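/-
Row 38, block D (INT), seat D-BRK, WIRING (helper97): the hypothesis (BRK) in the exact shapes of
the consumers (`Int.lean`: `int_abs_wild`, `int_abs_tame`; `LemmaABrk.lean`), for the arithmetic
Galois action on `F = laurentBaseChange ℚ̄ F₀`.

WILD case (helper91's `PeuSetting`): `H` = the image of `peuStab P ζ α` (`= Gal(ℚ̄ / M)`),
`s = arithmeticGalois s₀` with `s₀ ζ = ζ`, `s₀ α = ζ α`, `π = peuUnif ζ α`, `α₀ = -1`,
`ϖ = p ^ 12`, `E' = 12 (p - 1)`.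

TAME case: `H` = the image of `stabI P ζ` (`= Gal(ℚ̄ / K1)`), `π = ζ - 1`, `E = 12 (p - 1)`.
-/
import Fermat.Agent.Lib.BadRed.PeuD.Brk
import Fermat.Prelude.Def_ModularCurve_ArithmeticGalois

set_option autoImplicit false
set_option linter.unusedSectionVars false
set_option linter.unusedVariables false

noncomputable section

namespace Fermat.Agent.PeuD

open Fermat.Agent.FFL Fermat.Agent.FFL.FB Fermat.Agent.PeuDBreak ModularCurve AlgebraicCurve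

local notation "Kb" => AlgebraicClosure ℚ
local notation "GK" => (AlgebraicClosure ℚ ≃ₐ[ℚ] AlgebraicClosure ℚ)

/-- valuation form ⟹ quotient form. -/
theorem brkW_div_mem {K : Type*} [Field K] (A : ValuationSubring K) {x π : K} (n : ℕ)
    (h : A.valuation x ≤ A.valuation π ^ n) : x / π ^ n ∈ A := by
  rw [← A.valuation_le_one_iff, map_div₀, map_pow]
  exact div_le_one_of_le₀ h zero_le

/-- `p ∤ 12 (p - 1)` for a prime `p ≥ 5`. -/
theorem brkW_not_dvd {p : ℕ} (hp : p.Prime) (h5 : 5 ≤ p) :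
    ¬ (p : ℤ) ∣ ((12 * (p - 1) : ℕ) : ℤ) := by
  rw [Int.natCast_dvd_natCast]
  intro h
  rcases (Nat.Prime.dvd_mul hp).1 h with h12 | h1
  · have h23 : p ∣ 2 ^ 2 * 3 := by
      rw [show 2 ^ 2 * 3 = 12 by norm_num]
      exact h12
    rcases (Nat.Prime.dvd_mul hp).1 h23 with h2 | h3
    · have := Nat.le_of_dvd (by norm_num) (hp.dvd_of_dvd_pow h2)
      omega
    · have := Nat.le_of_dvd (by norm_num) h3
      omega
  · have hle : p ≤ p - 1 := Nat.le_of_dvd (by omega) h1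
    omega

variable {p : ℕ} {P : ValuationSubring Kb} {ζ α z : Kb}
  (F₀ : IntermediateField ℚ (LaurentSeries ℚ))

/-! ### the wild case -/

section Wild

/-- **(BRK), modular wild case**, for `H` the image of `Gal(ℚ̄ / M)`. -/
theorem brkW_wild (S : PeuSetting p P ζ α z) {s₀ : GK} (hs : s₀ ∈ stabI P ζ) (hsα : s₀ α = ζ * α)
    (H : Set (SemilinearAut Kb (laurentBaseChange Kb F₀)))
    (hH : ∀ t, t ∈ H ↔ ∃ σ ∈ peuStab P ζ α, t = arithmeticGalois F₀ σ) :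
    Brk P (fun c => ∀ t ∈ H, SemilinearAut.baseAut t c = c)
      (SemilinearAut.baseAut (arithmeticGalois F₀ s₀)) p (peuUnif ζ α) (-1) := by
  refine (brk_of_peu S hs hsα).of_imp ?_ ?_ (fun c => rfl)
  · intro c hc σ hσ
    exact hc _ ((hH _).2 ⟨σ, hσ, rfl⟩)
  · intro t ht
    obtain ⟨σ, hσ, rfl⟩ := (hH t).1 ht
    exact S.unif_fixed σ hσ

/-- the image of `Gal(ℚ̄ / M)` as a set. -/
def brkWH (P : ValuationSubring Kb) (ζ α : Kb) :
    Set (SemilinearAut Kb (laurentBaseChange Kb F₀)) :=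
  (fun σ => arithmeticGalois F₀ σ) '' (peuStab P ζ α : Set GK)

theorem mem_brkWH (t : SemilinearAut Kb (laurentBaseChange Kb F₀)) :
    t ∈ brkWH F₀ P ζ α ↔ ∃ σ ∈ peuStab P ζ α, t = arithmeticGalois F₀ σ := by
  constructor
  · rintro ⟨σ, hσ, rfl⟩
    exact ⟨σ, hσ, rfl⟩
  · rintro ⟨σ, hσ, rfl⟩
    exact ⟨σ, hσ, rfl⟩

theorem mem_map_peuStab (t : SemilinearAut Kb (laurentBaseChange Kb F₀)) :
    t ∈ ((peuStab P ζ α).map (arithmeticGalois F₀) :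
      Set (SemilinearAut Kb (laurentBaseChange Kb F₀))) ↔
      ∃ σ ∈ peuStab P ζ α, t = arithmeticGalois F₀ σ := by
  constructor
  · rintro ⟨σ, hσ, rfl⟩
    exact ⟨σ, hσ, rfl⟩
  · rintro ⟨σ, hσ, rfl⟩
    exact ⟨σ, hσ, rfl⟩

/-- (BRK) for the subgroup `H = (peuStab P ζ α).map arithmeticGalois`. -/
theorem brkW_wild_map (S : PeuSetting p P ζ α z) {s₀ : GK} (hs : s₀ ∈ stabI P ζ) (hsα : s₀ α = ζ * α) :
    Brk P (fun c => ∀ t ∈ (peuStab P ζ α).map (arithmeticGalois F₀),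
        SemilinearAut.baseAut t c = c)
      (SemilinearAut.baseAut (arithmeticGalois F₀ s₀)) p (peuUnif ζ α) (-1) :=
  brkW_wild F₀ S hs hsα _ (mem_map_peuStab F₀)

/-- `hsπ` of `int_abs_wild`. -/
theorem brkW_hsπ (S : PeuSetting p P ζ α z) {s₀ : GK} (hs : s₀ ∈ stabI P ζ) (hsα : s₀ α = ζ * α) :
    (SemilinearAut.baseAut (arithmeticGalois F₀ s₀) (peuUnif ζ α) -
      peuUnif ζ α * (1 + (-1) * peuUnif ζ α)) / peuUnif ζ α ^ 3 ∈ P :=
  brkW_div_mem P 3 (peu_val_s_unif S hs hsα)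

/-- `hA1` of `int_abs_wild`. -/
theorem brkW_hA1 (S : PeuSetting p P ζ α z) {s₀ : GK} (hs : s₀ ∈ stabI P ζ) (hsα : s₀ α = ζ * α)
    (H : Set (SemilinearAut Kb (laurentBaseChange Kb F₀)))
    (hH : ∀ t, t ∈ H ↔ ∃ σ ∈ peuStab P ζ α, t = arithmeticGalois F₀ σ) :
    ∀ c : Kb, c ∈ P → (∀ t ∈ H, SemilinearAut.baseAut t c = c) →
      (SemilinearAut.baseAut (arithmeticGalois F₀ s₀) c - c) / peuUnif ζ α ^ 2 ∈ P :=
  fun c hc hcH => brkW_div_mem P 2 ((brkW_wild F₀ S hs hsα H hH).depth c hcH hc)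

/-- `hval` of `int_abs_wild`. -/
theorem brkW_hval (S : PeuSetting p P ζ α z) {s₀ : GK} (hs : s₀ ∈ stabI P ζ) (hsα : s₀ α = ζ * α)
    (H : Set (SemilinearAut Kb (laurentBaseChange Kb F₀)))
    (hH : ∀ t, t ∈ H ↔ ∃ σ ∈ peuStab P ζ α, t = arithmeticGalois F₀ σ) :
    ∀ c : Kb, c ≠ 0 → (∀ t ∈ H, SemilinearAut.baseAut t c = c) →
      ∃ n : ℤ, P.valuation c = P.valuation (peuUnif ζ α) ^ n :=
  fun c hc0 hcH => (brkW_wild F₀ S hs hsα H hH).val_rat c hcH hc0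

/-- `hϖπ` of `int_abs_wild`: `v (p ^ 12) = v π ^ (p E')`, `E' = 12 (p - 1)`. -/
theorem brkW_hϖπ (S : PeuSetting p P ζ α z) :
    P.valuation ((p : Kb) ^ 12) = P.valuation (peuUnif ζ α) ^ (p * (12 * (p - 1))) := by
  rw [map_pow, ← S.val_unif, ← pow_mul]
  congr 1
  ring

/-- `α₀ = -1` is integral. -/
theorem brkW_neg_one_mem (P : ValuationSubring Kb) : (-1 : Kb) ∈ P := neg_mem (one_mem P)

end Wild

/-! ### the tame case -/

section Tame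

/-- the value group of a totally ramified layer is generated by the uniformiser. -/
theorem brkW_mono_val {Γ0 Γ : Subgroup GK} {d : ℕ} {π0 ϖ : Kb}
    (S : MonoSetting p P Γ0 Γ d π0 ϖ) {x : Kb} (hx0 : x ≠ 0) (hx : ∀ σ ∈ Γ, σ x = x) :
    ∃ k : ℤ, P.valuation x = P.valuation ϖ ^ k := by
  have key : ∀ y : Kb, y ≠ 0 → y ∈ P → (∀ σ ∈ Γ, σ y = y) →
      ∃ n : ℕ, P.valuation y = P.valuation ϖ ^ n := fun y hy0 hyP hy =>
    fm_val_eq_pow S.hp S.hP Γ S.ϖ_ne_zero S.ϖ_mem_nonunits S.hϖfix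
      (fun _ hy hfix => S.unif hy hfix) hy0 hyP hy
  rcases P.mem_or_inv_mem x with hxP | hxP
  · obtain ⟨n, hn⟩ := key x hx0 hxP hx
    exact ⟨n, by rw [hn, zpow_natCast]⟩
  · obtain ⟨n, hn⟩ := key x⁻¹ (inv_ne_zero hx0) hxP (fun σ hσ => by rw [map_inv₀, hx σ hσ])
    refine ⟨-(n : ℤ), ?_⟩
    rw [map_inv₀] at hn
    rw [zpow_neg, zpow_natCast, ← hn, inv_inv]

variable (hp : p.Prime) (hp2 : p ≠ 2) (hP : P.LiesOverPrime p) (hζ : IsPrimitiveRoot ζ p)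
include hp hp2 hP hζ

/-- an auxiliary `PeuSetting` (with `z = 1`), to reach the cyclotomic layer. -/
theorem brkW_exists_peu : ∃ α : Kb, PeuSetting p P ζ α 1 := by
  obtain ⟨α, hα⟩ := IsAlgClosed.exists_pow_nat_eq (1 + (p : Kb) * 1) hp.pos
  refine ⟨α, ⟨hp, hp2, hP, hζ, ?_, ?_, hα⟩⟩
  · exact ⟨one_mem P, fun σ _ => map_one σ⟩
  · rw [P.mem_nonunits_iff, map_one]
    exact lt_irrefl _

/-- the cyclotomic layer `K1 = K0(ζ)`. -/
theorem brkW_monoSetting_cyc :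
    MonoSetting p P (P.inertiaSubgroupIn ℚ) (stabI P ζ) (p - 1) (p : Kb) (ζ - 1) := by
  obtain ⟨α, S⟩ := brkW_exists_peu hp hp2 hP hζ
  exact S.monoSetting_cyc

theorem brkT_π_ne : ζ - 1 ≠ 0 := (brkW_monoSetting_cyc hp hp2 hP hζ).ϖ_ne_zero

theorem brkT_π_lt : P.valuation (ζ - 1) < 1 := (brkW_monoSetting_cyc hp hp2 hP hζ).val_ϖ_lt

/-- `hval` of `int_abs_tame`, on `ℚ̄`. -/
theorem brkT_val {c : Kb} (hc0 : c ≠ 0) (hc : ∀ σ ∈ stabI P ζ, σ c = c) :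
    ∃ n : ℤ, P.valuation c = P.valuation (ζ - 1) ^ n :=
  brkW_mono_val (brkW_monoSetting_cyc hp hp2 hP hζ) hc0 hc

/-- `hπH` of `int_abs_tame`. -/
theorem brkT_hπH (H : Set (SemilinearAut Kb (laurentBaseChange Kb F₀)))
    (hH : ∀ t, t ∈ H ↔ ∃ σ ∈ stabI P ζ, t = arithmeticGalois F₀ σ) :
    ∀ t ∈ H, SemilinearAut.baseAut t (ζ - 1) = ζ - 1 := by
  intro t ht
  obtain ⟨σ, hσ, rfl⟩ := (hH t).1 ht
  show σ (ζ - 1) = ζ - 1
  rw [map_sub, map_one, (mem_stabI.1 hσ).2]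

/-- `hval` of `int_abs_tame`. -/
theorem brkT_hval (H : Set (SemilinearAut Kb (laurentBaseChange Kb F₀)))
    (hH : ∀ t, t ∈ H ↔ ∃ σ ∈ stabI P ζ, t = arithmeticGalois F₀ σ) :
    ∀ c : Kb, c ≠ 0 → (∀ t ∈ H, SemilinearAut.baseAut t c = c) →
      ∃ n : ℤ, P.valuation c = P.valuation (ζ - 1) ^ n :=
  fun c hc0 hcH => brkT_val hp hp2 hP hζ hc0
    (fun σ hσ => hcH _ ((hH _).2 ⟨σ, hσ, rfl⟩))

/-- `hϖπ` of `int_abs_tame`: `v (p ^ 12) = v π ^ E`, `E = 12 (p - 1)`. -/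
theorem brkT_hϖπ :
    P.valuation ((p : Kb) ^ 12) = P.valuation (ζ - 1) ^ (12 * (p - 1)) := by
  rw [map_pow, ← (brkW_monoSetting_cyc hp hp2 hP hζ).val_pow, ← pow_mul]
  congr 1
  ring

end Tame

end Fermat.Agent.PeuD
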