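/-
Row 38, block D (INT), seat D-JAC, sub-leaf JAC-FIX (helper51).  Sub-architect: helper62
(note "Block D: D-RAT and D-REP — what (RSM) really needs about D_l", (JAC)).

Abstract over a nodal package `N : NodalSetup K F k Fk₁ Fk₂ ι`.

* `unique_zero_in_disc` : a unit `f` of both valuation rings whose pair reduction has a SIMPLE
  zero at a point `X` of the special fibre and which has no pole in the residue disc of `X` has
  exactly one zero in this disc.
* `fixed_of_unique_zero` : if moreover `t • f = f` for an inertial `t`, this zero is fixed by `t`.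
* `nodalNS_eq_R_of_zero`, `nodalNS_smul_R` : for a package `NS : NodalNS N g`, the base point
  `R i` is THE zero of the parameter `t i` in the disc of `Rb i`; if `t i` is fixed by the
  inertial automorphism `τ`, then `τ • R i = R i`.
-/
import Mathlib
import Fermat.Agent.S18.KeyBasic
import Fermat.Agent.Lib.BadRed.Nodal.NSDef
import Fermat.Agent.Lib.BadRed.Nodal.ToricKeyDef

set_option autoImplicit false
set_option linter.unusedSectionVars false

noncomputable section

open AlgebraicCurve Fermat.Agent.RR Fermat.Agent.Deuring Fermat.Agent.BadRed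

namespace Fermat.Agent.PeuD

variable {K F k Fk₁ Fk₂ : Type*} [Field K] [Field F] [Algebra K F]
  [Field k] [Field Fk₁] [Algebra k Fk₁] [Field Fk₂] [Algebra k Fk₂] {ι : Type*}

variable {N : NodalSetup K F k Fk₁ Fk₂ ι}

/-- `r_* (div f) (X) = ord_X (pair reduction of f)` at a point `X` which is the reduction of a
place, for a unit `f` of both valuation rings. -/
theorem jacFix_push {f : F} (h₁ : N.S₁.red f ≠ 0) (h₂ : N.S₂.red f ≠ 0)
    {X : Place k Fk₁ ⊕ Place k Fk₂} {P₀ : Place K F} (hP₀ : N.r P₀ = some X) :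
    Finsupp.mapDomain N.r (divOf N.S₁.hF f) (some X) =
      pairOrd X (N.S₁.red f) (N.S₂.red f) := by
  rcases X with Q | Q
  · exact N.push₁ f (N.S₁.mem_of_red_ne_zero h₁) (N.S₁.inv_mem_of_red_ne_zero h₁)
      (N.S₁.ne_zero_of_red_ne_zero h₁) Q (fun i h => N.r_ne_node₁ P₀ i (by rw [hP₀, h]))
  · exact N.push₂ f (N.S₂.mem_of_red_ne_zero h₂) (N.S₂.inv_mem_of_red_ne_zero h₂)
      (N.S₂.ne_zero_of_red_ne_zero h₂) Q (fun i h => N.r_ne_node₂ P₀ i (by rw [hP₀, h]))

/-- **a simple zero of the reduction lifts to exactly one zero in the residue disc.** -/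
theorem unique_zero_in_disc {f : F} (h₁ : N.S₁.red f ≠ 0) (h₂ : N.S₂.red f ≠ 0)
    {X : Place k Fk₁ ⊕ Place k Fk₂}
    (hX : pairOrd X (N.S₁.red f) (N.S₂.red f) = 1)
    (hreg : ∀ P : Place K F, N.r P = some X → 0 ≤ P.ord f)
    {P P' : Place K F} (hP : N.r P = some X) (hpos : 0 < P.ord f)
    (hP' : N.r P' = some X) (hpos' : 0 < P'.ord f) : P = P' := by
  by_contra hne
  have hpush := jacFix_push h₁ h₂ hP
  rw [hX] at hpush
  have hle := Fermat.Agent.S18Key.add_le_mapDomain N.r (divOf N.S₁.hF f) (some X)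
    (fun Q hQ => by rw [divOf_apply]; exact hreg Q hQ) P P' hne hP hP'
  rw [hpush, divOf_apply, divOf_apply] at hle
  omega

/-- the order of the unique zero is `1`. -/
theorem ord_eq_one_of_zero_in_disc {f : F} (h₁ : N.S₁.red f ≠ 0) (h₂ : N.S₂.red f ≠ 0)
    {X : Place k Fk₁ ⊕ Place k Fk₂}
    (hX : pairOrd X (N.S₁.red f) (N.S₂.red f) = 1)
    (hreg : ∀ P : Place K F, N.r P = some X → 0 ≤ P.ord f)
    {P : Place K F} (hP : N.r P = some X) (hpos : 0 < P.ord f) : P.ord f = 1 := by
  have hpush := jacFix_push h₁ h₂ hP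
  rw [hX] at hpush
  have hle := Fermat.Agent.S18Key.le_mapDomain N.r (divOf N.S₁.hF f) (some X)
    (fun Q hQ => by rw [divOf_apply]; exact hreg Q hQ) P hP
  rw [hpush, divOf_apply] at hle
  omega

/-- **the unique zero of a function fixed by an inertial automorphism is fixed.** -/
theorem fixed_of_unique_zero {f : F} (h₁ : N.S₁.red f ≠ 0) (h₂ : N.S₂.red f ≠ 0)
    {X : Place k Fk₁ ⊕ Place k Fk₂}
    (hX : pairOrd X (N.S₁.red f) (N.S₂.red f) = 1)
    (hreg : ∀ P : Place K F, N.r P = some X → 0 ≤ P.ord f)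
    {P : Place K F} (hP : N.r P = some X) (hpos : 0 < P.ord f)
    {τ : SemilinearAut K F} (hτ : N.IsInertial τ) (hfix : τ • f = f) : τ • P = P := by
  refine unique_zero_in_disc h₁ h₂ hX hreg (P := τ • P) (P' := P) ?_ ?_ hP hpos
  · rw [hτ.r_smul, hP]
  · have h := SemilinearAut.ord_smul τ P f
    rw [hfix] at h
    rw [h]
    exact hpos

/-- the base point `R i` of a `NodalNS` is THE zero of the parameter `t i` in the disc of
`Rb i`. -/
theorem nodalNS_eq_R_of_zero {g : ℕ} (NS : NodalNS N g) (i : Fin g) {P : Place K F}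
    (hP : N.r P = some (NS.Rb i)) (hpos : 0 < P.ord (NS.t i)) : P = NS.R i :=
  unique_zero_in_disc (NS.t_red₁ i) (NS.t_red₂ i) (NS.ord_t_self i)
    (fun Q hQ => NS.t_reg i i Q hQ) hP hpos (NS.r_R i) (NS.t_R i)

/-- **JAC-FIX**: if the parameter `t i` is fixed by the inertial automorphism `τ`, so is the
base point `R i`. -/
theorem nodalNS_smul_R {g : ℕ} (NS : NodalNS N g) (i : Fin g) {τ : SemilinearAut K F}
    (hτ : N.IsInertial τ) (hfix : τ • NS.t i = NS.t i) : τ • NS.R i = NS.R i :=
  fixed_of_unique_zero (NS.t_red₁ i) (NS.t_red₂ i) (NS.ord_t_self i)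
    (fun Q hQ => NS.t_reg i i Q hQ) (NS.r_R i) (NS.t_R i) hτ hfix

end Fermat.Agent.PeuD
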