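/-
Row 38, block D (INT), seat D-JAC, sub-leaf JAC-UNIQ (helper32).  Sub-architect: helper62
(note "Block D: D-RAT and D-REP — what (RSM) really needs about D_l", (JAC)); lead of D-JAC:
helper12.

Abstract over a nodal package `N : NodalSetup K F k Fk₁ Fk₂ ι` with `NS : NodalNS N g`.

* `nodalNS_moveBase` : the base points `R i` of a `NodalNS` may be moved to ANY points `P' i` of
  the residue discs of the `Rb i` (the parameter `t i` is replaced by `t i - a i`, `a i` in the
  maximal ideal of `A`; the reductions do not change).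
* `jac_uniq` : **uniqueness of the Jacobi form**: if `div φ = ∑ (P i - P' i)` with `P i`, `P' i`
  in the residue disc of `Rb i`, then `P i = P' i` for all `i`.
* `jac_uniq_of_forms` : two Jacobi forms `D + div φ = ∑ (P i - R i)`,
  `D + div φ' = ∑ (P' i - R i)` of the same divisor have the same points.
* `jac_fixed_of_forms` : if `τ` is inertial, fixes the base points `R i`, and `τ • D` is
  linearly equivalent to `D`, then `τ` fixes the points `P i` of the Jacobi form of `D`.
-/
import Mathlib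
import Fermat.Agent.Lib.BadRed.Nodal.KeyMain
import Fermat.Agent.Lib.BadRed.PeuD.JacFix

set_option autoImplicit false
set_option linter.unusedSectionVars false

noncomputable section

open AlgebraicCurve Fermat.Agent.RR Fermat.Agent.Deuring Fermat.Agent.BadRed

namespace Fermat.Agent.PeuD

variable {K F k Fk₁ Fk₂ : Type*} [Field K] [Field F] [Algebra K F]
  [Field k] [Field Fk₁] [Algebra k Fk₁] [Field Fk₂] [Algebra k Fk₂] {ι : Type*}

variable {N : NodalSetup K F k Fk₁ Fk₂ ι} {g : ℕ}

/-- local datum for moving the base point: a parameter `t'` with the same reductions as `t i`,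
regular on the discs, vanishing at `P'`. -/
theorem jacUniq_exists_param (NS : NodalNS N g) (i : Fin g) (P' : Place K F)
    (hP' : N.r P' = some (NS.Rb i)) :
    ∃ t' : F, t' ∈ N.S₁.Ov ∧ t' ∈ N.S₂.Ov ∧ N.S₁.red t' = N.S₁.red (NS.t i) ∧
      N.S₂.red t' = N.S₂.red (NS.t i) ∧
      (∀ j P, N.r P = some (NS.Rb j) → 0 ≤ P.ord t') ∧ 0 < P'.ord t' := by
  by_cases hne : P' = NS.R i
  · refine ⟨NS.t i, NS.t_mem₁ i, NS.t_mem₂ i, rfl, rfl, fun j P hP => NS.t_reg i j P hP, ?_⟩
    rw [hne]
    exact NS.t_R i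
  · obtain ⟨a, _, haA, hai, _, hs⟩ := NK.kl_exists_self₂ NS i P' hP' hne
    obtain ⟨hU, hr₁, hr₂⟩ := NK.kl_s_isU₂ NS i haA hai
    refine ⟨NS.t i - algebraMap K F a, hU.u₁.mem, hU.u₂.mem, hr₁, hr₂, fun j P hP => ?_, ?_⟩
    · exact Fermat.Agent.S18Key.ord_nonneg_sub P (NS.t_reg i j P hP)
        (Fermat.Agent.S18Key.ord_const_nonneg P a)
    · rw [hs P' hP', Finsupp.single_eq_same]
      exact one_pos

/-- **moving the base points**: the base points `R i` of a `NodalNS` may be replaced by any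
points `P' i` of the residue discs of the `Rb i`. -/
theorem nodalNS_moveBase (NS : NodalNS N g) (P' : Fin g → Place K F)
    (hP' : ∀ i, N.r (P' i) = some (NS.Rb i)) :
    ∃ NS' : NodalNS N g, NS'.Rb = NS.Rb ∧ NS'.R = P' ∧ NS'.P0 = NS.P0 := by
  choose t' ht₁ ht₂ hr₁ hr₂ hreg hpos using fun i => jacUniq_exists_param NS i (P' i) (hP' i)
  exact ⟨{ Rb := NS.Rb
           Rb_inj := NS.Rb_inj
           R := P'
           r_R := hP'
           t := t'
           t_mem₁ := ht₁
           t_mem₂ := ht₂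
           t_red₁ := fun i => by rw [hr₁]; exact NS.t_red₁ i
           t_red₂ := fun i => by rw [hr₂]; exact NS.t_red₂ i
           ord_t_self := fun i => by rw [hr₁, hr₂]; exact NS.ord_t_self i
           ord_t_other := fun i j hij => by rw [hr₁, hr₂]; exact NS.ord_t_other i j hij
           t_reg := fun i j P hP => hreg i j P hP
           t_R := hpos
           nonspecial := NS.nonspecial
           P0 := NS.P0
           P0_ord := NS.P0_ord
           r_P0 := NS.r_P0 }, rfl, rfl, rfl⟩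

/-- **JAC-UNIQ, uniqueness of the Jacobi form**: a function whose divisor is `∑ (P i - P' i)`,
with `P i` and `P' i` in the residue disc of `Rb i`, forces `P i = P' i`. -/
theorem jac_uniq (NS : NodalNS N g) (P P' : Fin g → Place K F)
    (hP : ∀ i, N.r (P i) = some (NS.Rb i)) (hP' : ∀ i, N.r (P' i) = some (NS.Rb i))
    {φ : F} (hφ : φ ≠ 0)
    (hdiv : ∀ v : Place K F, v.ord φ =
      ∑ i, (Finsupp.single (P i) (1 : ℤ) v - Finsupp.single (P' i) (1 : ℤ) v)) :
    ∀ i, P i = P' i := by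
  obtain ⟨NS', hRb, hR, -⟩ := nodalNS_moveBase NS P' hP'
  have h1 : ((1 : ℕ) : K) ≠ 0 := by rw [Nat.cast_one]; exact one_ne_zero
  have h1A : (((1 : ℕ) : K))⁻¹ ∈ N.S₁.A := by rw [Nat.cast_one, inv_one]; exact one_mem _
  have := NK.kl_main₂ NS' 1 h1 h1A P (fun i => by rw [hRb]; exact hP i) φ hφ (fun v => by
    rw [hdiv v, hR, Nat.cast_one, one_mul])
  intro i
  rw [this i, hR]

/-- the same with a multiplicity `m` invertible in `A`. -/
theorem jac_uniq_mul (NS : NodalNS N g) (m : ℕ) (hm0 : (m : K) ≠ 0)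
    (hmA : ((m : K))⁻¹ ∈ N.S₁.A) (P P' : Fin g → Place K F)
    (hP : ∀ i, N.r (P i) = some (NS.Rb i)) (hP' : ∀ i, N.r (P' i) = some (NS.Rb i))
    {φ : F} (hφ : φ ≠ 0)
    (hdiv : ∀ v : Place K F, v.ord φ =
      m * ∑ i, (Finsupp.single (P i) (1 : ℤ) v - Finsupp.single (P' i) (1 : ℤ) v)) :
    ∀ i, P i = P' i := by
  obtain ⟨NS', hRb, hR, -⟩ := nodalNS_moveBase NS P' hP'
  have := NK.kl_main₂ NS' m hm0 hmA P (fun i => by rw [hRb]; exact hP i) φ hφ (fun v => by
    rw [hdiv v, hR])
  intro i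
  rw [this i, hR]

/-- **two Jacobi forms of the same divisor have the same points.** -/
theorem jac_uniq_of_forms (NS : NodalNS N g) (D : Divisor K F) (R P P' : Fin g → Place K F)
    (hP : ∀ i, N.r (P i) = some (NS.Rb i)) (hP' : ∀ i, N.r (P' i) = some (NS.Rb i))
    {φ φ' : F} (hφ : φ ≠ 0) (hφ' : φ' ≠ 0)
    (hE : ∀ v : Place K F, D v + v.ord φ =
      ∑ i, (Finsupp.single (P i) (1 : ℤ) v - Finsupp.single (R i) (1 : ℤ) v))
    (hE' : ∀ v : Place K F, D v + v.ord φ' =
      ∑ i, (Finsupp.single (P' i) (1 : ℤ) v - Finsupp.single (R i) (1 : ℤ) v)) :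
    ∀ i, P i = P' i := by
  refine jac_uniq NS P P' hP hP' (φ := φ / φ') (div_ne_zero hφ hφ') (fun v => ?_)
  rw [div_eq_mul_inv, v.ord_mul hφ (inv_ne_zero hφ'), v.ord_inv]
  have h1 := hE v
  have h2 := hE' v
  have h3 : ∑ i, (Finsupp.single (P i) (1 : ℤ) v - Finsupp.single (P' i) (1 : ℤ) v) =
      ∑ i, (Finsupp.single (P i) (1 : ℤ) v - Finsupp.single (R i) (1 : ℤ) v) -
        ∑ i, (Finsupp.single (P' i) (1 : ℤ) v - Finsupp.single (R i) (1 : ℤ) v) := by
    rw [← Finset.sum_sub_distrib]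
    exact Finset.sum_congr rfl (fun i _ => by ring)
  rw [h3, ← h1, ← h2]
  ring

/-- transport of a point mass by a semilinear automorphism. -/
theorem jacUniq_single_smul (τ : SemilinearAut K F) (P w : Place K F) :
    Finsupp.single (τ • P) (1 : ℤ) w = Finsupp.single P (1 : ℤ) (τ⁻¹ • w) := by
  classical
  by_cases h : w = τ • P
  · subst h
    rw [inv_smul_smul, Finsupp.single_eq_same, Finsupp.single_eq_same]
  · have h' : τ⁻¹ • w ≠ P := fun e => h (by rw [← e, smul_inv_smul])
    rw [Finsupp.single_eq_of_ne h, Finsupp.single_eq_of_ne h']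

/-- **the points of the Jacobi form of an invariant class are fixed**: if `τ` is inertial, fixes
the base points `R i`, and `τ • D = D + div ψ`, then `τ` fixes the points `P i` of the Jacobi
form `D + div φ = ∑ (P i - R i)`. -/
theorem jac_fixed_of_forms (NS : NodalNS N g) {τ : SemilinearAut K F} (hτ : N.IsInertial τ)
    (D : Divisor K F) (R P : Fin g → Place K F) (hR : ∀ i, τ • R i = R i)
    (hP : ∀ i, N.r (P i) = some (NS.Rb i))
    {φ ψ : F} (hφ : φ ≠ 0) (hψ : ψ ≠ 0)
    (hE : ∀ v : Place K F, D v + v.ord φ =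
      ∑ i, (Finsupp.single (P i) (1 : ℤ) v - Finsupp.single (R i) (1 : ℤ) v))
    (hτD : ∀ v : Place K F, (τ • D) v = D v + v.ord ψ) :
    ∀ i, τ • P i = P i := by
  have hτφ : τ • φ ≠ 0 := by simpa using hφ
  have key := jac_uniq_of_forms NS D R (fun i => τ • P i) P
    (fun i => by rw [hτ.r_smul]; exact hP i) hP
    (φ := ψ * τ • φ) (φ' := φ) (mul_ne_zero hψ hτφ) hφ (fun w => ?_) hE
  · exact key
  · rw [w.ord_mul hψ hτφ]
    have h1 := hE (τ⁻¹ • w)
    have h2 := hτD w
    rw [SemilinearAut.divisor_smul_apply] at h2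
    have h3 : w.ord (τ • φ) = (τ⁻¹ • w).ord φ := by
      have := SemilinearAut.ord_smul τ (τ⁻¹ • w) φ
      rwa [smul_inv_smul] at this
    have h4 : ∑ i, (Finsupp.single (τ • P i) (1 : ℤ) w - Finsupp.single (R i) (1 : ℤ) w) =
        ∑ i, (Finsupp.single (P i) (1 : ℤ) (τ⁻¹ • w) -
          Finsupp.single (R i) (1 : ℤ) (τ⁻¹ • w)) := by
      refine Finset.sum_congr rfl (fun i _ => ?_)
      rw [jacUniq_single_smul τ (P i) w]
      congr 1
      rw [← jacUniq_single_smul τ (R i) w, hR i]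
    rw [h4, ← h1, h3]
    omega

/-- **JAC-UNIQ + JAC-FIX**: for a package whose parameters `t i` are fixed by the inertial
automorphism `τ`, the points of the Jacobi form (relative to the base points `NS.R i`) of a
divisor whose class is fixed by `τ` are fixed by `τ`. -/
theorem jac_fixed (NS : NodalNS N g) {τ : SemilinearAut K F} (hτ : N.IsInertial τ)
    (ht : ∀ i, τ • NS.t i = NS.t i)
    (D : Divisor K F) (P : Fin g → Place K F) (hP : ∀ i, N.r (P i) = some (NS.Rb i))
    {φ ψ : F} (hφ : φ ≠ 0) (hψ : ψ ≠ 0)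
    (hE : ∀ v : Place K F, D v + v.ord φ =
      ∑ i, (Finsupp.single (P i) (1 : ℤ) v - Finsupp.single (NS.R i) (1 : ℤ) v))
    (hτD : ∀ v : Place K F, (τ • D) v = D v + v.ord ψ) :
    ∀ i, τ • P i = P i :=
  jac_fixed_of_forms NS hτ D NS.R P (fun i => nodalNS_smul_R NS i hτ (ht i)) hP hφ hψ hE hτD

end Fermat.Agent.PeuD
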