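/-
Row 38, block D (INT), seat D-JAC, sub-leaf JAC-NS (helper32).  Lead of D-JAC: helper12
(note "helper12 -> helper32: JAC-NS (NodalNS with inertia-fixed parameters)").

A `NodalNS` whose parameters `t i` satisfy a given property (for (JAC): are fixed by a set `Γ` of
semilinear automorphisms), from the lifting property (LIFT) with this property.  Copy of
`NodalSetup.nonempty_nodalNS_of_lift` (Nodal/NSBuildLift.lean, helper7), carrying one more field.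

* `NodalSetup.HasLiftProp N Pr D₀ R₁ R₂` : (LIFT) with lifts satisfying `Pr`;
* `NodalSetup.HasLiftFix N Γ D₀ R₁ R₂`   : (LIFT) with `Γ`-fixed lifts;
* `exists_nodalNS_prop`, `exists_nodalNS_fix` : the packages;
* `hasLiftFix_of_liftFix` : `HasLiftFix` from `HasLift` and (LiftFix);
* `exists_nodalNS_fix_R` : … and then the base points `R i` are fixed by the inertial elements
  of `Γ` (JAC-FIX);
* `jacUniqStatement_all` : the hypothesis `hUniq` of `exists_jac`, in unfolded form.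
-/
import Mathlib
import Fermat.Agent.Lib.BadRed.Nodal.NSBuildLift
import Fermat.Agent.Lib.BadRed.PeuD.JacUniq

set_option autoImplicit false
set_option linter.style.haveILetI false
set_option linter.unusedSectionVars false

noncomputable section

open AlgebraicCurve Fermat.Agent.RR Fermat.Agent.Deuring

namespace Fermat.Agent.BadRed

variable {K F k Fk₁ Fk₂ : Type*} [Field K] [Field F] [Algebra K F]
  [Field k] [Field Fk₁] [Algebra k Fk₁] [Field Fk₂] [Algebra k Fk₂] {ι : Type*}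

variable (N : NodalSetup K F k Fk₁ Fk₂ ι)

/-- the lifting property (LIFT) with lifts satisfying the property `Pr`. -/
def NodalSetup.HasLiftProp (Pr : F → Prop) (D₀ : Divisor K F) (R₁ : Divisor k Fk₁)
    (R₂ : Divisor k Fk₂) : Prop :=
  ∃ m₀ : ℕ, ∀ m : ℕ, m₀ ≤ m → ∀ (a : Fk₁) (b : Fk₂),
    (a, b) ∈ nodalRR N.s₁ N.s₂ (m • R₁) (m • R₂) →
    ∃ f : F, f ∈ riemannRochSpace (m • D₀) ∧ f ∈ N.S₁.Ov ∧ f ∈ N.S₂.Ov ∧
      N.S₁.red f = a ∧ N.S₂.red f = b ∧ Pr f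

/-- the lifting property (LIFT) with lifts fixed by `Γ`. -/
def NodalSetup.HasLiftFix (Γ : Set (SemilinearAut K F)) (D₀ : Divisor K F)
    (R₁ : Divisor k Fk₁) (R₂ : Divisor k Fk₂) : Prop :=
  ∃ m₀ : ℕ, ∀ m : ℕ, m₀ ≤ m → ∀ (a : Fk₁) (b : Fk₂),
    (a, b) ∈ nodalRR N.s₁ N.s₂ (m • R₁) (m • R₂) →
    ∃ f : F, f ∈ riemannRochSpace (m • D₀) ∧ f ∈ N.S₁.Ov ∧ f ∈ N.S₂.Ov ∧
      N.S₁.red f = a ∧ N.S₂.red f = b ∧ ∀ t ∈ Γ, t • f = f

theorem NodalSetup.hasLiftFix_iff (Γ : Set (SemilinearAut K F)) (D₀ : Divisor K F)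
    (R₁ : Divisor k Fk₁) (R₂ : Divisor k Fk₂) :
    N.HasLiftFix Γ D₀ R₁ R₂ ↔ N.HasLiftProp (fun f => ∀ t ∈ Γ, t • f = f) D₀ R₁ R₂ :=
  Iff.rfl

theorem NodalSetup.HasLiftProp.hasLift {Pr : F → Prop} {D₀ : Divisor K F}
    {R₁ : Divisor k Fk₁} {R₂ : Divisor k Fk₂} (h : N.HasLiftProp Pr D₀ R₁ R₂) :
    N.HasLift D₀ R₁ R₂ := by
  obtain ⟨m₀, hm₀⟩ := h
  refine ⟨m₀, fun m hm a b hab => ?_⟩
  obtain ⟨f, h1, h2, h3, h4, h5, -⟩ := hm₀ m hm a b hab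
  exact ⟨f, h1, h2, h3, h4, h5⟩

end Fermat.Agent.BadRed

namespace Fermat.Agent.PeuD

open Fermat.Agent.BadRed

variable {K F k Fk₁ Fk₂ : Type*} [Field K] [Field F] [Algebra K F]
  [Field k] [Field Fk₁] [Algebra k Fk₁] [Field Fk₂] [Algebra k Fk₂] {ι : Type*}

variable (N : NodalSetup K F k Fk₁ Fk₂ ι)

/-- **construction of `NodalNS` from (LIFT) with a property**: the parameters `t i` satisfy
`Pr`. -/
theorem exists_nodalNS_prop [IsAlgClosed k] [Fintype ι] [Nonempty ι]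
    (hg : N.GenusRel) (Pr : F → Prop) (D₀ : Divisor K F) (R₁ : Divisor k Fk₁)
    (R₂ : Divisor k Fk₂)
    (hR₁ : 0 < Divisor.degree R₁) (hR₂ : 0 < Divisor.degree R₂)
    (hn₁ : ∀ i, R₁ (N.s₁ i) = 0) (hn₂ : ∀ i, R₂ (N.s₂ i) = 0)
    (hlift : N.HasLiftProp Pr D₀ R₁ R₂) :
    ∃ NS : NodalNS N (genusFF K F), ∀ i, Pr (NS.t i) := by
  classical
  haveI : Infinite k := IsAlgClosed.instInfinite
  haveI : Infinite (Place k Fk₁) := infinite_place N.S₁.hFk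
  obtain ⟨Rb, hinj, havoid, hnode₁, hnode₂, hns⟩ :=
    exists_nodal_nonspecial_fin N.S₁.hFk N.S₂.hFk N.s₁ N.s₂ N.s₁_inj
      (fun _ => N.liftAvoid D₀ R₁ R₂) (genusFF K F) hg
  have hav := fun i => N.notMem_liftAvoid (havoid i)
  obtain ⟨m₀, hm₀⟩ := hlift
  -- the multiple
  set m : ℕ := max m₀ (2 * (genusFF k Fk₁ + genusFF k Fk₂) + Fintype.card ι + 1) with hm
  have hm1 : m₀ ≤ m := le_max_left _ _
  have hm2 : 2 * (genusFF k Fk₁ + genusFF k Fk₂) + Fintype.card ι + 1 ≤ m := le_max_right _ _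
  have hm2' : (2 * ((genusFF k Fk₁ : ℤ) + genusFF k Fk₂) + Fintype.card ι + 1 : ℤ) ≤ m := by
    exact_mod_cast hm2
  have hdeg₁ : 2 * (genusFF k Fk₁ : ℤ) + Fintype.card ι < Divisor.degree (m • R₁) := by
    rw [map_nsmul, nsmul_eq_mul]
    have h3 : (m : ℤ) ≤ m * Divisor.degree R₁ := by
      have := Int.natCast_nonneg m
      nlinarith
    have := Int.natCast_nonneg (genusFF k Fk₂)
    omega
  have hdeg₂ : 2 * (genusFF k Fk₂ : ℤ) + Fintype.card ι < Divisor.degree (m • R₂) := by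
    rw [map_nsmul, nsmul_eq_mul]
    have h3 : (m : ℤ) ≤ m * Divisor.degree R₂ := by
      have := Int.natCast_nonneg m
      nlinarith
    have := Int.natCast_nonneg (genusFF k Fk₁)
    omega
  -- the parameters
  have hpar : ∀ i, ∃ t : F, t ∈ riemannRochSpace (m • D₀) ∧ t ∈ N.S₁.Ov ∧ t ∈ N.S₂.Ov ∧
      N.S₁.red t ≠ 0 ∧ N.S₂.red t ≠ 0 ∧ pairOrd (Rb i) (N.S₁.red t) (N.S₂.red t) = 1 ∧
        (∀ j, j ≠ i → pairOrd (Rb j) (N.S₁.red t) (N.S₂.red t) = 0) ∧ Pr t := by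
    intro i
    obtain ⟨a, b, ha0, hb0, hab, hself, hother⟩ := N.exists_pair_at Rb hinj (m • R₁) (m • R₂)
      (fun j => by rw [Finsupp.smul_apply, hn₁ j, smul_zero])
      (fun j => by rw [Finsupp.smul_apply, hn₂ j, smul_zero])
      (fun j Q hQ => by rw [Finsupp.smul_apply, (hav j).1 Q hQ, smul_zero])
      (fun j Q hQ => by rw [Finsupp.smul_apply, (hav j).2.1 Q hQ, smul_zero])
      hnode₁ hnode₂ hdeg₁ hdeg₂ i
    obtain ⟨t, ht, ht₁, ht₂, hra, hrb, hPr⟩ := hm₀ m hm1 a b hab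
    refine ⟨t, ht, ht₁, ht₂, by rw [hra]; exact ha0, by rw [hrb]; exact hb0, ?_, ?_, hPr⟩
    · rw [hra, hrb]; exact hself
    · intro j hj
      rw [hra, hrb]; exact hother j hj
  choose t ht ht₁ ht₂ hred₁ hred₂ hself hother hPr using hpar
  -- the lifts
  have hlifts : ∀ i, ∃ R : Place K F, N.r R = some (Rb i) ∧ 0 < R.ord (t i) := fun i =>
    N.exists_zero_of_pairOrd_pos (hred₁ i) (hred₂ i) (Rb i) (hnode₁ i) (hnode₂ i)
      (by rw [hself i]; norm_num)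
  choose R hrR hRpos using hlifts
  -- the base point
  obtain ⟨Q₀, hQ₀⟩ := Infinite.exists_notMem_finset
    ((Finset.univ.image N.s₁) ∪ (Finset.univ.image Rb).toLeft)
  rw [Finset.mem_union, not_or] at hQ₀
  have hQ₀n : ∀ i, Q₀ ≠ N.s₁ i := fun i h =>
    hQ₀.1 (Finset.mem_image.mpr ⟨i, Finset.mem_univ _, h.symm⟩)
  have hQ₀R : ∀ i, Rb i ≠ Sum.inl Q₀ := fun i h =>
    hQ₀.2 (Finset.mem_toLeft.mpr (Finset.mem_image.mpr ⟨i, Finset.mem_univ _, h⟩))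
  obtain ⟨P0, hP0⟩ := N.r_surj₁ Q₀ hQ₀n
  refine ⟨{
    Rb := Rb
    Rb_inj := hinj
    R := R
    r_R := hrR
    t := t
    t_mem₁ := ht₁
    t_mem₂ := ht₂
    t_red₁ := hred₁
    t_red₂ := hred₂
    ord_t_self := hself
    ord_t_other := fun i j hij => hother i j (Ne.symm hij)
    t_reg := fun i j P hP => by
      have h0 : t i ≠ 0 := N.S₁.ne_zero_of_red_ne_zero (hred₁ i)
      have h1 := ((mem_riemannRochSpace_iff.mp (ht i)) P).resolve_left h0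
      rw [Finsupp.smul_apply, (hav j).2.2 P hP, smul_zero, neg_zero] at h1
      exact h1
    t_R := hRpos
    nonspecial := fun f b hnod h1 h2 h3 => by
      refine hns f b h1 ?_ h2 ?_ (fun i => (hnod i).2.2)
      · intro Q
        by_cases hQ : ∃ i, Rb i = Sum.inl Q
        · obtain ⟨i, hi⟩ := hQ
          have := h3 i
          rw [hi] at this
          exact this
        · push Not at hQ
          have := h1 Q hQ
          omega
      · intro Q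
        by_cases hQ : ∃ i, Rb i = Sum.inr Q
        · obtain ⟨i, hi⟩ := hQ
          have := h3 i
          rw [hi] at this
          exact this
        · push Not at hQ
          have := h2 Q hQ
          omega
    P0 := P0
    P0_ord := ⟨_, hP0⟩
    r_P0 := fun i h => hQ₀R i (by
      rw [hP0] at h
      exact (Option.some.inj h).symm) }, hPr⟩

/-- **JAC-NS**: a `NodalNS` with `Γ`-fixed parameters, from (LIFT) with `Γ`-fixed lifts. -/
theorem exists_nodalNS_fix [IsAlgClosed k] [Fintype ι] [Nonempty ι]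
    (hg : N.GenusRel) (Γ : Set (SemilinearAut K F)) (D₀ : Divisor K F) (R₁ : Divisor k Fk₁)
    (R₂ : Divisor k Fk₂)
    (hR₁ : 0 < Divisor.degree R₁) (hR₂ : 0 < Divisor.degree R₂)
    (hn₁ : ∀ i, R₁ (N.s₁ i) = 0) (hn₂ : ∀ i, R₂ (N.s₂ i) = 0)
    (hlift : N.HasLiftFix Γ D₀ R₁ R₂) :
    ∃ NS : NodalNS N (genusFF K F), ∀ t ∈ Γ, ∀ i, t • NS.t i = NS.t i := by
  obtain ⟨NS, h⟩ := exists_nodalNS_prop N hg (fun f => ∀ t ∈ Γ, t • f = f) D₀ R₁ R₂ hR₁ hR₂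
    hn₁ hn₂ hlift
  exact ⟨NS, fun t ht i => h i t ht⟩

variable {N}

/-- `HasLiftFix` from `HasLift` and (LiftFix). -/
theorem hasLiftFix_of_liftFix {Γ : Set (SemilinearAut K F)} {D₀ : Divisor K F}
    {R₁ : Divisor k Fk₁} {R₂ : Divisor k Fk₂} (hlift : N.HasLift D₀ R₁ R₂)
    (hfix : ∀ (m : ℕ) (f : F), f ∈ riemannRochSpace (m • D₀) → f ∈ N.S₁.Ov → f ∈ N.S₂.Ov →
      ∃ g : F, g ∈ riemannRochSpace (m • D₀) ∧ g ∈ N.S₁.Ov ∧ g ∈ N.S₂.Ov ∧
        N.S₁.red g = N.S₁.red f ∧ N.S₂.red g = N.S₂.red f ∧ ∀ t ∈ Γ, t • g = g) :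
    N.HasLiftFix Γ D₀ R₁ R₂ := by
  obtain ⟨m₀, hm₀⟩ := hlift
  refine ⟨m₀, fun m hm a b hab => ?_⟩
  obtain ⟨f, h1, h2, h3, h4, h5⟩ := hm₀ m hm a b hab
  obtain ⟨g, g1, g2, g3, g4, g5, g6⟩ := hfix m f h1 h2 h3
  exact ⟨g, g1, g2, g3, g4.trans h4, g5.trans h5, g6⟩

/-- **JAC-NS + JAC-FIX**: a `NodalNS` whose parameters AND base points are fixed by `Γ`
(`Γ` inertial). -/
theorem exists_nodalNS_fix_R [IsAlgClosed k] [Fintype ι] [Nonempty ι]
    (hg : N.GenusRel) (Γ : Set (SemilinearAut K F)) (hΓ : ∀ t ∈ Γ, N.IsInertial t)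
    (D₀ : Divisor K F) (R₁ : Divisor k Fk₁) (R₂ : Divisor k Fk₂)
    (hR₁ : 0 < Divisor.degree R₁) (hR₂ : 0 < Divisor.degree R₂)
    (hn₁ : ∀ i, R₁ (N.s₁ i) = 0) (hn₂ : ∀ i, R₂ (N.s₂ i) = 0)
    (hlift : N.HasLiftFix Γ D₀ R₁ R₂) :
    ∃ NS : NodalNS N (genusFF K F), (∀ t ∈ Γ, ∀ i, t • NS.t i = NS.t i) ∧
      ∀ t ∈ Γ, ∀ i, t • NS.R i = NS.R i := by
  obtain ⟨NS, h⟩ := exists_nodalNS_fix N hg Γ D₀ R₁ R₂ hR₁ hR₂ hn₁ hn₂ hlift
  exact ⟨NS, h, fun t ht i => nodalNS_smul_R NS i (hΓ t ht) (h t ht i)⟩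

/-- the hypothesis `hUniq` of `exists_jac` (JAC-UNIQ), in unfolded form. -/
theorem jacUniqStatement_all {g : ℕ} (NS : NodalNS N g) :
    ∀ P P' : Fin g → Place K F, (∀ i, N.r (P i) = some (NS.Rb i)) →
      (∀ i, N.r (P' i) = some (NS.Rb i)) → ∀ φ : F, φ ≠ 0 →
      (∀ v : Place K F, v.ord φ =
        ∑ i, (Finsupp.single (P i) (1 : ℤ) v - Finsupp.single (P' i) (1 : ℤ) v)) →
      ∀ i, P i = P' i :=
  fun P P' hP hP' _ hφ hdiv => jac_uniq NS P P' hP hP' hφ hdiv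

end Fermat.Agent.PeuD
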