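/-
Row 38, block D (INT), seat D-JAC, sub-leaf JAC-NS, seed form (helper32).

For a seed `N : NodalSeed K F k Fk₁ Fk₂ ι` and a set `Γ` of inertial automorphisms with
(LiftFix) (every function of `L(m D₀) ∩ O₁ ∩ O₂` has the same pair reduction as a `Γ`-fixed
one), the nodal package `N.nodalSetup` has a `NodalNS` whose parameters `t i` and base points
`R i` are fixed by `Γ`; and all the `NodalNS`-hypotheses of `exists_jac` (helper12) hold for it.
-/
import Mathlib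
import Fermat.Agent.Lib.BadRed.Nodal.Deuring2.Main
import Fermat.Agent.Lib.BadRed.PeuD.JacNS

set_option autoImplicit false
set_option linter.style.haveILetI false
set_option linter.unusedSectionVars false

noncomputable section

open AlgebraicCurve Fermat.Agent.RR Fermat.Agent.Deuring Fermat.Agent.BadRed

namespace Fermat.Agent.PeuD

variable {K F k Fk₁ Fk₂ : Type*} [Field K] [Field F] [Algebra K F]
  [Field k] [Field Fk₁] [Algebra k Fk₁] [Field Fk₂] [Algebra k Fk₂] {ι : Type*} [Fintype ι]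

/-- (LiftFix) for a seed: every function of `L(m D₀) ∩ O₁ ∩ O₂` has the same pair reduction as
a `Γ`-fixed one. -/
def SeedLiftFix (N : NodalSeed K F k Fk₁ Fk₂ ι) (Γ : Set (SemilinearAut K F)) : Prop :=
  ∀ (m : ℕ) (f : F), f ∈ riemannRochSpace (m • N.D₀) → f ∈ N.S₁.Ov → f ∈ N.S₂.Ov →
    ∃ g : F, g ∈ riemannRochSpace (m • N.D₀) ∧ g ∈ N.S₁.Ov ∧ g ∈ N.S₂.Ov ∧
      N.S₁.red g = N.S₁.red f ∧ N.S₂.red g = N.S₂.red f ∧ ∀ t ∈ Γ, t • g = g

variable [Infinite k]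

/-- (LIFT) with `Γ`-fixed lifts, for the nodal package of a seed. -/
theorem seed_hasLiftFix (N : NodalSeed K F k Fk₁ Fk₂ ι) {Γ : Set (SemilinearAut K F)}
    (hfix : SeedLiftFix N Γ) : N.nodalSetup.HasLiftFix Γ N.D₀ N.R₁ N.R₂ :=
  hasLiftFix_of_liftFix (N := N.nodalSetup) N.nodalSetup_hasLift hfix

/-- **JAC-NS, seed form**: a `NodalNS` of the nodal package of a seed whose parameters and base
points are fixed by `Γ`. -/
theorem seed_exists_nodalNS_fix [IsAlgClosed k] [Nonempty ι] (N : NodalSeed K F k Fk₁ Fk₂ ι)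
    {Γ : Set (SemilinearAut K F)} (hΓ : ∀ t ∈ Γ, N.nodalSetup.IsInertial t)
    (hfix : SeedLiftFix N Γ) :
    ∃ NS : NodalNS N.nodalSetup (genusFF K F), (∀ t ∈ Γ, ∀ i, t • NS.t i = NS.t i) ∧
      ∀ t ∈ Γ, ∀ i, t • NS.R i = NS.R i :=
  exists_nodalNS_fix_R (N := N.nodalSetup) N.nodalSetup_genusRel Γ hΓ N.D₀ N.R₁ N.R₂
    N.R₁_pos N.R₂_pos N.R₁_node N.R₂_node (seed_hasLiftFix N hfix)

/-- **JAC-NS + JAC-UNIQ + JAC-FIX, seed form**: the package consumed by (JAC): a `NodalNS` with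
`Γ`-fixed base points, for which the Jacobi form is unique and the points of the Jacobi form of
a divisor with `Γ`-invariant class are `Γ`-fixed. -/
theorem seed_exists_nodalNS_jac [IsAlgClosed k] [Nonempty ι] (N : NodalSeed K F k Fk₁ Fk₂ ι)
    {Γ : Set (SemilinearAut K F)} (hΓ : ∀ t ∈ Γ, N.nodalSetup.IsInertial t)
    (hfix : SeedLiftFix N Γ) :
    ∃ NS : NodalNS N.nodalSetup (genusFF K F),
      (∀ t ∈ Γ, ∀ i, t • NS.t i = NS.t i) ∧ (∀ t ∈ Γ, ∀ i, t • NS.R i = NS.R i) ∧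
      (∀ P P' : Fin (genusFF K F) → Place K F, (∀ i, N.nodalSetup.r (P i) = some (NS.Rb i)) →
        (∀ i, N.nodalSetup.r (P' i) = some (NS.Rb i)) → ∀ φ : F, φ ≠ 0 →
        (∀ v : Place K F, v.ord φ =
          ∑ i, (Finsupp.single (P i) (1 : ℤ) v - Finsupp.single (P' i) (1 : ℤ) v)) →
        ∀ i, P i = P' i) ∧
      (∀ t ∈ Γ, ∀ (D : Divisor K F) (P : Fin (genusFF K F) → Place K F),
        (∀ i, N.nodalSetup.r (P i) = some (NS.Rb i)) → ∀ φ ψ : F, φ ≠ 0 → ψ ≠ 0 →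
        (∀ v : Place K F, D v + v.ord φ =
          ∑ i, (Finsupp.single (P i) (1 : ℤ) v - Finsupp.single (NS.R i) (1 : ℤ) v)) →
        (∀ v : Place K F, (t • D) v = D v + v.ord ψ) → ∀ i, t • P i = P i) := by
  obtain ⟨NS, ht, hR⟩ := seed_exists_nodalNS_fix N hΓ hfix
  exact ⟨NS, ht, hR, jacUniqStatement_all NS, fun t htΓ D P hP φ ψ hφ hψ hE hD =>
    jac_fixed NS (hΓ t htΓ) (ht t htΓ) D P hP hφ hψ hE hD⟩

end Fermat.Agent.PeuD
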