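/-
Row 38, block D, seat ETA-LIFT (iii), abstract part (helper75): the LATTICE LIFT.

`F / K` with two compatible constant reductions `S₁`, `S₂` (pair lattice property (PL)), `K` of
rank one.  A "rational structure": a set `K0` of constants and an additive subgroup `V0` of `F`,
stable under the multiplication by `K0`, such that
* `π ^ n ∈ K0` for a constant `π` with `|π| < 1`,
* (res)  every residue class of `A` contains an element of `K0`,
* (sc)   every `f ∈ V0`, `f ≠ 0`, has a norm in `|π| ^ ℤ`: `π ^ n • f ∈ O₁ ∩ O₂` with nonzero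
         pair reduction for some `n : ℤ`,
* (span) the finite-dimensional subspace `W` is spanned by `V0 ∩ W`.
Then every element of the pair reduction `V(W)` is the pair reduction of an element of
`V0 ∩ W ∩ O₁ ∩ O₂` (`latLift`).
-/
import Mathlib
import Fermat.Agent.Lib.BadRed.Nodal.RedSpace2
import Fermat.Agent.Lib.BadRed.Nodal.Deuring2.Seed
import Fermat.Prelude.Def_AlgebraicCurve_BaseChangeGalois

set_option autoImplicit false
set_option linter.unusedSectionVars false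
set_option linter.unusedVariables false
set_option linter.style.haveILetI false

noncomputable section

namespace Fermat.Agent.PeuD

open AlgebraicCurve Fermat.Agent.RR Fermat.Agent.Deuring Fermat.Agent.BadRed

variable {K F k Fk₁ Fk₂ : Type*} [Field K] [Field F] [Algebra K F]
  [Field k] [Field Fk₁] [Algebra k Fk₁] [Field Fk₂] [Algebra k Fk₂]
  {S₁ : ValSetup K F k Fk₁} {S₂ : ValSetup K F k Fk₂}

/-! ### the distance to a subspace is positive -/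

/-- **the bound**: for a finite-dimensional subspace `E` and `g ∉ E` there is a constant `c ≠ 0`
such that no `c • x`, `x ∈ g + E`, is in the maximal ideal of `O₁ ∩ O₂`. -/
theorem latLift_bound (h : PairCompat S₁ S₂) (hL₁ : HasLattice S₁) (hL₂ : HasLattice S₂)
    (E : Submodule K F) [FiniteDimensional K E] {g : F} (hg : g ∉ E) :
    ∃ c : K, c ≠ 0 ∧ ∀ x : F, x - g ∈ E →
      ¬ (c • x ∈ S₁.Ov ∧ c • x ∈ S₂.Ov ∧ pairRed S₁ S₂ (c • x) = 0) := by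
  classical
  set W' : Submodule K F := E ⊔ Submodule.span K {g} with hW'
  haveI : FiniteDimensional K (Submodule.span K ({g} : Set F)) :=
    FiniteDimensional.span_of_finite K (Set.finite_singleton g)
  haveI : FiniteDimensional K W' := by
    rw [hW']
    infer_instance
  have hEW : E < W' := by
    refine lt_of_le_of_ne le_sup_left ?_
    intro heq
    apply hg
    rw [heq]
    exact Submodule.mem_sup_right (Submodule.subset_span rfl)
  have hfin : Module.finrank K E < Module.finrank K W' := Submodule.finrank_lt_finrank_of_lt hEW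
  have h1 := finrank_pairRedSpace h hL₁ hL₂ E
  have h2 := finrank_pairRedSpace h hL₁ hL₂ W'
  haveI : FiniteDimensional k (pairRedSpace S₁ S₂ W') := finiteDimensional_pairRedSpace h hL₁ hL₂ W'
  have hle : pairRedSpace S₁ S₂ E ≤ pairRedSpace S₁ S₂ W' := pairRedSpace_mono hEW.le
  have hne : pairRedSpace S₁ S₂ E ≠ pairRedSpace S₁ S₂ W' := by
    intro heq
    rw [heq, h2] at h1
    omega
  obtain ⟨y, hyW', hyE⟩ := SetLike.exists_of_lt (lt_of_le_of_ne hle hne)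
  obtain ⟨u, huW', hu₁, hu₂, rfl⟩ := (mem_pairRedSpace_iff h W').mp hyW'
  obtain ⟨e₀, he₀, g', hg', rfl⟩ := Submodule.mem_sup.mp huW'
  obtain ⟨c, rfl⟩ := Submodule.mem_span_singleton.mp hg'
  have hc : c ≠ 0 := by
    rintro rfl
    apply hyE
    rw [zero_smul, add_zero] at hu₁ hu₂ ⊢
    exact pairRed_mem_pairRedSpace E he₀ hu₁ hu₂
  refine ⟨c, hc, fun x hx hcon => ?_⟩
  obtain ⟨hx₁, hx₂, hx0⟩ := hcon
  apply hyE
  -- `(e₀ + c • g) - c • x ∈ E`, integral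
  have hd : (e₀ + c • g) - c • x = e₀ - c • (x - g) := by
    rw [smul_sub]
    ring
  have hdE : (e₀ + c • g) - c • x ∈ E := by
    rw [hd]
    exact sub_mem he₀ (E.smul_mem c hx)
  have hd₁ : (e₀ + c • g) - c • x ∈ S₁.Ov := sub_mem hu₁ hx₁
  have hd₂ : (e₀ + c • g) - c • x ∈ S₂.Ov := sub_mem hu₂ hx₂
  have hred : pairRed S₁ S₂ ((e₀ + c • g) - c • x) = pairRed S₁ S₂ (e₀ + c • g) := by
    have e1 : e₀ + c • g = ((e₀ + c • g) - c • x) + c • x := by ring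
    have e2 := pairRed_add (S₁ := S₁) (S₂ := S₂) hd₁ hd₂ hx₁ hx₂
    rw [← e1, hx0, add_zero] at e2
    exact e2.symm
  rw [← hred]
  exact pairRed_mem_pairRedSpace E hdE hd₁ hd₂

/-! ### the rational structure -/

/-- a rational structure for the pair `(S₁, S₂)`: constants `K0`, functions `V0`, uniformiser
`π`. -/
structure LatRat (S₁ : ValSetup K F k Fk₁) (S₂ : ValSetup K F k Fk₂) (K0 : Set K)
    (V0 : AddSubgroup F) (π : K) : Prop where
  smul_mem : ∀ c ∈ K0, ∀ f ∈ V0, c • f ∈ V0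
  zpow_mem : ∀ n : ℤ, π ^ n ∈ K0
  π_mem : π ∈ S₁.A
  π_inv : π⁻¹ ∉ S₁.A
  res : ∀ l : k, ∃ t ∈ K0, ∃ ht : t ∈ S₁.A, S₁.res ⟨t, ht⟩ = l
  sc : ∀ f ∈ V0, f ≠ 0 → ∃ n : ℤ, π ^ n • f ∈ S₁.Ov ∧ π ^ n • f ∈ S₂.Ov ∧
    pairRed S₁ S₂ (π ^ n • f) ≠ 0

namespace LatRat

variable {K0 : Set K} {V0 : AddSubgroup F} {π : K} (R : LatRat S₁ S₂ K0 V0 π)

include R in
theorem π_ne_zero : π ≠ 0 := by
  rintro rfl
  exact R.π_inv (by rw [inv_zero]; exact zero_mem _)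

include R in
theorem res_π : S₁.res ⟨π, R.π_mem⟩ = 0 := by
  obtain ⟨h1, h2⟩ := S₁.res_inv_eq_zero R.π_inv
  have e : (⟨π, R.π_mem⟩ : S₁.A) = ⟨π⁻¹⁻¹, h1⟩ := Subtype.ext (inv_inv π).symm
  rw [e]
  exact h2

include R in
theorem pow_mem (j : ℕ) : π ^ j ∈ S₁.A := _root_.pow_mem R.π_mem j

include R in
/-- `π ^ (j + 1)` times an integral constant has residue `0`. -/
theorem res_pow_succ_mul (j : ℕ) {d : K} (hd : d ∈ S₁.A) :
    ∃ hm : π ^ (j + 1) * d ∈ S₁.A, S₁.res ⟨π ^ (j + 1) * d, hm⟩ = 0 := by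
  have hm : π ^ (j + 1) * d ∈ S₁.A := mul_mem (R.pow_mem (j + 1)) hd
  refine ⟨hm, ?_⟩
  have e : (⟨π ^ (j + 1) * d, hm⟩ : S₁.A) = ⟨π, R.π_mem⟩ * (⟨π ^ j, R.pow_mem j⟩ * ⟨d, hd⟩) := by
    apply Subtype.ext
    show π ^ (j + 1) * d = π * (π ^ j * d)
    ring
  rw [e, map_mul, R.res_π, zero_mul]

include R in
/-- finite `K0`-combinations of elements of `V0` are in `V0`. -/
theorem sum_smul_mem {ι : Type*} (s : Finset ι) (t : ι → K) (e : ι → F) (ht : ∀ i, t i ∈ K0)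
    (he : ∀ i, e i ∈ V0) : ∑ i ∈ s, t i • e i ∈ V0 :=
  V0.sum_mem fun i _ => R.smul_mem _ (ht i) _ (he i)

end LatRat

/-- a constant of residue `0` kills the pair reduction. -/
theorem latLift_pairRed_smul_eq_zero (h : PairCompat S₁ S₂) {c : K} (hc : c ∈ S₁.A)
    (hres : S₁.res ⟨c, hc⟩ = 0) {f : F} (hf₁ : f ∈ S₁.Ov) (hf₂ : f ∈ S₂.Ov) :
    pairRed S₁ S₂ (c • f) = 0 := by
  rw [pairRed_smul h hc hf₁ hf₂, hres, zero_smul]

/-- an integral multiple of a function with pair reduction `0` has pair reduction `0`. -/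
theorem latLift_pairRed_smul_eq_zero' (h : PairCompat S₁ S₂) {c : K} (hc : c ∈ S₁.A)
    {f : F} (hf₁ : f ∈ S₁.Ov) (hf₂ : f ∈ S₂.Ov) (hf0 : pairRed S₁ S₂ f = 0) :
    pairRed S₁ S₂ (c • f) = 0 := by
  rw [pairRed_smul h hc hf₁ hf₂, hf0, smul_zero]

/-! ### the lattice lift -/

section Main

variable {K0 : Set K} {V0 : AddSubgroup F} {π : K}

/-- the orders of the elements of `(g + E) ∩ V0` are bounded. -/
theorem latLift_order_bdd (h : PairCompat S₁ S₂) (R : LatRat S₁ S₂ K0 V0 π)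
    {E : Submodule K F} {g : F} {c : K}
    (hbound : ∀ x : F, x - g ∈ E →
      ¬ (c • x ∈ S₁.Ov ∧ c • x ∈ S₂.Ov ∧ pairRed S₁ S₂ (c • x) = 0))
    {j : ℕ} (hj : π ^ j * c ∈ S₁.A) {n : ℤ} {x : F} (hxE : x - g ∈ E)
    (hx₁ : π ^ n • x ∈ S₁.Ov) (hx₂ : π ^ n • x ∈ S₂.Ov) : -(j : ℤ) ≤ n := by
  by_contra hlt
  push Not at hlt
  obtain ⟨i, hi⟩ : ∃ i : ℕ, -n = (j : ℤ) + 1 + i := ⟨(-n - j - 1).toNat, by omega⟩
  apply hbound x hxE
  obtain ⟨hm, hres⟩ := R.res_pow_succ_mul i hj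
  have hπ0 := R.π_ne_zero
  have e1 : π ^ (i + 1) * π ^ j * π ^ n = 1 := by
    rw [← zpow_natCast, ← zpow_natCast π j, ← zpow_add₀ hπ0, ← zpow_add₀ hπ0]
    have : ((i + 1 : ℕ) : ℤ) + (j : ℤ) + n = 0 := by push_cast; omega
    rw [this, zpow_zero]
  have e2 : c • x = (π ^ (i + 1) * (π ^ j * c)) • (π ^ n • x) := by
    rw [smul_smul]
    have : π ^ (i + 1) * (π ^ j * c) * π ^ n = c * (π ^ (i + 1) * π ^ j * π ^ n) := by ring
    rw [this, e1, mul_one]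
  rw [e2]
  exact ⟨S₁.smul_mem hm hx₁, S₂.smul_mem (h.mem₂ hm) hx₂,
    latLift_pairRed_smul_eq_zero h hm hres hx₁ hx₂⟩

/-- **the lattice lift**: every element of the pair reduction of `W` is the pair reduction of a
rational integral element of `W`. -/
theorem latLift (h : PairCompat S₁ S₂) (hL₁ : HasLattice S₁) (hL₂ : HasLattice S₂)
    (arch : ∀ c : K, c ∈ S₁.A → c⁻¹ ∉ S₁.A → ∀ d : K, ∃ j : ℕ, c ^ j * d ∈ S₁.A)
    (R : LatRat S₁ S₂ K0 V0 π) (W : Submodule K F) [FiniteDimensional K W]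
    (hspan : W ≤ Submodule.span K {f | f ∈ V0 ∧ f ∈ W})
    {y : Fk₁ × Fk₂} (hy : y ∈ pairRedSpace S₁ S₂ W) :
    ∃ z ∈ V0, z ∈ W ∧ z ∈ S₁.Ov ∧ z ∈ S₂.Ov ∧ pairRed S₁ S₂ z = y := by
  classical
  have hπ0 := R.π_ne_zero
  set T : Set (Fk₁ × Fk₂) :=
    {y | ∃ z ∈ V0, z ∈ W ∧ z ∈ S₁.Ov ∧ z ∈ S₂.Ov ∧ pairRed S₁ S₂ z = y} with hT
  have hTV : ∀ y ∈ T, y ∈ pairRedSpace S₁ S₂ W := by
    rintro y ⟨z, -, hzW, hz₁, hz₂, rfl⟩
    exact pairRed_mem_pairRedSpace W hzW hz₁ hz₂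
  obtain ⟨b, hbT, hbspan, hbli⟩ := exists_linearIndependent k T
  haveI : FiniteDimensional k (pairRedSpace S₁ S₂ W) :=
    finiteDimensional_pairRedSpace h hL₁ hL₂ W
  -- `b` is finite
  have hbfin : Finite b := by
    let v : b → pairRedSpace S₁ S₂ W := fun x => ⟨x.1, hTV _ (hbT x.2)⟩
    have hv : LinearIndependent k v := by
      apply LinearIndependent.of_comp (pairRedSpace S₁ S₂ W).subtype
      exact hbli
    exact hv.finite_of_isNoetherian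
  haveI := Fintype.ofFinite b
  -- the lifts
  have hlift : ∀ x : b, ∃ z ∈ V0, z ∈ W ∧ z ∈ S₁.Ov ∧ z ∈ S₂.Ov ∧ pairRed S₁ S₂ z = x.1 :=
    fun x => hbT x.2
  choose e he0 heW he₁ he₂ hered using hlift
  set E : Submodule K F := Submodule.span K (Set.range e) with hE
  haveI : FiniteDimensional K E := FiniteDimensional.span_of_finite K (Set.finite_range e)
  have hEW : E ≤ W := Submodule.span_le.mpr (by rintro _ ⟨x, rfl⟩; exact heW x)
  -- lifting the span of `b`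
  have hL : ∀ y ∈ Submodule.span k (Set.range fun x : b => (x : Fk₁ × Fk₂)),
      ∃ z ∈ V0, z ∈ E ∧ z ∈ S₁.Ov ∧ z ∈ S₂.Ov ∧ pairRed S₁ S₂ z = y := by
    intro y hy
    obtain ⟨l, rfl⟩ := (Submodule.mem_span_range_iff_exists_fun k).mp hy
    have hres : ∀ x : b, ∃ t ∈ K0, ∃ ht : t ∈ S₁.A, S₁.res ⟨t, ht⟩ = l x := fun x => R.res (l x)
    choose t ht0 htA htres using hres
    refine ⟨∑ x, t x • e x, R.sum_smul_mem _ t e ht0 he0, ?_, ?_, ?_, ?_⟩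
    · exact E.sum_mem fun x _ => E.smul_mem _ (Submodule.subset_span ⟨x, rfl⟩)
    · exact Fermat.Agent.GaussInt.sum_smul_mem_Ov S₁ _ t e htA he₁
    · exact Fermat.Agent.GaussInt.sum_smul_mem_Ov S₂ _ t e (fun x => h.mem₂ (htA x)) he₂
    · rw [pairRed_sum_smul h _ t e htA he₁ he₂]
      refine Finset.sum_congr rfl fun x _ => ?_
      rw [htres x, hered x]
  have hTspan : ∀ y ∈ T, y ∈ Submodule.span k (Set.range fun x : b => (x : Fk₁ × Fk₂)) := by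
    intro y hy
    rw [Subtype.range_coe, hbspan]
    exact Submodule.subset_span hy
  -- the key claim
  have hclaim : ∀ g ∈ V0, g ∈ W → g ∈ E := by
    intro g hg0 hgW
    by_contra hgE
    obtain ⟨c, hc, hbound⟩ := latLift_bound h hL₁ hL₂ E hgE
    obtain ⟨j, hj⟩ := arch π R.π_mem R.π_inv c
    have hgne : g ≠ 0 := by
      rintro rfl
      exact hgE (zero_mem _)
    let P : ℤ → Prop := fun n => ∃ x ∈ V0, x - g ∈ E ∧ π ^ n • x ∈ S₁.Ov ∧ π ^ n • x ∈ S₂.Ov ∧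
      pairRed S₁ S₂ (π ^ n • x) ≠ 0
    have hbdd : ∃ b₀ : ℤ, ∀ n, P n → b₀ ≤ n := by
      refine ⟨-(j : ℤ), ?_⟩
      rintro n ⟨x, -, hxE, hx₁, hx₂, -⟩
      exact latLift_order_bdd h R hbound hj hxE hx₁ hx₂
    have hP : ∃ n, P n := by
      obtain ⟨n, h1, h2, h3⟩ := R.sc g hg0 hgne
      exact ⟨n, g, hg0, by rw [sub_self]; exact zero_mem _, h1, h2, h3⟩
    obtain ⟨n, ⟨x, hx0, hxE, hx₁, hx₂, hxred⟩, hmin⟩ := Int.exists_least_of_bdd hbdd hP
    have hxW : x ∈ W := by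
      have := W.add_mem (hEW hxE) hgW
      rwa [sub_add_cancel] at this
    have hg'0 : π ^ n • x ∈ V0 := R.smul_mem _ (R.zpow_mem n) _ hx0
    have hg'T : pairRed S₁ S₂ (π ^ n • x) ∈ T :=
      ⟨π ^ n • x, hg'0, W.smul_mem _ hxW, hx₁, hx₂, rfl⟩
    obtain ⟨e', he'0, he'E, he'₁, he'₂, he'red⟩ := hL _ (hTspan _ hg'T)
    have hx'0 : x - π ^ (-n) • e' ∈ V0 :=
      V0.sub_mem hx0 (R.smul_mem _ (R.zpow_mem _) _ he'0)
    have hx'E : (x - π ^ (-n) • e') - g ∈ E := by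
      have : (x - π ^ (-n) • e') - g = (x - g) - π ^ (-n) • e' := by ring
      rw [this]
      exact E.sub_mem hxE (E.smul_mem _ he'E)
    have hx'ne : x - π ^ (-n) • e' ≠ 0 := by
      intro h0
      apply hgE
      rw [h0, zero_sub] at hx'E
      have := E.neg_mem hx'E
      rwa [neg_neg] at this
    obtain ⟨n', h1, h2, h3⟩ := R.sc _ hx'0 hx'ne
    have hn' : n ≤ n' := hmin n' ⟨_, hx'0, hx'E, h1, h2, h3⟩
    obtain ⟨i, hi⟩ : ∃ i : ℕ, n' = n + i := ⟨(n' - n).toNat, by omega⟩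
    have hg'' : π ^ n' • (x - π ^ (-n) • e') = π ^ i • (π ^ n • x - e') := by
      rw [hi, smul_sub, smul_sub, smul_smul, smul_smul, zpow_add₀ hπ0, zpow_natCast,
        zpow_neg, mul_comm (π ^ n) (π ^ i), mul_assoc, mul_inv_cancel₀ (zpow_ne_zero n hπ0),
        mul_one]
    apply h3
    rw [hg'']
    have hd₁ : π ^ n • x - e' ∈ S₁.Ov := sub_mem hx₁ he'₁
    have hd₂ : π ^ n • x - e' ∈ S₂.Ov := sub_mem hx₂ he'₂
    apply latLift_pairRed_smul_eq_zero' h (R.pow_mem i) hd₁ hd₂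
    have hadd := pairRed_add (S₁ := S₁) (S₂ := S₂) hd₁ hd₂ he'₁ he'₂
    rw [sub_add_cancel, he'red] at hadd
    exact right_eq_add.mp hadd
  -- dimension count
  have hWE : W ≤ E := hspan.trans (Submodule.span_le.mpr fun f hf => hclaim f hf.1 hf.2)
  have hd1 : Module.finrank K W ≤ Fintype.card b := by
    calc Module.finrank K W ≤ Module.finrank K E := Submodule.finrank_mono hWE
      _ ≤ Fintype.card b := finrank_range_le_card e
  have hd2 : Module.finrank k (Submodule.span k (Set.range fun x : b => (x : Fk₁ × Fk₂))) =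
      Fintype.card b := finrank_span_eq_card hbli
  have hle : Submodule.span k (Set.range fun x : b => (x : Fk₁ × Fk₂)) ≤ pairRedSpace S₁ S₂ W :=
    Submodule.span_le.mpr (by rintro _ ⟨x, rfl⟩; exact hTV _ (hbT x.2))
  have heq : Submodule.span k (Set.range fun x : b => (x : Fk₁ × Fk₂)) = pairRedSpace S₁ S₂ W := by
    apply Submodule.eq_of_le_of_finrank_le hle
    rw [hd2, finrank_pairRedSpace h hL₁ hL₂ W]
    exact hd1
  rw [← heq] at hy
  obtain ⟨z, hz0, hzE, hz₁, hz₂, hzred⟩ := hL y hy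
  exact ⟨z, hz0, hEW hzE, hz₁, hz₂, hzred⟩

end Main

/-! ### the pair scale from the two one-sided scales -/

/-- if `f / π ^ n₁` is a unit of `O₁` and `f / π ^ n₂` a unit of `O₂`, then `f` has a pair norm
in `|π| ^ ℤ`. -/
theorem latLift_sc_of_scale (h : PairCompat S₁ S₂) {π : K} (hπ : π ∈ S₁.A) (hπ0 : π ≠ 0)
    {f : F} (hf : f ≠ 0) {n₁ n₂ : ℤ}
    (h₁ : f * (algebraMap K F (π ^ n₁))⁻¹ ∈ S₁.Ov)
    (h₁' : (f * (algebraMap K F (π ^ n₁))⁻¹)⁻¹ ∈ S₁.Ov)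
    (h₂ : f * (algebraMap K F (π ^ n₂))⁻¹ ∈ S₂.Ov)
    (h₂' : (f * (algebraMap K F (π ^ n₂))⁻¹)⁻¹ ∈ S₂.Ov) :
    ∃ n : ℤ, π ^ n • f ∈ S₁.Ov ∧ π ^ n • f ∈ S₂.Ov ∧ pairRed S₁ S₂ (π ^ n • f) ≠ 0 := by
  have key : ∀ m : ℤ, f * (algebraMap K F (π ^ m))⁻¹ = π ^ (-m) • f := by
    intro m
    rw [Algebra.smul_def, zpow_neg, map_inv₀, mul_comm]
  rw [key] at h₁ h₁' h₂ h₂'
  rcases le_total n₁ n₂ with hle | hle
  · refine ⟨-n₁, h₁, ?_, ?_⟩
    · obtain ⟨i, hi⟩ : ∃ i : ℕ, n₂ - n₁ = i := ⟨(n₂ - n₁).toNat, by omega⟩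
      have e : π ^ (-n₁) • f = π ^ i • (π ^ (-n₂) • f) := by
        rw [smul_smul, ← zpow_natCast, ← zpow_add₀ hπ0]
        congr 2
        omega
      rw [e]
      exact S₂.smul_mem (h.mem₂ (pow_mem hπ i)) h₂
    · intro h0
      have h0' : S₁.red (π ^ (-n₁) • f) = 0 := congrArg Prod.fst h0
      exact S₁.red_ne_zero h₁ h₁' (smul_ne_zero (zpow_ne_zero _ hπ0) hf) h0'
  · refine ⟨-n₂, ?_, h₂, ?_⟩
    · obtain ⟨i, hi⟩ : ∃ i : ℕ, n₁ - n₂ = i := ⟨(n₁ - n₂).toNat, by omega⟩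
      have e : π ^ (-n₂) • f = π ^ i • (π ^ (-n₁) • f) := by
        rw [smul_smul, ← zpow_natCast, ← zpow_add₀ hπ0]
        congr 2
        omega
      rw [e]
      exact S₁.smul_mem (pow_mem hπ i) h₁
    · intro h0
      have h0' : S₂.red (π ^ (-n₂) • f) = 0 := congrArg Prod.snd h0
      exact S₂.red_ne_zero h₂ h₂' (smul_ne_zero (zpow_ne_zero _ hπ0) hf) h0'

/-- **(DIV)**: a function of norm `|π| ^ n`, integral with reduction `0`, is divisible by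
`π` in the valuation ring. -/
theorem latLift_div_mem {k' Fk : Type*} [Field k'] [Field Fk] [Algebra k' Fk]
    (S : ValSetup K F k' Fk) {π : K} (hπ : π ∈ S.A) (hπ0 : π ≠ 0) {f : F} {n : ℤ}
    (h₁ : f * (algebraMap K F (π ^ n))⁻¹ ∈ S.Ov)
    (h₁' : (f * (algebraMap K F (π ^ n))⁻¹)⁻¹ ∈ S.Ov) (hf : f ∈ S.Ov) (hred : S.red f = 0) :
    f / algebraMap K F π ∈ S.Ov := by
  by_cases hf0 : f = 0
  · rw [hf0, zero_div]
    exact zero_mem _
  have hπF : algebraMap K F π ≠ 0 := (_root_.map_ne_zero _).mpr hπ0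
  have hπn : ∀ m : ℤ, algebraMap K F (π ^ m) ≠ 0 := fun m =>
    (_root_.map_ne_zero _).mpr (zpow_ne_zero m hπ0)
  have hn : 1 ≤ n := by
    by_contra hlt
    push Not at hlt
    obtain ⟨i, hi⟩ : ∃ i : ℕ, -n = i := ⟨(-n).toNat, by omega⟩
    have hinv : f⁻¹ ∈ S.Ov := by
      have e : f⁻¹ = (f * (algebraMap K F (π ^ n))⁻¹)⁻¹ * algebraMap K F (π ^ i) := by
        have : π ^ i = (π ^ n)⁻¹ := by
          rw [← zpow_natCast, ← hi, zpow_neg]
        rw [this, map_inv₀, mul_inv, inv_inv]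
        field_simp
      rw [e]
      exact mul_mem h₁' (S.algebraMap_mem (pow_mem hπ i))
    exact S.red_ne_zero hf hinv hf0 hred
  obtain ⟨i, hi⟩ : ∃ i : ℕ, n - 1 = i := ⟨(n - 1).toNat, by omega⟩
  have e : f / algebraMap K F π = f * (algebraMap K F (π ^ n))⁻¹ * algebraMap K F (π ^ i) := by
    have : π ^ n = π ^ i * π := by
      rw [← zpow_natCast, ← hi, ← zpow_add_one₀ hπ0]
      congr 1
      omega
    rw [this, map_mul, map_pow]
    field_simp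
  rw [e]
  exact mul_mem h₁ (S.algebraMap_mem (pow_mem hπ i))

/-! ### the fixed functions -/

/-- the functions fixed by a set of semilinear automorphisms. -/
def latFix (Γ : Set (SemilinearAut K F)) : AddSubgroup F where
  carrier := {f | ∀ t ∈ Γ, t • f = f}
  zero_mem' := fun t _ => smul_zero t
  add_mem' := fun {a b} ha hb t ht => by rw [smul_add, ha t ht, hb t ht]
  neg_mem' := fun {a} ha t ht => by rw [smul_neg, ha t ht]

theorem mem_latFix {Γ : Set (SemilinearAut K F)} {f : F} :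
    f ∈ latFix Γ ↔ ∀ t ∈ Γ, t • f = f := Iff.rfl

/-- the rational structure of the fixed functions. -/
theorem latRat_of_fix (h : PairCompat S₁ S₂) (Γ : Set (SemilinearAut K F)) {π : K}
    (hπfix : ∀ t ∈ Γ, SemilinearAut.baseAut t π = π) (hπ : π ∈ S₁.A) (hπinv : π⁻¹ ∉ S₁.A)
    (hres : ∀ l : k, ∃ c : K, (∀ t ∈ Γ, SemilinearAut.baseAut t c = c) ∧
      ∃ hc : c ∈ S₁.A, S₁.res ⟨c, hc⟩ = l)
    (hsc₁ : ∀ f : F, f ≠ 0 → (∀ t ∈ Γ, t • f = f) → ∃ n : ℤ,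
      f * (algebraMap K F (π ^ n))⁻¹ ∈ S₁.Ov ∧ (f * (algebraMap K F (π ^ n))⁻¹)⁻¹ ∈ S₁.Ov)
    (hsc₂ : ∀ f : F, f ≠ 0 → (∀ t ∈ Γ, t • f = f) → ∃ n : ℤ,
      f * (algebraMap K F (π ^ n))⁻¹ ∈ S₂.Ov ∧ (f * (algebraMap K F (π ^ n))⁻¹)⁻¹ ∈ S₂.Ov) :
    LatRat S₁ S₂ {c | ∀ t ∈ Γ, SemilinearAut.baseAut t c = c} (latFix Γ) π where
  smul_mem := fun c hc f hf t ht => by
    rw [Algebra.smul_def, smul_mul', SemilinearAut.smul_algebraMap, hc t ht, hf t ht]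
  zpow_mem := fun n t ht => by
    rw [map_zpow₀, hπfix t ht]
  π_mem := hπ
  π_inv := hπinv
  res := fun l => by
    obtain ⟨c, hc, hcA, hcl⟩ := hres l
    exact ⟨c, hc, hcA, hcl⟩
  sc := fun f hf hf0 => by
    have hπ0 : π ≠ 0 := by
      rintro rfl
      exact hπinv (by rw [inv_zero]; exact zero_mem _)
    obtain ⟨n₁, h₁, h₁'⟩ := hsc₁ f hf0 hf
    obtain ⟨n₂, h₂, h₂'⟩ := hsc₂ f hf0 hf
    exact latLift_sc_of_scale h hπ hπ0 hf0 h₁ h₁' h₂ h₂'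

/-! ### (LIFT-FIX) for a nodal seed -/

variable {ι : Type*} [Fintype ι]

/-- **(LIFT-FIX)**, abstract form: every function of `𝔏(m D₀) = L(m D₀) ∩ O₁ ∩ O₂` has the same
two reductions as a rational function of `𝔏(m D₀)`. -/
theorem liftFix_of_latRat (N : NodalSeed K F k Fk₁ Fk₂ ι) {K0 : Set K} {V0 : AddSubgroup F}
    {π : K} (R : LatRat N.S₁ N.S₂ K0 V0 π) {m : ℕ}
    (hspan : riemannRochSpace (m • N.D₀) ≤
      Submodule.span K {f | f ∈ V0 ∧ f ∈ riemannRochSpace (m • N.D₀)})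
    {f : F} (hf : N.toNodalCore.IsInt (m • N.D₀) f) :
    ∃ g ∈ V0, N.toNodalCore.IsInt (m • N.D₀) g ∧ N.S₁.red g = N.S₁.red f ∧
      N.S₂.red g = N.S₂.red f := by
  haveI : FiniteDimensional K (riemannRochSpace (m • N.D₀)) :=
    finite_riemannRochSpace N.S₁.hF _
  have hy : pairRed N.S₁ N.S₂ f ∈ pairRedSpace N.S₁ N.S₂ (riemannRochSpace (m • N.D₀)) :=
    pairRed_mem_pairRedSpace _ hf.1 hf.2.1 hf.2.2
  obtain ⟨z, hz0, hzW, hz₁, hz₂, hzred⟩ := latLift N.toNodalCore.compat N.lat₁ N.lat₂ N.arch R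
    (riemannRochSpace (m • N.D₀)) hspan hy
  exact ⟨z, hz0, ⟨hzW, hz₁, hz₂⟩, congrArg Prod.fst hzred, congrArg Prod.snd hzred⟩

/-- **(LIFT-FIX)** for the functions fixed by `Γ`. -/
theorem liftFix_of_fix (N : NodalSeed K F k Fk₁ Fk₂ ι) (Γ : Set (SemilinearAut K F)) {π : K}
    (hπfix : ∀ t ∈ Γ, SemilinearAut.baseAut t π = π) (hπ : π ∈ N.S₁.A) (hπinv : π⁻¹ ∉ N.S₁.A)
    (hres : ∀ l : k, ∃ c : K, (∀ t ∈ Γ, SemilinearAut.baseAut t c = c) ∧
      ∃ hc : c ∈ N.S₁.A, N.S₁.res ⟨c, hc⟩ = l)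
    (hsc₁ : ∀ f : F, f ≠ 0 → (∀ t ∈ Γ, t • f = f) → ∃ n : ℤ,
      f * (algebraMap K F (π ^ n))⁻¹ ∈ N.S₁.Ov ∧ (f * (algebraMap K F (π ^ n))⁻¹)⁻¹ ∈ N.S₁.Ov)
    (hsc₂ : ∀ f : F, f ≠ 0 → (∀ t ∈ Γ, t • f = f) → ∃ n : ℤ,
      f * (algebraMap K F (π ^ n))⁻¹ ∈ N.S₂.Ov ∧ (f * (algebraMap K F (π ^ n))⁻¹)⁻¹ ∈ N.S₂.Ov)
    {m : ℕ}
    (hspan : riemannRochSpace (m • N.D₀) ≤
      Submodule.span K {f | f ∈ riemannRochSpace (m • N.D₀) ∧ ∀ t ∈ Γ, t • f = f})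
    {f : F} (hf : N.toNodalCore.IsInt (m • N.D₀) f) :
    ∃ g : F, N.toNodalCore.IsInt (m • N.D₀) g ∧ (∀ t ∈ Γ, t • g = g) ∧
      N.S₁.red g = N.S₁.red f ∧ N.S₂.red g = N.S₂.red f := by
  have R := latRat_of_fix N.toNodalCore.compat Γ hπfix hπ hπinv hres hsc₁ hsc₂
  have hspan' : riemannRochSpace (m • N.D₀) ≤
      Submodule.span K {f | f ∈ latFix Γ ∧ f ∈ riemannRochSpace (m • N.D₀)} := by
    refine hspan.trans (Submodule.span_mono ?_)
    rintro g ⟨hg1, hg2⟩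
    exact ⟨hg2, hg1⟩
  obtain ⟨g, hg0, hgint, h1, h2⟩ := liftFix_of_latRat N R hspan' hf
  exact ⟨g, hgint, hg0, h1, h2⟩

end Fermat.Agent.PeuD
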