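/-
Row 38, block D (INT), seat ETA-LIFT, leaf (L3) `LiftDisc` (helper64; helper75's note).

On the modular nodal package `M : ModularNodal D A` (`A | D.Q`): a nonzero function fixed by
the inertia group at `A` is, for both Gauss valuations, an INTEGRAL power of `D.Q` times a unit:
`∃ n : ℤ, f / (D.Q) ^ n` is a unit of `O_j`.

Proof: (G1) (`gau_scale₁/₂`, `GaussMod.lean`, `Γ` = inertia) gives an inertia-fixed constant `c`
with `f / c` a unit of `O_j`; (VI) (`EKp.valI_unit`): `c = (D.Q) ^ n · (unit of A)`.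
-/
import Mathlib
import Fermat.Agent.Lib.BadRed.PeuD.GaussMod
import Fermat.Agent.E.Desc.Kp.ValI

set_option autoImplicit false
set_option linter.unusedSectionVars false
set_option linter.unusedVariables false
set_option maxHeartbeats 1000000
set_option synthInstance.maxHeartbeats 400000

noncomputable section

namespace Fermat.Agent.PeuD

open ModularCurve AlgebraicCurve HahnSeries Fermat.Agent.GaussInt Fermat.Agent.BadRed
  Fermat.Agent.AtkinLehner Fermat.Agent.Deuring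

local notation "Qb" => AlgebraicClosure ℚ
local notation "GQb" => (AlgebraicClosure ℚ ≃ₐ[ℚ] AlgebraicClosure ℚ)

section Abstract

variable {K F k Fk : Type*} [Field K] [Field F] [Algebra K F]
  [Field k] [Field Fk] [Algebra k Fk]

/-- change of the scaling constant by a unit of `A`. -/
theorem liftDisc_of_unit (S : ValSetup K F k Fk) {c d : K} {f : F} (hc : c ≠ 0)
    (h1 : f * (algebraMap K F c)⁻¹ ∈ S.Ov) (h2 : (f * (algebraMap K F c)⁻¹)⁻¹ ∈ S.Ov)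
    (hu : c / d ∈ S.A) (hu' : (c / d)⁻¹ ∈ S.A) :
    f * (algebraMap K F d)⁻¹ ∈ S.Ov ∧ (f * (algebraMap K F d)⁻¹)⁻¹ ∈ S.Ov := by
  have hc' : algebraMap K F c ≠ 0 := (map_ne_zero _).mpr hc
  have e1 : f * (algebraMap K F d)⁻¹ = f * (algebraMap K F c)⁻¹ * algebraMap K F (c / d) := by
    rw [map_div₀, div_eq_mul_inv, mul_assoc, ← mul_assoc (algebraMap K F c)⁻¹,
      inv_mul_cancel₀ hc', one_mul]
  have e2 : (f * (algebraMap K F d)⁻¹)⁻¹ =
      (f * (algebraMap K F c)⁻¹)⁻¹ * algebraMap K F (c / d)⁻¹ := by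
    rw [e1, mul_inv, map_inv₀]
  refine ⟨?_, ?_⟩
  · rw [e1]
    exact mul_mem h1 (S.algebraMap_mem hu)
  · rw [e2]
    exact mul_mem h2 (S.algebraMap_mem hu')

end Abstract

variable {D : ALData} {A : ValuationSubring Qb} (M : ModularNodal D A)

/-- **(L3)**, first valuation: an inertia-fixed `f ≠ 0` is `(D.Q) ^ n` times a unit of `O₁`. -/
theorem liftDisc₁ (hQ : D.Q.Prime) (hA : A.LiesOverPrime D.Q)
    {f : modularFunctionFieldBar (D.Q * D.R)} (hf0 : f ≠ 0)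
    (hfix : ∀ τ ∈ A.inertiaSubgroupIn ℚ,
      arithmeticGalois (modularFunctionFieldFull (D.Q * D.R)) τ • f = f) :
    ∃ n : ℤ,
      f * (algebraMap Qb (modularFunctionFieldBar (D.Q * D.R)) ((D.Q : Qb) ^ n))⁻¹ ∈ M.N.S₁.Ov ∧
      (f * (algebraMap Qb (modularFunctionFieldBar (D.Q * D.R)) ((D.Q : Qb) ^ n))⁻¹)⁻¹ ∈
        M.N.S₁.Ov := by
  obtain ⟨c, hc0, hcfix, h1, h2, -⟩ :=
    gau_scale₁ M hQ hA (A.inertiaSubgroupIn ℚ : Set GQb) hf0 hfix
  obtain ⟨n, hu, hu'⟩ := Fermat.Agent.EKp.valI_unit D.Q hQ A hA c hc0 hcfix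
  refine ⟨n, liftDisc_of_unit M.N.S₁ hc0 h1 h2 ?_ ?_⟩
  · rw [M.A_eq]; exact hu
  · rw [M.A_eq]; exact hu'

/-- **(L3)**, second valuation: an inertia-fixed `f ≠ 0` is `(D.Q) ^ n` times a unit of `O₂`. -/
theorem liftDisc₂ (hQ : D.Q.Prime) (hA : A.LiesOverPrime D.Q)
    {f : modularFunctionFieldBar (D.Q * D.R)} (hf0 : f ≠ 0)
    (hfix : ∀ τ ∈ A.inertiaSubgroupIn ℚ,
      arithmeticGalois (modularFunctionFieldFull (D.Q * D.R)) τ • f = f) :
    ∃ n : ℤ,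
      f * (algebraMap Qb (modularFunctionFieldBar (D.Q * D.R)) ((D.Q : Qb) ^ n))⁻¹ ∈ M.N.S₂.Ov ∧
      (f * (algebraMap Qb (modularFunctionFieldBar (D.Q * D.R)) ((D.Q : Qb) ^ n))⁻¹)⁻¹ ∈
        M.N.S₂.Ov := by
  obtain ⟨c, hc0, hcfix, h1, h2, -⟩ :=
    gau_scale₂ M hQ hA (A.inertiaSubgroupIn ℚ : Set GQb) hf0 hfix
  obtain ⟨n, hu, hu'⟩ := Fermat.Agent.EKp.valI_unit D.Q hQ A hA c hc0 hcfix
  have hA2 : M.N.S₂.A = A := by rw [← M.N.A_eq, M.A_eq]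
  refine ⟨n, liftDisc_of_unit M.N.S₂ hc0 h1 h2 ?_ ?_⟩
  · rw [hA2]; exact hu
  · rw [hA2]; exact hu'

/-- the two exponents of `liftDisc₁`, `liftDisc₂` for the same function, together. -/
theorem liftDisc_pair (hQ : D.Q.Prime) (hA : A.LiesOverPrime D.Q)
    {f : modularFunctionFieldBar (D.Q * D.R)} (hf0 : f ≠ 0)
    (hfix : ∀ τ ∈ A.inertiaSubgroupIn ℚ,
      arithmeticGalois (modularFunctionFieldFull (D.Q * D.R)) τ • f = f) :
    (∃ n : ℤ,
      f * (algebraMap Qb (modularFunctionFieldBar (D.Q * D.R)) ((D.Q : Qb) ^ n))⁻¹ ∈ M.N.S₁.Ov ∧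
      (f * (algebraMap Qb (modularFunctionFieldBar (D.Q * D.R)) ((D.Q : Qb) ^ n))⁻¹)⁻¹ ∈
        M.N.S₁.Ov) ∧
    (∃ n : ℤ,
      f * (algebraMap Qb (modularFunctionFieldBar (D.Q * D.R)) ((D.Q : Qb) ^ n))⁻¹ ∈ M.N.S₂.Ov ∧
      (f * (algebraMap Qb (modularFunctionFieldBar (D.Q * D.R)) ((D.Q : Qb) ^ n))⁻¹)⁻¹ ∈
        M.N.S₂.Ov) :=
  ⟨liftDisc₁ M hQ hA hf0 hfix, liftDisc₂ M hQ hA hf0 hfix⟩

end Fermat.Agent.PeuD
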