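/-
Row 38, block D (INT), wiring seat W-U (helper19; sub-architect helper62): the `u`-data of the
MODULAR nodal seed `kpSeed D A ..` (level `q R`, `q = D.Q` prime, `u = Δ(z) / Δ(qz) = fwU D`,
`ϖ = q ^ 12 = fwPi D`) in the exact shape of the hypotheses of `slope_loc` (helper32),
`CoordData` (helper72) and the K-p package:

* `wu_S₁`, `wu_S₂`, `wu_s₁`, `wu_s₂`  : the components of the seed (all `rfl`);
* `wu_annulus`       : `AnnulusData (kpSeed ..) u ϖ`;
* `wu_pi_ne`         : `ϖ ≠ 0`;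
* `wu_red₁_ne`       : `red₁ u ≠ 0`;
* `wu_red₂_ne`       : `red₂ (ϖ u⁻¹) ≠ 0`;
* `wu_eps₁`, `wu_eps₂` : `ord_{s₁ i} red₁ u = ord_{s₂ i} red₂ (ϖ u⁻¹) = kpEps i`;
* `wu_noDiv`         : `u` has neither zero nor pole at the places of type N;
* `wu_inertial`, `wu_fix_u` : the inertia group `kpΓ D A` is inertial for the seed and fixes `u`;
* `wu_val_pi`        : `v (ϖ) = v (q) ^ 12`;
* `wu_sum_eps`       : AUX-EQ in the shape of `CoordData.sum_eps` (`4 ∣ R` or `9 ∣ R`);
* `wu_slope_loc`     : `slope_loc` for the modular seed, with the `u`-hypotheses discharged.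
-/
import Mathlib
import Fermat.Agent.E.Desc.Kp.ModFinal
import Fermat.Agent.E.Desc.Kp.ModAnnFix
import Fermat.Agent.Lib.BadRed.PeuD.SlopeLoc
import Fermat.Agent.Lib.BadRed.PeuD.AuxCount

set_option autoImplicit false
set_option linter.style.haveILetI false
set_option linter.unusedSectionVars false
set_option synthInstance.maxHeartbeats 400000

noncomputable section

namespace Fermat.Agent.PeuD

open IntermediateField ModularCurve AlgebraicCurve Fermat.Agent.F3 Fermat.Agent.F3G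
  Fermat.Agent.GaussInt Fermat.Agent.AtkinLehner Fermat.Agent.Deuring Fermat.Agent.RR
  Fermat.Agent.BadRed Fermat.Agent.EKp

local notation "Qb" => AlgebraicClosure ℚ

attribute [local instance] Fermat.Agent.BadRed.fwFintype

variable (D : ALData) [NeZero D.Q] [NeZero D.R] [NeZero (D.Q * D.R)]
  (A : ValuationSubring Qb) (hq : D.Q.Prime) (hA : A.LiesOverPrime D.Q) (hqR : ¬ D.Q ∣ D.R)
  [Fact D.Q.Prime] [CharP (IsLocalRing.ResidueField A) D.Q]
  [PerfectRing (IsLocalRing.ResidueField A) D.Q]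

/-! ### the components of the seed -/

theorem wu_S₁ (haux : AuxLevelOK D.Q D.R) :
    (kpSeed D A hq hA hqR haux).S₁ = kpS D A hq hA hqR := rfl

theorem wu_S₂ (haux : AuxLevelOK D.Q D.R) :
    (kpSeed D A hq hA hqR haux).S₂ = valSetupZero D (kpS D A hq hA hqR) := rfl

theorem wu_s₁ (haux : AuxLevelOK D.Q D.R) (i : kpIota D A hq hA hqR) :
    (kpSeed D A hq hA hqR haux).s₁ i = i.1 := rfl

theorem wu_s₂ (haux : AuxLevelOK D.Q D.R) (i : kpIota D A hq hA hqR) :
    (kpSeed D A hq hA hqR haux).s₂ i =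
      (frobAut (IsLocalRing.ResidueField A) D.R D.Q)⁻¹ • i.1 := rfl

theorem wu_A (haux : AuxLevelOK D.Q D.R) : (kpSeed D A hq hA hqR haux).S₁.A = A :=
  (isGaussSetup_gaussSetupBad D hq hqR A hA).A_eq

/-! ### the annulus data -/

/-- **the annulus data of the modular seed.** -/
theorem wu_annulus (haux : AuxLevelOK D.Q D.R) :
    AnnulusData (kpSeed D A hq hA hqR haux) (fwU D) (fwPi D) := by
  haveI := infinite_residue A
  haveI : FiniteDimensional Qb⟮fwU D⟯ (modularFunctionFieldBar (D.Q * D.R)) :=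
    finiteDimensional_uF hq (Dvd.intro _ rfl)
  haveI : FiniteDimensional (IsLocalRing.ResidueField A)⟮(kpS D A hq hA hqR).red (fwU D)⟯
      (modularFunctionFieldFullC (IsLocalRing.ResidueField A) D.R) :=
    fw_finiteDimensional_red D A hq hA _ (isGaussSetup_gaussSetupBad D hq hqR A hA)
  haveI : FiniteDimensional (IsLocalRing.ResidueField A)⟮(valSetupZero D (kpS D A hq hA hqR)).red
        (algebraMap Qb (modularFunctionFieldBar (D.Q * D.R)) (fwPi D) / fwU D)⟯
      (modularFunctionFieldFullC (IsLocalRing.ResidueField A) D.R) := by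
    rw [fw_red_pi_div]
    exact fw_finiteDimensional_red D A hq hA _ (isGaussSetup_gaussSetupBad D hq hqR A hA)
  unfold kpSeed fwSeed
  exact annulusData_seedOfU _ _ _ _ _ _ _ _ _ _ _ _ _ _ _ _ _ _

include hq in
theorem wu_pi_ne : fwPi D ≠ 0 := fw_pi_ne_zero D hq

theorem wu_red₁_ne (haux : AuxLevelOK D.Q D.R) :
    (kpSeed D A hq hA hqR haux).S₁.red (fwU D) ≠ 0 :=
  (wu_annulus D A hq hA hqR haux).red₁_ne

theorem wu_mul_inv :
    algebraMap Qb (modularFunctionFieldBar (D.Q * D.R)) (fwPi D) * (fwU D)⁻¹ =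
      algebraMap Qb (modularFunctionFieldBar (D.Q * D.R)) (fwPi D) / fwU D :=
  (div_eq_mul_inv _ _).symm

theorem wu_red₂_eq (haux : AuxLevelOK D.Q D.R) :
    (kpSeed D A hq hA hqR haux).S₂.red
        (algebraMap Qb (modularFunctionFieldBar (D.Q * D.R)) (fwPi D) * (fwU D)⁻¹) =
      (kpS D A hq hA hqR).red (fwU D) := by
  rw [wu_mul_inv]
  exact fw_red_pi_div D A (kpS D A hq hA hqR)

theorem wu_red₂_ne (haux : AuxLevelOK D.Q D.R) :
    (kpSeed D A hq hA hqR haux).S₂.red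
        (algebraMap Qb (modularFunctionFieldBar (D.Q * D.R)) (fwPi D) * (fwU D)⁻¹) ≠ 0 := by
  rw [wu_red₂_eq]
  exact wu_red₁_ne D A hq hA hqR haux

/-! ### the multiplicities -/

/-- `ord_{s₁ i} red₁ u = ε_i`. -/
theorem wu_eps₁ (haux : AuxLevelOK D.Q D.R) (i : kpIota D A hq hA hqR) :
    ((kpSeed D A hq hA hqR haux).s₁ i).ord ((kpSeed D A hq hA hqR haux).S₁.red (fwU D)) =
      (kpEps D A hq hA hqR i : ℤ) :=
  (kpEps_cast D A hq hA hqR i).symm

/-- `ord_{s₂ i} red₂ (ϖ / u) = ε_i`. -/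
theorem wu_eps₂ (haux : AuxLevelOK D.Q D.R) (i : kpIota D A hq hA hqR) :
    ((kpSeed D A hq hA hqR haux).s₂ i).ord
        ((kpSeed D A hq hA hqR haux).S₂.red
          (algebraMap Qb (modularFunctionFieldBar (D.Q * D.R)) (fwPi D) * (fwU D)⁻¹)) =
      (kpEps D A hq hA hqR i : ℤ) := by
  rw [wu_red₂_eq, wu_s₂,
    ord_frobAut_inv_smul_of_coe_ssFun _ _ _ D.Q
      (fw_coe_red_uF D A hq hA (kpS D A hq hA hqR) (isGaussSetup_gaussSetupBad D hq hqR A hA))]
  exact (kpEps_cast D A hq hA hqR i).symm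

/-- `u` has neither zero nor pole at the places of type N. -/
theorem wu_ord_N (haux : AuxLevelOK D.Q D.R)
    (P : Place Qb (modularFunctionFieldBar (D.Q * D.R)))
    (hP : (kpSeed D A hq hA hqR haux).rmap P = none) : P.ord (fwU D) = 0 :=
  (wu_annulus D A hq hA hqR haux).ord_N P hP

theorem wu_noDiv (haux : AuxLevelOK D.Q D.R) (i : kpIota D A hq hA hqR) :
    NoDivAtNode (kpSeed D A hq hA hqR haux) i (fwU D) :=
  fun P hP => wu_ord_N D A hq hA hqR haux P hP.1

/-! ### inertia -/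

theorem wu_inertial (haux : AuxLevelOK D.Q D.R) :
    haveI := Fermat.Agent.GaussInt.infinite_residue A
    ∀ t ∈ kpΓ D A, (kpSeed D A hq hA hqR haux).nodalSetup.IsInertial t :=
  kpΓ_isInertial D A hq hA hqR haux

theorem wu_fix_u : ∀ t ∈ kpΓ D A, t • fwU D = fwU D := by
  rintro _ ⟨τ, -, rfl⟩
  exact arithmeticGalois_smul_uF (D.Q * D.R) D.Q (Dvd.intro _ rfl) τ

/-- `v (ϖ) = v (q) ^ 12`. -/
theorem wu_val_pi (haux : AuxLevelOK D.Q D.R) :
    (kpSeed D A hq hA hqR haux).S₁.A.valuation (fwPi D) =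
      (kpSeed D A hq hA hqR haux).S₁.A.valuation (D.Q : Qb) ^ 12 := by
  rw [← map_pow]

/-- AUX-EQ in the shape of `CoordData.sum_eps` (`e = 12`). -/
theorem wu_sum_eps (haux : AuxLevelOK D.Q D.R) (h4 : 4 ∣ D.R ∨ 9 ∣ D.R) :
    ∑ i : kpIota D A hq hA hqR, ((kpSeed D A hq hA hqR haux).s₁ i).ord
        ((kpSeed D A hq hA hqR haux).S₁.red (fwU D)) =
      ((12 : ℕ) : ℤ) * Fintype.card (kpIota D A hq hA hqR) := by
  have h := auxEq_int D A hq hA hqR haux h4
  rw [Nat.cast_ofNat]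
  exact h

/-! ### `slope_loc` for the modular seed -/

/-- **SLOPE-loc for the modular seed**: the `u`-hypotheses are discharged. -/
theorem wu_slope_loc (haux : AuxLevelOK D.Q D.R) (i : kpIota D A hq hA hqR)
    {θ : modularFunctionFieldBar (D.Q * D.R)}
    (hθ : NoDivAtNode (kpSeed D A hq hA hqR haux) i θ) {c₁ c₂ : Qb}
    (h₁ : (kpSeed D A hq hA hqR haux).S₁.red
      (θ / algebraMap Qb (modularFunctionFieldBar (D.Q * D.R)) c₁) ≠ 0)
    (h₂ : (kpSeed D A hq hA hqR haux).S₂.red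
      (θ / algebraMap Qb (modularFunctionFieldBar (D.Q * D.R)) c₂) ≠ 0)
    (hR1 : ∃ (b : ℕ) (a : ℤ), 0 < b ∧
      (kpSeed D A hq hA hqR haux).S₁.A.valuation ((c₂ / c₁) ^ b) =
        (kpSeed D A hq hA hqR haux).S₁.A.valuation (fwPi D ^ a)) :
    ((kpSeed D A hq hA hqR haux).s₂ i).ord ((kpSeed D A hq hA hqR haux).S₂.red
        (θ / algebraMap Qb (modularFunctionFieldBar (D.Q * D.R)) c₂)) =
        -((kpSeed D A hq hA hqR haux).s₁ i).ord ((kpSeed D A hq hA hqR haux).S₁.red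
          (θ / algebraMap Qb (modularFunctionFieldBar (D.Q * D.R)) c₁)) ∧
      (kpSeed D A hq hA hqR haux).S₁.A.valuation (c₂ / c₁) ^ (kpEps D A hq hA hqR i) =
        (kpSeed D A hq hA hqR haux).S₁.A.valuation (fwPi D) ^
          ((kpSeed D A hq hA hqR haux).s₁ i).ord ((kpSeed D A hq hA hqR haux).S₁.red
            (θ / algebraMap Qb (modularFunctionFieldBar (D.Q * D.R)) c₁)) := by
  haveI := infinite_residue A
  exact slope_loc (wu_pi_ne D hq) (wu_red₁_ne D A hq hA hqR haux)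
    (wu_red₂_ne D A hq hA hqR haux) (wu_eps₁ D A hq hA hqR haux i)
    (wu_eps₂ D A hq hA hqR haux i) (wu_noDiv D A hq hA hqR haux i) hθ h₁ h₂ hR1

end Fermat.Agent.PeuD
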