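/-
Row 38, block D (INT), seat ETA-LIFT, leaf `z_pole` (helper64).

For a nodal seed `N`: the places of node type are not in the support of the seed divisor `D₀`
(the places of `supp D₀` reduce to the poles of `R₁`, `R₂`, which avoid the nodes).  Hence a
function of `L(m • D₀)` has no pole at a place of node type.
-/
import Mathlib
import Fermat.Agent.Lib.BadRed.Nodal.Deuring2.TypeB

set_option autoImplicit false
set_option linter.unusedSectionVars false
set_option linter.unusedVariables false

noncomputable section

open AlgebraicCurve Fermat.Agent.RR Fermat.Agent.Deuring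

namespace Fermat.Agent.BadRed

variable {K F k Fk₁ Fk₂ : Type*} [Field K] [Field F] [Algebra K F]
  [Field k] [Field Fk₁] [Algebra k Fk₁] [Field Fk₂] [Algebra k Fk₂]
  {ι : Type*} [Fintype ι] {N : NodalSeed K F k Fk₁ Fk₂ ι}

/-- a place of node type at the level `m` is not in the support of `D₀`. -/
theorem NodalSeed.IsNodeType.D₀_eq_zero {m : ℕ} {P : Place K F} (h : N.IsNodeType m P) :
    N.D₀ P = 0 := by
  classical
  by_contra hne
  have h0 : 0 ≤ N.D₀ P := by
    have := N.D₀_nonneg
    rw [Finsupp.le_def] at this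
    simpa using this P
  have h1 : 1 ≤ N.D₀ P := by omega
  obtain ⟨f, hf, hf1, hf2, hf3⟩ := h
  have hle : m • N.D₀ + Finsupp.single P 1 ≤ (m + 1) • N.D₀ := by
    rw [add_smul, one_smul]
    refine add_le_add_right ?_ _
    rw [Finsupp.le_def]
    intro Q
    rw [Finsupp.single_apply]
    split_ifs with hPQ
    · rw [← hPQ]; exact h1
    · have := N.D₀_nonneg
      rw [Finsupp.le_def] at this
      simpa using this Q
  have hmem := N.seed (m + 1) f (riemannRochSpace_mono hle hf.1) hf.2.1 hf.2.2
  exact hf3 ⟨hf1, hf2, hmem.2.2⟩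

/-- a place with `rmap P = none` is not in the support of `D₀`. -/
theorem NodalSeed.D₀_eq_zero_of_rmap_none [Infinite k] {P : Place K F} (hP : N.rmap P = none) :
    N.D₀ P = 0 :=
  (NodalSeed.rmap_eq_none_iff.mp hP).D₀_eq_zero

/-- **`z_pole`**: a function of `L(m • D₀)` has no pole at a place of node type. -/
theorem NodalSeed.ord_nonneg_of_rmap_none [Infinite k] (N : NodalSeed K F k Fk₁ Fk₂ ι) {m : ℕ}
    {f : F} (hf : f ∈ riemannRochSpace (m • N.D₀)) {P : Place K F} (hP : N.rmap P = none) :
    0 ≤ P.ord f := by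
  rcases (mem_riemannRochSpace_iff.mp hf) P with h | h
  · rw [h, Place.ord_zero]
  · have h0 := NodalSeed.D₀_eq_zero_of_rmap_none hP
    have h1 : (m • N.D₀) P = 0 := by
      rw [Finsupp.smul_apply, h0, smul_zero]
    rw [h1, neg_zero] at h
    exact h

/-- the same at a level `m'`, for a place of node type at the level `m`. -/
theorem NodalSeed.IsNodeType.ord_nonneg {m m' : ℕ} {P : Place K F} (h : N.IsNodeType m P)
    {f : F} (hf : f ∈ riemannRochSpace (m' • N.D₀)) : 0 ≤ P.ord f := by
  rcases (mem_riemannRochSpace_iff.mp hf) P with h' | h'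
  · rw [h', Place.ord_zero]
  · have h1 : (m' • N.D₀) P = 0 := by
      rw [Finsupp.smul_apply, h.D₀_eq_zero, smul_zero]
    rw [h1, neg_zero] at h'
    exact h'

end Fermat.Agent.BadRed
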