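/-
Row 38, block D (INT), seat COORD-MOD (helper72; sub-architect helper62): the coordinate
theorem (ETA-GC, `Coord.lean`) at the MODULAR nodal seed `kpSeed D A ..` of an auxiliary level
`q R` with `4 ∣ R` or `9 ∣ R` (`u = fwU D`, `ϖ = fwPi D = q ^ 12`, `p0 = q`, `e = 12`).

* `CoordData.int_eta`  : (abstract) **(ETA)** in the exact shape of the hypothesis `hη` of
                         `int_abs_wild` / `int_abs_tame` (`Int.lean`), with `m = 1`: for a set `H`
                         of inertial automorphisms fixing `z` and the divisor `D`;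
* `CoordModZ`          : the statement on the coordinate `z` which the lift (ETA-LIFT) delivers;
* `coordMod_data`      : `CoordData (kpSeed ..) (fwU D) (fwPi D) q 12 z` from the four facts on `z`
                         (`wu_annulus`, `wu_val_pi`, `wu_sum_eps` of `ModU.lean`);
* `coordMod_eps`       : every node of the auxiliary level has thickness `ε_i = 12`;
* `CoordData.ord_red₂`, `coordMod_ord_red₂` : `red₂ (z / q)` has a SIMPLE POLE at every node;
* `coordMod_eta`       : **(ETA)** at the modular seed, for `H ⊆ kpΓ D A` (inertia), in the shape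
                         of `int_abs_wild` / `int_abs_tame`;
* `coordMod_eta_of_z`  : the same from `CoordModZ`;
* `exists_coordZ_of_liftFix` : (abstract) the coordinate `z` from (LiftFix) (`SeedLiftFix N Γ`),
                         Riemann-Roch on `C₁` (`liftPhi_exists_lift`), (DIV) (`latLift_div_mem`)
                         and `z_pole` (`NodalSeed.ord_nonneg_of_rmap_none`);
* `coordMod_exists_z`  : `∃ z, CoordModZ .. z` from `SeedLiftFix (kpSeed ..) (kpΓ D A)`;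
* `coordMod_eta_of_liftFix` : **(ETA)** at the modular seed from (LiftFix) alone.
-/
import Mathlib
import Fermat.Agent.Lib.BadRed.PeuD.ModU
import Fermat.Agent.Lib.BadRed.PeuD.Coord
import Fermat.Agent.Lib.BadRed.PeuD.LiftPhi
import Fermat.Agent.Lib.BadRed.PeuD.LatLift
import Fermat.Agent.Lib.BadRed.PeuD.LiftDisc
import Fermat.Agent.Lib.BadRed.PeuD.ZPole
import Fermat.Agent.Lib.BadRed.PeuD.JacNSSeed

set_option autoImplicit false
set_option linter.style.haveILetI false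
set_option linter.unusedSectionVars false
set_option linter.unusedVariables false
set_option synthInstance.maxHeartbeats 400000

noncomputable section

namespace Fermat.Agent.PeuD

open IntermediateField ModularCurve AlgebraicCurve Fermat.Agent.F3 Fermat.Agent.F3G
  Fermat.Agent.GaussInt Fermat.Agent.AtkinLehner Fermat.Agent.Deuring Fermat.Agent.RR
  Fermat.Agent.BadRed Fermat.Agent.EKp

/-! ### abstract: (ETA) in the shape of `int_abs_wild` / `int_abs_tame` -/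

section Abs

variable {K F k Fk₁ Fk₂ : Type*} [Field K] [Field F] [Algebra K F]
  [Field k] [Field Fk₁] [Algebra k Fk₁] [Field Fk₂] [Algebra k Fk₂] {ι : Type*} [Fintype ι]
  {N : NodalSeed K F k Fk₁ Fk₂ ι} {u : F} {ϖ p0 : K} {e : ℕ} {z : F}
  [Nonempty ι] [Infinite k]

/-- `p ∤ 1` for `p ≠ 1`. -/
theorem coordMod_not_dvd_one {p : ℕ} (hp : p ≠ 1) : ¬ (p : ℤ) ∣ ((1 : ℕ) : ℤ) := by
  intro h
  exact hp (Nat.dvd_one.mp (Int.natCast_dvd_natCast.mp h))

/-- **(ETA)**, in the shape of the hypothesis `hη` of `int_abs_wild` / `int_abs_tame`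
(with `m = 1`): `H` a set of inertial automorphisms fixing `z` and `D`. -/
theorem CoordData.int_eta (h : CoordData N u ϖ p0 e z) {p : ℕ} (hp : p ≠ 1)
    (H : Set (SemilinearAut K F)) (hH : ∀ t ∈ H, N.nodalSetup.IsInertial t)
    (hzH : ∀ t ∈ H, t • z = z) (D : Divisor K F) (hD : ∀ t ∈ H, t • D = D) (i : ι) :
    ∃ (m : ℕ) (η : F), ¬ (p : ℤ) ∣ (m : ℤ) ∧ η ≠ 0 ∧ (∀ t ∈ H, t • η = η) ∧
      ∀ P : Place K F, IsNodeOf N P i → P.ord η = m * D P := by
  obtain ⟨η, hη0, hηD, hηH⟩ := h.exists_eta D i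
  refine ⟨1, η, coordMod_not_dvd_one hp, hη0,
    fun t ht => hηH t (hH t ht) (hzH t ht) (hD t ht), fun P hP => ?_⟩
  rw [hηD P hP, Nat.cast_one, one_mul]

/-- the second reduction of `z / p0` has a SIMPLE POLE at the node `i` (if the two multiplicities
of `u` at the node agree). -/
theorem CoordData.ord_red₂ (h : CoordData N u ϖ p0 e z) (i : ι)
    (hε₂ : (N.s₂ i).ord (N.S₂.red (algebraMap K F ϖ / u)) = (N.s₁ i).ord (N.S₁.red u)) :
    (N.s₂ i).ord (N.S₂.red (z / algebraMap K F p0)) = -1 := by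
  obtain ⟨d, hd0, hd⟩ := h.H_node i
  have h0 : (N.s₂ i).ord (N.S₂.red (z ^ e * u⁻¹)) = 0 := Gluing.ord_eq_zero_of_valAt hd.2 hd0
  have hcA : p0 ^ e * ϖ⁻¹ ∈ N.S₂.A := N.toNodalCore.mem_A₂ h.unit_mem.1
  have hred : N.S₂.red (z ^ e * u⁻¹) = N.S₂.red (z / algebraMap K F p0) ^ e *
      algebraMap k Fk₂ (N.S₂.res ⟨p0 ^ e * ϖ⁻¹, hcA⟩) * N.S₂.red (algebraMap K F ϖ / u) := by
    rw [h.H_eq, N.S₂.red_mul (mul_mem (pow_mem h.z_mem₂ e) (N.S₂.algebraMap_mem hcA))
      (N.S₂.mem_of_red_ne_zero h.ann.red₂_ne),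
      N.S₂.red_mul (pow_mem h.z_mem₂ e) (N.S₂.algebraMap_mem hcA),
      N.S₂.red_pow h.z_mem₂, N.S₂.red_algebraMap hcA]
  have hne := h.H_red₂_ne
  rw [hred] at hne h0
  have hx : N.S₂.red (z / algebraMap K F p0) ^ e ≠ 0 := pow_ne_zero e h.red₂_ne
  have hc : algebraMap k Fk₂ (N.S₂.res ⟨p0 ^ e * ϖ⁻¹, hcA⟩) ≠ 0 := by
    intro hc0
    apply hne
    rw [hc0, mul_zero, zero_mul]
  rw [(N.s₂ i).ord_mul (mul_ne_zero hx hc) h.ann.red₂_ne, (N.s₂ i).ord_mul hx hc,
    Gluing.ord_pow_nat, Fermat.Agent.S24Res.ord_algebraMap, hε₂, h.eps_eq i] at h0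
  have he : (0 : ℤ) < e := by exact_mod_cast h.e_pos
  have h1 : (e : ℤ) * ((N.s₂ i).ord (N.S₂.red (z / algebraMap K F p0)) + 1) = 0 := by
    linarith
  rcases mul_eq_zero.mp h1 with h2 | h2
  · omega
  · linarith

/-- **the coordinate** from (LiftFix): a `Γ`-fixed `z ∈ O₁` without pole of type N, with
`z / π ∈ O₂`, whose first reduction has a SIMPLE zero at every node. -/
theorem exists_coordZ_of_liftFix (N : NodalSeed K F k Fk₁ Fk₂ ι) (Γ : Set (SemilinearAut K F))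
    (hfix : SeedLiftFix N Γ) {π : K} (hπ : π ∈ N.S₂.A) (hπ0 : π ≠ 0)
    (hsc₂ : ∀ f : F, f ≠ 0 → (∀ t ∈ Γ, t • f = f) → ∃ n : ℤ,
      f * (algebraMap K F (π ^ n))⁻¹ ∈ N.S₂.Ov ∧ (f * (algebraMap K F (π ^ n))⁻¹)⁻¹ ∈ N.S₂.Ov) :
    ∃ z : F, z ∈ N.S₁.Ov ∧ z / algebraMap K F π ∈ N.S₂.Ov ∧
      (∀ P : Place K F, N.rmap P = none → 0 ≤ P.ord z) ∧
      (∀ i, (N.s₁ i).ord (N.S₁.red z) = 1) ∧ ∀ t ∈ Γ, t • z = z := by
  obtain ⟨f, hfL, hf1, hf2, hne, -, hnode, hred2⟩ := liftPhi_exists_lift N (le_refl N.m₀)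
  obtain ⟨g, hgL, hg1, hg2, e1, e2, hgΓ⟩ := hfix N.m₀ f hfL hf1 hf2
  have hg0 : g ≠ 0 := N.S₁.ne_zero_of_red_ne_zero (by rw [e1]; exact hne)
  obtain ⟨n, hn, hn'⟩ := hsc₂ g hg0 hgΓ
  refine ⟨g, hg1, latLift_div_mem N.S₂ hπ hπ0 hn hn' hg2 (e2.trans hred2),
    fun P hP => N.ord_nonneg_of_rmap_none hgL hP, fun i => ?_, hgΓ⟩
  rw [e1]
  exact hnode i

end Abs

/-! ### the modular seed -/

section Mod

local notation "Qb" => AlgebraicClosure ℚ

attribute [local instance] Fermat.Agent.BadRed.fwFintype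

variable (D : ALData) [NeZero D.Q] [NeZero D.R] [NeZero (D.Q * D.R)]
  (A : ValuationSubring Qb) (hq : D.Q.Prime) (hA : A.LiesOverPrime D.Q) (hqR : ¬ D.Q ∣ D.R)
  [Fact D.Q.Prime] [CharP (IsLocalRing.ResidueField A) D.Q]
  [PerfectRing (IsLocalRing.ResidueField A) D.Q]

/-- the facts on the coordinate `z` (what ETA-LIFT delivers): `z ∈ O₁`, `z / q ∈ O₂`, no pole
of type N, `red₁ z` has a simple zero at every node, and `z` is fixed by inertia. -/
structure CoordModZ (haux : AuxLevelOK D.Q D.R) (z : modularFunctionFieldBar (D.Q * D.R)) :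
    Prop where
  mem₁ : z ∈ (kpSeed D A hq hA hqR haux).S₁.Ov
  mem₂ : z / algebraMap Qb (modularFunctionFieldBar (D.Q * D.R)) (D.Q : Qb) ∈
    (kpSeed D A hq hA hqR haux).S₂.Ov
  pole : ∀ P : Place Qb (modularFunctionFieldBar (D.Q * D.R)),
    (kpSeed D A hq hA hqR haux).rmap P = none → 0 ≤ P.ord z
  node : ∀ i : kpIota D A hq hA hqR,
    ((kpSeed D A hq hA hqR haux).s₁ i).ord ((kpSeed D A hq hA hqR haux).S₁.red z) = 1
  fix : ∀ t ∈ kpΓ D A, t • z = z

/-- **COORD-MOD**: the coordinate data of the modular seed at an auxiliary level. -/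
theorem coordMod_data (haux : AuxLevelOK D.Q D.R) (h4 : 4 ∣ D.R ∨ 9 ∣ D.R)
    {z : modularFunctionFieldBar (D.Q * D.R)}
    (hz₁ : z ∈ (kpSeed D A hq hA hqR haux).S₁.Ov)
    (hz₂ : z / algebraMap Qb (modularFunctionFieldBar (D.Q * D.R)) (D.Q : Qb) ∈
      (kpSeed D A hq hA hqR haux).S₂.Ov)
    (hzp : ∀ P : Place Qb (modularFunctionFieldBar (D.Q * D.R)),
      (kpSeed D A hq hA hqR haux).rmap P = none → 0 ≤ P.ord z)
    (hzn : ∀ i : kpIota D A hq hA hqR,
      ((kpSeed D A hq hA hqR haux).s₁ i).ord ((kpSeed D A hq hA hqR haux).S₁.red z) = 1) :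
    CoordData (kpSeed D A hq hA hqR haux) (fwU D) (fwPi D) (D.Q : Qb) 12 z :=
  ⟨wu_annulus D A hq hA hqR haux, by norm_num, wu_val_pi D A hq hA hqR haux,
    wu_sum_eps D A hq hA hqR haux h4, hz₁, hz₂, hzp, hzn⟩

theorem CoordModZ.data {haux : AuxLevelOK D.Q D.R} {z : modularFunctionFieldBar (D.Q * D.R)}
    (hz : CoordModZ D A hq hA hqR haux z) (h4 : 4 ∣ D.R ∨ 9 ∣ D.R) :
    CoordData (kpSeed D A hq hA hqR haux) (fwU D) (fwPi D) (D.Q : Qb) 12 z :=
  coordMod_data D A hq hA hqR haux h4 hz.mem₁ hz.mem₂ hz.pole hz.node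

/-- at an auxiliary level (`4 ∣ R` or `9 ∣ R`) every node has thickness `12`, as soon as a
coordinate exists. -/
theorem coordMod_eps (haux : AuxLevelOK D.Q D.R) (h4 : 4 ∣ D.R ∨ 9 ∣ D.R)
    {z : modularFunctionFieldBar (D.Q * D.R)}
    (hz : CoordData (kpSeed D A hq hA hqR haux) (fwU D) (fwPi D) (D.Q : Qb) 12 z)
    (i : kpIota D A hq hA hqR) : kpEps D A hq hA hqR i = 12 := by
  haveI := infinite_residue A
  haveI := fw_nonempty D A hq hA (kpS D A hq hA hqR) (isGaussSetup_gaussSetupBad D hq hqR A hA)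
  have h1 := hz.eps_eq i
  rw [wu_eps₁ D A hq hA hqR haux i] at h1
  exact_mod_cast h1

/-- at an auxiliary level the second reduction of `z / q` has a SIMPLE POLE at every node. -/
theorem coordMod_ord_red₂ (haux : AuxLevelOK D.Q D.R)
    {z : modularFunctionFieldBar (D.Q * D.R)}
    (hz : CoordData (kpSeed D A hq hA hqR haux) (fwU D) (fwPi D) (D.Q : Qb) 12 z)
    (i : kpIota D A hq hA hqR) :
    ((kpSeed D A hq hA hqR haux).s₂ i).ord ((kpSeed D A hq hA hqR haux).S₂.red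
      (z / algebraMap Qb (modularFunctionFieldBar (D.Q * D.R)) (D.Q : Qb))) = -1 := by
  haveI := infinite_residue A
  haveI := fw_nonempty D A hq hA (kpS D A hq hA hqR) (isGaussSetup_gaussSetupBad D hq hqR A hA)
  refine hz.ord_red₂ i ?_
  rw [← wu_mul_inv D, wu_eps₂ D A hq hA hqR haux i, wu_eps₁ D A hq hA hqR haux i]

/-- **(ETA) at the modular seed**, in the shape of the hypothesis `hη` of `int_abs_wild` /
`int_abs_tame`: `H` a set of automorphisms coming from inertia and fixing `z`, `Dv` an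
`H`-stable divisor. -/
theorem coordMod_eta (haux : AuxLevelOK D.Q D.R)
    {z : modularFunctionFieldBar (D.Q * D.R)}
    (hz : CoordData (kpSeed D A hq hA hqR haux) (fwU D) (fwPi D) (D.Q : Qb) 12 z)
    {p : ℕ} (hp : p ≠ 1)
    (H : Set (SemilinearAut Qb (modularFunctionFieldBar (D.Q * D.R))))
    (hH : ∀ t ∈ H, t ∈ kpΓ D A) (hzH : ∀ t ∈ H, t • z = z)
    (Dv : Divisor Qb (modularFunctionFieldBar (D.Q * D.R))) (hDv : ∀ t ∈ H, t • Dv = Dv)
    (i : kpIota D A hq hA hqR) :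
    ∃ (m : ℕ) (η : modularFunctionFieldBar (D.Q * D.R)), ¬ (p : ℤ) ∣ (m : ℤ) ∧ η ≠ 0 ∧
      (∀ t ∈ H, t • η = η) ∧
      ∀ P : Place Qb (modularFunctionFieldBar (D.Q * D.R)),
        IsNodeOf (kpSeed D A hq hA hqR haux) P i → P.ord η = m * Dv P := by
  haveI := infinite_residue A
  haveI := fw_nonempty D A hq hA (kpS D A hq hA hqR) (isGaussSetup_gaussSetupBad D hq hqR A hA)
  exact hz.int_eta hp H (fun t ht => wu_inertial D A hq hA hqR haux t (hH t ht)) hzH Dv hDv i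

/-- **(ETA) at the modular seed** from the facts on `z`. -/
theorem coordMod_eta_of_z (haux : AuxLevelOK D.Q D.R) (h4 : 4 ∣ D.R ∨ 9 ∣ D.R)
    {z : modularFunctionFieldBar (D.Q * D.R)} (hz : CoordModZ D A hq hA hqR haux z)
    {p : ℕ} (hp : p ≠ 1)
    (H : Set (SemilinearAut Qb (modularFunctionFieldBar (D.Q * D.R))))
    (hH : ∀ t ∈ H, t ∈ kpΓ D A)
    (Dv : Divisor Qb (modularFunctionFieldBar (D.Q * D.R))) (hDv : ∀ t ∈ H, t • Dv = Dv)
    (i : kpIota D A hq hA hqR) :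
    ∃ (m : ℕ) (η : modularFunctionFieldBar (D.Q * D.R)), ¬ (p : ℤ) ∣ (m : ℤ) ∧ η ≠ 0 ∧
      (∀ t ∈ H, t • η = η) ∧
      ∀ P : Place Qb (modularFunctionFieldBar (D.Q * D.R)),
        IsNodeOf (kpSeed D A hq hA hqR haux) P i → P.ord η = m * Dv P :=
  coordMod_eta D A hq hA hqR haux (hz.data D A hq hA hqR h4) hp H hH
    (fun t ht => hz.fix t (hH t ht)) Dv hDv i

/-- **the coordinate of the modular seed** from (LiftFix) for the inertia group. -/
theorem coordMod_exists_z (haux : AuxLevelOK D.Q D.R)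
    (hfix : SeedLiftFix (kpSeed D A hq hA hqR haux) (kpΓ D A)) :
    ∃ z : modularFunctionFieldBar (D.Q * D.R), CoordModZ D A hq hA hqR haux z := by
  haveI := infinite_residue A
  haveI := fw_nonempty D A hq hA (kpS D A hq hA hqR) (isGaussSetup_gaussSetupBad D hq hqR A hA)
  have hS := isGaussSetup_gaussSetupBad D hq hqR A hA
  have hA2 : (kpSeed D A hq hA hqR haux).S₂.A = A := by
    rw [← (kpSeed D A hq hA hqR haux).A_eq]
    exact wu_A D A hq hA hqR haux
  have hπ : ((D.Q : ℕ) : Qb) ∈ (kpSeed D A hq hA hqR haux).S₂.A := by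
    rw [hA2]
    exact natCast_mem A D.Q
  have hπ0 : ((D.Q : ℕ) : Qb) ≠ 0 := Nat.cast_ne_zero.mpr hq.ne_zero
  obtain ⟨z, h1, h2, h3, h4, h5⟩ := exists_coordZ_of_liftFix (kpSeed D A hq hA hqR haux)
    (kpΓ D A) hfix hπ hπ0 (fun f hf0 hfΓ =>
      liftDisc₂ (fwModularNodal D A hq hA hqR (kpS D A hq hA hqR) hS
        (hasLattice_gaussSetupBad D hq hqR A hA) haux
        (fw_sep D A hq hA hqR _ hS haux)) hq hA hf0
        (fun τ hτ => hfΓ _ ⟨τ, hτ, rfl⟩))
  exact ⟨z, h1, h2, h3, h4, h5⟩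

/-- **(ETA) at the modular seed** from (LiftFix) for the inertia group. -/
theorem coordMod_eta_of_liftFix (haux : AuxLevelOK D.Q D.R) (h4 : 4 ∣ D.R ∨ 9 ∣ D.R)
    (hfix : SeedLiftFix (kpSeed D A hq hA hqR haux) (kpΓ D A))
    {p : ℕ} (hp : p ≠ 1)
    (H : Set (SemilinearAut Qb (modularFunctionFieldBar (D.Q * D.R))))
    (hH : ∀ t ∈ H, t ∈ kpΓ D A)
    (Dv : Divisor Qb (modularFunctionFieldBar (D.Q * D.R))) (hDv : ∀ t ∈ H, t • Dv = Dv)
    (i : kpIota D A hq hA hqR) :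
    ∃ (m : ℕ) (η : modularFunctionFieldBar (D.Q * D.R)), ¬ (p : ℤ) ∣ (m : ℤ) ∧ η ≠ 0 ∧
      (∀ t ∈ H, t • η = η) ∧
      ∀ P : Place Qb (modularFunctionFieldBar (D.Q * D.R)),
        IsNodeOf (kpSeed D A hq hA hqR haux) P i → P.ord η = m * Dv P := by
  obtain ⟨z, hz⟩ := coordMod_exists_z D A hq hA hqR haux hfix
  exact coordMod_eta_of_z D A hq hA hqR haux h4 hz hp H hH Dv hDv i

end Mod

end Fermat.Agent.PeuD
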