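/-
Row 38, block D (INT), (ETA) / GC, leaf GTC (helper32): the **global twisted count**.

`EKp.count_none` asks for a common unit `ψ` of `O₁` and `O₂`.  Here `ψ / c₁ ∈ O₁ˣ` and
`ψ / c₂ ∈ O₂ˣ` with two constants:

  `Σ_{P of type N} ord_P ψ = Σ_i (ord_{s₁ i} red₁ (ψ / c₁) + ord_{s₂ i} red₂ (ψ / c₂))`.

* `count_tw`       : for any nodal package;
* `count_tw_seed`  : for the nodal package of a seed;
* `count_tw_sum`   : the left hand side as a sum over a finite set of places of type N.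
-/
import Mathlib
import Fermat.Agent.E.Desc.Kp.Eval

set_option autoImplicit false
set_option linter.unusedSectionVars false
set_option linter.unusedVariables false

noncomputable section

open AlgebraicCurve Fermat.Agent.RR Fermat.Agent.Deuring Fermat.Agent.BadRed Fermat.Agent.EKp

namespace Fermat.Agent.PeuD

variable {K F k Fk₁ Fk₂ : Type*} [Field K] [Field F] [Algebra K F]
  [Field k] [Field Fk₁] [Algebra k Fk₁] [Field Fk₂] [Algebra k Fk₂] {ι : Type*} [Fintype ι]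

/-- the divisor of `ψ / c`, `c` a nonzero constant. -/
theorem countTw_divOf_div (h : IsRRField K F) {ψ : F} {c : K} (hψ : ψ ≠ 0) (hc : c ≠ 0) :
    divOf h (ψ / algebraMap K F c) = divOf h ψ := by
  have hcF : algebraMap K F c ≠ 0 := by
    rwa [Ne, map_eq_zero_iff _ (algebraMap K F).injective]
  ext P
  rw [divOf_apply, divOf_apply, div_eq_mul_inv, P.ord_mul hψ (inv_ne_zero hcF), P.ord_inv,
    Fermat.Agent.S24Res.ord_algebraMap, neg_zero, add_zero]

/-- **GTC**, for any nodal package. -/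
theorem count_tw (N : NodalSetup K F k Fk₁ Fk₂ ι) {ψ : F} {c₁ c₂ : K}
    (h₁ : N.S₁.red (ψ / algebraMap K F c₁) ≠ 0) (h₂ : N.S₂.red (ψ / algebraMap K F c₂) ≠ 0) :
    Finsupp.mapDomain N.r (divOf N.S₁.hF ψ) none =
      ∑ i, ((N.s₁ i).ord (N.S₁.red (ψ / algebraMap K F c₁)) +
        (N.s₂ i).ord (N.S₂.red (ψ / algebraMap K F c₂))) := by
  have hG1ne : ψ / algebraMap K F c₁ ≠ 0 := N.S₁.ne_zero_of_red_ne_zero h₁
  have hG2ne : ψ / algebraMap K F c₂ ≠ 0 := N.S₂.ne_zero_of_red_ne_zero h₂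
  have hψ0 : ψ ≠ 0 := fun h => hG1ne (by rw [h, zero_div])
  have hc1 : c₁ ≠ 0 := fun h => hG1ne (by rw [h, map_zero, div_zero])
  have hc2 : c₂ ≠ 0 := fun h => hG2ne (by rw [h, map_zero, div_zero])
  have hdeg := Gluing.degree_eq_redDiv N (divOf N.S₁.hF ψ)
  rw [degree_divOf] at hdeg
  have e1 := degree_eq_neg_sum_nodes N.S₁.hFk N.s₁ N.s₁_inj
    (Gluing.redDiv₁ N (divOf N.S₁.hF ψ)) (N.S₁.red (ψ / algebraMap K F c₁))
    (fun i => Gluing.redDiv₁_node N _ i)
    (fun Q hQ => by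
      rw [Gluing.redDiv₁_apply, ← countTw_divOf_div N.S₁.hF hψ0 hc1]
      exact N.push₁ _ (N.S₁.mem_of_red_ne_zero h₁) (N.S₁.inv_mem_of_red_ne_zero h₁) hG1ne Q hQ)
  have e2 := degree_eq_neg_sum_nodes N.S₂.hFk N.s₂ N.s₂_inj
    (Gluing.redDiv₂ N (divOf N.S₁.hF ψ)) (N.S₂.red (ψ / algebraMap K F c₂))
    (fun i => Gluing.redDiv₂_node N _ i)
    (fun Q hQ => by
      rw [Gluing.redDiv₂_apply, ← countTw_divOf_div N.S₁.hF hψ0 hc2]
      exact N.push₂ _ (N.S₂.mem_of_red_ne_zero h₂) (N.S₂.inv_mem_of_red_ne_zero h₂) hG2ne Q hQ)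
  rw [e1, e2] at hdeg
  rw [Finset.sum_add_distrib]
  linarith

/-- **GTC** for the nodal package of a seed. -/
theorem count_tw_seed [Infinite k] (N : NodalSeed K F k Fk₁ Fk₂ ι) {ψ : F} {c₁ c₂ : K}
    (h₁ : N.S₁.red (ψ / algebraMap K F c₁) ≠ 0) (h₂ : N.S₂.red (ψ / algebraMap K F c₂) ≠ 0) :
    Finsupp.mapDomain N.rmap (divOf N.S₁.hF ψ) none =
      ∑ i, ((N.s₁ i).ord (N.S₁.red (ψ / algebraMap K F c₁)) +
        (N.s₂ i).ord (N.S₂.red (ψ / algebraMap K F c₂))) :=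
  count_tw N.nodalSetup h₁ h₂

/-- **GTC**, the left hand side as a finite sum: `T` contains the places of type N in the
support of `div ψ`. -/
theorem count_tw_sum [Infinite k] (N : NodalSeed K F k Fk₁ Fk₂ ι) {ψ : F} {c₁ c₂ : K}
    (h₁ : N.S₁.red (ψ / algebraMap K F c₁) ≠ 0) (h₂ : N.S₂.red (ψ / algebraMap K F c₂) ≠ 0)
    (T : Finset (Place K F)) (hT : ∀ P ∈ T, N.rmap P = none)
    (hT' : ∀ P, N.rmap P = none → P.ord ψ ≠ 0 → P ∈ T) :
    ∑ P ∈ T, P.ord ψ =
      ∑ i, ((N.s₁ i).ord (N.S₁.red (ψ / algebraMap K F c₁)) +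
        (N.s₂ i).ord (N.S₂.red (ψ / algebraMap K F c₂))) := by
  classical
  rw [← count_tw_seed N h₁ h₂, mapDomain_none_eq_sum]
  symm
  have hsub : (divOf N.S₁.hF ψ).support.filter (fun P => N.rmap P = none) ⊆ T := by
    intro P hP
    rw [Finset.mem_filter, Finsupp.mem_support_iff, divOf_apply] at hP
    exact hT' P hP.2 hP.1
  calc ∑ P ∈ (divOf N.S₁.hF ψ).support.filter (fun P => N.rmap P = none), divOf N.S₁.hF ψ P
      = ∑ P ∈ T, divOf N.S₁.hF ψ P := by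
        refine Finset.sum_subset hsub fun P hPT hP => ?_
        rw [Finset.mem_filter, not_and] at hP
        by_contra h0
        exact hP (Finsupp.mem_support_iff.mpr h0) (hT P hPT)
    _ = ∑ P ∈ T, P.ord ψ := Finset.sum_congr rfl fun P _ => divOf_apply _ _ _

end Fermat.Agent.PeuD
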