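/-
Row 38, block D (INT), seat D-GAU (helper64), abstract part: **rational presentations**.

`K` a field of characteristic zero, `A` a valuation subring over a prime `ℓ`,
`F = laurentBaseChange K F₀` with `F₀` generated by rational series integral at `A`
(cluster B, `Lib/GaussInt`).  `Γ` a set of automorphisms of `K`; a series is `Γ`-fixed if
`coeffMap σ f = f` for `σ ∈ Γ` (its coefficients are fixed).

* `gf_echelon_fixed` : the echelon basis of a `Γ`-stable tame subspace is `Γ`-FIXED (uniqueness of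
  the echelon basis with given pivots);
* `gf_exists_fixed_frac` : a `Γ`-fixed `f ∈ F`, `f ≠ 0`, is `P / Q` with `P, Q` in the integral
  span, both `Γ`-fixed, `Q` integral with a coefficient `1`;
* `gf_scale` **(G1)** : a `Γ`-fixed `f ≠ 0` is `c · (unit of the Gauss ring)` with `c` `Γ`-fixed;
* `gf_depth` **(G2)** : if `(s c - c) / π² ∈ A` for the `Γ`-fixed `c ∈ A`, then
  `(s f - f) / π² ∈ O_v` for the `Γ`-fixed `f ∈ O_v`.
-/
import Mathlib
import Fermat.Agent.Lib.GaussInt.Echelon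
import Fermat.Agent.Lib.GaussInt.ValGroup

set_option autoImplicit false
set_option linter.unusedSectionVars false
set_option linter.unusedVariables false

noncomputable section

namespace Fermat.Agent.PeuD

open ModularCurve HahnSeries Fermat.Agent.GaussInt

variable {K : Type*} [Field K] {A : ValuationSubring K}

section Semilinear

theorem gf_coeffMap_smul (σ : K →+* K) (c : K) (x : LaurentSeries K) :
    coeffMap σ (c • x) = σ c • coeffMap σ x := by
  ext n
  simp

theorem gf_coeff_fixed {σ : K →+* K} {x : LaurentSeries K} (h : coeffMap σ x = x) (n : ℤ) :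
    σ (x.coeff n) = x.coeff n := by
  have := congrArg (fun z => z.coeff n) h
  simpa using this

end Semilinear

section Echelon

/-- every element of the span of an echelon family is the combination of the family with its
pivot coefficients. -/
theorem gf_eq_sum_of_mem_span {V : Submodule K (LaurentSeries K)} {s : Finset ℤ}
    {p : ℤ → LaurentSeries K} (h : IsEchelon A V s p) {v : LaurentSeries K}
    (hv : v ∈ Submodule.span K (p '' (s : Set ℤ))) : v = ∑ m ∈ s, v.coeff m • p m := by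
  classical
  induction hv using Submodule.span_induction with
  | mem x hx =>
    obtain ⟨n, hn, rfl⟩ := hx
    have hn' : n ∈ s := hn
    have e : ∀ m ∈ s, (p n).coeff m • p m = if m = n then p n else 0 := by
      intro m hm
      rw [h.pivot n hn' m hm]
      split_ifs with hmn
      · rw [hmn, one_smul]
      · rw [zero_smul]
    rw [Finset.sum_congr rfl e, Finset.sum_ite_eq' s n, if_pos hn']
  | zero => simp
  | add x y _ _ hx hy =>
    conv_lhs => rw [hx, hy]
    rw [← Finset.sum_add_distrib]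
    refine Finset.sum_congr rfl fun m _ => ?_
    rw [HahnSeries.coeff_add, add_smul]
  | smul c x _ hx =>
    conv_lhs => rw [hx]
    rw [Finset.smul_sum]
    refine Finset.sum_congr rfl fun m _ => ?_
    rw [HahnSeries.coeff_smul, smul_eq_mul, mul_smul]

/-- **the echelon basis of a stable subspace is fixed.** -/
theorem gf_echelon_fixed {V : Submodule K (LaurentSeries K)} {s : Finset ℤ}
    {p : ℤ → LaurentSeries K} (h : IsEchelon A V s p)
    (hspan : Submodule.span K (p '' (s : Set ℤ)) = V) (σ : K →+* K)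
    (hσ : ∀ x ∈ V, coeffMap σ x ∈ V) {n : ℤ} (hn : n ∈ s) : coeffMap σ (p n) = p n := by
  classical
  have h1 : coeffMap σ (p n) ∈ Submodule.span K (p '' (s : Set ℤ)) := by
    rw [hspan]
    exact hσ _ (h.mem n hn)
  have h2 := gf_eq_sum_of_mem_span h h1
  have e : ∀ m ∈ s, (coeffMap σ (p n)).coeff m • p m = if m = n then p n else 0 := by
    intro m hm
    rw [coeffMap_coeff, h.pivot n hn m hm]
    split_ifs with hmn
    · rw [hmn, map_one, one_smul]
    · rw [map_zero, zero_smul]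
  rw [Finset.sum_congr rfl e, Finset.sum_ite_eq' s n, if_pos hn] at h2
  exact h2

end Echelon

section Frac

variable [Algebra ℚ K] {F₀ : IntermediateField ℚ (LaurentSeries ℚ)}

/-- the generators of the integral span are fixed by every automorphism. -/
theorem gf_span_stable (σ : K ≃ₐ[ℚ] K) {T : Set (LaurentSeries K)}
    (hT : T ⊆ coeffEmb K '' {g | g ∈ F₀ ∧ IsIntQ A g}) {x : LaurentSeries K}
    (hx : x ∈ Submodule.span K T) : coeffMap (σ : K →+* K) x ∈ Submodule.span K T := by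
  induction hx using Submodule.span_induction with
  | mem y hy =>
    obtain ⟨g, -, rfl⟩ := hT hy
    rw [coeffMap_coeffEmb]
    exact Submodule.subset_span hy
  | zero =>
    rw [map_zero]
    exact zero_mem _
  | add y z _ _ hy hz =>
    rw [map_add]
    exact add_mem hy hz
  | smul c y _ hy =>
    rw [gf_coeffMap_smul]
    exact Submodule.smul_mem _ _ hy

theorem gf_span_le_intSpan {T : Set (LaurentSeries K)}
    (hT : T ⊆ coeffEmb K '' {g | g ∈ F₀ ∧ IsIntQ A g}) :
    Submodule.span K T ≤ intSpan A F₀ :=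
  Submodule.span_mono hT

/-- **rational presentations**: a `Γ`-fixed element of `F` is `P / Q` with `Γ`-fixed `P, Q` in
the integral span, `Q` integral with a coefficient `1`. -/
theorem gf_exists_fixed_frac {ℓ : ℕ} (hℓ : ℓ.Prime) (hA : A.LiesOverPrime ℓ)
    (hF₀ : IsIntGen A F₀) (Γ : Set (K ≃ₐ[ℚ] K)) {f : LaurentSeries K}
    (hf : f ∈ laurentBaseChange K F₀)
    (hfix : ∀ σ ∈ Γ, coeffMap ((σ : K ≃ₐ[ℚ] K) : K →+* K) f = f) :
    ∃ (Q P : LaurentSeries K) (n₀ : ℤ), Q ∈ intSpan A F₀ ∧ P ∈ intSpan A F₀ ∧ f * Q = P ∧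
      (∀ m, Q.coeff m ∈ A) ∧ Q.coeff n₀ = 1 ∧
      (∀ σ ∈ Γ, coeffMap ((σ : K ≃ₐ[ℚ] K) : K →+* K) Q = Q) ∧
      (∀ σ ∈ Γ, coeffMap ((σ : K ≃ₐ[ℚ] K) : K →+* K) P = P) := by
  classical
  obtain ⟨P, Q, hP, hQ, hQ0, hPQ⟩ := exists_frac_of_mem hF₀ hf
  obtain ⟨TP, hTP, hPT⟩ := Submodule.mem_span_finite_of_mem_span hP
  obtain ⟨TQ, hTQ, hQT⟩ := Submodule.mem_span_finite_of_mem_span hQ
  set V : Submodule K (LaurentSeries K) := Submodule.span K (TQ : Set (LaurentSeries K)) with hV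
  set V' : Submodule K (LaurentSeries K) := Submodule.span K (TP : Set (LaurentSeries K)) with hV'
  let W : Submodule K (LaurentSeries K) :=
    { carrier := {x | x ∈ V ∧ f * x ∈ V'}
      zero_mem' := ⟨zero_mem _, by rw [mul_zero]; exact zero_mem _⟩
      add_mem' := fun {x y} hx hy => ⟨add_mem hx.1 hy.1, by
        rw [mul_add]; exact add_mem hx.2 hy.2⟩
      smul_mem' := fun c x hx => ⟨Submodule.smul_mem _ c hx.1, by
        have e : f * (c • x) = c • (f * x) := by
          rw [← algebraMap_mul_eq_smul, ← algebraMap_mul_eq_smul]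
          ring
        rw [e]
        exact Submodule.smul_mem _ c hx.2⟩ }
  have hWmem : ∀ x, x ∈ W ↔ x ∈ V ∧ f * x ∈ V' := fun x => Iff.rfl
  have hWV : W ≤ V := fun x hx => hx.1
  have hQW : Q ∈ W := (hWmem Q).mpr ⟨hQT, by rw [hPQ]; exact hPT⟩
  have : FiniteDimensional K V := FiniteDimensional.span_finset K TQ
  have : FiniteDimensional K W := Submodule.finiteDimensional_of_le hWV
  have hWfg : W.FG := Module.Finite.iff_fg.mp inferInstance
  have hWtame : ∀ x ∈ W, IsTame A x := fun x hx =>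
    isTame_of_mem_intSpan hℓ hA (gf_span_le_intSpan hTQ ((hWmem x).mp hx).1)
  obtain ⟨s, p, hech, hspan⟩ := exists_echelon hWfg hWtame
  have hs : s.Nonempty := by
    by_contra hne
    rw [Finset.not_nonempty_iff_eq_empty] at hne
    rw [hne, Finset.coe_empty, Set.image_empty, Submodule.span_empty] at hspan
    rw [← hspan, Submodule.mem_bot] at hQW
    exact hQ0 hQW
  obtain ⟨n₀, hn₀⟩ := hs
  have hstable : ∀ σ ∈ Γ, ∀ x ∈ W, coeffMap ((σ : K ≃ₐ[ℚ] K) : K →+* K) x ∈ W := by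
    intro σ hσ x hx
    obtain ⟨hx1, hx2⟩ := (hWmem x).mp hx
    refine (hWmem _).mpr ⟨gf_span_stable σ hTQ hx1, ?_⟩
    have := gf_span_stable σ hTP hx2
    rwa [map_mul, hfix σ hσ] at this
  have hpW := (hWmem (p n₀)).mp (hech.mem n₀ hn₀)
  have hQfix : ∀ σ ∈ Γ, coeffMap ((σ : K ≃ₐ[ℚ] K) : K →+* K) (p n₀) = p n₀ := fun σ hσ =>
    gf_echelon_fixed hech hspan _ (hstable σ hσ) hn₀
  refine ⟨p n₀, f * p n₀, n₀, gf_span_le_intSpan hTQ hpW.1, gf_span_le_intSpan hTP hpW.2, rfl,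
    hech.int n₀ hn₀, ?_, hQfix, ?_⟩
  · rw [hech.pivot n₀ hn₀ n₀ hn₀, if_pos rfl]
  · intro σ hσ
    rw [map_mul, hfix σ hσ, hQfix σ hσ]

end Frac

section Gauss

variable [Algebra ℚ K] {F₀ : IntermediateField ℚ (LaurentSeries ℚ)}

/-- an integral series with a coefficient `1` is primitive. -/
theorem gf_red_ne_zero {P : LaurentSeries K} (h : ∀ n, P.coeff n ∈ A) {n : ℤ}
    (hn : P.coeff n = 1) : red A (liftA A P h) ≠ 0 := by
  intro h0
  have h1 := congrArg (fun z => z.coeff n) h0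
  simp only [red_coeff, HahnSeries.coeff_zero] at h1
  have h2 : (liftA A P h).coeff n = 1 := by
    apply Subtype.ext
    rw [liftA_coeff, hn]
    rfl
  rw [h2, map_one] at h1
  exact one_ne_zero h1

/-- an integral series of `F` with a coefficient `1` is a unit of the Gauss ring. -/
theorem gf_unit_of_coeff_one {P : LaurentSeries K} (hPF : P ∈ laurentBaseChange K F₀)
    (h : ∀ n, P.coeff n ∈ A) {n : ℤ} (hn : P.coeff n = 1) :
    P ∈ gaussSub A (laurentBaseChange K F₀) ∧ P⁻¹ ∈ gaussSub A (laurentBaseChange K F₀) ∧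
      gaussResFun A (laurentBaseChange K F₀) P ≠ 0 := by
  have hemb : emb A (liftA A P h) = P := emb_liftA A P h
  have hmem : emb A (liftA A P h) ∈ laurentBaseChange K F₀ := by rw [hemb]; exact hPF
  have h1 := emb_mem_gaussSub (A := A) hmem
  have h2 := gaussResFun_emb (A := A) hmem
  rw [hemb] at h1 h2
  have h3 : gaussResFun A (laurentBaseChange K F₀) P ≠ 0 := by
    rw [h2]
    exact gf_red_ne_zero h hn
  exact ⟨h1, inv_mem_gaussSub h1 h3, h3⟩

/-- integral series of `F` lie in the Gauss ring. -/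
theorem gf_mem_of_int {P : LaurentSeries K} (hPF : P ∈ laurentBaseChange K F₀)
    (h : ∀ n, P.coeff n ∈ A) : P ∈ gaussSub A (laurentBaseChange K F₀) := by
  have hemb : emb A (liftA A P h) = P := emb_liftA A P h
  have hmem : emb A (liftA A P h) ∈ laurentBaseChange K F₀ := by rw [hemb]; exact hPF
  have h1 := emb_mem_gaussSub (A := A) hmem
  rwa [hemb] at h1

/-- normalising a tame series by its maximal coefficient. -/
theorem gf_normalise {P : LaurentSeries K} {n₁ : ℤ} (hn₁ : P.coeff n₁ ≠ 0)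
    (hmax : ∀ n, A.valuation (P.coeff n) ≤ A.valuation (P.coeff n₁)) :
    (∀ n, ((P.coeff n₁)⁻¹ • P).coeff n ∈ A) ∧ ((P.coeff n₁)⁻¹ • P).coeff n₁ = 1 := by
  constructor
  · intro n
    rw [HahnSeries.coeff_smul, smul_eq_mul, ← A.valuation_le_one_iff, map_mul, map_inv₀]
    have hne : A.valuation (P.coeff n₁) ≠ 0 := (Valuation.ne_zero_iff _).mpr hn₁
    rw [inv_mul_le_iff₀ (zero_lt_iff.mpr hne), mul_one]
    exact hmax n
  · rw [HahnSeries.coeff_smul, smul_eq_mul, inv_mul_cancel₀ hn₁]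

/-- **(G1)**: a `Γ`-fixed element of `F` is a `Γ`-fixed constant times a unit of the Gauss
ring. -/
theorem gf_scale {ℓ : ℕ} (hℓ : ℓ.Prime) (hA : A.LiesOverPrime ℓ) (hF₀ : IsIntGen A F₀)
    (Γ : Set (K ≃ₐ[ℚ] K)) {f : LaurentSeries K} (hf : f ∈ laurentBaseChange K F₀)
    (hf0 : f ≠ 0) (hfix : ∀ σ ∈ Γ, coeffMap ((σ : K ≃ₐ[ℚ] K) : K →+* K) f = f) :
    ∃ c : K, c ≠ 0 ∧ (∀ σ ∈ Γ, σ c = c) ∧
      algebraMap K (LaurentSeries K) c⁻¹ * f ∈ gaussSub A (laurentBaseChange K F₀) ∧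
      (algebraMap K (LaurentSeries K) c⁻¹ * f)⁻¹ ∈ gaussSub A (laurentBaseChange K F₀) ∧
      gaussResFun A (laurentBaseChange K F₀) (algebraMap K (LaurentSeries K) c⁻¹ * f) ≠ 0 := by
  obtain ⟨Q, P, n₀, hQ, hP, hfQ, hQint, hQ1, hQfix, hPfix⟩ :=
    gf_exists_fixed_frac hℓ hA hF₀ Γ hf hfix
  have hQ0 : Q ≠ 0 := by
    rintro rfl
    rw [HahnSeries.coeff_zero] at hQ1
    exact zero_ne_one hQ1
  have hP0 : P ≠ 0 := by
    rw [← hfQ]
    exact mul_ne_zero hf0 hQ0
  rcases isTame_of_mem_intSpan hℓ hA hP with h0 | ⟨n₁, hn₁, hmax⟩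
  · exact absurd h0 hP0
  obtain ⟨hint, hone⟩ := gf_normalise hn₁ hmax
  have hQu := gf_unit_of_coeff_one (intSpan_le F₀ hQ) hQint hQ1
  have hPu := gf_unit_of_coeff_one (intSpan_le F₀ (Submodule.smul_mem _ (P.coeff n₁)⁻¹ hP))
    hint hone
  have e : algebraMap K (LaurentSeries K) (P.coeff n₁)⁻¹ * f = ((P.coeff n₁)⁻¹ • P) * Q⁻¹ := by
    rw [← hfQ, ← algebraMap_mul_eq_smul]
    field_simp
  have hmem : algebraMap K (LaurentSeries K) (P.coeff n₁)⁻¹ * f ∈
      gaussSub A (laurentBaseChange K F₀) := by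
    rw [e]
    exact mul_mem hPu.1 hQu.2.1
  have hinv : (algebraMap K (LaurentSeries K) (P.coeff n₁)⁻¹ * f)⁻¹ ∈
      gaussSub A (laurentBaseChange K F₀) := by
    rw [e, mul_inv, inv_inv]
    exact mul_mem hPu.2.1 hQu.1
  refine ⟨P.coeff n₁, hn₁, fun σ hσ => ?_, hmem, hinv, ?_⟩
  · exact gf_coeff_fixed (hPfix σ hσ) n₁
  · intro h0
    have hx0 : algebraMap K (LaurentSeries K) (P.coeff n₁)⁻¹ * f ≠ 0 :=
      mul_ne_zero (by simpa using hn₁) hf0
    have h1 : gaussRes A (laurentBaseChange K F₀) (⟨_, hmem⟩ * ⟨_, hinv⟩) = 1 := by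
      have : (⟨_, hmem⟩ * ⟨_, hinv⟩ : gaussSub A (laurentBaseChange K F₀)) = 1 :=
        Subtype.ext (mul_inv_cancel₀ hx0)
      rw [this, map_one]
    rw [map_mul] at h1
    have h2 : gaussRes A (laurentBaseChange K F₀) ⟨_, hmem⟩ = 0 := h0
    rw [h2, zero_mul] at h1
    exact zero_ne_one h1

/-- **(G2)**: the depth of `s` on the `Γ`-fixed constants passes to the `Γ`-fixed elements of the
Gauss ring. -/
theorem gf_depth {ℓ : ℕ} (hℓ : ℓ.Prime) (hA : A.LiesOverPrime ℓ) (hF₀ : IsIntGen A F₀)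
    (Γ : Set (K ≃ₐ[ℚ] K)) (s : K ≃ₐ[ℚ] K) (hsA : ∀ a ∈ A, s a ∈ A) (d : K)
    (hA1 : ∀ c ∈ A, (∀ σ ∈ Γ, σ c = c) → d * (s c - c) ∈ A)
    {f : LaurentSeries K} (hf : f ∈ gaussSub A (laurentBaseChange K F₀))
    (hfix : ∀ σ ∈ Γ, coeffMap ((σ : K ≃ₐ[ℚ] K) : K →+* K) f = f) :
    algebraMap K (LaurentSeries K) d * (coeffMap ((s : K ≃ₐ[ℚ] K) : K →+* K) f - f) ∈
      gaussSub A (laurentBaseChange K F₀) := by
  by_cases hf0 : f = 0
  · rw [hf0, map_zero, sub_zero, mul_zero]
    exact zero_mem _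
  have hfF := mem_of_mem_gaussSub hf
  obtain ⟨Q, P, n₀, hQ, hP, hfQ, hQint, hQ1, hQfix, hPfix⟩ :=
    gf_exists_fixed_frac hℓ hA hF₀ Γ hfF hfix
  have hQ0 : Q ≠ 0 := by
    rintro rfl
    rw [HahnSeries.coeff_zero] at hQ1
    exact zero_ne_one hQ1
  have hP0 : P ≠ 0 := by
    rw [← hfQ]
    exact mul_ne_zero hf0 hQ0
  have hQF := intSpan_le F₀ hQ
  have hPF := intSpan_le F₀ hP
  have hQu := gf_unit_of_coeff_one hQF hQint hQ1
  -- `P` is integral
  have hPint : ∀ n, P.coeff n ∈ A := by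
    rcases isTame_of_mem_intSpan hℓ hA hP with h0 | ⟨n₁, hn₁, hmax⟩
    · exact absurd h0 hP0
    obtain ⟨hint, hone⟩ := gf_normalise hn₁ hmax
    have hPu := gf_unit_of_coeff_one (intSpan_le F₀ (Submodule.smul_mem _ (P.coeff n₁)⁻¹ hP))
      hint hone
    have hPg : P ∈ gaussSub A (laurentBaseChange K F₀) := by
      rw [← hfQ]
      exact mul_mem hf hQu.1
    have hc : algebraMap K (LaurentSeries K) (P.coeff n₁) ∈
        gaussSub A (laurentBaseChange K F₀) := by
      have e : algebraMap K (LaurentSeries K) (P.coeff n₁) = P * ((P.coeff n₁)⁻¹ • P)⁻¹ := by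
        rw [← algebraMap_mul_eq_smul, mul_inv, map_inv₀, inv_inv]
        field_simp
      rw [e]
      exact mul_mem hPg hPu.2.1
    have hcA : P.coeff n₁ ∈ A := algebraMap_mem_gaussSub_iff.mp hc
    intro n
    rw [← A.valuation_le_one_iff]
    exact (hmax n).trans ((A.valuation_le_one_iff _).mpr hcA)
  -- the two difference quotients
  have hdiff : ∀ X : LaurentSeries K, X ∈ laurentBaseChange K F₀ → (∀ n, X.coeff n ∈ A) →
      (∀ σ ∈ Γ, coeffMap ((σ : K ≃ₐ[ℚ] K) : K →+* K) X = X) →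
      algebraMap K (LaurentSeries K) d * (coeffMap ((s : K ≃ₐ[ℚ] K) : K →+* K) X - X) ∈
        gaussSub A (laurentBaseChange K F₀) := by
    intro X hXF hXint hXfix
    apply gf_mem_of_int
    · exact mul_mem ((laurentBaseChange K F₀).algebraMap_mem _)
        (sub_mem (coeffMap_mem_laurentBaseChange s hXF) hXF)
    · intro n
      rw [algebraMap_mul_eq_smul, HahnSeries.coeff_smul, smul_eq_mul, HahnSeries.coeff_sub,
        coeffMap_coeff]
      exact hA1 _ (hXint n) fun σ hσ => gf_coeff_fixed (hXfix σ hσ) n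
  have hDP := hdiff P hPF hPint hPfix
  have hDQ := hdiff Q hQF hQint hQfix
  -- `s Q` is a unit
  have hsQF : coeffMap ((s : K ≃ₐ[ℚ] K) : K →+* K) Q ∈ laurentBaseChange K F₀ :=
    coeffMap_mem_laurentBaseChange s hQF
  have hsQu := gf_unit_of_coeff_one (A := A) hsQF
    (fun n => by rw [coeffMap_coeff]; exact hsA _ (hQint n))
    (n := n₀) (by rw [coeffMap_coeff, hQ1]; exact map_one _)
  have hsQ0 : coeffMap ((s : K ≃ₐ[ℚ] K) : K →+* K) Q ≠ 0 := by
    intro h0
    have := congrArg (fun z => z.coeff n₀) h0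
    simp only [coeffMap_coeff, hQ1, HahnSeries.coeff_zero] at this
    rw [show ((s : K ≃ₐ[ℚ] K) : K →+* K) 1 = 1 from map_one _] at this
    exact one_ne_zero this
  have hPg : P ∈ gaussSub A (laurentBaseChange K F₀) := gf_mem_of_int hPF hPint
  have hsfQ : coeffMap ((s : K ≃ₐ[ℚ] K) : K →+* K) f *
      coeffMap ((s : K ≃ₐ[ℚ] K) : K →+* K) Q = coeffMap ((s : K ≃ₐ[ℚ] K) : K →+* K) P := by
    rw [← map_mul, hfQ]
  have key : algebraMap K (LaurentSeries K) d *
      (coeffMap ((s : K ≃ₐ[ℚ] K) : K →+* K) f - f) =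
      (algebraMap K (LaurentSeries K) d * (coeffMap ((s : K ≃ₐ[ℚ] K) : K →+* K) P - P) * Q -
        P * (algebraMap K (LaurentSeries K) d *
          (coeffMap ((s : K ≃ₐ[ℚ] K) : K →+* K) Q - Q))) *
        (Q⁻¹ * (coeffMap ((s : K ≃ₐ[ℚ] K) : K →+* K) Q)⁻¹) := by
    rw [← hsfQ, ← hfQ]
    field_simp
    ring
  rw [key]
  exact mul_mem (sub_mem (mul_mem hDP hQu.1) (mul_mem hPg hDQ)) (mul_mem hQu.2.1 hsQu.2.1)

end Gauss

end Fermat.Agent.PeuD
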