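/-
Row 38, block D (INT), seat D-GAU (helper64), abstract part 2: **(RES), rational lifting**.

Setting of `GaussFix.lean`.  If every residue class of `A` contains a `Γ`-fixed element
(Teichmüller representatives for the inertia group), then every residue class of the Gauss ring
contains a `Γ`-fixed element: `gf_lift`.

Proof: `f = P / Q` with `P`, `Q` integral in the integral span, `Q` primitive; the echelon basis
`p` of a finitely generated subspace spanned by rational series is fixed by ALL automorphisms;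
replace the pivot coefficients of `P = ∑ P_m p_m` and `Q` by `Γ`-fixed representatives.
-/
import Mathlib
import Fermat.Agent.Lib.BadRed.PeuD.GaussFix

set_option autoImplicit false
set_option linter.unusedSectionVars false
set_option linter.unusedVariables false

noncomputable section

namespace Fermat.Agent.PeuD

open ModularCurve HahnSeries Fermat.Agent.GaussInt

variable {K : Type*} [Field K] {A : ValuationSubring K}

section Residue

/-- two integral series which are congruent coefficientwise have the same reduction. -/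
theorem gf_red_eq_of_congr {X Y : LaurentSeries K} (hX : ∀ n, X.coeff n ∈ A)
    (hY : ∀ n, Y.coeff n ∈ A) (h : ∀ n, A.valuation (X.coeff n - Y.coeff n) < 1) :
    red A (liftA A X hX) = red A (liftA A Y hY) := by
  ext n
  rw [red_coeff, red_coeff]
  rw [← sub_eq_zero, ← map_sub, IsLocalRing.residue_eq_zero_iff, A.valuation_lt_one_iff]
  exact h n

end Residue

section Lift

variable [Algebra ℚ K] {F₀ : IntermediateField ℚ (LaurentSeries ℚ)}

/-- **approximation by fixed series**: an integral element of a finitely generated subspace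
spanned by integral rational series is congruent, coefficientwise, to a `Γ`-fixed integral
element of the same subspace. -/
theorem gf_exists_fixed_congr {ℓ : ℕ} (hℓ : ℓ.Prime) (hA : A.LiesOverPrime ℓ)
    (Γ : Set (K ≃ₐ[ℚ] K))
    (hT : ∀ x ∈ A, ∃ t ∈ A, (∀ σ ∈ Γ, σ t = t) ∧ A.valuation (x - t) < 1)
    (T : Finset (LaurentSeries K))
    (hTS : (T : Set (LaurentSeries K)) ⊆ coeffEmb K '' {g | g ∈ F₀ ∧ IsIntQ A g})
    {X : LaurentSeries K} (hXV : X ∈ Submodule.span K (T : Set (LaurentSeries K)))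
    (hXint : ∀ n, X.coeff n ∈ A) :
    ∃ X' : LaurentSeries K, X' ∈ Submodule.span K (T : Set (LaurentSeries K)) ∧
      (∀ n, X'.coeff n ∈ A) ∧ (∀ σ ∈ Γ, coeffMap ((σ : K ≃ₐ[ℚ] K) : K →+* K) X' = X') ∧
      ∀ n, A.valuation (X.coeff n - X'.coeff n) < 1 := by
  classical
  set V : Submodule K (LaurentSeries K) := Submodule.span K (T : Set (LaurentSeries K)) with hV
  have hVfg : V.FG := Submodule.fg_span T.finite_toSet
  have hVtame : ∀ x ∈ V, IsTame A x := fun x hx =>
    isTame_of_mem_intSpan hℓ hA (gf_span_le_intSpan hTS hx)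
  obtain ⟨s, p, hech, hspan⟩ := exists_echelon hVfg hVtame
  have hpfix : ∀ σ : K ≃ₐ[ℚ] K, ∀ m ∈ s, coeffMap ((σ : K ≃ₐ[ℚ] K) : K →+* K) (p m) = p m :=
    fun σ m hm => gf_echelon_fixed hech hspan _ (fun x hx => gf_span_stable σ hTS hx) hm
  choose t htA htfix htcong using fun m : ℤ => hT (X.coeff m) (hXint m)
  have hXsum : X = ∑ m ∈ s, X.coeff m • p m :=
    gf_eq_sum_of_mem_span hech (by rw [hspan]; exact hXV)
  refine ⟨∑ m ∈ s, t m • p m, ?_, ?_, ?_, ?_⟩
  · exact Submodule.sum_mem _ fun m hm => Submodule.smul_mem _ _ (hech.mem m hm)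
  · intro n
    rw [HahnSeries.coeff_sum]
    refine sum_mem fun m hm => ?_
    rw [HahnSeries.coeff_smul, smul_eq_mul]
    exact mul_mem (htA m) (hech.int m hm n)
  · intro σ hσ
    rw [map_sum]
    refine Finset.sum_congr rfl fun m hm => ?_
    rw [gf_coeffMap_smul, hpfix σ m hm]
    congr 1
    exact htfix m σ hσ
  · intro n
    have e : X.coeff n - (∑ m ∈ s, t m • p m).coeff n =
        ∑ m ∈ s, (X.coeff m - t m) * (p m).coeff n := by
      conv_lhs => rw [hXsum]
      rw [HahnSeries.coeff_sum, HahnSeries.coeff_sum, ← Finset.sum_sub_distrib]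
      refine Finset.sum_congr rfl fun m _ => ?_
      rw [HahnSeries.coeff_smul, HahnSeries.coeff_smul, smul_eq_mul, smul_eq_mul]
      ring
    rw [e]
    refine Valuation.map_sum_lt _ one_ne_zero fun m hm => ?_
    rw [map_mul]
    calc A.valuation (X.coeff m - t m) * A.valuation ((p m).coeff n)
        ≤ A.valuation (X.coeff m - t m) * 1 :=
          mul_le_mul' le_rfl ((A.valuation_le_one_iff _).mpr (hech.int m hm n))
      _ < 1 := by rw [mul_one]; exact htcong m

/-- an integral element of the integral span lies in a finitely generated subspace spanned by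
integral rational series. -/
theorem gf_exists_finset {X : LaurentSeries K} (hX : X ∈ intSpan A F₀) :
    ∃ T : Finset (LaurentSeries K),
      (T : Set (LaurentSeries K)) ⊆ coeffEmb K '' {g | g ∈ F₀ ∧ IsIntQ A g} ∧
      X ∈ Submodule.span K (T : Set (LaurentSeries K)) :=
  Submodule.mem_span_finite_of_mem_span hX

/-- **(RES), abstract**: every residue class of the Gauss ring contains a `Γ`-fixed element. -/
theorem gf_lift {ℓ : ℕ} (hℓ : ℓ.Prime) (hA : A.LiesOverPrime ℓ) (hF₀ : IsIntGen A F₀)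
    (Γ : Set (K ≃ₐ[ℚ] K))
    (hT : ∀ x ∈ A, ∃ t ∈ A, (∀ σ ∈ Γ, σ t = t) ∧ A.valuation (x - t) < 1)
    {f : LaurentSeries K} (hf : f ∈ gaussSub A (laurentBaseChange K F₀)) :
    ∃ f' : LaurentSeries K, f' ∈ gaussSub A (laurentBaseChange K F₀) ∧
      (∀ σ ∈ Γ, coeffMap ((σ : K ≃ₐ[ℚ] K) : K →+* K) f' = f') ∧
      gaussResFun A (laurentBaseChange K F₀) f' = gaussResFun A (laurentBaseChange K F₀) f := by
  classical
  by_cases hf0 : f = 0
  · exact ⟨0, zero_mem _, fun σ _ => map_zero _, by rw [hf0]⟩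
  have hfF := mem_of_mem_gaussSub hf
  -- a presentation in the integral span, with the `Γ = ∅` case of the rational presentations
  obtain ⟨Q, P, n₀, hQ, hP, hfQ, hQint, hQ1, -, -⟩ :=
    gf_exists_fixed_frac hℓ hA hF₀ (∅ : Set (K ≃ₐ[ℚ] K)) hfF (fun σ hσ => absurd hσ (by simp))
  have hQ0 : Q ≠ 0 := by
    rintro rfl
    rw [HahnSeries.coeff_zero] at hQ1
    exact zero_ne_one hQ1
  have hP0 : P ≠ 0 := by
    rw [← hfQ]
    exact mul_ne_zero hf0 hQ0
  have hQF := intSpan_le F₀ hQ
  have hPF := intSpan_le F₀ hP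
  have hQu := gf_unit_of_coeff_one hQF hQint hQ1
  have hPint : ∀ n, P.coeff n ∈ A := by
    rcases isTame_of_mem_intSpan hℓ hA hP with h0 | ⟨n₁, hn₁, hmax⟩
    · exact absurd h0 hP0
    obtain ⟨hint, hone⟩ := gf_normalise hn₁ hmax
    have hPu := gf_unit_of_coeff_one (intSpan_le F₀ (Submodule.smul_mem _ (P.coeff n₁)⁻¹ hP))
      hint hone
    have hPg : P ∈ gaussSub A (laurentBaseChange K F₀) := by
      rw [← hfQ]
      exact mul_mem hf hQu.1
    have hc : algebraMap K (LaurentSeries K) (P.coeff n₁) ∈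
        gaussSub A (laurentBaseChange K F₀) := by
      have e : algebraMap K (LaurentSeries K) (P.coeff n₁) = P * ((P.coeff n₁)⁻¹ • P)⁻¹ := by
        rw [← algebraMap_mul_eq_smul, mul_inv, map_inv₀, inv_inv]
        field_simp
      rw [e]
      exact mul_mem hPg hPu.2.1
    have hcA : P.coeff n₁ ∈ A := algebraMap_mem_gaussSub_iff.mp hc
    intro n
    rw [← A.valuation_le_one_iff]
    exact (hmax n).trans ((A.valuation_le_one_iff _).mpr hcA)
  obtain ⟨TP, hTP, hPT⟩ := gf_exists_finset hP
  obtain ⟨TQ, hTQ, hQT⟩ := gf_exists_finset hQ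
  obtain ⟨P', hP'V, hP'int, hP'fix, hP'c⟩ :=
    gf_exists_fixed_congr hℓ hA Γ hT TP hTP hPT hPint
  obtain ⟨Q', hQ'V, hQ'int, hQ'fix, hQ'c⟩ :=
    gf_exists_fixed_congr hℓ hA Γ hT TQ hTQ hQT hQint
  have hP'F := intSpan_le F₀ (gf_span_le_intSpan hTP hP'V)
  have hQ'F := intSpan_le F₀ (gf_span_le_intSpan hTQ hQ'V)
  have hredP := gf_red_eq_of_congr hPint hP'int hP'c
  have hredQ := gf_red_eq_of_congr hQint hQ'int hQ'c
  have hQprim : red A (liftA A Q hQint) ≠ 0 := gf_red_ne_zero hQint hQ1
  have hQ'prim : red A (liftA A Q' hQ'int) ≠ 0 := by rw [← hredQ]; exact hQprim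
  have hQ'0 : Q' ≠ 0 := by
    rintro rfl
    have h1 := hQ'c n₀
    rw [hQ1, HahnSeries.coeff_zero, sub_zero, map_one] at h1
    exact lt_irrefl _ h1
  have hpres : IsPres A (laurentBaseChange K F₀) f (liftA A P hPint) (liftA A Q hQint) :=
    ⟨by rw [emb_liftA]; exact hPF, by rw [emb_liftA]; exact hQF, hQprim,
      by rw [emb_liftA, emb_liftA]; exact hfQ⟩
  have hpres' : IsPres A (laurentBaseChange K F₀) (P' * Q'⁻¹) (liftA A P' hP'int)
      (liftA A Q' hQ'int) :=
    ⟨by rw [emb_liftA]; exact hP'F, by rw [emb_liftA]; exact hQ'F, hQ'prim,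
      by rw [emb_liftA, emb_liftA, mul_assoc, inv_mul_cancel₀ hQ'0, mul_one]⟩
  refine ⟨P' * Q'⁻¹, hpres'.mem_gaussSub, ?_, ?_⟩
  · intro σ hσ
    rw [map_mul, map_inv₀, hP'fix σ hσ, hQ'fix σ hσ]
  · rw [gaussResFun_eq hpres', gaussResFun_eq hpres, hredP, hredQ]

end Lift

end Fermat.Agent.PeuD
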