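/-
Row 38, block D (INT), seat H90-MOD (helper97).  Blueprint: helper62's "block D WIRING v1",
modular input "H90 via h90_of_lc (lc = leading q-coefficient)".

`F = laurentBaseChange L F₀` (a field of Laurent series in `q` over `L`), with the arithmetic
Galois action on the coefficients.

* `h90Lc` : the leading `q`-coefficient `F → L`;
* `h90Lc_ne_zero`, `h90Lc_algebraMap_mul`, `h90Lc_smul` : it is nonzero on `F \ {0}`, `L`-linear and
  Galois-equivariant (the three hypotheses of `h90_of_lc`, `PeuD/RepM.lean`);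
* **H90-MOD** `h90_mod` : **Hilbert 90 for the constants**: for a set `H` of arithmetic
  automorphisms, a function `f ≠ 0` that is `H`-semi-invariant (`t • f = a_t f`) can be rescaled
  to an `H`-fixed function (this is `hH90` of `exists_datM`).
-/
import Mathlib
import Fermat.Prelude.Def_ModularCurve_ArithmeticGalois

set_option autoImplicit false
set_option linter.unusedSectionVars false

noncomputable section

namespace Fermat.Agent.PeuD

open HahnSeries ModularCurve AlgebraicCurve

variable {L : Type*} [Field L] [Algebra ℚ L] (F₀ : IntermediateField ℚ (LaurentSeries ℚ))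

/-- the leading `q`-coefficient of a function. -/
def h90Lc (f : laurentBaseChange L F₀) : L := (f : LaurentSeries L).leadingCoeff

theorem h90Lc_ne_zero {f : laurentBaseChange L F₀} (hf : f ≠ 0) : h90Lc F₀ f ≠ 0 := by
  rw [h90Lc, HahnSeries.leadingCoeff_ne_zero]
  exact fun h => hf (Subtype.ext h)

theorem h90Lc_algebraMap_mul (c : L) (f : laurentBaseChange L F₀) :
    h90Lc F₀ (algebraMap L (laurentBaseChange L F₀) c * f) = c * h90Lc F₀ f := by
  have e : ((algebraMap L (laurentBaseChange L F₀) c * f : laurentBaseChange L F₀) :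
      LaurentSeries L) = HahnSeries.single 0 c * (f : LaurentSeries L) := by
    rw [← algebraMap_laurentSeries_eq_single]
    rfl
  rw [h90Lc, e, HahnSeries.leadingCoeff_mul, HahnSeries.leadingCoeff_of_single]
  rfl

/-- an injective coefficient map preserves the order. -/
theorem h90_order_coeffMap {σ : L →+* L} (hσ : Function.Injective σ) (x : LaurentSeries L) :
    (coeffMap σ x).order = x.order := by
  rcases eq_or_ne x 0 with rfl | hx
  · rw [map_zero]
  have hx' : coeffMap σ x ≠ 0 := by
    intro h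
    apply hx
    ext n
    have := congrArg (fun y : LaurentSeries L => y.coeff n) h
    simp only [coeffMap_coeff, HahnSeries.coeff_zero] at this
    rw [HahnSeries.coeff_zero]
    exact hσ (by rw [this, map_zero])
  refine le_antisymm ?_ ?_
  · refine HahnSeries.order_le_of_coeff_ne_zero ?_
    rw [coeffMap_coeff]
    intro h
    exact (HahnSeries.coeff_order_eq_zero.not.2 hx) (hσ (by rw [h, map_zero]))
  · refine HahnSeries.order_le_of_coeff_ne_zero ?_
    intro h
    apply HahnSeries.coeff_order_eq_zero.not.2 hx'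
    rw [coeffMap_coeff, h, map_zero]

theorem h90_leadingCoeff_coeffMap {σ : L →+* L} (hσ : Function.Injective σ)
    (x : LaurentSeries L) : (coeffMap σ x).leadingCoeff = σ x.leadingCoeff := by
  rw [HahnSeries.leadingCoeff_eq, HahnSeries.leadingCoeff_eq, h90_order_coeffMap hσ,
    coeffMap_coeff]

theorem h90Lc_smul (σ : L ≃ₐ[ℚ] L) (f : laurentBaseChange L F₀) :
    h90Lc F₀ (arithmeticGalois F₀ σ • f) = σ (h90Lc F₀ f) := by
  rw [h90Lc, coe_arithmeticGalois_smul, h90_leadingCoeff_coeffMap (σ := (σ : L →+* L)) σ.injective]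
  rfl

theorem h90Lc_smul' (σ : L ≃ₐ[ℚ] L) (f : laurentBaseChange L F₀) :
    h90Lc F₀ (arithmeticGalois F₀ σ • f) =
      SemilinearAut.baseAut (arithmeticGalois F₀ σ) (h90Lc F₀ f) :=
  h90Lc_smul F₀ σ f

/-- **H90-MOD** (Hilbert 90 for the constants): an `H`-semi-invariant function can be rescaled to
an `H`-fixed one, for `H` a set of arithmetic automorphisms. -/
theorem h90_mod (H : Set (SemilinearAut L (laurentBaseChange L F₀)))
    (hH : ∀ t ∈ H, ∃ σ : L ≃ₐ[ℚ] L, t = arithmeticGalois F₀ σ)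
    (f : laurentBaseChange L F₀) (hf : f ≠ 0)
    (hsemi : ∀ t ∈ H, ∃ a : L, t • f = algebraMap L (laurentBaseChange L F₀) a * f) :
    ∃ a : L, a ≠ 0 ∧ ∀ t ∈ H, t • (algebraMap L (laurentBaseChange L F₀) a * f) =
      algebraMap L (laurentBaseChange L F₀) a * f := by
  have hl := h90Lc_ne_zero F₀ hf
  refine ⟨(h90Lc F₀ f)⁻¹, inv_ne_zero hl, fun t ht => ?_⟩
  obtain ⟨σ, rfl⟩ := hH t ht
  obtain ⟨c, hc⟩ := hsemi _ ht
  -- compare leading coefficients in `t • f = c f`
  have h1 : σ (h90Lc F₀ f) = c * h90Lc F₀ f := by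
    rw [← h90Lc_smul, hc, h90Lc_algebraMap_mul]
  have hσl : σ (h90Lc F₀ f) ≠ 0 := (map_ne_zero _).2 hl
  have h2 : σ (h90Lc F₀ f)⁻¹ * c = (h90Lc F₀ f)⁻¹ := by
    rw [map_inv₀, h1]
    have hc0 : c ≠ 0 := by
      rintro rfl
      rw [zero_mul] at h1
      exact hσl h1
    field_simp
  rw [smul_mul', SemilinearAut.smul_algebraMap, hc, ← mul_assoc, ← map_mul]
  have h3 : SemilinearAut.baseAut (arithmeticGalois F₀ σ) (h90Lc F₀ f)⁻¹ * c =
      (h90Lc F₀ f)⁻¹ := h2
  rw [h3]

/-- the same for a subgroup (the shape of `hH90` in `exists_datM`). -/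
theorem h90_mod_subgroup (H : Subgroup (SemilinearAut L (laurentBaseChange L F₀)))
    (hH : ∀ t ∈ H, ∃ σ : L ≃ₐ[ℚ] L, t = arithmeticGalois F₀ σ) :
    ∀ f : laurentBaseChange L F₀, f ≠ 0 →
      (∀ t ∈ H, ∃ a : L, t • f = algebraMap L (laurentBaseChange L F₀) a * f) →
      ∃ a : L, a ≠ 0 ∧ ∀ t ∈ H, t • (algebraMap L (laurentBaseChange L F₀) a * f) =
        algebraMap L (laurentBaseChange L F₀) a * f :=
  fun f hf hsemi => h90_mod F₀ (H : Set _) hH f hf hsemi

/-- the image of a subgroup of the Galois group consists of arithmetic automorphisms. -/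
theorem h90_map_arith (Γ : Subgroup (L ≃ₐ[ℚ] L)) :
    ∀ t ∈ Γ.map (arithmeticGalois F₀), ∃ σ : L ≃ₐ[ℚ] L, t = arithmeticGalois F₀ σ := by
  rintro _ ⟨σ, -, rfl⟩
  exact ⟨σ, rfl⟩

end Fermat.Agent.PeuD
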