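/-
Row 38, block D (INT), seat D-JAC (helper12).  Sub-architect: helper62 (note "Block D: D-RAT and
D-REP — what (RSM) really needs about D_l", hypothesis (JAC)).

Abstract over a nodal package `N : NodalSetup K F k Fk₁ Fk₂ ι` with non-special points
`NS : NodalNS N g`, and a subgroup `Γ` of inertial semilinear automorphisms of `F / K`
(for `X₀(p N₀)`: `Γ = I₁ = Gal(K̄ / K₁)`).

**(JAC)** `exists_jac`: a class `l ∈ Pic⁰(F)[p]` fixed by `Γ` whose Kummer generator is, for both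
valuations, a constant times a unit with reduction a `p`-th power (`l ∈ K'`) has a representative
`Dl = ∑ (P i - R i)` in JACOBI FORM with all `P i` fixed by `Γ` (`P i` in the disc of `Rb i`),
and a Kummer generator `hl` (`div hl = p Dl`) with `red₁ hl = 1 = red₂ hl` and `t • hl = hl` for
all `t ∈ Γ`.

Route: (R0) `PTor.OrdRepStatement` gives an ordinary `RedTrivial` representative, (N2c)
`NJ.nodalJacobi` moves it to the Jacobi form; `t • (Jacobi form)` is a Jacobi form of `t • l = l`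
(the base points `R i` are fixed: JAC-FIX, helper51), so by UNIQUENESS of the Jacobi form
(`jac_uniq`, JAC-UNIQ, helper32) `t • P i = P i`; the Kummer generator of a Jacobi form is,
up to a constant, a unit of both valuation rings with both reductions `1` (`jac_normalise`), and
it is made `Γ`-fixed by Hilbert 90 for the constants and (G1), (RES) (the same hypotheses as
`exists_datM`, D-REP).
-/
import Mathlib
import Fermat.Agent.Lib.BadRed.PeuD.RepM
import Fermat.Agent.Lib.BadRed.PeuD.JacUniq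
import Fermat.Agent.Lib.BadRed.Nodal.KeyJacobi
import Fermat.Agent.Lib.BadRed.Nodal.P.Cov

set_option autoImplicit false
set_option linter.unusedSectionVars false
set_option linter.unusedVariables false
set_option linter.style.haveILetI false

noncomputable section

open AlgebraicCurve Fermat.Agent.RR Fermat.Agent.Deuring Fermat.Agent.BadRed

namespace Fermat.Agent.PeuD

variable {K F k Fk Fk₁ Fk₂ : Type*} [Field K] [Field F] [Algebra K F]
  [Field k] [Field Fk] [Algebra k Fk] [Field Fk₁] [Algebra k Fk₁] [Field Fk₂] [Algebra k Fk₂]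
  {ι : Type*}

/-- **(JAC)**, the statement. -/
def JacStatement (N : NodalSetup K F k Fk₁ Fk₂ ι) (g : ℕ) (NS : NodalNS N g) (p : ℕ)
    (Γ : Subgroup (SemilinearAut K F)) : Prop :=
  ∀ (l : Pic0 K F), (∀ t ∈ Γ, t • l = l) →
    ∀ (E : Divisor.degZero (K := K) (F := F)), Pic0.mk E = l →
    ∀ g₀ : F, g₀ ≠ 0 → (∀ v : Place K F, v.ord g₀ = p * (E : Divisor K F) v) →
      (∃ c₁ : K, c₁ ≠ 0 ∧ ∃ a₁ : Fk₁, a₁ ≠ 0 ∧ N.S₁.red (g₀ / algebraMap K F c₁) = a₁ ^ p) →
      (∃ c₂ : K, c₂ ≠ 0 ∧ ∃ a₂ : Fk₂, a₂ ≠ 0 ∧ N.S₂.red (g₀ / algebraMap K F c₂) = a₂ ^ p) →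
      ∃ (P : Fin g → Place K F) (Dl : Divisor.degZero (K := K) (F := F)) (hl : F),
        (∀ i, N.r (P i) = some (NS.Rb i)) ∧ (∀ t ∈ Γ, ∀ i, t • P i = P i) ∧
        (Dl : Divisor K F) = PTor.jacobiDiv NS P ∧ Pic0.mk Dl = l ∧
        N.RedTrivial (Dl : Divisor K F) ∧ (∀ t ∈ Γ, t • (Dl : Divisor K F) = Dl) ∧
        hl ≠ 0 ∧ (∀ v : Place K F, v.ord hl = p * (Dl : Divisor K F) v) ∧
        N.S₁.red hl = 1 ∧ N.S₂.red hl = 1 ∧ ∀ t ∈ Γ, t • hl = hl

/-! ### one valuation -/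

/-- dividing a function with constant reduction `cb ≠ 0` by a lift of `cb`. -/
theorem jac_red_div_const (S : ValSetup K F k Fk) {W : F} {cb : k} (hcb : cb ≠ 0)
    (hW : S.red W = algebraMap k Fk cb) {a : K} (ha : a ∈ S.A) (hres : S.res ⟨a, ha⟩ = cb) :
    S.red (W / algebraMap K F a) = 1 := by
  have hcbF : algebraMap k Fk cb ≠ 0 := by simpa using hcb
  have hared : S.red (algebraMap K F a) = algebraMap k Fk cb := by
    rw [S.red_algebraMap ha, hres]
  have hane : S.red (algebraMap K F a) ≠ 0 := by rw [hared]; exact hcbF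
  have hWne : S.red W ≠ 0 := by rw [hW]; exact hcbF
  rw [div_eq_mul_inv, S.red_mul (S.mem_of_red_ne_zero hWne) (S.inv_mem_of_red_ne_zero hane),
    S.red_inv (S.mem_of_red_ne_zero hane) (S.inv_mem_of_red_ne_zero hane)
      (S.ne_zero_of_red_ne_zero hane), hW, hared]
  exact mul_inv_cancel₀ hcbF

/-- a constant `e` with `e * u` a unit, `red u = 1`, lies in `A` and `red (e * u)` is its
residue. -/
theorem jac_const_of_unit (S : ValSetup K F k Fk) {u : F} (hu : S.red u = 1) {e : K}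
    (hne : S.red (algebraMap K F e * u) ≠ 0) :
    ∃ he : e ∈ S.A, S.res ⟨e, he⟩ ≠ 0 ∧
      S.red (algebraMap K F e * u) = algebraMap k Fk (S.res ⟨e, he⟩) := by
  have hu1 : S.red u ≠ 0 := by rw [hu]; exact one_ne_zero
  have hu0 := S.ne_zero_of_red_ne_zero hu1
  have hmem : algebraMap K F e ∈ S.Ov := by
    have e1 : algebraMap K F e = algebraMap K F e * u * u⁻¹ := by
      rw [mul_assoc, mul_inv_cancel₀ hu0, mul_one]
    rw [e1]
    exact mul_mem (S.mem_of_red_ne_zero hne) (S.inv_mem_of_red_ne_zero hu1)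
  have he : e ∈ S.A := (S.mem_Ov_iff e).mp hmem
  have hred : S.red (algebraMap K F e * u) = algebraMap k Fk (S.res ⟨e, he⟩) := by
    rw [S.red_mul hmem (S.mem_of_red_ne_zero hu1), hu, mul_one, S.red_algebraMap he]
  refine ⟨he, ?_, hred⟩
  intro h0
  rw [hred, h0, map_zero] at hne
  exact hne rfl

/-! ### the Kummer generator of a Jacobi form -/

variable {N : NodalSetup K F k Fk₁ Fk₂ ι} {g : ℕ}

/-- **normalisation**: a function whose divisor is a multiple of a Jacobi form is, up to ONE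
constant, a unit of both valuation rings with both reductions `1`. -/
theorem jac_normalise (NS : NodalNS N g) (P : Fin g → Place K F)
    (hP : ∀ i, N.r (P i) = some (NS.Rb i)) (n : ℤ) {u : F} (hu : u ≠ 0)
    (hdiv : ∀ v : Place K F, v.ord u = n * PTor.jacobiDiv NS P v) :
    ∃ c : K, c ≠ 0 ∧ N.S₁.red (u / algebraMap K F c) = 1 ∧
      N.S₂.red (u / algebraMap K F c) = 1 := by
  classical
  have hoff : ∀ v, (∀ j ∈ (Finset.univ : Finset (Fin g)), N.r v ≠ some (NS.Rb j)) →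
      v.ord u = 0 := by
    intro v hv
    rw [hdiv, PCov.jacobiDiv_apply_of_ne NS P hP (fun i => hv i (Finset.mem_univ i)), mul_zero]
  have hdisc : ∀ j ∈ (Finset.univ : Finset (Fin g)),
      Finsupp.mapDomain N.r (divOf N.S₁.hF u) (some (NS.Rb j)) = 0 := by
    intro j _
    have hD : divOf N.S₁.hF u = n • PTor.jacobiDiv NS P := by
      ext v
      rw [divOf_apply, hdiv, Finsupp.smul_apply, smul_eq_mul]
    rw [hD, Finsupp.mapDomain_smul, PCov.jacobiDiv_mapDomain NS P hP, smul_zero]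
    rfl
  obtain ⟨c, hc0, hU, -⟩ := NK.kl_normalise₂ NS Finset.univ hu hoff hdisc
  have hord : ∀ v : Place K F, v.ord (u / algebraMap K F c) = v.ord u := fun v =>
    Fermat.Agent.S18Key.kl_ord_div_const v hc0 u
  have hdivW : divOf N.S₁.hF (u / algebraMap K F c) = divOf N.S₁.hF u := by
    ext v
    rw [divOf_apply, divOf_apply, hord]
  have hkey : ∀ j, NK.ordRed N (NS.Rb j) (u / algebraMap K F c) = 0 := by
    intro j
    have hsm := NK.isSm_of_r N (NS.r_R j)
    have hd := hdisc j (Finset.mem_univ j)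
    rw [← hdivW] at hd
    revert hd hsm
    generalize NS.Rb j = X
    intro hsm hd
    cases X with
    | inl Q => exact (NK.push_eq (S := NK.side₁ N) hU.u₁ Q hsm).symm.trans hd
    | inr Q => exact (NK.push_eq (S := NK.side₂ N) hU.u₂ Q hsm).symm.trans hd
  obtain ⟨cb, hcb₁, hcb₂⟩ := NK.red_const_of_reg NS Finset.univ hU.u₁.mem hU.u₂.mem
    (fun v hv => by rw [hord, hoff v hv]) (fun j _ => by rw [hkey j]; norm_num)
  have hcb0 : cb ≠ 0 := by
    rintro rfl
    have := hU.u₁.red_ne_zero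
    rw [NK.side₁_red, hcb₁, map_zero] at this
    exact this rfl
  obtain ⟨⟨a, haA⟩, ha⟩ := N.S₁.res_surj cb
  have haA₂ : a ∈ N.S₂.A := N.A_eq ▸ haA
  have ha₂ : N.S₂.res ⟨a, haA₂⟩ = cb := by rw [← N.res_eq a haA haA₂, ha]
  have ha0 : a ≠ 0 := by
    rintro rfl
    have h0 : N.S₁.res ⟨0, haA⟩ = 0 := map_zero N.S₁.res
    rw [h0] at ha
    exact hcb0 ha.symm
  have e : u / algebraMap K F (c * a) = u / algebraMap K F c / algebraMap K F a := by
    rw [map_mul, div_div]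
  refine ⟨c * a, mul_ne_zero hc0 ha0, ?_, ?_⟩
  · rw [e]
    exact jac_red_div_const N.S₁ hcb0 hcb₁ haA ha
  · rw [e]
    exact jac_red_div_const N.S₂ hcb0 hcb₂ haA₂ ha₂

/-- the Jacobi form has degree `0`. -/
theorem jac_degree_jacobiDiv (NS : NodalNS N g) (P : Fin g → Place K F) :
    Divisor.degree (PTor.jacobiDiv NS P) = 0 := by
  have hF : IsRRField K F := N.S₁.hF
  unfold PTor.jacobiDiv
  rw [map_sum]
  apply Finset.sum_eq_zero
  intro i _
  rw [map_sub, Divisor.degree_single, Divisor.degree_single, hF.deg_one, hF.deg_one, sub_self]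

/-- the Jacobi form is in the kernel of reduction. -/
theorem jac_redTrivial (NS : NodalNS N g) (P : Fin g → Place K F)
    (hP : ∀ i, N.r (P i) = some (NS.Rb i)) : N.RedTrivial (PTor.jacobiDiv NS P) :=
  ⟨PCov.jacobiDiv_isOrdDiv NS P hP, fun Q => by
    rw [PCov.jacobiDiv_mapDomain NS P hP]
    rfl⟩

/-- a Jacobi form with fixed points is fixed. -/
theorem jac_smul_jacobiDiv (NS : NodalNS N g) (P : Fin g → Place K F)
    (t : SemilinearAut K F) (hR : ∀ i, t • NS.R i = NS.R i) (hPt : ∀ i, t • P i = P i) :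
    t • PTor.jacobiDiv NS P = PTor.jacobiDiv NS P := by
  ext v
  rw [SemilinearAut.divisor_smul_apply, PCov.jacobiDiv_apply, PCov.jacobiDiv_apply]
  refine Finset.sum_congr rfl (fun i _ => ?_)
  rw [← jacUniq_single_smul t (P i) v, ← jacUniq_single_smul t (NS.R i) v, hR i, hPt i]

/-! ### (JAC) -/

/-- **(JAC)**. -/
theorem exists_jac (NS : NodalNS N g) (hg : genusFF K F = g) (p : ℕ) (hp : p ≠ 0)
    (Γ : Subgroup (SemilinearAut K F)) (hΓ : ∀ t ∈ Γ, N.IsInertial t)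
    (hR0 : PTor.OrdRepStatement N p)
    (hRfix : ∀ t ∈ Γ, ∀ i, t • NS.R i = NS.R i)
    (hH90 : ∀ f : F, f ≠ 0 → (∀ t ∈ Γ, ∃ a : K, t • f = algebraMap K F a * f) →
      ∃ a : K, a ≠ 0 ∧ ∀ t ∈ Γ, t • (algebraMap K F a * f) = algebraMap K F a * f)
    (hG1₁ : ∀ f : F, f ≠ 0 → (∀ t ∈ Γ, t • f = f) →
      ∃ a : K, a ≠ 0 ∧ (∀ t ∈ Γ, SemilinearAut.baseAut t a = a) ∧
        N.S₁.red (f / algebraMap K F a) ≠ 0)
    (hres : ∀ γ : k, ∃ (a : K) (ha : a ∈ N.S₁.A),
      (∀ t ∈ Γ, SemilinearAut.baseAut t a = a) ∧ N.S₁.res ⟨a, ha⟩ = γ) :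
    JacStatement N g NS p Γ := by
  classical
  intro l hlΓ E hE g₀ hg₀ hdiv h₁ h₂
  have hF : IsRRField K F := N.S₁.hF
  have hp' : (p : ℤ) ≠ 0 := by exact_mod_cast hp
  have hdvd : ∀ P : Place K F, (p : ℤ) ∣ P.ord g₀ := fun P => ⟨_, hdiv P⟩
  -- (R0) and (N2c)
  obtain ⟨φ, c, D, hφ0, hc0, hdeg, hredD, hordg₁, -, -⟩ := hR0 g₀ hg₀ hdvd h₁ h₂
  obtain ⟨ψ, P, hψ0, hP, hEq⟩ := NJ.nodalJacobi N g NS hg D hdeg hredD
  have hcF : algebraMap K F c ≠ 0 := by simpa using hc0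
  have hφp0 : φ ^ p ≠ 0 := pow_ne_zero _ hφ0
  have hDE : ∀ v : Place K F, D v = (E : Divisor K F) v + v.ord φ := by
    intro v
    have h := hordg₁ v
    rw [mul_assoc, repM_ord_const_mul v hc0 (mul_ne_zero hφp0 hg₀), v.ord_mul hφp0 hg₀,
      repM_ord_pow, hdiv v] at h
    have h2 : (p : ℤ) * (v.ord φ + (E : Divisor K F) v) = p * D v := by
      rw [mul_add]
      exact h
    have h3 := mul_left_cancel₀ hp' h2
    rw [← h3]
    ring
  have hφψ0 : φ * ψ ≠ 0 := mul_ne_zero hφ0 hψ0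
  have hJ : ∀ v : Place K F,
      PTor.jacobiDiv NS P v = (E : Divisor K F) v + v.ord (φ * ψ) := by
    intro v
    rw [PCov.jacobiDiv_apply, ← hEq v, hDE v, v.ord_mul hφ0 hψ0]
    ring
  -- the divisor `Dl`
  obtain ⟨Dl, hDlval⟩ : ∃ Dl : Divisor.degZero (K := K) (F := F),
      (Dl : Divisor K F) = PTor.jacobiDiv NS P :=
    ⟨⟨PTor.jacobiDiv NS P, Divisor.mem_degZero.mpr (jac_degree_jacobiDiv NS P)⟩, rfl⟩
  have hDl : Pic0.mk Dl = l := by
    rw [← hE]
    have h0 : Pic0.mk (Dl - E) = 0 := by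
      refine (QuotientAddGroup.eq_zero_iff _).mpr ?_
      refine ⟨φ * ψ, hφψ0, fun v => ?_⟩
      show ((Dl - E : Divisor.degZero (K := K) (F := F)) : Divisor K F) v = _
      rw [AddSubgroup.coe_sub, Finsupp.sub_apply, hDlval, hJ v]
      ring
    have h2 : Pic0.mk (Dl - E) = Pic0.mk Dl - Pic0.mk E := rfl
    rw [h2, sub_eq_zero] at h0
    exact h0
  -- the points are fixed
  have hPfix : ∀ t ∈ Γ, ∀ i, t • P i = P i := by
    intro t ht
    have hcl : Pic0.mk (SemilinearAut.degZeroSMulHom t Dl - Dl) = 0 := by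
      have : Pic0.mk (SemilinearAut.degZeroSMulHom t Dl - Dl) =
          t • Pic0.mk Dl - Pic0.mk Dl := rfl
      rw [this, hDl, hlΓ t ht, sub_self]
    obtain ⟨f, hf0, hfdiv⟩ := repM_exists_of_mk_eq_zero hcl
    refine jac_fixed_of_forms NS (hΓ t ht) (PTor.jacobiDiv NS P) NS.R P (hRfix t ht) hP
      (φ := 1) (ψ := f) one_ne_zero hf0 (fun v => ?_) (fun v => ?_)
    · rw [Place.ord_one, add_zero, PCov.jacobiDiv_apply]
    · have h := hfdiv v
      simp only [AddSubgroup.coe_sub, SemilinearAut.coe_degZeroSMulHom, Finsupp.sub_apply] at h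
      rw [hDlval] at h
      rw [← h]
      ring
  have hDlfix : ∀ t ∈ Γ, t • (Dl : Divisor K F) = Dl := by
    intro t ht
    rw [hDlval]
    exact jac_smul_jacobiDiv NS P t (hRfix t ht) (hPfix t ht)
  -- the Kummer generator
  have hu₁0 : g₀ * (φ * ψ) ^ p ≠ 0 := mul_ne_zero hg₀ (pow_ne_zero _ hφψ0)
  have hu₁div : ∀ v : Place K F, v.ord (g₀ * (φ * ψ) ^ p) = (p : ℤ) * PTor.jacobiDiv NS P v := by
    intro v
    rw [v.ord_mul hg₀ (pow_ne_zero _ hφψ0), repM_ord_pow, hdiv v, hJ v]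
    ring
  obtain ⟨c₁, hc₁0, hr₁, hr₂⟩ := jac_normalise NS P hP (p : ℤ) hu₁0 hu₁div
  have hc₁F : algebraMap K F c₁ ≠ 0 := by simpa using hc₁0
  obtain ⟨u₂, hu₂def⟩ : ∃ u₂ : F, u₂ = g₀ * (φ * ψ) ^ p / algebraMap K F c₁ := ⟨_, rfl⟩
  rw [← hu₂def] at hr₁ hr₂
  have hu₂0 : u₂ ≠ 0 := by
    rw [hu₂def]
    exact div_ne_zero hu₁0 hc₁F
  have hu₂div : ∀ v : Place K F, v.ord u₂ = (p : ℤ) * (Dl : Divisor K F) v := by
    intro v
    rw [hu₂def, Fermat.Agent.S18Key.kl_ord_div_const v hc₁0, hu₁div, hDlval]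
  -- Hilbert 90
  obtain ⟨a, ha0, hafix⟩ := hH90 u₂ hu₂0 (fun t ht =>
    repM_semi_of_div hF t hu₂0 (fun v => by
      rw [hu₂div, hu₂div, ← SemilinearAut.divisor_smul_apply, hDlfix t ht]))
  have haF : algebraMap K F a ≠ 0 := by simpa using ha0
  have hf0 : algebraMap K F a * u₂ ≠ 0 := mul_ne_zero haF hu₂0
  obtain ⟨b, hb0, hbrat, hbred⟩ := hG1₁ _ hf0 hafix
  have hbF : algebraMap K F b ≠ 0 := by simpa using hb0
  have e1 : algebraMap K F a * u₂ / algebraMap K F b = algebraMap K F (a / b) * u₂ := by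
    rw [map_div₀]
    field_simp
  rw [e1] at hbred
  obtain ⟨heA, hγ0, hγ⟩ := jac_const_of_unit N.S₁ hr₁ hbred
  have heA₂ : a / b ∈ N.S₂.A := N.A_eq ▸ heA
  have hγ₂ : N.S₂.red (algebraMap K F (a / b) * u₂) =
      algebraMap k Fk₂ (N.S₁.res ⟨a / b, heA⟩) := by
    have hu1 : N.S₂.red u₂ ≠ 0 := by rw [hr₂]; exact one_ne_zero
    rw [N.S₂.red_mul ((N.S₂.mem_Ov_iff _).mpr heA₂) (N.S₂.mem_of_red_ne_zero hu1), hr₂, mul_one,
      N.S₂.red_algebraMap heA₂, N.res_eq (a / b) heA heA₂]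
  obtain ⟨a', ha'A, ha'rat, ha'res⟩ := hres (N.S₁.res ⟨a / b, heA⟩)
  have ha'A₂ : a' ∈ N.S₂.A := N.A_eq ▸ ha'A
  have ha'res₂ : N.S₂.res ⟨a', ha'A₂⟩ = N.S₁.res ⟨a / b, heA⟩ := by
    rw [← N.res_eq a' ha'A ha'A₂, ha'res]
  have ha'0 : a' ≠ 0 := by
    rintro rfl
    have h0 : N.S₁.res ⟨0, ha'A⟩ = 0 := map_zero N.S₁.res
    rw [h0] at ha'res
    exact hγ0 ha'res.symm
  have ha'F : algebraMap K F a' ≠ 0 := by simpa using ha'0
  -- the function `hl`
  refine ⟨P, Dl, algebraMap K F (a / b) * u₂ / algebraMap K F a', hP, hPfix, hDlval, hDl, ?_,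
    hDlfix, ?_, ?_, ?_, ?_, ?_⟩
  · rw [hDlval]
    exact jac_redTrivial NS P hP
  · exact div_ne_zero (mul_ne_zero (by simpa using div_ne_zero ha0 hb0) hu₂0) ha'F
  · intro v
    rw [Fermat.Agent.S18Key.kl_ord_div_const v ha'0,
      repM_ord_const_mul v (div_ne_zero ha0 hb0) hu₂0, hu₂div]
  · exact jac_red_div_const N.S₁ hγ0 hγ ha'A ha'res
  · exact jac_red_div_const N.S₂ hγ0 hγ₂ ha'A₂ ha'res₂
  · intro t ht
    have h1 : algebraMap K F (a / b) * u₂ / algebraMap K F a' =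
        algebraMap K F a * u₂ / algebraMap K F b / algebraMap K F a' := by rw [e1]
    rw [h1]
    have h2 : t • (algebraMap K F a * u₂ / algebraMap K F b / algebraMap K F a') =
        t • (algebraMap K F a * u₂) / algebraMap K F (SemilinearAut.baseAut t b) /
          algebraMap K F (SemilinearAut.baseAut t a') := by
      simp only [SemilinearAut.smul_def, map_div₀, SemilinearAut.commutes]
    rw [h2, hafix t ht, hbrat t ht, ha'rat t ht]

end Fermat.Agent.PeuD
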