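/-
Row 38, block D (sub-architect helper62), seat ETA-LIFT (iii), piece (res) (helper49):
the inertia field at a place `A` of `ℚ̄` over `p` has the same residue field as `ℚ̄`.

* `resLift_exists` : for `c ∈ A` there is `c₀ ∈ A` fixed by the inertia group of `A` with
  `c - c₀ ∈ m_A`  (`c₀ = 0` or a root of unity of order prime to `p`: Teichmüller);
* `resLift_fixedField` : the same in the shape of the hypothesis `hres` of `PeuD.pivot_lift`, for
  `K0 = IntermediateField.fixedField (A.inertiaSubgroupIn ℚ)`.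
-/
import Mathlib
import Fermat.Agent.S05.H5.Inertia

set_option autoImplicit false
set_option linter.style.haveILetI false

noncomputable section

namespace Fermat.Agent.PeuD

open Polynomial

local notation "Qb" => AlgebraicClosure ℚ

/-! ### finite fields: algebraic elements have order prime to `p` -/

/-- a nonzero element of a field of characteristic `p` which is algebraic over the prime field has
finite order prime to `p`. -/
theorem resLift_pow_eq_one {k : Type*} [Field k] (p : ℕ) [Fact p.Prime] [Algebra (ZMod p) k]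
    (x : k) (hx0 : x ≠ 0) (hx : IsAlgebraic (ZMod p) x) :
    ∃ n : ℕ, 0 < n ∧ ¬ p ∣ n ∧ x ^ n = 1 := by
  classical
  haveI : FiniteDimensional (ZMod p) (IntermediateField.adjoin (ZMod p) {x}) :=
    IntermediateField.adjoin.finiteDimensional hx.isIntegral
  haveI : Finite (IntermediateField.adjoin (ZMod p) {x}) := Module.finite_of_finite (ZMod p)
  letI : Fintype (IntermediateField.adjoin (ZMod p) {x}) := Fintype.ofFinite _
  haveI : CharP (IntermediateField.adjoin (ZMod p) {x}) p :=
    charP_of_injective_algebraMap (algebraMap (ZMod p) _).injective p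
  obtain ⟨f, -, hcard⟩ := FiniteField.card (IntermediateField.adjoin (ZMod p) {x}) p
  let y : IntermediateField.adjoin (ZMod p) {x} :=
    ⟨x, IntermediateField.mem_adjoin_simple_self (ZMod p) x⟩
  have hy0 : y ≠ 0 := fun h => hx0 (congrArg Subtype.val h)
  have hpow := FiniteField.pow_card_sub_one_eq_one y hy0
  rw [hcard] at hpow
  have hp2 : 2 ≤ p := (Fact.out : p.Prime).two_le
  have hpf : p ≤ p ^ (f : ℕ) := by
    calc p = p ^ 1 := (pow_one p).symm
      _ ≤ p ^ (f : ℕ) := Nat.pow_le_pow_right (by omega) f.2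
  refine ⟨p ^ (f : ℕ) - 1, by omega, ?_, ?_⟩
  · intro hdvd
    have h1 : p ∣ p ^ (f : ℕ) := dvd_pow_self p (PNat.ne_zero f)
    have h2 : p ∣ p ^ (f : ℕ) - (p ^ (f : ℕ) - 1) := Nat.dvd_sub h1 hdvd
    have h3 : p ^ (f : ℕ) - (p ^ (f : ℕ) - 1) = 1 := by omega
    rw [h3] at h2
    have := Nat.le_of_dvd one_pos h2
    omega
  · have := congrArg Subtype.val hpow
    simpa [y] using this

/-! ### the residue field of a place of `ℚ̄` -/

variable (A : ValuationSubring Qb) {p : ℕ}

theorem resLift_natCast_mem_maximalIdeal (hA : A.LiesOverPrime p) :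
    ((p : ℕ) : A) ∈ IsLocalRing.maximalIdeal A := by
  obtain ⟨ha, h⟩ := (A.mem_nonunits_iff_exists_mem_maximalIdeal).1 hA
  have : ((p : ℕ) : A) = ⟨(p : Qb), ha⟩ := Subtype.ext (by simp)
  rw [this]
  exact h

theorem resLift_charP (hp : p.Prime) (hA : A.LiesOverPrime p) :
    CharP (IsLocalRing.ResidueField A) p := by
  rw [CharP.charP_iff_prime_eq_zero hp]
  have h := resLift_natCast_mem_maximalIdeal A hA
  rw [← IsLocalRing.residue_eq_zero_iff] at h
  simpa using h

/-- the residue of an element of `A` is algebraic over the prime field. -/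
theorem resLift_isAlgebraic [Fact p.Prime] [Algebra (ZMod p) (IsLocalRing.ResidueField A)]
    (c : A) : IsAlgebraic (ZMod p) (IsLocalRing.residue A c) := by
  -- a primitive integral equation of `c`
  have h1 : IsAlgebraic ℚ (c : Qb) := (AlgebraicClosure.isAlgebraic ℚ).isAlgebraic _
  have h2 : IsAlgebraic ℤ (c : Qb) := (IsFractionRing.isAlgebraic_iff ℤ ℚ Qb).mpr h1
  obtain ⟨P, hP0, hP⟩ := h2
  have hQ : aeval (c : Qb) P.primPart = 0 := aeval_primPart_eq_zero hP0 hP
  have hprim : P.primPart.IsPrimitive := P.isPrimitive_primPart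
  refine ⟨P.primPart.map (Int.castRingHom (ZMod p)), ?_, ?_⟩
  · intro h0
    have hdvd : C (p : ℤ) ∣ P.primPart := by
      rw [C_dvd_iff_dvd_coeff]
      intro i
      have := congrArg (fun R : (ZMod p)[X] => R.coeff i) h0
      simp only [coeff_map, coeff_zero, eq_intCast] at this
      exact (ZMod.intCast_zmod_eq_zero_iff_dvd _ p).mp this
    have hu := hprim _ hdvd
    have hp : p.Prime := Fact.out
    rw [Int.isUnit_iff] at hu
    rcases hu with hu | hu
    · have : p = 1 := by exact_mod_cast hu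
      exact hp.one_lt.ne' this
    · have h3 : (0 : ℤ) ≤ p := Int.natCast_nonneg p
      omega
  · -- the equation holds in `A`, hence in the residue field
    have hA0 : eval₂ (Int.castRingHom A) c P.primPart = 0 := by
      apply Subtype.ext
      have h4 : ((eval₂ (Int.castRingHom A) c P.primPart : A) : Qb)
          = eval₂ (Int.castRingHom Qb) (c : Qb) P.primPart := by
        have := hom_eval₂ P.primPart (Int.castRingHom A) A.subtype c
        rw [RingHom.eq_intCast' (A.subtype.comp (Int.castRingHom A))] at this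
        exact this
      rw [h4, ZeroMemClass.coe_zero, ← hQ, aeval_def]
      congr 1
    rw [aeval_def, eval₂_map]
    have h5 : (algebraMap (ZMod p) (IsLocalRing.ResidueField A)).comp (Int.castRingHom (ZMod p))
        = (IsLocalRing.residue A).comp (Int.castRingHom A) :=
      (RingHom.eq_intCast' _).trans (RingHom.eq_intCast' _).symm
    rw [h5, ← hom_eval₂, hA0, map_zero]

/-- **finite order of the residues**: an element of `A` is in `m_A` or a power of it, of
exponent prime to `p`, is `≡ 1`. -/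
theorem resLift_pow_sub_one (hp : p.Prime) (hA : A.LiesOverPrime p) {c : Qb} (hc : c ∈ A) :
    c ∈ A.nonunits ∨ ∃ n : ℕ, 0 < n ∧ ¬ p ∣ n ∧ c ^ n - 1 ∈ A.nonunits := by
  haveI : Fact p.Prime := ⟨hp⟩
  haveI := resLift_charP A hp hA
  letI : Algebra (ZMod p) (IsLocalRing.ResidueField A) := ZMod.algebra _ p
  by_cases h0 : IsLocalRing.residue A ⟨c, hc⟩ = 0
  · left
    rw [IsLocalRing.residue_eq_zero_iff] at h0
    exact (A.mem_nonunits_iff_exists_mem_maximalIdeal).2 ⟨hc, h0⟩
  · right
    obtain ⟨n, hn, hpn, hpow⟩ := resLift_pow_eq_one p _ h0 (resLift_isAlgebraic A ⟨c, hc⟩)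
    refine ⟨n, hn, hpn, ?_⟩
    have h1 : IsLocalRing.residue A ((⟨c, hc⟩ : A) ^ n - 1) = 0 := by
      rw [map_sub, map_pow, hpow, map_one, sub_self]
    rw [IsLocalRing.residue_eq_zero_iff] at h1
    exact (A.mem_nonunits_iff_exists_mem_maximalIdeal).2 ⟨_, h1⟩

/-! ### roots of unity -/

theorem resLift_val_lt_one_iff {a : Qb} : a ∈ A.nonunits ↔ A.valuation a < 1 :=
  A.mem_nonunits_iff

/-- a root of unity is a unit of `A`. -/
theorem resLift_val_root {ζ : Qb} {n : ℕ} (hn : 0 < n) (hζ : ζ ^ n = 1) :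
    A.valuation ζ = 1 := by
  have h1 : A.valuation ζ ^ n = 1 := by rw [← map_pow, hζ, map_one]
  exact (pow_eq_one_iff_of_nonneg zero_le hn.ne').mp h1

/-- a natural number prime to `p` is a unit of `A`. -/
theorem resLift_val_natCast (hp : p.Prime) (hA : A.LiesOverPrime p) {n : ℕ} (hpn : ¬ p ∣ n) :
    A.valuation (n : Qb) = 1 := by
  have hle : A.valuation (n : Qb) ≤ 1 := (A.valuation_le_one_iff _).2 (natCast_mem A n)
  refine le_antisymm hle ?_
  by_contra hlt
  rw [not_le] at hlt
  have hcop : Nat.Coprime n p := ((Nat.Prime.coprime_iff_not_dvd hp).mpr hpn).symm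
  obtain ⟨m, -, hm⟩ := Nat.exists_mul_mod_eq_one_of_coprime hcop hp.one_lt
  have hdiv := Nat.div_add_mod (n * m) p
  rw [hm] at hdiv
  -- `1 = n m - p t`
  have h1 : (1 : Qb) = (n : Qb) * (m : Qb) - (p : Qb) * ((n * m / p : ℕ) : Qb) := by
    have : ((p * (n * m / p) + 1 : ℕ) : Qb) = ((n * m : ℕ) : Qb) := by rw [hdiv]
    push_cast at this
    linear_combination this
  have h2 : A.valuation ((n : Qb) * (m : Qb)) < 1 := by
    rw [map_mul]
    calc A.valuation (n : Qb) * A.valuation (m : Qb)
        ≤ A.valuation (n : Qb) * 1 :=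
          mul_le_mul' le_rfl ((A.valuation_le_one_iff _).2 (natCast_mem A m))
      _ = A.valuation (n : Qb) := mul_one _
      _ < 1 := hlt
  have h3 : A.valuation ((p : Qb) * ((n * m / p : ℕ) : Qb)) < 1 := by
    rw [map_mul]
    calc A.valuation (p : Qb) * A.valuation ((n * m / p : ℕ) : Qb)
        ≤ A.valuation (p : Qb) * 1 :=
          mul_le_mul' le_rfl ((A.valuation_le_one_iff _).2 (natCast_mem A _))
      _ = A.valuation (p : Qb) := mul_one _
      _ < 1 := (resLift_val_lt_one_iff A).mp hA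
  have h4 : A.valuation (1 : Qb) < 1 := by
    rw [h1]
    exact Valuation.map_sub_lt _ h2 h3
  rw [map_one] at h4
  exact lt_irrefl _ h4

/-- two roots of unity of order prime to `p` which are congruent modulo `m_A` are equal. -/
theorem resLift_root_eq (hp : p.Prime) (hA : A.LiesOverPrime p) {n : ℕ} (hn : 0 < n)
    (hpn : ¬ p ∣ n) {ζ ζ' : Qb} (hζ : ζ ^ n = 1) (hζ' : ζ' ^ n = 1)
    (h : ζ' - ζ ∈ A.nonunits) : ζ' = ζ := by
  by_contra hne
  have hζ0 : ζ ≠ 0 := by
    rintro rfl
    rw [zero_pow hn.ne'] at hζ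
    exact zero_ne_one hζ
  set η : Qb := ζ' * ζ⁻¹ with hη
  have hηn : η ^ n = 1 := by rw [hη, mul_pow, inv_pow, hζ, hζ', inv_one, mul_one]
  have hη1 : η ≠ 1 := by
    intro h1
    apply hne
    have : ζ' = η * ζ := by rw [hη, mul_assoc, inv_mul_cancel₀ hζ0, mul_one]
    rw [this, h1, one_mul]
  have hvη : A.valuation η = 1 := resLift_val_root A hn hηn
  have hvη1 : A.valuation (η - 1) < 1 := by
    have : η - 1 = (ζ' - ζ) * ζ⁻¹ := by rw [hη, sub_mul, mul_inv_cancel₀ hζ0]
    rw [this, map_mul, map_inv₀, resLift_val_root A hn hζ, inv_one, mul_one]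
    exact (resLift_val_lt_one_iff A).mp h
  -- the geometric sum vanishes
  have hsum : ∑ i ∈ Finset.range n, η ^ i = 0 := by
    have h1 := geom_sum_mul η n
    rw [hηn, sub_self] at h1
    rcases mul_eq_zero.mp h1 with h2 | h2
    · exact h2
    · exact absurd (sub_eq_zero.mp h2) hη1
  -- but it is `≡ n`
  have hpow : ∀ i : ℕ, A.valuation (η ^ i - 1) < 1 := by
    intro i
    rw [← mul_geom_sum η i, map_mul]
    have hle : A.valuation (∑ j ∈ Finset.range i, η ^ j) ≤ 1 := by
      apply Valuation.map_sum_le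
      intro j _
      rw [map_pow, hvη, one_pow]
    calc A.valuation (η - 1) * A.valuation (∑ j ∈ Finset.range i, η ^ j)
        ≤ A.valuation (η - 1) * 1 := mul_le_mul' le_rfl hle
      _ = A.valuation (η - 1) := mul_one _
      _ < 1 := hvη1
  have hn1 : A.valuation (∑ i ∈ Finset.range n, (η ^ i - 1)) < 1 :=
    Valuation.map_sum_lt _ one_ne_zero fun i _ => hpow i
  rw [Finset.sum_sub_distrib, hsum, Finset.sum_const, Finset.card_range, nsmul_eq_mul, mul_one,
    zero_sub, Valuation.map_neg, resLift_val_natCast A hp hA hpn] at hn1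
  exact lt_irrefl _ hn1

/-! ### the lifting -/

/-- **(res)**: every element of `A` is congruent modulo `m_A` to an element of `A` which is fixed
by the inertia group. -/
theorem resLift_exists (hp : p.Prime) (hA : A.LiesOverPrime p) {c : Qb} (hc : c ∈ A) :
    ∃ c₀ : Qb, c₀ ∈ A ∧ (∀ σ ∈ A.inertiaSubgroupIn ℚ, σ c₀ = c₀) ∧ c - c₀ ∈ A.nonunits := by
  classical
  rcases resLift_pow_sub_one A hp hA hc with h0 | ⟨n, hn, hpn, hcn⟩
  · exact ⟨0, zero_mem A, fun σ _ => map_zero σ, by rwa [sub_zero]⟩
  · -- the roots of `X ^ n - 1`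
    have hn0 : (n : ℚ) ≠ 0 := by exact_mod_cast hn.ne'
    haveI : NeZero (n : ℚ) := ⟨hn0⟩
    obtain ⟨ζ₀, hζ₀⟩ := HasEnoughRootsOfUnity.exists_primitiveRoot Qb n
    have hprod := X_pow_sub_one_eq_prod hn hζ₀
    have heval : c ^ n - 1 = ∏ ζ ∈ nthRootsFinset n (1 : Qb), (c - ζ) := by
      have := congrArg (eval c) hprod
      simpa [eval_prod] using this
    -- some factor is in `m_A`
    have hex : ∃ ζ ∈ nthRootsFinset n (1 : Qb), A.valuation (c - ζ) < 1 := by
      by_contra hcon
      push Not at hcon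
      have hone : ∀ ζ ∈ nthRootsFinset n (1 : Qb), A.valuation (c - ζ) = 1 := by
        intro ζ hζ
        refine le_antisymm ?_ (hcon ζ hζ)
        have hζn : ζ ^ n = 1 := (mem_nthRootsFinset hn (1 : Qb)).mp hζ
        have hζA : ζ ∈ A := (A.valuation_le_one_iff _).1 (resLift_val_root A hn hζn).le
        exact (A.valuation_le_one_iff _).2 (sub_mem hc hζA)
      have h1 : A.valuation (c ^ n - 1) = 1 := by
        rw [heval, map_prod]
        exact Finset.prod_eq_one hone
      have h2 := (resLift_val_lt_one_iff A).mp hcn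
      rw [h1] at h2
      exact lt_irrefl _ h2
    obtain ⟨ζ, hζ, hlt⟩ := hex
    have hζn : ζ ^ n = 1 := (mem_nthRootsFinset hn (1 : Qb)).mp hζ
    have hζA : ζ ∈ A := (A.valuation_le_one_iff _).1 (resLift_val_root A hn hζn).le
    refine ⟨ζ, hζA, fun σ hσ => ?_, (resLift_val_lt_one_iff A).mpr hlt⟩
    apply resLift_root_eq A hp hA hn hpn hζn
    · rw [← map_pow, hζn, map_one]
    · exact S05H5.inertiaIn_sub_mem_nonunits A σ hσ hζA

/-- **(res)** in the shape of `PeuD.pivot_lift`, for the inertia field `K0`. -/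
theorem resLift_fixedField (hp : p.Prime) (hA : A.LiesOverPrime p) (c : Qb)
    (hc : A.valuation c ≤ 1) :
    ∃ c₀ : IntermediateField.fixedField (A.inertiaSubgroupIn ℚ),
      A.valuation (c - algebraMap (IntermediateField.fixedField (A.inertiaSubgroupIn ℚ)) Qb c₀)
        < 1 := by
  obtain ⟨c₀, -, hfix, hlt⟩ := resLift_exists A hp hA ((A.valuation_le_one_iff c).1 hc)
  refine ⟨⟨c₀, ?_⟩, (resLift_val_lt_one_iff A).mp hlt⟩
  rw [IntermediateField.mem_fixedField_iff]
  exact fun σ hσ => hfix σ hσ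

end Fermat.Agent.PeuD
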