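/-
Row 38, block D (INT), seat JAC-MOD (helper12).  Sub-architect: helper62 (note "block D WIRING
v2").

The MODULAR instance of (JAC) (`exists_jac`, `seed_jac`) at the modular nodal setup
`kpN D A hq hA hqR haux` of level `D.Q * D.R`, `p = D.Q`, `A | p`:

`jac_mod` : `Γ₀` a subgroup of the inertia group of `A`, `σ` in the inertia group, `y` a
`p`-torsion class such that `l = σ • y - y` is fixed by `Γ₀`.  Then `l` has a representative `Dl`
(ordinary with trivial reduction: `RedTrivial`) and a Kummer generator `hl` (`div hl = p Dl`) with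
`red₁ hl = 1 = red₂ hl`, and BOTH `Dl` and `hl` are fixed by (the image of) `Γ₀`.

Inputs: `PNew.smul_sub_hasRedOneGen` (E1: `l ∈ K'`), `seed_jac` (JAC, seed form),
`h90_mod_subgroup` (H90-MOD, helper97), `gau_G1₁` (GAU, helper64), `resLift_exists` (RES,
helper64), and, as a HYPOTHESIS, (LiftFix) for the modular seed:
`SeedLiftFix (kpSeed D A hq hA hqR haux) (kpΓ D A)` (helper75 / helper32, JacNSMod).
-/
import Mathlib
import Fermat.Agent.Lib.BadRed.PeuD.JacSeed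
import Fermat.Agent.Lib.BadRed.PeuD.H90Mod
import Fermat.Agent.Lib.BadRed.PeuD.GaussWire
import Fermat.Agent.Lib.BadRed.PeuD.ResLift
import Fermat.Agent.Lib.BadRed.PNew.SpDef
import Fermat.Agent.E.Desc.Kp.ModFinal

set_option autoImplicit false
set_option linter.style.haveILetI false
set_option linter.unusedSectionVars false
set_option linter.unusedVariables false
set_option synthInstance.maxHeartbeats 400000
set_option maxHeartbeats 1000000

noncomputable section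

namespace Fermat.Agent.PeuD

open IntermediateField ModularCurve AlgebraicCurve Fermat.Agent.F3 Fermat.Agent.F3G
  Fermat.Agent.GaussInt Fermat.Agent.AtkinLehner Fermat.Agent.Deuring Fermat.Agent.RR
  Fermat.Agent.BadRed Fermat.Agent.F3I2 Fermat.Agent.EKp

local notation "Qb" => AlgebraicClosure ℚ
local notation "GQb" => (AlgebraicClosure ℚ ≃ₐ[ℚ] AlgebraicClosure ℚ)

attribute [local instance] Fermat.Agent.BadRed.fwFintype

variable (D : ALData) [NeZero D.Q] [NeZero D.R] [NeZero (D.Q * D.R)]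
  (A : ValuationSubring Qb) (hq : D.Q.Prime) (hA : A.LiesOverPrime D.Q) (hqR : ¬ D.Q ∣ D.R)
  [Fact D.Q.Prime] [CharP (IsLocalRing.ResidueField A) D.Q]
  [PerfectRing (IsLocalRing.ResidueField A) D.Q]

/-- the image of a subgroup of `G_ℚ` in the semilinear automorphisms of `F_{QR}`. -/
def jacΓ (Γ₀ : Subgroup GQb) : Subgroup (SemilinearAut Qb (modularFunctionFieldBar (D.Q * D.R))) :=
  Γ₀.map (arithmeticGalois (modularFunctionFieldFull (D.Q * D.R)))

theorem mem_jacΓ {Γ₀ : Subgroup GQb} {τ : GQb} (hτ : τ ∈ Γ₀) :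
    arithmeticGalois (modularFunctionFieldFull (D.Q * D.R)) τ ∈ jacΓ D Γ₀ :=
  ⟨τ, hτ, rfl⟩

/-- the modular nodal package behind `kpN`. -/
def jacM (haux : AuxLevelOK D.Q D.R) : ModularNodal D A :=
  fwModularNodal D A hq hA hqR (kpS D A hq hA hqR) (isGaussSetup_gaussSetupBad D hq hqR A hA)
    (hasLattice_gaussSetupBad D hq hqR A hA) haux
    (fw_sep D A hq hA hqR _ (isGaussSetup_gaussSetupBad D hq hqR A hA) haux)

theorem jacM_N (haux : AuxLevelOK D.Q D.R) :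
    (jacM D A hq hA hqR haux).N = kpN D A hq hA hqR haux := rfl

/-- a function with Gauss reduction `1` has `S₁`-reduction `1`. -/
theorem jac_red_eq_one_of_redAt {f : FBar (D.Q * D.R)}
    (h : RedAt A (AlgEquiv.refl : FBar (D.Q * D.R) ≃ₐ[Qb] FBar (D.Q * D.R)) f 1) :
    (kpS D A hq hA hqR).red f = 1 := by
  have hS := isGaussSetup_gaussSetupBad D hq hqR A hA
  obtain ⟨hmem, hres⟩ := h
  rw [AlgEquiv.coe_refl, id] at hmem hres
  have hmem' : f ∈ (kpS D A hq hA hqR).Ov := (hS.mem_iff f).mpr hmem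
  apply Subtype.ext
  rw [hS.coe_red f hmem', hres]
  rfl

/-- **(RES)** for the constants: every residue class contains an inertia-fixed element. -/
theorem jac_res (γ : IsLocalRing.ResidueField A) :
    ∃ (a : Qb) (ha : a ∈ (kpS D A hq hA hqR).A),
      (∀ σ ∈ A.inertiaSubgroupIn ℚ, σ a = a) ∧ (kpS D A hq hA hqR).res ⟨a, ha⟩ = γ := by
  have hS := isGaussSetup_gaussSetupBad D hq hqR A hA
  obtain ⟨⟨x, hx⟩, rfl⟩ := (kpS D A hq hA hqR).res_surj γ
  have hxA : x ∈ A := hS.A_eq ▸ hx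
  obtain ⟨c₀, hc₀A, hfix, hsub⟩ := resLift_exists A hq hA hxA
  have hc₀S : c₀ ∈ (kpS D A hq hA hqR).A := hS.A_eq.symm ▸ hc₀A
  refine ⟨c₀, hc₀S, hfix, ?_⟩
  rw [hS.res_eq c₀ hc₀S hc₀A, hS.res_eq x hx hxA]
  have h1 : IsLocalRing.residue A (⟨x, hxA⟩ - ⟨c₀, hc₀A⟩) = 0 := by
    rw [IsLocalRing.residue_eq_zero_iff]
    exact ((A.mem_nonunits_iff_exists_mem_maximalIdeal).1 hsub).2
  rw [map_sub, sub_eq_zero] at h1
  exact h1.symm

/-- **JAC-MOD**, with (LiftFix) for the modular seed as a hypothesis. -/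
theorem jac_mod (haux : AuxLevelOK D.Q D.R) (Γ₀ : Subgroup GQb)
    (hΓ₀ : ∀ τ ∈ Γ₀, τ ∈ A.inertiaSubgroupIn ℚ)
    (hfix : SeedLiftFix (kpSeed D A hq hA hqR haux) (kpΓ D A))
    {σ : GQb} (hσ : σ ∈ A.inertiaSubgroupIn ℚ) {y : JZero (D.Q * D.R)} (hy : D.Q • y = 0)
    (hl : ∀ τ ∈ Γ₀, τ • (σ • y - y) = σ • y - y) :
    ∃ (Dl : Divisor.degZero (K := Qb) (F := FBar (D.Q * D.R))) (hl : FBar (D.Q * D.R)),
      (Pic0.mk Dl : JZero (D.Q * D.R)) = σ • y - y ∧ hl ≠ 0 ∧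
      (∀ v : Place Qb (FBar (D.Q * D.R)), v.ord hl = D.Q * (Dl : Divisor Qb (FBar (D.Q * D.R))) v) ∧
      (kpN D A hq hA hqR haux).S₁.red hl = 1 ∧ (kpN D A hq hA hqR haux).S₂.red hl = 1 ∧
      (kpN D A hq hA hqR haux).RedTrivial (Dl : Divisor Qb (FBar (D.Q * D.R))) ∧
      (∀ t ∈ jacΓ D Γ₀, t • (Dl : Divisor Qb (FBar (D.Q * D.R))) = Dl) ∧
      (∀ t ∈ jacΓ D Γ₀, t • hl = hl) := by
  classical
  haveI := infinite_residue A
  haveI := Fermat.Agent.GaussInt.isAlgClosed_residue A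
  haveI : Nonempty (kpIota D A hq hA hqR) :=
    fw_nonempty D A hq hA (kpS D A hq hA hqR) (isGaussSetup_gaussSetupBad D hq hqR A hA)
  have hS := isGaussSetup_gaussSetupBad D hq hqR A hA
  -- the group is inertial
  have hΓin : ∀ t ∈ jacΓ D Γ₀, (kpSeed D A hq hA hqR haux).nodalSetup.IsInertial t := by
    rintro _ ⟨τ, hτ, rfl⟩
    exact kpΓ_isInertial D A hq hA hqR haux _ ⟨τ, hΓ₀ τ hτ, rfl⟩
  have hfix' : SeedLiftFix (kpSeed D A hq hA hqR haux)
      ((jacΓ D Γ₀ : Subgroup _) : Set (SemilinearAut Qb (modularFunctionFieldBar (D.Q * D.R)))) := by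
    intro m f hf h₁ h₂
    obtain ⟨g, hg, hg₁, hg₂, hr₁, hr₂, hgfix⟩ := hfix m f hf h₁ h₂
    refine ⟨g, hg, hg₁, hg₂, hr₁, hr₂, ?_⟩
    rintro _ ⟨τ, hτ, rfl⟩
    exact hgfix _ ⟨τ, hΓ₀ τ hτ, rfl⟩
  -- the constants
  have hH90 := h90_mod_subgroup (modularFunctionFieldFull (D.Q * D.R)) (jacΓ D Γ₀)
    (h90_map_arith (modularFunctionFieldFull (D.Q * D.R)) Γ₀)
  have hG1 : ∀ f : FBar (D.Q * D.R), f ≠ 0 → (∀ t ∈ jacΓ D Γ₀, t • f = f) →
      ∃ a : Qb, a ≠ 0 ∧ (∀ t ∈ jacΓ D Γ₀, SemilinearAut.baseAut t a = a) ∧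
        (kpSeed D A hq hA hqR haux).nodalSetup.S₁.red
          (f / algebraMap Qb (FBar (D.Q * D.R)) a) ≠ 0 := by
    intro f hf0 hffix
    obtain ⟨c, hcfix, hcred⟩ := gau_G1₁ (jacM D A hq hA hqR haux) hq hA (Γ₀ : Set GQb) f hf0
      (by
        rintro _ ⟨τ, hτ, rfl⟩
        exact hffix _ (mem_jacΓ D hτ))
    refine ⟨c, ?_, ?_, hcred⟩
    · rintro rfl
      apply hcred
      rw [map_zero, div_zero]
      exact ValSetup.red_zero _
    · rintro _ ⟨τ, hτ, rfl⟩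
      exact hcfix _ (mem_gauH hτ)
  have hres : ∀ γ : IsLocalRing.ResidueField A,
      ∃ (a : Qb) (ha : a ∈ (kpSeed D A hq hA hqR haux).nodalSetup.S₁.A),
        (∀ t ∈ jacΓ D Γ₀, SemilinearAut.baseAut t a = a) ∧
          (kpSeed D A hq hA hqR haux).nodalSetup.S₁.res ⟨a, ha⟩ = γ := by
    intro γ
    obtain ⟨a, ha, hafix, hares⟩ := jac_res D A hq hA hqR γ
    refine ⟨a, ha, ?_, hares⟩
    rintro _ ⟨τ, hτ, rfl⟩
    exact hafix τ (hΓ₀ τ hτ)
  obtain ⟨NS, -, -, hJ⟩ := seed_jac (kpSeed D A hq hA hqR haux) D.Q (jacΓ D Γ₀) hΓin hfix'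
    hH90 hG1 hres
  -- the class `l` lies in `K'`
  have hy1 : (D.Q ^ 1) • y = 0 := by rwa [pow_one]
  obtain ⟨E, g, hR, hE, hr1, hr2⟩ :=
    PNew.smul_sub_hasRedOneGen (D := D) (hM := rfl) (A := A) (p := D.Q) hq hA hq.ne_zero hy1 hσ
  rw [pow_one] at hR
  have hg0 : g ≠ 0 := hR.1
  have hred₁ : (kpS D A hq hA hqR).red g = 1 := jac_red_eq_one_of_redAt D A hq hA hqR hr1
  have hred₂ : (valSetupZero D (kpS D A hq hA hqR)).red g = 1 := by
    rw [valSetupZero_red]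
    apply jac_red_eq_one_of_redAt D A hq hA hqR
    have h := hr2
    rw [show wAt D rfl = atkinLehner D from wAt_eq_rfl D] at h
    exact h
  have hlΓ : ∀ t ∈ jacΓ D Γ₀, t • (σ • y - y) = σ • y - y := by
    rintro _ ⟨τ, hτ, rfl⟩
    exact hl τ hτ
  obtain ⟨P, Dl, hlf, hP, hPfix, hDlval, hDl, hRT, hDlfix, hlf0, hlfdiv, hlf₁, hlf₂, hlffix⟩ :=
    hJ (σ • y - y) hlΓ E hE g hg0 (fun v => (hR.2 v).symm)
      ⟨1, one_ne_zero, 1, one_ne_zero, by
        rw [map_one, div_one, one_pow]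
        exact hred₁⟩
      ⟨1, one_ne_zero, 1, one_ne_zero, by
        rw [map_one, div_one, one_pow]
        exact hred₂⟩
  exact ⟨Dl, hlf, hDl, hlf0, hlfdiv, hlf₁, hlf₂, hRT, hDlfix, hlffix⟩

end Fermat.Agent.PeuD
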