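import Fermat.Agent.S17.Rat.Modular
import Fermat.Agent.Lib.BadRed.Final.Nodal

set_option autoImplicit false
set_option linter.style.haveILetI false
set_option linter.unusedSectionVars false
set_option linter.unusedVariables false
set_option synthInstance.maxHeartbeats 400000
set_option maxHeartbeats 1000000

/-!
# Row 38, block D, ETA-LIFT (iii), seat (L2): the span hypothesis of the lattice lift

For a divisor `D₀` of a base-changed function field `F = ℚ̄ · F₀` that is stable under the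
arithmetic action of `G_ℚ`, the Riemann–Roch space `L(D₀)` is `G_ℚ`-stable, hence (Galois
descent, `Fermat.Agent.S17.RatDesc.span_fixed_general`) it is spanned by its `G_ℚ`-fixed
vectors; a fortiori by the vectors fixed by any subset `Γ` of `G_ℚ`, e.g. an inertia group.

* `liftRat_rr_stable`      : `L(D₀)` is `G_ℚ`-stable;
* `liftRat_nsmul_stable`   : `m • D₀` is `G_ℚ`-stable;
* `liftRat_span_general`   : `L(D₀) ≤ span {f ∈ L(D₀) | ∀ τ ∈ Γ, τ • f = f}`;
* `liftRat_span_modular`   : the same for `modularFunctionFieldBar N` and `m • D₀`;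
* `liftRat_fwSeed_stable`  : the divisor `D₀` of the modular seed `fwSeed` is `G_ℚ`-stable;
* `liftRat_span_fwSeed`    : **(span)** for the modular seed and the inertia group of `A`;
* `liftRat_span_fwSeed_univ` : the same with `G_ℚ`-fixed vectors;
* `liftRat_fixed_family_general` : a basis of `L(D₀)` of `G_ℚ`-fixed vectors (finite-dim. case).
-/

noncomputable section

namespace Fermat.Agent.PeuD

open IntermediateField ModularCurve AlgebraicCurve Fermat.Agent.F3 Fermat.Agent.F3G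
  Fermat.Agent.GaussInt
  Fermat.Agent.AtkinLehner Fermat.Agent.Deuring Fermat.Agent.RR Fermat.Agent.BadRed
  Fermat.Agent.BadRed.SeedNode Fermat.Agent.BadRed.SeedPoles

local notation "Qb" => AlgebraicClosure ℚ

section General

variable (F₀ : IntermediateField ℚ (LaurentSeries ℚ))

/-- the Riemann–Roch space of a `G_ℚ`-stable divisor is `G_ℚ`-stable. -/
theorem liftRat_rr_stable (D₀ : Divisor Qb (laurentBaseChange Qb F₀))
    (hD₀ : ∀ (σ : Qb ≃ₐ[ℚ] Qb) (P : Place Qb (laurentBaseChange Qb F₀)),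
      D₀ (arithmeticGalois F₀ σ • P) = D₀ P)
    (σ : Qb ≃ₐ[ℚ] Qb) (f : laurentBaseChange Qb F₀) (hf : f ∈ riemannRochSpace D₀) :
    arithmeticGalois F₀ σ • f ∈ riemannRochSpace D₀ := by
  rw [mem_riemannRochSpace_iff] at hf ⊢
  intro v
  rcases hf ((arithmeticGalois F₀ σ)⁻¹ • v) with h | h
  · left
    rw [h, smul_zero]
  · right
    have h1 := SemilinearAut.ord_smul (arithmeticGalois F₀ σ) ((arithmeticGalois F₀ σ)⁻¹ • v) f
    rw [smul_inv_smul] at h1
    have h2 := hD₀ σ ((arithmeticGalois F₀ σ)⁻¹ • v)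
    rw [smul_inv_smul] at h2
    rw [h1, h2]
    exact h

/-- multiples of a `G_ℚ`-stable divisor are `G_ℚ`-stable. -/
theorem liftRat_nsmul_stable (D₀ : Divisor Qb (laurentBaseChange Qb F₀))
    (hD₀ : ∀ (σ : Qb ≃ₐ[ℚ] Qb) (P : Place Qb (laurentBaseChange Qb F₀)),
      D₀ (arithmeticGalois F₀ σ • P) = D₀ P) (m : ℕ)
    (σ : Qb ≃ₐ[ℚ] Qb) (P : Place Qb (laurentBaseChange Qb F₀)) :
    (m • D₀) (arithmeticGalois F₀ σ • P) = (m • D₀) P := by
  rw [Finsupp.smul_apply, Finsupp.smul_apply, hD₀ σ P]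

/-- **(span), general form**: the Riemann–Roch space of a `G_ℚ`-stable divisor is spanned by its
vectors fixed by `Γ`, for every subset `Γ` of `G_ℚ`. -/
theorem liftRat_span_general (D₀ : Divisor Qb (laurentBaseChange Qb F₀))
    (hD₀ : ∀ (σ : Qb ≃ₐ[ℚ] Qb) (P : Place Qb (laurentBaseChange Qb F₀)),
      D₀ (arithmeticGalois F₀ σ • P) = D₀ P)
    (Γ : Set (Qb ≃ₐ[ℚ] Qb)) :
    riemannRochSpace D₀ ≤ Submodule.span Qb
      {f | f ∈ riemannRochSpace D₀ ∧ ∀ τ ∈ Γ, arithmeticGalois F₀ τ • f = f} := by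
  have h := Fermat.Agent.S17.RatDesc.span_fixed_general F₀ (riemannRochSpace D₀)
    (fun σ f hf => liftRat_rr_stable F₀ D₀ hD₀ σ f hf)
  have h2 : Submodule.span Qb {f | f ∈ riemannRochSpace D₀ ∧
        ∀ σ : Qb ≃ₐ[ℚ] Qb, arithmeticGalois F₀ σ • f = f} ≤
      Submodule.span Qb
        {f | f ∈ riemannRochSpace D₀ ∧ ∀ τ ∈ Γ, arithmeticGalois F₀ τ • f = f} :=
    Submodule.span_mono fun f hf => ⟨hf.1, fun τ _ => hf.2 τ⟩
  exact h.symm.le.trans h2

/-- a basis of `G_ℚ`-fixed vectors of the Riemann–Roch space of a `G_ℚ`-stable divisor, as a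
family. -/
theorem liftRat_fixed_family_general (D₀ : Divisor Qb (laurentBaseChange Qb F₀))
    (hD₀ : ∀ (σ : Qb ≃ₐ[ℚ] Qb) (P : Place Qb (laurentBaseChange Qb F₀)),
      D₀ (arithmeticGalois F₀ σ • P) = D₀ P)
    [FiniteDimensional Qb (riemannRochSpace D₀)] :
    ∃ (n : ℕ) (b : Fin n → laurentBaseChange Qb F₀), LinearIndependent Qb b ∧
      Submodule.span Qb (Set.range b) = riemannRochSpace D₀ ∧
      ∀ (i : Fin n) (σ : Qb ≃ₐ[ℚ] Qb), arithmeticGalois F₀ σ • b i = b i :=
  Fermat.Agent.S17.RatDesc.exists_fixed_family_general F₀ (riemannRochSpace D₀)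
    (fun σ f hf => liftRat_rr_stable F₀ D₀ hD₀ σ f hf)

end General

section Modular

variable (N : ℕ)

/-- **(span), modular form**, for the multiples `m • D₀` of a `G_ℚ`-stable divisor of the
modular function field of level `N`. -/
theorem liftRat_span_modular (D₀ : Divisor Qb (modularFunctionFieldBar N))
    (hD₀ : ∀ (σ : Qb ≃ₐ[ℚ] Qb) (P : Place Qb (modularFunctionFieldBar N)),
      D₀ (arithmeticGalois (modularFunctionFieldFull N) σ • P) = D₀ P)
    (Γ : Set (Qb ≃ₐ[ℚ] Qb)) (m : ℕ) :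
    riemannRochSpace (m • D₀) ≤ Submodule.span Qb
      {f | f ∈ riemannRochSpace (m • D₀) ∧
        ∀ τ ∈ Γ, arithmeticGalois (modularFunctionFieldFull N) τ • f = f} :=
  liftRat_span_general (modularFunctionFieldFull N) (m • D₀)
    (liftRat_nsmul_stable (modularFunctionFieldFull N) D₀ hD₀ m) Γ

end Modular

section FwSeed

attribute [local instance] fwFintype

variable (D : ALData) [NeZero D.Q] [NeZero D.R] [NeZero (D.Q * D.R)]
  (A : ValuationSubring Qb) (hq : D.Q.Prime) (hA : A.LiesOverPrime D.Q) (hqR : ¬ D.Q ∣ D.R)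
  (S : ValSetup Qb (modularFunctionFieldBar (D.Q * D.R)) (IsLocalRing.ResidueField A)
    (modularFunctionFieldFullC (IsLocalRing.ResidueField A) D.R))
  (hS : IsGaussSetup (D.Q * D.R) D.R A S) (hL : HasLattice S)
  [Fact D.Q.Prime] [CharP (IsLocalRing.ResidueField A) D.Q]
  [PerfectRing (IsLocalRing.ResidueField A) D.Q]

/-- the divisor `D₀` of the modular seed is `G_ℚ`-stable. -/
theorem liftRat_fwSeed_stable (haux : AuxLevelOK D.Q D.R) (hsep : FwSep D A S)
    (σ : Qb ≃ₐ[ℚ] Qb) (P : Place Qb (modularFunctionFieldBar (D.Q * D.R))) :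
    (fwSeed D A hq hA hqR S hS hL haux hsep).D₀
        (arithmeticGalois (modularFunctionFieldFull (D.Q * D.R)) σ • P) =
      (fwSeed D A hq hA hqR S hS hL haux hsep).D₀ P := by
  show poleDiv S.hF (fwU D + algebraMap Qb _ (fwPi D) / fwU D) _ =
    poleDiv S.hF (fwU D + algebraMap Qb _ (fwPi D) / fwU D) _
  exact cs_poleDiv_smul S.hF _
    (arithmeticGalois_smul_seedFun_pow (D.Q * D.R) D.Q (Dvd.intro _ rfl) σ 12) P

/-- **(span) for the modular seed**: `L(m • D₀)` is spanned by its inertia-fixed vectors. -/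
theorem liftRat_span_fwSeed (haux : AuxLevelOK D.Q D.R) (hsep : FwSep D A S) (m : ℕ) :
    riemannRochSpace (m • (fwSeed D A hq hA hqR S hS hL haux hsep).D₀) ≤ Submodule.span Qb
      {f | f ∈ riemannRochSpace (m • (fwSeed D A hq hA hqR S hS hL haux hsep).D₀) ∧
        ∀ τ ∈ A.inertiaSubgroupIn ℚ,
          arithmeticGalois (modularFunctionFieldFull (D.Q * D.R)) τ • f = f} :=
  liftRat_span_modular (D.Q * D.R) (fwSeed D A hq hA hqR S hS hL haux hsep).D₀
    (liftRat_fwSeed_stable D A hq hA hqR S hS hL haux hsep)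
    (A.inertiaSubgroupIn ℚ : Set (Qb ≃ₐ[ℚ] Qb)) m

/-- **(span) for the modular seed, `G_ℚ`-form**: `L(m • D₀)` is spanned by its `G_ℚ`-fixed
vectors. -/
theorem liftRat_span_fwSeed_univ (haux : AuxLevelOK D.Q D.R) (hsep : FwSep D A S) (m : ℕ) :
    riemannRochSpace (m • (fwSeed D A hq hA hqR S hS hL haux hsep).D₀) ≤ Submodule.span Qb
      {f | f ∈ riemannRochSpace (m • (fwSeed D A hq hA hqR S hS hL haux hsep).D₀) ∧
        ∀ τ : Qb ≃ₐ[ℚ] Qb,
          arithmeticGalois (modularFunctionFieldFull (D.Q * D.R)) τ • f = f} := by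
  have h := liftRat_span_modular (D.Q * D.R) (fwSeed D A hq hA hqR S hS hL haux hsep).D₀
    (liftRat_fwSeed_stable D A hq hA hqR S hS hL haux hsep) Set.univ m
  refine h.trans (Submodule.span_mono fun f hf => ⟨hf.1, fun τ => hf.2 τ (Set.mem_univ τ)⟩)

end FwSeed

end Fermat.Agent.PeuD
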