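/-
Row 38, block D (INT), seat JAC-MOD, final form (helper12).

* `jacmf_seedLiftFix` : **(LiftFix) for the modular seed** `kpSeed D A hq hA hqR haux` and the
  inertia group `kpΓ D A`: composition of `liftFix_of_fix` (helper75, abstract lattice lift),
  `liftRat_span_fwSeed` (helper49), `liftDisc₁/₂` (helper64) and `jac_res`.
* `jac_mod_final` : `jac_mod` without hypothesis.
-/
import Mathlib
import Fermat.Agent.Lib.BadRed.PeuD.JacMod
import Fermat.Agent.Lib.BadRed.PeuD.LatLift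
import Fermat.Agent.Lib.BadRed.PeuD.LiftRat
import Fermat.Agent.Lib.BadRed.PeuD.LiftDisc

set_option autoImplicit false
set_option linter.style.haveILetI false
set_option linter.unusedSectionVars false
set_option linter.unusedVariables false
set_option synthInstance.maxHeartbeats 400000
set_option maxHeartbeats 1000000

noncomputable section

namespace Fermat.Agent.PeuD

open IntermediateField ModularCurve AlgebraicCurve Fermat.Agent.F3 Fermat.Agent.F3G
  Fermat.Agent.GaussInt Fermat.Agent.AtkinLehner Fermat.Agent.Deuring Fermat.Agent.RR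
  Fermat.Agent.BadRed Fermat.Agent.F3I2 Fermat.Agent.EKp

local notation "Qb" => AlgebraicClosure ℚ
local notation "GQb" => (AlgebraicClosure ℚ ≃ₐ[ℚ] AlgebraicClosure ℚ)

attribute [local instance] Fermat.Agent.BadRed.fwFintype

variable (D : ALData) [NeZero D.Q] [NeZero D.R] [NeZero (D.Q * D.R)]
  (A : ValuationSubring Qb) (hq : D.Q.Prime) (hA : A.LiesOverPrime D.Q) (hqR : ¬ D.Q ∣ D.R)
  [Fact D.Q.Prime] [CharP (IsLocalRing.ResidueField A) D.Q]
  [PerfectRing (IsLocalRing.ResidueField A) D.Q]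

/-- **(LiftFix) for the modular seed.** -/
theorem jacmf_seedLiftFix (haux : AuxLevelOK D.Q D.R) :
    SeedLiftFix (kpSeed D A hq hA hqR haux) (kpΓ D A) := by
  haveI := infinite_residue A
  have hS := isGaussSetup_gaussSetupBad D hq hqR A hA
  intro m f hf h₁ h₂
  have hπA : (D.Q : Qb) ∈ A := natCast_mem A D.Q
  have hπinv : ((D.Q : Qb))⁻¹ ∉ A := by
    intro hinv
    have hnon : (D.Q : Qb) ∈ A.nonunits := hA
    rw [A.mem_nonunits_iff] at hnon
    have h0 : (D.Q : Qb) ≠ 0 := by exact_mod_cast hq.ne_zero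
    have hle : A.valuation ((D.Q : Qb))⁻¹ ≤ 1 := (A.valuation_le_one_iff _).2 hinv
    rw [map_inv₀] at hle
    have hpos : 0 < A.valuation (D.Q : Qb) := by
      rw [Valuation.pos_iff]
      exact h0
    have h1 := (inv_le_one₀ hpos).mp hle
    exact absurd hnon (not_lt.mpr h1)
  obtain ⟨g, hgint, hgfix, hr₁, hr₂⟩ :=
    liftFix_of_fix (kpSeed D A hq hA hqR haux) (kpΓ D A) (π := (D.Q : Qb))
      (by
        rintro _ ⟨τ, hτ, rfl⟩
        exact map_natCast τ D.Q)
      (hS.A_eq.symm ▸ hπA)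
      (fun h => hπinv (hS.A_eq ▸ h))
      (fun l => by
        obtain ⟨a, ha, hafix, hares⟩ := jac_res D A hq hA hqR l
        refine ⟨a, ?_, ha, hares⟩
        rintro _ ⟨τ, hτ, rfl⟩
        exact hafix τ hτ)
      (fun f hf0 hffix =>
        liftDisc₁ (jacM D A hq hA hqR haux) hq hA hf0
          (fun τ hτ => hffix _ ⟨τ, hτ, rfl⟩))
      (fun f hf0 hffix =>
        liftDisc₂ (jacM D A hq hA hqR haux) hq hA hf0
          (fun τ hτ => hffix _ ⟨τ, hτ, rfl⟩))
      (m := m)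
      ((liftRat_span_fwSeed D A hq hA hqR (kpS D A hq hA hqR) hS
        (hasLattice_gaussSetupBad D hq hqR A hA) haux
        (fw_sep D A hq hA hqR _ hS haux) m).trans
        (Submodule.span_mono (by
          rintro g ⟨hg1, hg2⟩
          refine ⟨hg1, ?_⟩
          rintro _ ⟨τ, hτ, rfl⟩
          exact hg2 τ hτ)))
      (f := f) ⟨hf, h₁, h₂⟩
  exact ⟨g, hgint.1, hgint.2.1, hgint.2.2, hr₁, hr₂, hgfix⟩

/-- **JAC-MOD**: for `σ` in the inertia group of `A | p`, `y` a `p`-torsion class of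
`J₀(p R)` and `Γ₀` a subgroup of the inertia group fixing `l = σ • y - y`: `l` has an ordinary
representative `Dl` with trivial reduction and a Kummer generator `hl` with both reductions `1`,
both fixed by `Γ₀`. -/
theorem jac_mod_final (haux : AuxLevelOK D.Q D.R) (Γ₀ : Subgroup GQb)
    (hΓ₀ : ∀ τ ∈ Γ₀, τ ∈ A.inertiaSubgroupIn ℚ)
    {σ : GQb} (hσ : σ ∈ A.inertiaSubgroupIn ℚ) {y : JZero (D.Q * D.R)} (hy : D.Q • y = 0)
    (hl : ∀ τ ∈ Γ₀, τ • (σ • y - y) = σ • y - y) :
    ∃ (Dl : Divisor.degZero (K := Qb) (F := FBar (D.Q * D.R))) (hl : FBar (D.Q * D.R)),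
      (Pic0.mk Dl : JZero (D.Q * D.R)) = σ • y - y ∧ hl ≠ 0 ∧
      (∀ v : Place Qb (FBar (D.Q * D.R)), v.ord hl = D.Q * (Dl : Divisor Qb (FBar (D.Q * D.R))) v) ∧
      (kpN D A hq hA hqR haux).S₁.red hl = 1 ∧ (kpN D A hq hA hqR haux).S₂.red hl = 1 ∧
      (kpN D A hq hA hqR haux).RedTrivial (Dl : Divisor Qb (FBar (D.Q * D.R))) ∧
      (∀ t ∈ jacΓ D Γ₀, t • (Dl : Divisor Qb (FBar (D.Q * D.R))) = Dl) ∧
      (∀ t ∈ jacΓ D Γ₀, t • hl = hl) :=
  jac_mod D A hq hA hqR haux Γ₀ hΓ₀ (jacmf_seedLiftFix D A hq hA hqR haux) hσ hy hl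

end Fermat.Agent.PeuD
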