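/-
Row 38, block D (INT), seat D-JAC, seed form (helper12).

**(JAC) for a seed** `N : NodalSeed K F k Fk₁ Fk₂ ι` (`K`, `k` algebraically closed, `k` of
characteristic `p`) and a subgroup `Γ` of inertial automorphisms with (LiftFix)
(`SeedLiftFix N Γ`, helper75) and the constants hypotheses of D-REP (`hH90`, `hG1₁`, `hres`):
there is a `NodalNS` of `N.nodalSetup` with `Γ`-fixed parameters and base points such that every
`Γ`-fixed class of `Pic⁰(F)[p]` in `K'` has a `Γ`-fixed Jacobi-form representative and a `Γ`-fixed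
Kummer generator with both reductions `1` (`JacStatement`).

All the inputs of `exists_jac` except the three constants hypotheses are discharged:
`(R0)` = `NodalP.ordRepStatement_of_isAlgClosed`, the `NodalNS` = `seed_exists_nodalNS_fix`
(helper32).
-/
import Mathlib
import Fermat.Agent.Lib.BadRed.PeuD.Jac
import Fermat.Agent.Lib.BadRed.PeuD.JacNSSeed
import Fermat.Agent.Lib.BadRed.Nodal.P.OrdRepMain

set_option autoImplicit false
set_option linter.unusedSectionVars false
set_option linter.unusedVariables false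
set_option linter.style.haveILetI false

noncomputable section

open AlgebraicCurve Fermat.Agent.RR Fermat.Agent.Deuring Fermat.Agent.BadRed

namespace Fermat.Agent.PeuD

variable {K F k Fk₁ Fk₂ : Type*} [Field K] [Field F] [Algebra K F]
  [Field k] [Field Fk₁] [Algebra k Fk₁] [Field Fk₂] [Algebra k Fk₂] {ι : Type*} [Fintype ι]

/-- **(JAC), seed form.** -/
theorem seed_jac [IsAlgClosed K] [IsAlgClosed k] [Nonempty ι] (N : NodalSeed K F k Fk₁ Fk₂ ι)
    (p : ℕ) [Fact p.Prime] [CharP k p]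
    (Γ : Subgroup (SemilinearAut K F)) (hΓ : ∀ t ∈ Γ, N.nodalSetup.IsInertial t)
    (hfix : SeedLiftFix N (Γ : Set (SemilinearAut K F)))
    (hH90 : ∀ f : F, f ≠ 0 → (∀ t ∈ Γ, ∃ a : K, t • f = algebraMap K F a * f) →
      ∃ a : K, a ≠ 0 ∧ ∀ t ∈ Γ, t • (algebraMap K F a * f) = algebraMap K F a * f)
    (hG1₁ : ∀ f : F, f ≠ 0 → (∀ t ∈ Γ, t • f = f) →
      ∃ a : K, a ≠ 0 ∧ (∀ t ∈ Γ, SemilinearAut.baseAut t a = a) ∧
        N.nodalSetup.S₁.red (f / algebraMap K F a) ≠ 0)
    (hres : ∀ γ : k, ∃ (a : K) (ha : a ∈ N.nodalSetup.S₁.A),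
      (∀ t ∈ Γ, SemilinearAut.baseAut t a = a) ∧ N.nodalSetup.S₁.res ⟨a, ha⟩ = γ) :
    ∃ NS : NodalNS N.nodalSetup (genusFF K F),
      (∀ t ∈ Γ, ∀ i, t • NS.t i = NS.t i) ∧ (∀ t ∈ Γ, ∀ i, t • NS.R i = NS.R i) ∧
      JacStatement N.nodalSetup (genusFF K F) NS p Γ := by
  haveI : Infinite k := IsAlgClosed.instInfinite
  obtain ⟨NS, ht, hR⟩ := seed_exists_nodalNS_fix N (Γ := (Γ : Set (SemilinearAut K F)))
    (fun t h => hΓ t h) hfix
  refine ⟨NS, fun t h => ht t h, fun t h => hR t h, ?_⟩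
  exact exists_jac NS rfl p (Fact.out : p.Prime).ne_zero Γ hΓ
    (NodalP.ordRepStatement_of_isAlgClosed p N.nodalSetup_genusRel) (fun t h => hR t h)
    hH90 hG1₁ hres

end Fermat.Agent.PeuD
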