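/-
Row 38 (peu ramifiée, step (d)), K(u) side, lemma L1 (helper64): **reduction of traces**.

`S : ValSetup K F k Fk` a constant reduction, `t ∈ Ov` with transcendental reduction and
`[F : K(t)] ≤ [Fk : k(t̄)]`.  Then for `x ∈ Ov` the trace `Tr_{F/K(t)} x` lies in `Ov` and
reduces to `Tr_{Fk/k(t̄)} (red x)`.

Proof: the trace is minus the next coefficient of the characteristic polynomial, and
characteristic polynomials reduce (`sn_charpoly_red`, `Lib/BadRed/Mod/SeedNodeA.lean`).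
-/
import Mathlib
import Fermat.Agent.Lib.BadRed.Mod.SeedNodeA
import Fermat.Agent.Lib.RedTr.FundIdK
import Fermat.Agent.E.Desc.Kp.SlopeG

set_option autoImplicit false
set_option linter.unusedSectionVars false
set_option linter.unusedVariables false
set_option linter.style.haveILetI false

noncomputable section

namespace Fermat.Agent.PeuD

open Fermat.Agent.Deuring IntermediateField Polynomial Fermat.Agent.BadRed.SeedNode

section Trace

variable {K F k Fk : Type*} [Field K] [Field F] [Algebra K F]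
  [Field k] [Field Fk] [Algebra k Fk]

/-- the trace as a coefficient of the characteristic polynomial. -/
theorem kt_trace_eq_coeff {E L : Type*} [Field E] [Field L] [Algebra E L] [FiniteDimensional E L]
    (x : L) :
    Algebra.trace E L x =
      -(LinearMap.mulLeft E x).charpoly.coeff (Module.finrank E L - 1) := by
  classical
  have hpos : 0 < Module.finrank E L := Module.finrank_pos
  let b := Module.finBasis E L
  haveI : Nonempty (Fin (Module.finrank E L)) := ⟨⟨0, hpos⟩⟩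
  rw [Algebra.trace_apply, LinearMap.trace_eq_matrix_trace E b,
    Matrix.trace_eq_neg_charpoly_coeff, Fintype.card_fin, LinearMap.charpoly_toMatrix]
  rfl

/-- **L1: reduction of traces**, one constant reduction, parameter `t`. -/
theorem kt_trace_red (S : ValSetup K F k Fk) {t : F} (ht : t ∈ S.Ov)
    (htr : Transcendental k (S.red t)) [FiniteDimensional K⟮t⟯ F]
    [FiniteDimensional k⟮S.red t⟯ Fk]
    (hdeg : Module.finrank K⟮t⟯ F = Module.finrank k⟮S.red t⟯ Fk) {x : F} (hx : x ∈ S.Ov) :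
    algebraMap K⟮t⟯ F (Algebra.trace K⟮t⟯ F x) ∈ S.Ov ∧
      S.red (algebraMap K⟮t⟯ F (Algebra.trace K⟮t⟯ F x)) =
        algebraMap k⟮S.red t⟯ Fk (Algebra.trace k⟮S.red t⟯ Fk (S.red x)) := by
  obtain ⟨P, hP1, hP2, -, -⟩ := sn_charpoly_red ht htr hdeg.le hx
  set n := Module.finrank K⟮t⟯ F with hn
  have hc1 : ((P.coeff (n - 1) : snRing S t) : K⟮t⟯) =
      (LinearMap.mulLeft K⟮t⟯ x).charpoly.coeff (n - 1) := by
    rw [← hP1, Polynomial.coeff_map]
    rfl
  have hc2 : snRed S ht htr (P.coeff (n - 1)) =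
      (LinearMap.mulLeft k⟮S.red t⟯ (S.red x)).charpoly.coeff (n - 1) := by
    rw [← hP2, Polynomial.coeff_map]
  have hmem : (((P.coeff (n - 1) : snRing S t) : K⟮t⟯) : F) ∈ S.Ov := (P.coeff (n - 1)).2
  have e1 : algebraMap K⟮t⟯ F (Algebra.trace K⟮t⟯ F x) =
      -(((P.coeff (n - 1) : snRing S t) : K⟮t⟯) : F) := by
    rw [kt_trace_eq_coeff, ← hn, ← hc1, map_neg]
    rfl
  have e2 : algebraMap k⟮S.red t⟯ Fk (Algebra.trace k⟮S.red t⟯ Fk (S.red x)) =
      -S.red (((P.coeff (n - 1) : snRing S t) : K⟮t⟯) : F) := by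
    rw [kt_trace_eq_coeff, ← hdeg, ← hc2, map_neg]
    rfl
  rw [e1, e2]
  exact ⟨neg_mem hmem, S.red_neg hmem⟩

/-- the trace only depends on the subfield. -/
theorem kt_trace_eq_of_eq {E₁ E₂ : IntermediateField K F} (h : E₁ = E₂) (x : F) :
    algebraMap E₁ F (Algebra.trace E₁ F x) = algebraMap E₂ F (Algebra.trace E₂ F x) := by
  subst h
  rfl

end Trace

section Slope

open Fermat.Agent.EKp

variable {K F k Fk₁ Fk₂ : Type*} [Field K] [Field F] [Algebra K F]
  [Field k] [Field Fk₁] [Algebra k Fk₁] [Field Fk₂] [Algebra k Fk₂]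
  {S₁ : ValSetup K F k Fk₁} {S₂ : ValSetup K F k Fk₂} {u : F} {ϖ : K}

/-- **L1, first Gauss valuation** of a `SlopeData`. -/
theorem kt_trace_red₁ (h : SlopeData S₁ S₂ u ϖ) {x : F} (hx : x ∈ S₁.Ov) :
    algebraMap K⟮u⟯ F (Algebra.trace K⟮u⟯ F x) ∈ S₁.Ov ∧
      S₁.red (algebraMap K⟮u⟯ F (Algebra.trace K⟮u⟯ F x)) =
        algebraMap k⟮S₁.red u⟯ Fk₁ (Algebra.trace k⟮S₁.red u⟯ Fk₁ (S₁.red x)) := by
  haveI : FiniteDimensional K⟮u⟯ F :=
    Fermat.Agent.RedTr.fundIdK_finiteDimensional S₁.hF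
      (sg_transcendental_of_red S₁ h.u_mem h.u_tr)
  haveI : FiniteDimensional k⟮S₁.red u⟯ Fk₁ :=
    Fermat.Agent.RedTr.fundIdK_finiteDimensional S₁.hFk h.u_tr
  exact kt_trace_red S₁ h.u_mem h.u_tr h.deg₁ hx

/-- **L1, second Gauss valuation** of a `SlopeData` (parameter `ϖ / u`, same subfield `K(u)`). -/
theorem kt_trace_red₂ (h : SlopeData S₁ S₂ u ϖ) {x : F} (hx : x ∈ S₂.Ov) :
    algebraMap K⟮u⟯ F (Algebra.trace K⟮u⟯ F x) ∈ S₂.Ov ∧
      S₂.red (algebraMap K⟮u⟯ F (Algebra.trace K⟮u⟯ F x)) =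
        algebraMap k⟮S₂.red (algebraMap K F ϖ / u)⟯ Fk₂
          (Algebra.trace k⟮S₂.red (algebraMap K F ϖ / u)⟯ Fk₂ (S₂.red x)) := by
  have hu0 : u ≠ 0 := by
    rintro rfl
    exact h.u_tr (by rw [S₁.red_zero]; exact isAlgebraic_zero)
  have hE := sg_adjoin_div_eq (F := F) h.varpi_ne hu0
  haveI : FiniteDimensional K⟮algebraMap K F ϖ / u⟯ F :=
    Fermat.Agent.RedTr.fundIdK_finiteDimensional S₂.hF
      (sg_transcendental_of_red S₂ h.u_mem₂ h.u_tr₂)
  haveI : FiniteDimensional k⟮S₂.red (algebraMap K F ϖ / u)⟯ Fk₂ :=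
    Fermat.Agent.RedTr.fundIdK_finiteDimensional S₂.hFk h.u_tr₂
  have hdeg : Module.finrank K⟮algebraMap K F ϖ / u⟯ F =
      Module.finrank k⟮S₂.red (algebraMap K F ϖ / u)⟯ Fk₂ := by
    rw [sg_finrank_eq_of_eq hE]
    exact h.deg₂
  have h1 := kt_trace_red S₂ h.u_mem₂ h.u_tr₂ hdeg hx
  rwa [kt_trace_eq_of_eq hE] at h1

end Slope

end Fermat.Agent.PeuD
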