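/-
Row 38, block D (INT): adapters of Lemma A (`LemmaA.lean`) and of W-FO (`KeyFo.lean`) to the
structure `Brk` of D-BRK (`Brk.lean`, helper97).  Owner: helper85.

`IsRat c := ∀ t ∈ H, baseAut t c = c`, `s := baseAut s`.
-/
import Mathlib
import Fermat.Agent.Lib.BadRed.PeuD.Brk
import Fermat.Agent.Lib.BadRed.PeuD.KeyFo

set_option autoImplicit false
set_option linter.unusedSectionVars false
set_option linter.unusedVariables false

noncomputable section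

open AlgebraicCurve Fermat.Agent.RR Fermat.Agent.Deuring Fermat.Agent.BadRed

namespace Fermat.Agent.PeuD

section One

variable {K F k Fk : Type*} [Field K] [Field F] [Algebra K F]
  [Field k] [Field Fk] [Algebra k Fk] {S : ValSetup K F k Fk}

/-- **Lemma A from (BRK)**: `s θ / θ ≡ 1 + n α₀ π` and `θ / s θ ≡ 1 - n α₀ π` modulo `π² O`
for an `M`-rational `θ` with `n = n_S(θ)`. -/
theorem lemmaA_of_brk (s : SemilinearAut K F) (H : Set (SemilinearAut K F)) {p : ℕ} {π α₀ : K}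
    (B : Brk S.A (fun c => ∀ t ∈ H, SemilinearAut.baseAut t c = c) (SemilinearAut.baseAut s)
      p π α₀)
    (hG2 : ∀ f : F, f ∈ S.Ov → (∀ t ∈ H, t • f = f) →
      (s • f - f) / algebraMap K F (π ^ 2) ∈ S.Ov)
    {θ : F} (hθH : ∀ t ∈ H, t • θ = θ) {n : ℤ} (hn : LaOrd S H π θ n) :
    (s • θ / θ - (1 + algebraMap K F ((n : K) * α₀ * π))) / algebraMap K F (π ^ 2) ∈ S.Ov ∧
    (θ / s • θ - (1 + algebraMap K F (-(n : K) * α₀ * π))) / algebraMap K F (π ^ 2) ∈ S.Ov :=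
  lemmaA_val s H B.π_ne B.π_lt B.rat_π ((S.A.valuation_le_one_iff _).mp B.α0_unit.le)
    B.s_π B.depth hG2 hθH hn

/-- existence of `n_S(θ)` from (G1) and (BRK). -/
theorem laOrd_exists_of_brk (s : SemilinearAut K F) (H : Set (SemilinearAut K F)) {p : ℕ}
    {π α₀ : K}
    (B : Brk S.A (fun c => ∀ t ∈ H, SemilinearAut.baseAut t c = c) (SemilinearAut.baseAut s)
      p π α₀)
    (hG1 : ∀ f : F, f ≠ 0 → (∀ t ∈ H, t • f = f) →
      ∃ a : K, a ≠ 0 ∧ (∀ t ∈ H, SemilinearAut.baseAut t a = a) ∧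
        S.red (f / algebraMap K F a) ≠ 0)
    {θ : F} (hθ0 : θ ≠ 0) (hθH : ∀ t ∈ H, t • θ = θ) : ∃ n : ℤ, LaOrd S H π θ n := by
  obtain ⟨a, ha0, haH, hau⟩ := hG1 θ hθ0 hθH
  obtain ⟨n, hn⟩ := B.val_rat a haH ha0
  exact ⟨n, a, haH, hau, hn⟩

/-- **W-FO from (BRK)**, one valuation. -/
theorem keyFo_firstOrd_of_brk (s : SemilinearAut K F) (H : Set (SemilinearAut K F)) {p : ℕ}
    {π α₀ : K}
    (B : Brk S.A (fun c => ∀ t ∈ H, SemilinearAut.baseAut t c = c) (SemilinearAut.baseAut s)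
      p π α₀)
    (hG1 : ∀ f : F, f ≠ 0 → (∀ t ∈ H, t • f = f) →
      ∃ a : K, a ≠ 0 ∧ (∀ t ∈ H, SemilinearAut.baseAut t a = a) ∧
        S.red (f / algebraMap K F a) ≠ 0)
    {f : F} (hfH : ∀ t ∈ H, t • f = f) (hred : S.red f = 1) :
    ∃ Bf : Fk, FirstOrd S π f Bf :=
  keyFo_firstOrd S H B.π_ne B.π_lt hG1 B.val_rat hfH hred

end One

section Two

variable {K F k Fk₁ Fk₂ : Type*} [Field K] [Field F] [Algebra K F]
  [Field k] [Field Fk₁] [Algebra k Fk₁] [Field Fk₂] [Algebra k Fk₂] {ι : Type*} [Fintype ι]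
  [Infinite k]

/-- **W-FO from (BRK)**: `KeyData` from (DAT), (G1), (BRK) and (RSM). -/
theorem keyData_of_brk (N : NodalSeed K F k Fk₁ Fk₂ ι) {H : Subgroup (SemilinearAut K F)}
    {s : SemilinearAut K F} (hH : ∀ t ∈ H, N.nodalSetup.IsInertial t)
    (hs : N.nodalSetup.IsInertial s) {p' : ℕ} {π α₀ : K}
    (B : Brk N.S₁.A (fun c => ∀ t ∈ H, SemilinearAut.baseAut t c = c)
      (SemilinearAut.baseAut s) p' π α₀)
    (hG1₁ : ∀ f : F, f ≠ 0 → (∀ t ∈ H, t • f = f) →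
      ∃ a : K, a ≠ 0 ∧ (∀ t ∈ H, SemilinearAut.baseAut t a = a) ∧
        N.S₁.red (f / algebraMap K F a) ≠ 0)
    (hG1₂ : ∀ f : F, f ≠ 0 → (∀ t ∈ H, t • f = f) →
      ∃ a : K, a ≠ 0 ∧ (∀ t ∈ H, SemilinearAut.baseAut t a = a) ∧
        N.S₂.red (f / algebraMap K F a) ≠ 0)
    (hG2₁ : RatG2Statement N.S₁ (H : Set (SemilinearAut K F)) s π)
    (hRat₁ : RatStatement N.S₁ (H : Set (SemilinearAut K F)) s π)
    (hG2₂ : RatG2Statement N.S₂ (H : Set (SemilinearAut K F)) s π)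
    (hRat₂ : RatStatement N.S₂ (H : Set (SemilinearAut K F)) s π)
    {p : ℕ} {c : ℤ} {Dl D : Divisor K F} {g kf : F} {κ₁ κ₂ : K}
    (hdat : DatM N.nodalSetup H s p c Dl D g kf κ₁ κ₂)
    (hDlH : ∀ t ∈ H, t • Dl = Dl) (hDls : s • Dl = Dl)
    (hDl0 : ∀ Q, Finsupp.mapDomain N.nodalSetup.r Dl (some Q) = 0)
    (hlift₁ : RatLift₁ N (insert s (H : Set (SemilinearAut K F))))
    (hlift₂ : RatLift₂ N (insert s (H : Set (SemilinearAut K F)))) :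
    ∃ (B₁ : Fk₁) (B₂ : Fk₂), KeyData N π kf κ₁ κ₂ B₁ B₂ :=
  keyData_of_datM N hH hs B.π_mem B.π_ne (keyFo_res_pi N.S₁ B.π_mem B.π_lt) B.val_rat
    hG1₁ hG1₂ hG2₁ hRat₁ hG2₂ hRat₂ hdat hDlH hDls hDl0 hlift₁ hlift₂

end Two

end Fermat.Agent.PeuD
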