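/-
Row 38, block D (INT), (ETA) / GC, step 5 (helper32): the **pigeonhole** (Mathlib only).

`T` a finite set (the zeros of type N of `η = z - c`), `ν : T → ι` onto (every node carries a
zero), multiplicities `n ≥ 1` with `Σ_T n = #ι` (global twisted count).  Then `ν` is injective
on `T` and all multiplicities are `1`: exactly ONE SIMPLE zero at each node.
-/
import Mathlib

set_option autoImplicit false

namespace Fermat.Agent.PeuD

/-- **pigeonhole**. -/
theorem gc_pigeonhole {α ι : Type*} [Fintype ι] (T : Finset α) (ν : α → ι) (n : α → ℤ)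
    (hn : ∀ P ∈ T, 1 ≤ n P) (hsurj : ∀ j : ι, ∃ P ∈ T, ν P = j)
    (hsum : ∑ P ∈ T, n P = (Fintype.card ι : ℤ)) :
    (∀ P ∈ T, n P = 1) ∧ (∀ P ∈ T, ∀ P' ∈ T, ν P = ν P' → P = P') := by
  classical
  -- `#ι ≤ #T`
  have himg : T.image ν = Finset.univ := by
    ext j
    simp only [Finset.mem_image, Finset.mem_univ, iff_true]
    exact hsurj j
  have h1 : Fintype.card ι ≤ T.card := by
    rw [← Finset.card_univ, ← himg]
    exact Finset.card_image_le
  -- `#T ≤ Σ n = #ι`
  have h2 : (T.card : ℤ) ≤ ∑ P ∈ T, n P := by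
    have : ∑ _P ∈ T, (1 : ℤ) ≤ ∑ P ∈ T, n P := Finset.sum_le_sum hn
    simpa using this
  have hcard : T.card = Fintype.card ι := by
    have : (T.card : ℤ) ≤ Fintype.card ι := hsum ▸ h2
    omega
  refine ⟨?_, ?_⟩
  · -- all multiplicities are `1`
    have hzero : ∑ P ∈ T, (n P - 1) = 0 := by
      rw [Finset.sum_sub_distrib, hsum]
      simp [hcard]
    have hnn : ∀ P ∈ T, 0 ≤ n P - 1 := fun P hP => by have := hn P hP; omega
    intro P hP
    have := (Finset.sum_eq_zero_iff_of_nonneg hnn).mp hzero P hP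
    omega
  · -- `ν` is injective on `T`
    have hinj : Set.InjOn ν (T : Set α) := by
      rw [← Finset.card_image_iff, himg, Finset.card_univ, hcard]
    intro P hP P' hP' h
    exact hinj hP hP' h

/-- **pigeonhole**, the form used for `η = z - c`: the zero `P` at the node `i` is simple and is
the only one with that node. -/
theorem gc_pigeonhole_at {α ι : Type*} [Fintype ι] (T : Finset α) (ν : α → ι) (n : α → ℤ)
    (hn : ∀ P ∈ T, 1 ≤ n P) (hsurj : ∀ j : ι, ∃ P ∈ T, ν P = j)
    (hsum : ∑ P ∈ T, n P = (Fintype.card ι : ℤ)) {P : α} (hP : P ∈ T) :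
    n P = 1 ∧ ∀ P' ∈ T, ν P' = ν P → P' = P :=
  ⟨(gc_pigeonhole T ν n hn hsurj hsum).1 P hP,
    fun P' hP' h => (gc_pigeonhole T ν n hn hsurj hsum).2 P' hP' P hP h⟩

end Fermat.Agent.PeuD
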