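/-
Row 38, block D (sub-architect helper62), seat ETA-LIFT (ii) (helper6): the abstract PIVOT BASIS.

`K0 ⊂ K` fields, `v` a valuation of `K`, `V` a `K`-vector space with coefficient functionals
`lam n : V → K` (`n : ι`), `V0 ⊂ V` a finitely generated `K0`-subspace on which the functionals
take values in `K0` and whose nonzero elements have an attained, nonzero sup-norm
`sup_n v (lam n f)`.  Then `V0` has a PIVOT BASIS `(e_i)_{i ∈ s}`, `s ⊂ ι` finite:
`lam i (e j) = δ_ij` (`i, j ∈ s`), `v (lam m (e i)) ≤ 1`; it stays orthonormal after the scalar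
extension to `K`:  `sup_m v (lam m (∑ c_i e_i)) ≤ B ↔ ∀ i, v (c i) ≤ B`  (`c_i ∈ K`).
If `K0` and `K` have the same residue field, every `f ∈ K · V0` of sup-norm `≤ 1` is congruent
modulo the open unit ball to some `f0 ∈ V0` (`pivot_lift`).

Mathlib only.
-/
import Mathlib

set_option autoImplicit false
set_option linter.unusedSectionVars false

namespace Fermat.Agent.PeuD

open Submodule

section Pivot

variable {K0 K : Type*} [Field K0] [Field K] [Algebra K0 K]
variable {Γ₀ : Type*} [LinearOrderedCommGroupWithZero Γ₀] (v : Valuation K Γ₀)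
variable {V : Type*} [AddCommGroup V] [Module K V] [Module K0 V] [IsScalarTower K0 K V]
variable {ι : Type*} (lam : ι → V →ₗ[K] K)

/-- a pivot system `(e_i)_{i ∈ s}` of the `K0`-subspace `W` (inside `V0`). -/
structure PivotSys (V0 W : Submodule K0 V) (s : Finset ι) (e : ι → V) : Prop where
  mem : ∀ i ∈ s, e i ∈ V0
  span : W = Submodule.span K0 (e '' (s : Set ι))
  le_one : ∀ i ∈ s, ∀ m, v (lam m (e i)) ≤ 1
  pivot_self : ∀ i ∈ s, lam i (e i) = 1
  pivot_ne : ∀ i ∈ s, ∀ j ∈ s, i ≠ j → lam i (e j) = 0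

theorem pivot_lam_smul (m : ι) (c : K0) (x : V) :
    lam m (c • x) = algebraMap K0 K c * lam m x := by
  rw [← algebraMap_smul K c x, map_smul, smul_eq_mul]

variable {v lam}

/-- the pivot functional reads off the coefficient. -/
theorem PivotSys.coeff {V0 W : Submodule K0 V} {s : Finset ι} {e : ι → V}
    (h : PivotSys v lam V0 W s e) (c : ι → K) {i : ι} (hi : i ∈ s) :
    lam i (∑ j ∈ s, c j • e j) = c i := by
  rw [map_sum, Finset.sum_eq_single i]
  · rw [map_smul, h.pivot_self i hi, smul_eq_mul, mul_one]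
  · intro j hj hji
    rw [map_smul, h.pivot_ne i hi j hj (Ne.symm hji), smul_zero]
  · intro hi'
    exact absurd hi hi'

/-- the pivot functional reads off the coefficient (coefficients in `K0`). -/
theorem PivotSys.coeff₀ {V0 W : Submodule K0 V} {s : Finset ι} {e : ι → V}
    (h : PivotSys v lam V0 W s e) (c : ι → K0) {i : ι} (hi : i ∈ s) :
    lam i (∑ j ∈ s, c j • e j) = algebraMap K0 K (c i) := by
  have h1 : ∑ j ∈ s, c j • e j = ∑ j ∈ s, (algebraMap K0 K (c j)) • e j :=
    Finset.sum_congr rfl fun j _ => (algebraMap_smul K (c j) (e j)).symm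
  rw [h1]
  exact h.coeff (fun j => algebraMap K0 K (c j)) hi

/-- **the pivot basis is orthonormal over `K`.** -/
theorem PivotSys.le_iff {V0 W : Submodule K0 V} {s : Finset ι} {e : ι → V}
    (h : PivotSys v lam V0 W s e) (c : ι → K) (B : Γ₀) :
    (∀ m, v (lam m (∑ j ∈ s, c j • e j)) ≤ B) ↔ ∀ i ∈ s, v (c i) ≤ B := by
  constructor
  · intro hB i hi
    have := hB i
    rwa [h.coeff c hi] at this
  · intro hc m
    rw [map_sum]
    apply Valuation.map_sum_le
    intro j hj
    rw [map_smul, smul_eq_mul, map_mul]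
    calc v (c j) * v (lam m (e j)) ≤ B * 1 := mul_le_mul' (hc j hj) (h.le_one j hj m)
      _ = B := mul_one B

theorem PivotSys.le {V0 W : Submodule K0 V} {s : Finset ι} {e : ι → V}
    (h : PivotSys v lam V0 W s e) : W ≤ V0 := by
  rw [h.span, Submodule.span_le]
  rintro _ ⟨i, hi, rfl⟩
  exact h.mem i hi

theorem PivotSys.mem_W {V0 W : Submodule K0 V} {s : Finset ι} {e : ι → V}
    (h : PivotSys v lam V0 W s e) {i : ι} (hi : i ∈ s) : e i ∈ W := by
  rw [h.span]
  exact Submodule.subset_span ⟨i, hi, rfl⟩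

theorem PivotSys.sum_mem₀ {V0 W : Submodule K0 V} {s : Finset ι} {e : ι → V}
    (h : PivotSys v lam V0 W s e) (c : ι → K0) : ∑ j ∈ s, c j • e j ∈ W :=
  Submodule.sum_mem _ fun _ hj => Submodule.smul_mem _ _ (h.mem_W hj)

/-- every element of `W` is a `K0`-combination of the pivot basis. -/
theorem PivotSys.exists_sum₀ {V0 W : Submodule K0 V} {s : Finset ι} {e : ι → V}
    (h : PivotSys v lam V0 W s e) {f : V} (hf : f ∈ W) :
    ∃ c : ι → K0, f = ∑ j ∈ s, c j • e j := by
  classical
  rw [h.span] at hf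
  induction hf using Submodule.span_induction with
  | mem x hx =>
    obtain ⟨i, hi, rfl⟩ := hx
    refine ⟨fun j => if j = i then 1 else 0, ?_⟩
    simp only [ite_smul, one_smul, zero_smul]
    rw [Finset.sum_ite_eq' s i, if_pos (Finset.mem_coe.mp hi)]
  | zero => exact ⟨fun _ => 0, by simp⟩
  | add x y _ _ hx hy =>
    obtain ⟨c, rfl⟩ := hx
    obtain ⟨d, rfl⟩ := hy
    exact ⟨fun j => c j + d j, by simp only [add_smul, Finset.sum_add_distrib]⟩
  | smul a x _ hx =>
    obtain ⟨c, rfl⟩ := hx
    exact ⟨fun j => a * c j, by simp only [Finset.smul_sum, mul_smul]⟩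

/-- every element of `K · W` is a `K`-combination of the pivot basis. -/
theorem PivotSys.exists_sum {V0 W : Submodule K0 V} {s : Finset ι} {e : ι → V}
    (h : PivotSys v lam V0 W s e) {f : V} (hf : f ∈ Submodule.span K (W : Set V)) :
    ∃ c : ι → K, f = ∑ j ∈ s, c j • e j := by
  induction hf using Submodule.span_induction with
  | mem x hx =>
    obtain ⟨c, rfl⟩ := h.exists_sum₀ hx
    exact ⟨fun j => algebraMap K0 K (c j),
      Finset.sum_congr rfl fun j _ => (algebraMap_smul K (c j) (e j)).symm⟩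
  | zero => exact ⟨fun _ => 0, by simp⟩
  | add x y _ _ hx hy =>
    obtain ⟨c, rfl⟩ := hx
    obtain ⟨d, rfl⟩ := hy
    exact ⟨fun j => c j + d j, by simp only [add_smul, Finset.sum_add_distrib]⟩
  | smul a x _ hx =>
    obtain ⟨c, rfl⟩ := hx
    exact ⟨fun j => a * c j, by simp only [Finset.smul_sum, mul_smul]⟩

/-! ### existence: elimination with maximal pivots -/

/-- the empty pivot system. -/
theorem pivotSys_bot (V0 : Submodule K0 V) (e : ι → V) :
    PivotSys v lam V0 (⊥ : Submodule K0 V) ∅ e where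
  mem := fun i hi => absurd hi (Finset.notMem_empty i)
  span := by simp
  le_one := fun i hi => absurd hi (Finset.notMem_empty i)
  pivot_self := fun i hi => absurd hi (Finset.notMem_empty i)
  pivot_ne := fun i hi => absurd hi (Finset.notMem_empty i)

variable (v lam) in
/-- the hypotheses on `V0`: rationality of the coefficients and attained sup-norm. -/
structure PivotHyp (V0 : Submodule K0 V) : Prop where
  rat : ∀ f ∈ V0, ∀ n, ∃ c : K0, lam n f = algebraMap K0 K c
  max : ∀ f ∈ V0, f ≠ 0 → ∃ n0, lam n0 f ≠ 0 ∧ ∀ n, v (lam n f) ≤ v (lam n0 f)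

/-- the elimination step: a pivot system of `W` and `f ∈ V0` give a pivot system of
`W + K0 f`. -/
theorem PivotSys.step {V0 W : Submodule K0 V} (H : PivotHyp v lam V0) {s : Finset ι}
    {e : ι → V} (h : PivotSys v lam V0 W s e) {f : V} (hf : f ∈ V0) :
    ∃ (s' : Finset ι) (e' : ι → V), PivotSys v lam V0 (W ⊔ Submodule.span K0 {f}) s' e' := by
  classical
  -- the coefficients of `f` at the pivots
  choose c hc using H.rat f hf
  set f' : V := f - ∑ j ∈ s, c j • e j with hf'
  have hsumW : ∑ j ∈ s, c j • e j ∈ W := h.sum_mem₀ c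
  have hf'V0 : f' ∈ V0 := Submodule.sub_mem _ hf (h.le hsumW)
  have hlamf' : ∀ i ∈ s, lam i f' = 0 := by
    intro i hi
    rw [hf', map_sub, h.coeff₀ c hi, hc i, sub_self]
  have hfeq : f = f' + ∑ j ∈ s, c j • e j := by rw [hf']; abel
  by_cases h0 : f' = 0
  · -- `f ∈ W`
    refine ⟨s, e, ?_⟩
    have hfW : f ∈ W := by
      rw [hfeq, h0, zero_add]
      exact hsumW
    have hle : Submodule.span K0 {f} ≤ W := by
      rw [Submodule.span_le]
      rintro x hx
      rw [Set.mem_singleton_iff.mp hx]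
      exact hfW
    rw [sup_eq_left.mpr hle]
    exact h
  · -- a new pivot
    obtain ⟨n, hn0, hnmax⟩ := H.max f' hf'V0 h0
    obtain ⟨a, ha⟩ := H.rat f' hf'V0 n
    have ha0 : a ≠ 0 := by
      rintro rfl
      rw [map_zero] at ha
      exact hn0 ha
    have haK : algebraMap K0 K a ≠ 0 := by rw [← ha]; exact hn0
    have hns : n ∉ s := fun hn => hn0 (hlamf' n hn)
    set es : V := a⁻¹ • f' with hes
    have hesV0 : es ∈ V0 := Submodule.smul_mem _ _ hf'V0
    have hlam_es : ∀ m, lam m es = (algebraMap K0 K a)⁻¹ * lam m f' := by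
      intro m
      rw [hes, pivot_lam_smul, map_inv₀]
    have hes_n : lam n es = 1 := by
      rw [hlam_es, ← ha, inv_mul_cancel₀ hn0]
    have hes_s : ∀ i ∈ s, lam i es = 0 := by
      intro i hi
      rw [hlam_es, hlamf' i hi, mul_zero]
    have hes_le : ∀ m, v (lam m es) ≤ 1 := by
      intro m
      rw [hlam_es, map_mul, map_inv₀, ← ha]
      have hv0 : v (lam n f') ≠ 0 := (Valuation.ne_zero_iff v).mpr hn0
      rw [inv_mul_le_iff₀ (zero_lt_iff.mpr hv0), mul_one]
      exact hnmax m
    -- the coefficients of the old `e i` at the new pivot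
    have hb : ∀ i, ∃ b : K0, i ∈ s → lam n (e i) = algebraMap K0 K b := by
      intro i
      by_cases hi : i ∈ s
      · obtain ⟨b, hb⟩ := H.rat (e i) (h.mem i hi) n
        exact ⟨b, fun _ => hb⟩
      · exact ⟨0, fun hi' => absurd hi' hi⟩
    choose b hb using hb
    set e' : ι → V := fun i => if i = n then es else e i - b i • es with he'
    have he'n : e' n = es := by rw [he']; exact if_pos rfl
    have he's : ∀ i ∈ s, e' i = e i - b i • es := by
      intro i hi
      have hin : i ≠ n := fun hin => hns (hin ▸ hi)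
      rw [he']
      exact if_neg hin
    have hlam_e' : ∀ i ∈ s, ∀ m, lam m (e' i) = lam m (e i) - lam n (e i) * lam m es := by
      intro i hi m
      rw [he's i hi, map_sub, pivot_lam_smul, ← hb i hi]
    refine ⟨insert n s, e', ?_⟩
    refine
      { mem := ?_
        span := ?_
        le_one := ?_
        pivot_self := ?_
        pivot_ne := ?_ }
    · intro i hi
      rcases Finset.mem_insert.mp hi with rfl | hi
      · rw [he'n]; exact hesV0
      · rw [he's i hi]
        exact Submodule.sub_mem _ (h.mem i hi) (Submodule.smul_mem _ _ hesV0)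
    · apply le_antisymm
      · -- `W + K0 f ≤ span e'`
        have hes_mem : es ∈ Submodule.span K0 (e' '' ((insert n s : Finset ι) : Set ι)) := by
          rw [← he'n]
          exact Submodule.subset_span ⟨n, Finset.mem_insert_self n s, rfl⟩
        have hei_mem : ∀ i ∈ s,
            e i ∈ Submodule.span K0 (e' '' ((insert n s : Finset ι) : Set ι)) := by
          intro i hi
          have h1 : e i = e' i + b i • es := by rw [he's i hi]; abel
          rw [h1]
          exact Submodule.add_mem _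
            (Submodule.subset_span ⟨i, Finset.mem_insert_of_mem hi, rfl⟩)
            (Submodule.smul_mem _ _ hes_mem)
        have hW : W ≤ Submodule.span K0 (e' '' ((insert n s : Finset ι) : Set ι)) := by
          rw [h.span, Submodule.span_le]
          rintro _ ⟨i, hi, rfl⟩
          exact hei_mem i hi
        refine sup_le hW ?_
        rw [Submodule.span_le]
        rintro x hx
        rw [Set.mem_singleton_iff.mp hx, hfeq]
        refine Submodule.add_mem _ ?_ (hW hsumW)
        have h2 : f' = a • es := by rw [hes, smul_smul, mul_inv_cancel₀ ha0, one_smul]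
        rw [h2]
        exact Submodule.smul_mem _ _ hes_mem
      · -- `span e' ≤ W + K0 f`
        have hf'mem : f' ∈ W ⊔ Submodule.span K0 {f} := by
          rw [hf']
          exact Submodule.sub_mem _
            ((le_sup_right : Submodule.span K0 {f} ≤ W ⊔ Submodule.span K0 {f})
              (Submodule.subset_span rfl))
            ((le_sup_left : W ≤ W ⊔ Submodule.span K0 {f}) hsumW)
        have hes_mem : es ∈ W ⊔ Submodule.span K0 {f} := Submodule.smul_mem _ _ hf'mem
        rw [Submodule.span_le]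
        rintro _ ⟨i, hi, rfl⟩
        rcases Finset.mem_insert.mp (Finset.mem_coe.mp hi) with rfl | hi
        · rw [he'n]; exact hes_mem
        · rw [he's i hi]
          exact Submodule.sub_mem _ ((le_sup_left : W ≤ W ⊔ Submodule.span K0 {f}) (h.mem_W hi))
            (Submodule.smul_mem _ _ hes_mem)
    · intro i hi m
      rcases Finset.mem_insert.mp hi with rfl | hi
      · rw [he'n]; exact hes_le m
      · rw [hlam_e' i hi m]
        refine le_trans (Valuation.map_sub _ _ _) (max_le (h.le_one i hi m) ?_)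
        rw [map_mul]
        calc v (lam n (e i)) * v (lam m es) ≤ 1 * 1 := mul_le_mul' (h.le_one i hi n) (hes_le m)
          _ = 1 := mul_one 1
    · intro i hi
      rcases Finset.mem_insert.mp hi with rfl | hi
      · rw [he'n]; exact hes_n
      · rw [hlam_e' i hi i, h.pivot_self i hi, hes_s i hi, mul_zero, sub_zero]
    · intro i hi j hj hij
      by_cases hin : i = n
      · by_cases hjn : j = n
        · exact absurd (hin.trans hjn.symm) hij
        · have hj' : j ∈ s := (Finset.mem_insert.mp hj).resolve_left hjn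
          rw [hin, hlam_e' j hj', hes_n, mul_one, sub_self]
      · have hi' : i ∈ s := (Finset.mem_insert.mp hi).resolve_left hin
        by_cases hjn : j = n
        · rw [hjn, he'n]; exact hes_s i hi'
        · have hj' : j ∈ s := (Finset.mem_insert.mp hj).resolve_left hjn
          rw [hlam_e' j hj' i, h.pivot_ne i hi' j hj' hij, hes_s i hi', mul_zero, sub_zero]

/-- a pivot system of the span of a finite subset of `V0`. -/
theorem pivotSys_span_finset {V0 : Submodule K0 V} (H : PivotHyp v lam V0) (t : Finset V)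
    (ht : ∀ x ∈ t, x ∈ V0) :
    ∃ (s : Finset ι) (e : ι → V), PivotSys v lam V0 (Submodule.span K0 (t : Set V)) s e := by
  classical
  induction t using Finset.induction_on with
  | empty =>
    refine ⟨∅, fun _ => 0, ?_⟩
    rw [Finset.coe_empty, Submodule.span_empty]
    exact pivotSys_bot V0 _
  | insert f t hft ih =>
    obtain ⟨s, e, h⟩ := ih fun x hx => ht x (Finset.mem_insert_of_mem hx)
    obtain ⟨s', e', h'⟩ := h.step H (ht f (Finset.mem_insert_self f t))
    refine ⟨s', e', ?_⟩
    have : Submodule.span K0 ((insert f t : Finset V) : Set V) =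
        Submodule.span K0 (t : Set V) ⊔ Submodule.span K0 {f} := by
      rw [Finset.coe_insert, Submodule.span_insert, sup_comm]
    rw [this]
    exact h'

/-- **the pivot basis** of a finitely generated `K0`-subspace `V0`. -/
theorem pivot_basis {V0 : Submodule K0 V} (H : PivotHyp v lam V0) (hfg : V0.FG) :
    ∃ (s : Finset ι) (e : ι → V), PivotSys v lam V0 V0 s e := by
  obtain ⟨t, ht⟩ := hfg
  have ht' : ∀ x ∈ t, x ∈ V0 := by
    intro x hx
    rw [← ht]
    exact Submodule.subset_span hx
  obtain ⟨s, e, h⟩ := pivotSys_span_finset H t ht'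
  rw [ht] at h
  exact ⟨s, e, h⟩

/-- **the lifting lemma**: if `K0` and `K` have the same residue field, every element of
`K · V0` of sup-norm `≤ 1` is congruent modulo the open unit ball to an element of `V0`. -/
theorem pivot_lift {V0 : Submodule K0 V} (H : PivotHyp v lam V0) (hfg : V0.FG)
    (hres : ∀ c : K, v c ≤ 1 → ∃ c0 : K0, v (c - algebraMap K0 K c0) < 1)
    {f : V} (hf : f ∈ Submodule.span K (V0 : Set V)) (hf1 : ∀ n, v (lam n f) ≤ 1) :
    ∃ f0 ∈ V0, (∀ n, v (lam n f0) ≤ 1) ∧ ∃ B : Γ₀, B < 1 ∧ ∀ n, v (lam n (f - f0)) ≤ B := by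
  classical
  obtain ⟨s, e, h⟩ := pivot_basis H hfg
  obtain ⟨c, rfl⟩ := h.exists_sum hf
  have hc1 : ∀ i ∈ s, v (c i) ≤ 1 := (h.le_iff c 1).mp hf1
  have hex : ∀ i, ∃ c0 : K0, i ∈ s → v (c i - algebraMap K0 K c0) < 1 := by
    intro i
    by_cases hi : i ∈ s
    · obtain ⟨c0, h0⟩ := hres (c i) (hc1 i hi)
      exact ⟨c0, fun _ => h0⟩
    · exact ⟨0, fun hi' => absurd hi' hi⟩
  choose c0 hc0 using hex
  have hsum0 : ∑ j ∈ s, c0 j • e j = ∑ j ∈ s, (algebraMap K0 K (c0 j)) • e j :=
    Finset.sum_congr rfl fun j _ => (algebraMap_smul K (c0 j) (e j)).symm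
  have hc01 : ∀ i ∈ s, v (algebraMap K0 K (c0 i)) ≤ 1 := by
    intro i hi
    have h1 : algebraMap K0 K (c0 i) = c i - (c i - algebraMap K0 K (c0 i)) := by ring
    rw [h1]
    exact le_trans (Valuation.map_sub _ _ _) (max_le (hc1 i hi) (le_of_lt (hc0 i hi)))
  refine ⟨∑ j ∈ s, c0 j • e j, h.sum_mem₀ c0, ?_, ?_⟩
  · rw [hsum0]
    exact (h.le_iff _ 1).mpr hc01
  · have hdiff : ∑ j ∈ s, c j • e j - ∑ j ∈ s, c0 j • e j =
        ∑ j ∈ s, (c j - algebraMap K0 K (c0 j)) • e j := by
      rw [hsum0, ← Finset.sum_sub_distrib]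
      exact Finset.sum_congr rfl fun j _ => (sub_smul _ _ _).symm
    rw [hdiff]
    by_cases hs : s.Nonempty
    · refine ⟨s.sup' hs fun i => v (c i - algebraMap K0 K (c0 i)), ?_, ?_⟩
      · rw [Finset.sup'_lt_iff]
        exact fun i hi => hc0 i hi
      · exact (h.le_iff _ _).mpr fun i hi =>
          Finset.le_sup' (fun i => v (c i - algebraMap K0 K (c0 i))) hi
    · rw [Finset.not_nonempty_iff_eq_empty] at hs
      refine ⟨0, zero_lt_one, fun n => ?_⟩
      rw [hs, Finset.sum_empty, map_zero, map_zero]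

/-! ### the attained sup-norm from discreteness -/

/-- **(max) from discreteness**: if the values of `v` on `K0` are the powers of `v π`, the
functionals separate the points of `V0` and are bounded on each element of `V0`, then the
sup-norm is attained. -/
theorem pivot_max_of_discrete {V0 : Submodule K0 V}
    (hrat : ∀ f ∈ V0, ∀ n, ∃ c : K0, lam n f = algebraMap K0 K c)
    {π : K} (hπ0 : π ≠ 0) (hπ : v π < 1)
    (hdisc : ∀ c : K0, c ≠ 0 → ∃ k : ℤ, v (algebraMap K0 K c) = v π ^ k)
    (hsep : ∀ f ∈ V0, (∀ n, lam n f = 0) → f = 0)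
    (hbdd : ∀ f ∈ V0, ∃ N : ℤ, ∀ n, v (lam n f) ≤ v π ^ N) :
    PivotHyp v lam V0 := by
  refine ⟨hrat, ?_⟩
  intro f hf hf0
  have hvπ0 : 0 < v π := zero_lt_iff.mpr ((Valuation.ne_zero_iff v).mpr hπ0)
  -- exponents
  have hexp : ∀ n, lam n f ≠ 0 → ∃ k : ℤ, v (lam n f) = v π ^ k := by
    intro n hn
    obtain ⟨c, hc⟩ := hrat f hf n
    have hc0 : c ≠ 0 := by
      rintro rfl
      rw [map_zero] at hc
      exact hn hc
    obtain ⟨k, hk⟩ := hdisc c hc0
    exact ⟨k, by rw [hc, hk]⟩
  obtain ⟨N, hN⟩ := hbdd f hf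
  have hanti : ∀ {k l : ℤ}, v π ^ k ≤ v π ^ l ↔ l ≤ k := by
    intro k l
    exact zpow_le_zpow_iff_right_of_lt_one₀ hvπ0 hπ
  obtain ⟨n1, hn1⟩ : ∃ n1, lam n1 f ≠ 0 := by
    by_contra hcon
    push Not at hcon
    exact hf0 (hsep f hf hcon)
  obtain ⟨k1, hk1⟩ := hexp n1 hn1
  -- the least exponent
  have hex : ∃ k : ℤ, ∃ n, lam n f ≠ 0 ∧ v (lam n f) = v π ^ k := ⟨k1, n1, hn1, hk1⟩
  have hbd : ∀ k : ℤ, (∃ n, lam n f ≠ 0 ∧ v (lam n f) = v π ^ k) → N ≤ k := by
    rintro k ⟨n, -, hk⟩
    have := hN n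
    rw [hk] at this
    exact hanti.mp this
  obtain ⟨k0, ⟨n0, hn0, hk0⟩, hleast⟩ := Int.exists_least_of_bdd ⟨N, hbd⟩ hex
  refine ⟨n0, hn0, fun n => ?_⟩
  by_cases hn : lam n f = 0
  · rw [hn, map_zero]
    exact zero_le
  · obtain ⟨k, hk⟩ := hexp n hn
    rw [hk, hk0]
    exact hanti.mpr (hleast k ⟨n, hn, hk⟩)

end Pivot

end Fermat.Agent.PeuD
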