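/-
Row 38, block D (INT), seat D-RAT (helper57): the inputs `RatLift₁`, `RatLift₂` of (COORD)
(`RatCoord.lean`) from (LiftFix) in the seed form `SeedLiftFix` of helper32 (`JacNSSeed.lean`).

* `rat_seedLiftFix_mono` : `SeedLiftFix` is antitone in `Γ`;
* `rat_seed_exists_lift` : elementwise `Γ`-fixed lifting of the pairs of `nodalRR (m R₁) (m R₂)`;
* `ratLift₁_of_seed`, `ratLift₂_of_seed` : `SeedLiftFix N Γ → RatLift_j N Γ`.
-/
import Mathlib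
import Fermat.Agent.Lib.BadRed.PeuD.RatCoord
import Fermat.Agent.Lib.BadRed.PeuD.JacNSSeed

set_option autoImplicit false
set_option linter.unusedSectionVars false
set_option linter.unusedVariables false
set_option linter.style.haveILetI false

noncomputable section

open AlgebraicCurve Fermat.Agent.RR Fermat.Agent.Deuring Fermat.Agent.BadRed

namespace Fermat.Agent.PeuD

variable {K F k Fk₁ Fk₂ : Type*} [Field K] [Field F] [Algebra K F]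
  [Field k] [Field Fk₁] [Algebra k Fk₁] [Field Fk₂] [Algebra k Fk₂] {ι : Type*} [Fintype ι]

theorem rat_seedLiftFix_mono {N : NodalSeed K F k Fk₁ Fk₂ ι} {Γ Γ' : Set (SemilinearAut K F)}
    (h : SeedLiftFix N Γ) (hΓ : Γ' ⊆ Γ) : SeedLiftFix N Γ' := by
  intro m f hf h1 h2
  obtain ⟨g, hg, hg1, hg2, e1, e2, hgΓ⟩ := h m f hf h1 h2
  exact ⟨g, hg, hg1, hg2, e1, e2, fun t ht => hgΓ t (hΓ ht)⟩

variable [Infinite k]

/-- elementwise equivariant lifting for a seed. -/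
theorem rat_seed_exists_lift {N : NodalSeed K F k Fk₁ Fk₂ ι} {Γ : Set (SemilinearAut K F)}
    (h : SeedLiftFix N Γ) {m : ℕ} (hm : N.m₀ ≤ m) {a : Fk₁} {b : Fk₂}
    (hab : (a, b) ∈ nodalRR N.s₁ N.s₂ (m • N.R₁) (m • N.R₂)) :
    ∃ f : F, f ∈ riemannRochSpace (m • N.D₀) ∧ f ∈ N.S₁.Ov ∧ f ∈ N.S₂.Ov ∧
      (∀ t ∈ Γ, t • f = f) ∧ N.S₁.red f = a ∧ N.S₂.red f = b := by
  obtain ⟨f, hf, h1, h2, ha, hb⟩ := N.exists_lift hm hab
  obtain ⟨g, hg, hg1, hg2, e1, e2, hgΓ⟩ := h m f hf h1 h2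
  exact ⟨g, hg, hg1, hg2, hgΓ, e1.trans ha, e2.trans hb⟩

/-- `SeedLiftFix` gives the input `RatLift₁` of (COORD₁). -/
theorem ratLift₁_of_seed {N : NodalSeed K F k Fk₁ Fk₂ ι} {Γ : Set (SemilinearAut K F)}
    (h : SeedLiftFix N Γ) : RatLift₁ N Γ := by
  intro m₀
  refine ⟨max m₀ N.m₀, le_max_left _ _, fun a ha hac => ?_⟩
  have hab : ((a, (0 : Fk₂)) : Fk₁ × Fk₂) ∈
      nodalRR N.s₁ N.s₂ (max m₀ N.m₀ • N.R₁) (max m₀ N.m₀ • N.R₂) :=
    ⟨ha, Submodule.zero_mem _, fun i => ⟨0, hac i, valAt_zero _⟩⟩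
  obtain ⟨f, h1, h2, -, h4, h5, -⟩ := rat_seed_exists_lift h (le_max_right _ _) hab
  exact ⟨f, h1, h2, h4, h5⟩

/-- `SeedLiftFix` gives the input `RatLift₂` of (COORD₂). -/
theorem ratLift₂_of_seed {N : NodalSeed K F k Fk₁ Fk₂ ι} {Γ : Set (SemilinearAut K F)}
    (h : SeedLiftFix N Γ) : RatLift₂ N Γ := by
  intro m₀
  refine ⟨max m₀ N.m₀, le_max_left _ _, fun b hb hbc => ?_⟩
  have hab : (((0 : Fk₁), b) : Fk₁ × Fk₂) ∈
      nodalRR N.s₁ N.s₂ (max m₀ N.m₀ • N.R₁) (max m₀ N.m₀ • N.R₂) :=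
    ⟨Submodule.zero_mem _, hb, fun i => ⟨0, valAt_zero _, hbc i⟩⟩
  obtain ⟨f, h1, -, h3, h4, -, h6⟩ := rat_seed_exists_lift h (le_max_right _ _) hab
  exact ⟨f, h1, h3, h4, h6⟩

end Fermat.Agent.PeuD
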